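import Mathlib
import Fermat.Prelude.Def_FLTPrelim_Ramification
import Fermat.Prelude.Def_FLTPrelim_ModularRep
import Fermat.Agent.CFT.Density.CycloChar

/-!
# What the modularity lifting and level lowering machinery proves

Definitions and target statements; apart from these only `trace_frobenius_eq` is proved here.
`rb` is a residual representation with values in `GL₂(𝔽_p)` and surjective image.
-/

set_option autoImplicit false

noncomputable section

namespace Fermat.GR.RT

local notation "ℚbar" => AlgebraicClosure ℚ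
local notation "Γℚ" => (AlgebraicClosure ℚ ≃ₐ[ℚ] AlgebraicClosure ℚ)

variable (p : ℕ) [Fact p.Prime]

local notation "M2p" => Matrix (Fin 2) (Fin 2) (ZMod p)

/-- A surjective residual representation of the kind of the `p`-torsion of a semistable curve:
cyclotomic determinant, unipotent inertia away from `p`. -/
structure IsSemistableResidual (rb : Γℚ →* GL (Fin 2) (ZMod p)) : Prop where
  /-- The kernel is open. -/
  isOpen_ker : IsOpen (rb.ker : Set Γℚ)
  /-- The determinant is cyclotomic. -/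
  det_eq : ∀ σ, (rb σ : M2p).det = ((Fermat.CFT.cycChar p σ : (ZMod p)ˣ) : ZMod p)
  /-- `rb` is surjective. -/
  surjective : Function.Surjective rb
  /-- Inertia away from `p` is unipotent. -/
  unipotent : ∀ q : ℕ, q.Prime → q ≠ p → ∀ A : ValuationSubring ℚbar, A.LiesOverPrime q →
    ∀ σ ∈ A.inertiaSubgroupIn ℚ, ((rb σ : M2p) - 1) * ((rb σ : M2p) - 1) = 0

/-- Inertia at `q` acts trivially. -/
def IsResUnramified (rb : Γℚ →* GL (Fin 2) (ZMod p)) (q : ℕ) : Prop :=
  ∀ A : ValuationSubring ℚbar, A.LiesOverPrime q → ∀ σ ∈ A.inertiaSubgroupIn ℚ, rb σ = 1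

/-- `rb` is the reduction of a normalised weight two eigenform on `Γ₀(M)`: the eigenvalue at `ℓ`
reduces to the trace of Frobenius for the `ℓ ∤ M p` at which `rb` is unramified. -/
def ModularOf (rb : Γℚ →* GL (Fin 2) (ZMod p)) (M : ℕ) : Prop :=
  0 < M ∧ ∃ (f : CuspForm (CongruenceSubgroup.Gamma0 M) 2) (𝔪 : Ideal (integralClosure ℤ ℂ)),
    f.IsNormalizedEigenform ∧ 𝔪.IsMaximal ∧ (p : integralClosure ℤ ℂ) ∈ 𝔪 ∧
    ∀ ℓ : ℕ, ℓ.Prime → ¬ ℓ ∣ M → ℓ ≠ p → IsResUnramified p rb ℓ →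
      ∀ A : ValuationSubring ℚbar, A.LiesOverPrime ℓ → ∀ φ : Γℚ, A.IsFrobeniusAt φ ℓ →
        ∀ n : ℤ, (n : ZMod p) = (rb φ : M2p).trace →
          ∃ a : integralClosure ℤ ℂ, (a : ℂ) = ModularFormClass.qCoeff f ℓ ∧
            a - (n : integralClosure ℤ ℂ) ∈ 𝔪

/-- At `p = 3` some ramified prime is `2` modulo `3` (a *neat* prime: a level it divides
has no element of order three, `HM.IsNeat`); no condition for `p ≠ 3`. -/
def HasNeatPrime (rb : Γℚ →* GL (Fin 2) (ZMod p)) : Prop :=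
  p = 3 → ∃ ℓ : ℕ, ℓ.Prime ∧ ℓ % 3 = 2 ∧ ¬ IsResUnramified p rb ℓ

/-- `rb` is the `p`-torsion of `W`, as far as traces at good primes see it. -/
def IsTorsionOf (W : WeierstrassCurve ℤ) (rb : Γℚ →* GL (Fin 2) (ZMod p)) : Prop :=
  ∀ ℓ : ℕ, ℓ.Prime → W.IsGoodPrimeFor ℓ → ℓ ≠ p → IsResUnramified p rb ℓ ∧
    ∀ A : ValuationSubring ℚbar, A.LiesOverPrime ℓ → ∀ φ : Γℚ, A.IsFrobeniusAt φ ℓ →
      (rb φ : M2p).trace = ((W.apOfModel ℓ : ℤ) : ZMod p)

/-- **Level lowering** away from `p`, once `p` is out of the level: for odd `p` and a semistable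
residual representation with a neat prime (`HasNeatPrime`), a residually unramified prime `q` of
the squarefree level `M` can be removed, leaving some level dividing `M / q`.
Proved by `loweringStatement_of_inputs`. -/
def LoweringStatement : Prop :=
  2 < p → ∀ rb : Γℚ →* GL (Fin 2) (ZMod p), IsSemistableResidual p rb → HasNeatPrime p rb →
    ∀ M q : ℕ, Squarefree M → ¬ p ∣ M → q.Prime → q ∣ M → IsResUnramified p rb q →
      ModularOf p rb M → ∃ M' : ℕ, M' ∣ M / q ∧ ModularOf p rb M'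

/-- At an unramified prime the trace of Frobenius does not depend on the place. -/
theorem trace_frobenius_eq {p : ℕ} {rb : Γℚ →* GL (Fin 2) (ZMod p)} [Fact p.Prime]
    {ℓ : ℕ} (hℓ : ℓ.Prime) (hunr : IsResUnramified p rb ℓ)
    {A A' : ValuationSubring ℚbar} (hA : A.LiesOverPrime ℓ) (hA' : A'.LiesOverPrime ℓ) {φ φ' : Γℚ}
    (hφ : A.IsFrobeniusAt φ ℓ) (hφ' : A'.IsFrobeniusAt φ' ℓ) :
    (rb φ' : Matrix (Fin 2) (Fin 2) (ZMod p)).trace =
      (rb φ : Matrix (Fin 2) (Fin 2) (ZMod p)).trace := by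
  obtain ⟨g, rfl⟩ := Fermat.CFT.exists_smul_place hℓ hA hA'
  have h1 := hunr _ hA' _
    (Fermat.CFT.mul_inv_mem_inertiaSubgroupIn hℓ hA' hφ'
      (Fermat.CFT.isFrobeniusAt_conj hℓ hA hφ g))
  rw [map_mul, map_inv, mul_inv_eq_one] at h1
  rw [h1, map_mul, map_mul, Units.val_mul, Units.val_mul, Matrix.trace_mul_cycle, map_inv,
    Units.inv_mul, Matrix.one_mul]

end Fermat.GR.RT

end
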