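import Mathlib
import Fermat.Prelude.Thm_IsAdicComplete_of_module_finite
import Fermat.Prelude.Thm_IsLocalRing_isAdicComplete_of_module_finite
import Fermat.Agent.GR.Deform.Normal
import Fermat.Agent.GR.Deform.PowerSeriesComplete

/-!
# The ring generated by the traces of finitely many congruent representations

Finitely many representations over finite local `𝒪`-algebras with one absolutely irreducible
reduction are conjugate to the projections of one representation over the `𝒪`-algebra generated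
by their traces.
-/

set_option autoImplicit false
set_option linter.unusedSectionVars false

noncomputable section

namespace Fermat.GR.RT

open IsLocalRing

local notation "Γℚ" => (AlgebraicClosure ℚ ≃ₐ[ℚ] AlgebraicClosure ℚ)
local notation "M2" R => Matrix (Fin 2) (Fin 2) R

section Fibre

variable (𝒪 : Type) [CommRing 𝒪] {ι : Type} (B : ι → Type) [∀ i, CommRing (B i)]
  [∀ i, IsLocalRing (B i)] [∀ i, Algebra 𝒪 (B i)]

/-- Tuples with a common reduction in the residue field of `𝒪`. -/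
def fibreAlgebra : Subalgebra 𝒪 ((i : ι) → B i) where
  carrier := {a | ∃ o : 𝒪, ∀ i, a i - algebraMap 𝒪 (B i) o ∈ maximalIdeal (B i)}
  mul_mem' := by
    rintro a b ⟨o, ho⟩ ⟨o', ho'⟩
    refine ⟨o * o', fun i => ?_⟩
    rw [Pi.mul_apply, map_mul, show a i * b i - algebraMap 𝒪 (B i) o * algebraMap 𝒪 (B i) o' =
      a i * (b i - algebraMap 𝒪 (B i) o') + (a i - algebraMap 𝒪 (B i) o) * algebraMap 𝒪 (B i) o' by
      ring]
    exact add_mem (Ideal.mul_mem_left _ _ (ho' i)) (Ideal.mul_mem_right _ _ (ho i))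
  add_mem' := by
    rintro a b ⟨o, ho⟩ ⟨o', ho'⟩
    refine ⟨o + o', fun i => ?_⟩
    rw [Pi.add_apply, map_add, add_sub_add_comm]
    exact add_mem (ho i) (ho' i)
  algebraMap_mem' o := ⟨o, fun i => by simp⟩

variable {𝒪} {B} [IsLocalRing 𝒪] [∀ i, IsLocalHom (algebraMap 𝒪 (B i))] [Nonempty ι]

/-- The fibre algebra is local. -/
theorem isLocalRing_fibreAlgebra : IsLocalRing (fibreAlgebra 𝒪 B) := by
  -- congruent to a unit constant at every point means unit
  have key : ∀ a : fibreAlgebra 𝒪 B, ∀ o : 𝒪,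
      (∀ i, a.1 i - algebraMap 𝒪 (B i) o ∈ maximalIdeal (B i)) → IsUnit o → IsUnit a := by
    intro a o ho hu
    have hunit : ∀ i, IsUnit (a.1 i) := fun i => by
      by_contra h
      have h1 := sub_mem (show a.1 i ∈ maximalIdeal (B i) from h) (ho i)
      rw [sub_sub_cancel] at h1
      exact h1 (hu.map _)
    choose b hb using fun i => (hunit i).exists_right_inv
    obtain ⟨o', ho'⟩ := hu.exists_right_inv
    refine IsUnit.of_mul_eq_one ⟨b, o', fun i => ?_⟩ (Subtype.ext (funext hb))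
    rw [show b i - algebraMap 𝒪 (B i) o' =
      -(algebraMap 𝒪 (B i) o' * b i) * (a.1 i - algebraMap 𝒪 (B i) o) by
      linear_combination algebraMap 𝒪 (B i) o' * hb i -
        b i * ((map_mul (algebraMap 𝒪 (B i)) o o').symm.trans ((congrArg _ ho').trans (map_one _)))]
    exact Ideal.mul_mem_left _ _ (ho i)
  have : Nontrivial (fibreAlgebra 𝒪 B) := by
    obtain ⟨i⟩ := ‹Nonempty ι›
    exact ⟨⟨0, 1, fun h => zero_ne_one (congrFun (congrArg Subtype.val h) i)⟩⟩
  -- so the non-units have their constants in the maximal ideal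
  refine IsLocalRing.of_nonunits_add fun a b ha hb hab => ?_
  obtain ⟨o, ho⟩ := a.2
  obtain ⟨o', ho'⟩ := b.2
  have hadd : o + o' ∈ maximalIdeal 𝒪 :=
    add_mem (show o ∈ maximalIdeal 𝒪 from fun h => ha (key a o ho h))
      (show o' ∈ maximalIdeal 𝒪 from fun h => hb (key b o' ho' h))
  obtain ⟨i⟩ := ‹Nonempty ι›
  have hu : IsUnit (a.1 i + b.1 i) :=
    hab.map (Pi.evalRingHom B i |>.comp (fibreAlgebra 𝒪 B).val.toRingHom)
  refine (show a.1 i + b.1 i ∈ maximalIdeal (B i) from ?_) hu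
  have := add_mem (add_mem (ho i) (ho' i)) (map_nonunit (algebraMap 𝒪 (B i)) _ hadd)
  rwa [map_add, show a.1 i - algebraMap 𝒪 (B i) o + (b.1 i - algebraMap 𝒪 (B i) o') +
    (algebraMap 𝒪 (B i) o + algebraMap 𝒪 (B i) o') = a.1 i + b.1 i by ring] at this

end Fibre

/-- One representation over the ring generated by the traces, lifting a family. -/
structure TraceRep {𝒪 : Type} [CommRing 𝒪] [IsLocalRing 𝒪] (N : NormData 𝒪) {ι : Type}
    (B : ι → Type) [∀ i, CommRing (B i)] [∀ i, Algebra 𝒪 (B i)] (r : ∀ i, Γℚ →* M2 (B i)) :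
    Type 1 where
  /-- The ring generated by the traces. -/
  R : Type
  [instCommRing : CommRing R]
  [instLocal : IsLocalRing R]
  [instNoeth : IsNoetherianRing R]
  [instComplete : IsAdicComplete (maximalIdeal R) R]
  [instAlgebra : Algebra 𝒪 R]
  [instFinite : Module.Finite 𝒪 R]
  [instLocalHom : IsLocalHom (algebraMap 𝒪 R)]
  /-- The residue field of `R` is that of `𝒪`. -/
  hres : Function.Surjective (residue R ∘ algebraMap 𝒪 R)
  /-- The representation over `R`. -/
  rep : Γℚ →* M2 R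
  /-- It is continuous. -/
  cont : MatCont rep
  /-- It is normalised. -/
  normal : N.IsNormal rep
  /-- The specialisations. -/
  pr : ∀ i, R →ₐ[𝒪] B i
  /-- They are jointly injective. -/
  pr_injective : ∀ x y, (∀ i, pr i x = pr i y) → x = y
  /-- Each specialisation is conjugate to the member of the family. -/
  pr_rep : ∀ i, ∃ P : (M2 (B i))ˣ, ∀ σ,
    ((pr i : R →+* B i).mapMatrix (rep σ)) * (P : M2 (B i)) = (P : M2 (B i)) * r i σ
  /-- The traces generate `R`. -/
  adjoin_traces : Algebra.adjoin 𝒪 (Set.range fun σ => (rep σ).trace) = ⊤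

attribute [instance] TraceRep.instCommRing TraceRep.instLocal TraceRep.instNoeth
  TraceRep.instComplete TraceRep.instAlgebra TraceRep.instFinite TraceRep.instLocalHom

variable {𝒪 : Type} [CommRing 𝒪] [IsDomain 𝒪] [IsDiscreteValuationRing 𝒪]
  [IsAdicComplete (maximalIdeal 𝒪) 𝒪] [Finite (ResidueField 𝒪)]
  {ι : Type} [Fintype ι] [Nonempty ι] {B : ι → Type} [∀ i, CommRing (B i)] [∀ i, IsLocalRing (B i)]
  [∀ i, Algebra 𝒪 (B i)] [∀ i, Module.Finite 𝒪 (B i)] [∀ i, IsLocalHom (algebraMap 𝒪 (B i))]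

omit [Fintype ι] [Nonempty ι] in
/-- In a finite local algebra a power of the maximal ideal is divisible by a given power of the
uniformiser. -/
theorem exists_pow_le_smul {ϖ : 𝒪} (hϖ : Irreducible ϖ) (i : ι) (k : ℕ) :
    ∃ e, maximalIdeal (B i) ^ e ≤ Ideal.span {algebraMap 𝒪 (B i) ϖ ^ k} := by
  set J := Ideal.span {algebraMap 𝒪 (B i) ϖ ^ k}
  by_cases hJ : J = ⊤
  · exact ⟨0, by rw [hJ]; exact le_top⟩
  have : Finite (𝒪 ⧸ Ideal.span {ϖ ^ k}) := by
    rw [← Ideal.span_singleton_pow, ← hϖ.maximalIdeal_eq]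
    exact finite_quotient_maximalIdeal_pow 𝒪 k
  let : Algebra (𝒪 ⧸ Ideal.span {ϖ ^ k}) (B i ⧸ J) :=
    (Ideal.Quotient.lift (Ideal.span {ϖ ^ k}) (algebraMap 𝒪 (B i ⧸ J)) fun a ha => by
      obtain ⟨c, rfl⟩ := Ideal.mem_span_singleton'.mp ha
      rw [IsScalarTower.algebraMap_apply 𝒪 (B i) (B i ⧸ J), Ideal.Quotient.algebraMap_eq,
        Ideal.Quotient.eq_zero_iff_mem, map_mul, map_pow]
      exact Ideal.mul_mem_left _ _ (Ideal.mem_span_singleton_self _)).toAlgebra
  have : IsScalarTower 𝒪 (𝒪 ⧸ Ideal.span {ϖ ^ k}) (B i ⧸ J) :=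
    IsScalarTower.of_algebraMap_eq fun _ => rfl
  have : Module.Finite (𝒪 ⧸ Ideal.span {ϖ ^ k}) (B i ⧸ J) :=
    Module.Finite.of_restrictScalars_finite 𝒪 _ _
  have : Finite (B i ⧸ J) := Module.finite_of_finite (𝒪 ⧸ Ideal.span {ϖ ^ k})
  have : Nontrivial (B i ⧸ J) := Ideal.Quotient.nontrivial_iff.mpr hJ
  have : IsLocalRing (B i ⧸ J) :=
    IsLocalRing.of_surjective' (Ideal.Quotient.mk J) Ideal.Quotient.mk_surjective
  have : IsLocalHom (Ideal.Quotient.mk J) := IsLocalHom.of_surjective _ Ideal.Quotient.mk_surjective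
  obtain ⟨e, he⟩ := (isArtinianRing_iff_isNilpotent_maximalIdeal (B i ⧸ J)).mp inferInstance
  refine ⟨e, fun b hb => ?_⟩
  rw [← Ideal.Quotient.eq_zero_iff_mem]
  have hle : (maximalIdeal (B i)).map (Ideal.Quotient.mk J) ≤ maximalIdeal (B i ⧸ J) :=
    Ideal.map_le_iff_le_comap.mpr fun x hx => map_nonunit (Ideal.Quotient.mk J) x hx
  have := Ideal.pow_right_mono hle e
    (Ideal.map_pow (Ideal.Quotient.mk J) _ e ▸ Ideal.mem_map_of_mem _ hb)
  rw [he] at this
  exact this

section Subalgebra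

variable {Λ : Type} [CommRing Λ] [IsLocalRing Λ] [Algebra 𝒪 Λ] [Module.Finite 𝒪 Λ]
  (R : Subalgebra 𝒪 Λ)

/-- A subalgebra of a finite local algebra includes locally. -/
theorem isLocalHom_subalgebra_val : IsLocalHom (R.val : R →+* Λ) := by
  have : Algebra.IsIntegral 𝒪 Λ := Algebra.IsIntegral.of_finite 𝒪 Λ
  refine RingHom.IsIntegral.isLocalHom ?_ fun a b h => Subtype.val_injective h
  refine RingHom.IsIntegral.tower_top (algebraMap 𝒪 R) _ ?_
  exact fun z => Algebra.IsIntegral.isIntegral z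

/-- A subalgebra of a finite local algebra has the residue field of `𝒪` if the algebra has. -/
theorem residue_algebraMap_subalgebra_surjective [IsLocalRing R]
    (hΛres : ∀ x : Λ, ∃ o : 𝒪, x - algebraMap 𝒪 Λ o ∈ maximalIdeal Λ) :
    Function.Surjective (residue R ∘ algebraMap 𝒪 R) := by
  intro z
  obtain ⟨x, rfl⟩ := residue_surjective z
  obtain ⟨o, ho⟩ := hΛres (x : Λ)
  refine ⟨o, ?_⟩
  rw [Function.comp_apply, ← sub_eq_zero, ← map_sub, residue_eq_zero_iff]
  intro hu
  have h := hu.map (R.val : R →+* Λ)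
  rw [RingHom.coe_coe, Subalgebra.coe_val, Subalgebra.coe_sub, Subalgebra.coe_algebraMap] at h
  exact (Ideal.neg_mem_iff _).mpr ho (by rwa [neg_sub])

/-- Residually `0` and `1`, two elements with sum and product in a henselian subalgebra lie in
it. -/
theorem mem_of_add_mem_of_mul_mem [IsLocalRing R] [IsAdicComplete (maximalIdeal R) R] {a b : Λ}
    (ha : a ∈ maximalIdeal Λ) (hb : b - 1 ∈ maximalIdeal Λ) (hsum : a + b ∈ R)
    (hprod : a * b ∈ R) : a ∈ R := by
  have := isLocalHom_subalgebra_val R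
  let tR : R := ⟨_, hsum⟩
  let dR : R := ⟨_, hprod⟩
  -- `X² - (a + b) X + a b` is `X (X - 1)` modulo the maximal ideal
  have hd : dR ∈ maximalIdeal R := fun hu =>
    (show a * b ∈ maximalIdeal Λ from Ideal.mul_mem_right _ _ ha) (hu.map (R.val : R →+* Λ))
  have ht : IsUnit tR := by
    by_contra h
    have h1 : ((tR : R) : Λ) ∈ maximalIdeal Λ := map_nonunit (R.val : R →+* Λ) tR h
    refine (maximalIdeal.isMaximal Λ).ne_top ((Ideal.eq_top_iff_one _).mpr ?_)
    have := sub_mem (sub_mem h1 ha) hb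
    rwa [show ((tR : R) : Λ) - a - (b - 1) = 1 from by
      change a + b - a - (b - 1) = 1
      ring] at this
  let f : Polynomial R := Polynomial.X ^ 2 - Polynomial.C tR * Polynomial.X + Polynomial.C dR
  have hf : f.Monic := by simp only [f]; monicity!
  have hf0 : f.eval 0 ∈ maximalIdeal R := by simpa [f] using hd
  have hf' : IsUnit (Ideal.Quotient.mk (maximalIdeal R) (f.derivative.eval 0)) := by
    have : f.derivative.eval 0 = -tR := by simp [f, Polynomial.derivative_pow]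
    rw [this]
    exact ht.neg.map _
  -- Hensel: it has a small root `z` in `R`
  obtain ⟨z, hz, hzm⟩ := HenselianRing.is_henselian f hf 0 hf0 hf'
  rw [sub_zero] at hzm
  simp only [Polynomial.IsRoot, f, Polynomial.eval_add, Polynomial.eval_sub, Polynomial.eval_pow,
    Polynomial.eval_X, Polynomial.eval_mul, Polynomial.eval_C] at hz
  have h0 := congrArg (R.val : R →+* Λ) hz
  simp only [map_add, map_sub, map_mul, map_pow, map_zero] at h0
  change (z : Λ) ^ 2 - (a + b) * (z : Λ) + a * b = 0 at h0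
  have hu : IsUnit ((z : Λ) - b) := by
    by_contra h
    have h1 : (z : Λ) ∈ maximalIdeal Λ := map_nonunit (R.val : R →+* Λ) z hzm
    refine (maximalIdeal.isMaximal Λ).ne_top ((Ideal.eq_top_iff_one _).mpr ?_)
    have := sub_mem (sub_mem h1 (show (z : Λ) - b ∈ maximalIdeal Λ from h)) hb
    rwa [show (z : Λ) - ((z : Λ) - b) - (b - 1) = 1 by ring] at this
  -- which is `a`, as `z - b` is a unit
  have heq : (z : Λ) = a := sub_eq_zero.mp (hu.mul_left_eq_zero.mp (by linear_combination h0))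
  exact heq ▸ z.2

/-- An element of the subalgebra whose image is a unit has its inverse in it. -/
theorem exists_mem_mul_eq_one {x : Λ} (hx : x ∈ R) (hu : IsUnit x) : ∃ w ∈ R, x * w = 1 := by
  have := isLocalHom_subalgebra_val R
  obtain ⟨w, hw⟩ :=
    (IsLocalHom.map_nonunit (f := (R.val : R →+* Λ)) (⟨x, hx⟩ : R) hu).exists_right_inv
  exact ⟨w, w.2, congrArg Subtype.val hw⟩

variable (N : NormData 𝒪) {rΛ : Γℚ →* M2 Λ}

/-- The trace against the distinguished element lies in any subalgebra containing the traces. -/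
theorem trace_elt_mul_mem (htrace : ∀ σ, (rΛ σ).trace ∈ R) (hn : N.IsNormal rΛ) (σ : Γℚ) :
    N.elt rΛ 0 0 * rΛ σ 0 0 + N.elt rΛ 1 1 * rΛ σ 1 1 ∈ R := by
  have : N.elt rΛ 0 0 * rΛ σ 0 0 + N.elt rΛ 1 1 * rΛ σ 1 1 =
      ∑ l, algebraMap 𝒪 Λ (N.c l) * (rΛ (N.g l * σ)).trace := by
    have h : (N.elt rΛ * rΛ σ).trace = N.elt rΛ 0 0 * rΛ σ 0 0 + N.elt rΛ 1 1 * rΛ σ 1 1 := by
      simp [Matrix.trace_fin_two, Matrix.mul_apply, Fin.sum_univ_two, hn.elt_01, hn.elt_10]
    rw [← h, NormData.elt, Finset.sum_mul, Matrix.trace_sum]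
    refine Finset.sum_congr rfl fun l _ => ?_
    rw [Matrix.smul_mul, ← map_mul, Matrix.trace_smul, Algebra.smul_def]
  rw [this]
  exact sum_mem fun l _ => mul_mem (Subalgebra.algebraMap_mem R _) (htrace _)

/-- The product of the eigenvalues of the distinguished element lies in the subalgebra. -/
theorem elt_diag_mul_mem (h2 : IsUnit (2 : 𝒪)) (htrace : ∀ σ, (rΛ σ).trace ∈ R)
    (hn : N.IsNormal rΛ) : N.elt rΛ 0 0 * N.elt rΛ 1 1 ∈ R := by
  set E := N.elt rΛ with hE
  have hsum : E 0 0 + E 1 1 ∈ R := by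
    simpa using trace_elt_mul_mem R N htrace hn 1
  have hsq : E 0 0 * E 0 0 + E 1 1 * E 1 1 ∈ R := by
    have : E 0 0 * E 0 0 + E 1 1 * E 1 1 =
        ∑ l, algebraMap 𝒪 Λ (N.c l) * (E 0 0 * rΛ (N.g l) 0 0 + E 1 1 * rΛ (N.g l) 1 1) := by
      conv_lhs => rw [show E 0 0 * E 0 0 + E 1 1 * E 1 1 =
        E 0 0 * N.elt rΛ 0 0 + E 1 1 * N.elt rΛ 1 1 from rfl]
      rw [N.elt_apply, N.elt_apply, Finset.mul_sum, Finset.mul_sum, ← Finset.sum_add_distrib]
      exact Finset.sum_congr rfl fun l _ => by ring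
    rw [this]
    exact sum_mem fun l _ =>
      mul_mem (Subalgebra.algebraMap_mem R _) (trace_elt_mul_mem R N htrace hn _)
  obtain ⟨h, hh⟩ := h2.exists_right_inv
  have : E 0 0 * E 1 1 = algebraMap 𝒪 Λ h *
      ((E 0 0 + E 1 1) * (E 0 0 + E 1 1) - (E 0 0 * E 0 0 + E 1 1 * E 1 1)) := by
    have h1 : algebraMap 𝒪 Λ h * 2 = 1 := by
      rw [← map_ofNat (algebraMap 𝒪 Λ), ← map_mul, mul_comm h, hh, map_one]
    linear_combination -(E 0 0 * E 1 1) * h1
  rw [this]
  exact mul_mem (Subalgebra.algebraMap_mem R _) (sub_mem (mul_mem hsum hsum) hsq)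

/-- The diagonal entries lie in a complete subalgebra containing the traces. -/
theorem diag_entry_mem [IsLocalHom (algebraMap 𝒪 Λ)] [IsLocalRing R]
    [IsAdicComplete (maximalIdeal R) R] (h2 : IsUnit (2 : 𝒪))
    (htrace : ∀ σ, (rΛ σ).trace ∈ R) (hn : N.IsNormal rΛ) (σ : Γℚ) :
    rΛ σ 0 0 ∈ R ∧ rΛ σ 1 1 ∈ R := by
  set E := N.elt rΛ with hE
  have hE00m : E 0 0 ∈ maximalIdeal Λ := by simpa using N.elt_red hn.red 0 0
  have hE11m : E 1 1 - 1 ∈ maximalIdeal Λ := by simpa using N.elt_red hn.red 1 1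
  have hsum : E 0 0 + E 1 1 ∈ R := by
    simpa using trace_elt_mul_mem R N htrace hn 1
  have hE00 : E 0 0 ∈ R :=
    mem_of_add_mem_of_mul_mem R hE00m hE11m hsum (elt_diag_mul_mem R N h2 htrace hn)
  have hE11 : E 1 1 ∈ R := by
    have := sub_mem hsum hE00
    rwa [add_sub_cancel_left] at this
  have hu : IsUnit (E 1 1 - E 0 0) := by
    by_contra h
    refine (maximalIdeal.isMaximal Λ).ne_top ((Ideal.eq_top_iff_one _).mpr ?_)
    have := sub_mem (add_mem (show E 1 1 - E 0 0 ∈ maximalIdeal Λ from h) hE00m) hE11m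
    rwa [show E 1 1 - E 0 0 + E 0 0 - (E 1 1 - 1) = 1 by ring] at this
  obtain ⟨w, hwR, hw⟩ := exists_mem_mul_eq_one R (sub_mem hE11 hE00) hu
  have h00 : rΛ σ 0 0 ∈ R := by
    have : rΛ σ 0 0 = w * (E 1 1 * (rΛ σ).trace - (E 0 0 * rΛ σ 0 0 + E 1 1 * rΛ σ 1 1)) := by
      rw [Matrix.trace_fin_two]
      linear_combination -(rΛ σ 0 0) * hw
    rw [this]
    exact mul_mem hwR (sub_mem (mul_mem hE11 (htrace σ)) (trace_elt_mul_mem R N htrace hn σ))
  refine ⟨h00, ?_⟩
  have := sub_mem (htrace σ) h00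
  rwa [Matrix.trace_fin_two, add_sub_cancel_left] at this

/-- All entries of a normal representation lie in a complete subalgebra containing the traces. -/
theorem entry_mem_of_trace_mem [IsLocalHom (algebraMap 𝒪 Λ)] [IsLocalRing R]
    [IsAdicComplete (maximalIdeal R) R] (h2 : IsUnit (2 : 𝒪))
    (hb : ∃ σ, IsUnit (N.bar σ 0 1)) (htrace : ∀ σ, (rΛ σ).trace ∈ R) (hn : N.IsNormal rΛ) :
    ∀ σ a b, rΛ σ a b ∈ R := by
  have hdiag := fun σ => (diag_entry_mem R N h2 htrace hn σ).1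
  have hup : ∀ σ, rΛ σ 0 1 ∈ R := by
    intro σ
    have h := congrFun (congrFun (map_mul rΛ σ N.g₀) 0) 0
    rw [Matrix.mul_apply, Fin.sum_univ_two, hn.g₀_10, mul_one] at h
    have : rΛ σ 0 1 = rΛ (σ * N.g₀) 0 0 - rΛ σ 0 0 * rΛ N.g₀ 0 0 := by rw [h]; ring
    rw [this]
    exact sub_mem (hdiag _) (mul_mem (hdiag _) (hdiag _))
  have hlow : ∀ σ, rΛ σ 1 0 ∈ R := by
    intro σ
    obtain ⟨s, hs⟩ := hb
    have hu : IsUnit (rΛ s 0 1) := by
      by_contra h
      have := sub_mem (show rΛ s 0 1 ∈ maximalIdeal Λ from h) (hn.red s 0 1)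
      rw [sub_sub_cancel] at this
      exact this (hs.map _)
    obtain ⟨w, hwR, hw⟩ := exists_mem_mul_eq_one R (hup s) hu
    have h := congrFun (congrFun (map_mul rΛ s σ) 0) 0
    rw [Matrix.mul_apply, Fin.sum_univ_two] at h
    have : rΛ σ 1 0 = w * (rΛ (s * σ) 0 0 - rΛ s 0 0 * rΛ σ 0 0) := by
      rw [h]; linear_combination -(rΛ σ 1 0) * hw
    rw [this]
    exact mul_mem hwR (sub_mem (hdiag _) (mul_mem (hdiag _) (hdiag _)))
  intro σ a b
  fin_cases a <;> fin_cases b
  exacts [hdiag σ, hup σ, hlow σ, (diag_entry_mem R N h2 htrace hn σ).2]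

end Subalgebra

/-- A representation is continuous if its images under jointly injective maps to finite algebras
are, by Artin–Rees. -/
theorem matCont_of_jointly_injective {R : Type} [CommRing R] [IsLocalRing R] [Algebra 𝒪 R]
    [IsLocalHom (algebraMap 𝒪 R)] (rep : Γℚ →* M2 R) (pr : ∀ i, R →ₐ[𝒪] B i)
    (hprinj : ∀ x y : R, (∀ i, pr i x = pr i y) → x = y) (r' : ∀ i, Γℚ →* M2 (B i))
    (hr' : ∀ i σ, (pr i : R →+* B i).mapMatrix (rep σ) = r' i σ) (hr'c : ∀ i, MatCont (r' i)) :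
    MatCont rep := by
  obtain ⟨ϖ, hϖ⟩ := IsDiscreteValuationRing.exists_irreducible 𝒪
  intro n
  -- Artin–Rees for the image of `R` in the product of the algebras gives a shift `c`
  let Φ : R →ₗ[𝒪] ((i : ι) → B i) := LinearMap.pi fun i => (pr i).toLinearMap
  obtain ⟨c, hc⟩ := Ideal.exists_pow_inf_eq_pow_smul (Ideal.span {ϖ})
    (LinearMap.range (Φ) : Submodule 𝒪 ((i : ι) → B i))
  -- deep enough in the Galois group every component is `1` modulo `ϖ ^ (n + c)`
  choose e he using fun i => exists_pow_le_smul (B := B) hϖ i (n + c)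
  choose L hLfd hL using fun i => hr'c i (e i)
  have := hLfd
  refine ⟨⨆ i, L i, inferInstance, fun σ hσ a b => ?_⟩
  set x : R := (rep σ - 1) a b
  have hxi : ∀ i, ∃ y : B i, pr i x = ϖ ^ (n + c) • y := by
    intro i
    have h1 : pr i x = (r' i σ - 1) a b := by
      rw [← hr' i σ]
      change pr i ((rep σ - 1) a b) = ((pr i : R →+* B i).mapMatrix (rep σ) - 1) a b
      rw [← map_one (pr i : R →+* B i).mapMatrix, ← map_sub]
      rfl
    have h2 := he i (hL i σ (fun z hz => hσ z (le_iSup L i hz)) a b)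
    obtain ⟨y, hy⟩ := Ideal.mem_span_singleton'.mp h2
    exact ⟨y, by rw [h1, Algebra.smul_def, map_pow, ← hy, mul_comm]⟩
  choose y hy using hxi
  -- so each entry is in `ϖ ^ n` times the image, hence in `ϖ ^ n R` by joint injectivity
  have hmemI : (Φ x) ∈
      (Ideal.span {ϖ} ^ (n + c) • ⊤ : Submodule 𝒪 ((i : ι) → B i)) ⊓
        LinearMap.range (Φ) := by
    refine ⟨?_, ⟨x, rfl⟩⟩
    rw [show Φ x = ϖ ^ (n + c) • y from funext hy]
    exact Submodule.smul_mem_smul (Ideal.pow_mem_pow (Ideal.mem_span_singleton_self ϖ) _) trivial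
  rw [hc (n + c) (Nat.le_add_left c n), Nat.add_sub_cancel] at hmemI
  have h3 := Submodule.smul_mono (le_refl (Ideal.span {ϖ} ^ n))
    (inf_le_right : (Ideal.span {ϖ} ^ c • ⊤ : Submodule 𝒪 ((i : ι) → B i)) ⊓ _ ≤ _) hmemI
  rw [LinearMap.range_eq_map, ← Submodule.map_smul''] at h3
  obtain ⟨z, hz, hzx⟩ := h3
  have hzx' : z = x := hprinj _ _ fun i => congrFun hzx i
  subst hzx'
  -- and `ϖ` is in the maximal ideal
  refine Submodule.smul_induction_on (p := fun w => w ∈ maximalIdeal R ^ n) hz ?_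
    (fun u v hu hv => add_mem hu hv)
  intro o ho w _
  rw [Algebra.smul_def]
  refine Ideal.mul_mem_right _ _ ?_
  have hle : (Ideal.span {ϖ}).map (algebraMap 𝒪 R) ≤ maximalIdeal R := by
    rw [Ideal.map_span, Set.image_singleton, Ideal.span_singleton_le_iff_mem]
    exact map_nonunit (algebraMap 𝒪 R) ϖ hϖ.not_isUnit
  exact Ideal.pow_right_mono hle n (Ideal.map_pow (algebraMap 𝒪 R) _ n ▸ Ideal.mem_map_of_mem _ ho)

/-- The trace representation inside a given ring with a normal representation. -/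
theorem nonempty_traceRep_of_normal (N : NormData 𝒪) (h2 : IsUnit (2 : 𝒪))
    (hb : ∃ σ, IsUnit (N.bar σ 0 1)) (r : ∀ i, Γℚ →* M2 (B i)) {Λ : Type} [CommRing Λ]
    [IsLocalRing Λ] [Algebra 𝒪 Λ] [Module.Finite 𝒪 Λ] [hΛloc : IsLocalHom (algebraMap 𝒪 Λ)]
    (prΛ : ∀ i, Λ →ₐ[𝒪] B i) (hprinj : ∀ x y : Λ, (∀ i, prΛ i x = prΛ i y) → x = y)
    (hΛres : ∀ x : Λ, ∃ o : 𝒪, x - algebraMap 𝒪 Λ o ∈ maximalIdeal Λ)
    (rΛ : Γℚ →* M2 Λ) (hn : N.IsNormal rΛ) (r' : ∀ i, Γℚ →* M2 (B i))
    (hpr : ∀ i σ, (prΛ i : Λ →+* B i).mapMatrix (rΛ σ) = r' i σ)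
    (hr'c : ∀ i, MatCont (r' i))
    (hP : ∀ i, ∃ P : (M2 (B i))ˣ, ∀ σ, r' i σ * (P : M2 (B i)) = (P : M2 (B i)) * r i σ) :
    Nonempty (TraceRep N B r) := by
  classical
  -- the ring generated by the traces
  set R := Algebra.adjoin 𝒪 (Set.range fun σ => (rΛ σ).trace) with hR
  have : IsNoetherian 𝒪 Λ := isNoetherian_of_isNoetherianRing_of_finite 𝒪 _
  have hRfin : Module.Finite 𝒪 R :=
    Module.Finite.of_injective R.val.toLinearMap Subtype.val_injective
  have : IsNoetherianRing R := IsNoetherianRing.of_finite 𝒪 R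
  have := isLocalHom_subalgebra_val R
  have : IsLocalRing R := RingHom.domain_isLocalRing (R.val : R →+* Λ)
  have hRloc : IsLocalHom (algebraMap 𝒪 R) := ⟨fun o ho =>
    hΛloc.map_nonunit o (ho.map (R.val : R →+* Λ))⟩
  have := IsLocalRing.isAdicComplete_of_module_finite (𝒪 := 𝒪) (T := ↥R)
  have hentry : ∀ σ a b, rΛ σ a b ∈ R :=
    entry_mem_of_trace_mem R N h2 hb (fun σ => Algebra.subset_adjoin ⟨σ, rfl⟩) hn
  let rep : Γℚ →* M2 R :=
    { toFun := fun σ => Matrix.of fun a b => ⟨rΛ σ a b, hentry σ a b⟩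
      map_one' := Matrix.ext fun a b => Subtype.ext (by
        change rΛ 1 a b = _
        rw [map_one]
        by_cases h : a = b <;> simp [Matrix.one_apply, h])
      map_mul' := fun σ τ => Matrix.ext fun a b => Subtype.ext (by
        change rΛ (σ * τ) a b = _
        simp [map_mul, Matrix.mul_apply]) }
  let pr : ∀ i, R →ₐ[𝒪] B i := fun i => (prΛ i).comp R.val
  have hrepi : ∀ i σ, (pr i : R →+* B i).mapMatrix (rep σ) = r' i σ := fun i σ =>
    (hpr i σ).symm ▸ rfl
  have hnormal : N.IsNormal rep := by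
    refine NormData.IsNormal.of_map N R.val Subtype.val_injective ?_
    exact hn
  have hinjR : ∀ x y : R, (∀ i, pr i x = pr i y) → x = y := fun x y h =>
    Subtype.ext (hprinj _ _ h)
  refine ⟨{ R := R, hres := residue_algebraMap_subalgebra_surjective R hΛres, rep := rep
            cont := matCont_of_jointly_injective rep pr hinjR r' hrepi hr'c
            normal := hnormal, pr := pr
            pr_injective := hinjR
            pr_rep := fun i => by
              obtain ⟨Q, hQ⟩ := hP i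
              exact ⟨Q, fun σ => by rw [hrepi]; exact hQ σ⟩
            adjoin_traces := ?_ }⟩
  apply Subalgebra.map_injective (f := R.val) Subtype.val_injective
  rw [AlgHom.map_adjoin, Algebra.map_top, Subalgebra.range_val, ← Set.range_comp]
  exact congrArg (Algebra.adjoin 𝒪) (congrArg Set.range (funext fun σ => by
    simp [rep, Matrix.trace_fin_two]))

/-- **Existence of the trace representation.** -/
theorem nonempty_traceRep (N : NormData 𝒪) (h2 : IsUnit (2 : 𝒪))
    (hb : ∃ σ, IsUnit (N.bar σ 0 1)) (r : ∀ i, Γℚ →* M2 (B i)) (hcont : ∀ i, MatCont (r i))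
    (hred : ∀ i, N.IsRed (r i)) : Nonempty (TraceRep N B r) := by
  classical
  obtain ⟨ϖ, hϖ⟩ := IsDiscreteValuationRing.exists_irreducible 𝒪
  have hBc : ∀ i, IsAdicComplete (maximalIdeal (B i)) (B i) := fun i =>
    IsLocalRing.isAdicComplete_of_module_finite (𝒪 := 𝒪)
  -- normalised representations
  choose r' hr'c hr'n hr'e using fun i => N.exists_isNormal (hcont i) (hred i)
  choose P hP using fun i => (isEquiv_repOf_iff _ _ _ _).mp (hr'e i)
  -- their product over the fibre algebra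
  set Λ := fibreAlgebra 𝒪 B
  have : IsLocalRing Λ := isLocalRing_fibreAlgebra
  have : IsNoetherian 𝒪 ((i : ι) → B i) := isNoetherian_of_isNoetherianRing_of_finite 𝒪 _
  have : Module.Finite 𝒪 Λ := Module.Finite.of_injective Λ.val.toLinearMap Subtype.val_injective
  have hΛloc : IsLocalHom (algebraMap 𝒪 Λ) := ⟨fun o ho => by
    obtain ⟨i⟩ := ‹Nonempty ι›
    exact IsLocalHom.map_nonunit (f := algebraMap 𝒪 (B i)) o
      (ho.map ((Pi.evalRingHom B i).comp Λ.val.toRingHom))⟩
  have : IsNoetherianRing Λ := IsNoetherianRing.of_finite 𝒪 Λ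
  let prΛ : ∀ i, Λ →ₐ[𝒪] B i := fun i => (Pi.evalAlgHom 𝒪 B i).comp Λ.val
  let rΛ : Γℚ →* M2 Λ :=
    { toFun := fun σ => Matrix.of fun a b => ⟨fun i => r' i σ a b,
        N.bar σ a b, fun i => (hr'n i).red σ a b⟩
      map_one' := Matrix.ext fun a b => Subtype.ext (funext fun i => by
        change r' i 1 a b = ((1 : M2 Λ) a b).1 i
        rw [map_one]
        by_cases h : a = b <;> simp [Matrix.one_apply, h])
      map_mul' := fun σ τ => Matrix.ext fun a b => Subtype.ext (funext fun i => by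
        simp [map_mul, Matrix.mul_apply]) }
  have hpr : ∀ i σ, (prΛ i : Λ →+* B i).mapMatrix (rΛ σ) = r' i σ := fun i σ => rfl
  have hprinj : ∀ x y : Λ, (∀ i, prΛ i x = prΛ i y) → x = y := fun x y h => Subtype.ext (funext h)
  have hΛres : ∀ x : Λ, ∃ o : 𝒪, x - algebraMap 𝒪 Λ o ∈ maximalIdeal Λ := fun x => by
    obtain ⟨o, ho⟩ := x.2
    obtain ⟨i⟩ := ‹Nonempty ι›
    exact ⟨o, fun hu => ho i (by simpa [prΛ] using hu.map (prΛ i : Λ →+* B i))⟩
  have hEi : ∀ i a b, (N.elt rΛ a b).1 i = N.elt (r' i) a b := fun i a b => by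
    change prΛ i (N.elt rΛ a b) = _
    rw [← N.elt_mapHom (prΛ i) rΛ a b]
    rfl
  have hredΛ : N.IsRed rΛ := by
    intro σ a b hu
    obtain ⟨i⟩ := ‹Nonempty ι›
    refine (hr'n i).red σ a b ?_
    have h := hu.map (prΛ i : Λ →+* B i)
    rw [map_sub, show (prΛ i : Λ →+* B i) (algebraMap 𝒪 Λ (N.bar σ a b)) =
      algebraMap 𝒪 (B i) (N.bar σ a b) from (prΛ i).commutes _] at h
    exact h
  refine nonempty_traceRep_of_normal N h2 hb r prΛ hprinj hΛres rΛ ?_ r' hpr hr'c
    (fun i => ⟨P i, fun σ => (hP i σ).symm⟩)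
  exact ⟨hredΛ, Subtype.ext (funext fun i => (hEi i 0 1).trans (hr'n i).elt_01),
    Subtype.ext (funext fun i => (hEi i 1 0).trans (hr'n i).elt_10),
    Subtype.ext (funext fun i => (hr'n i).g₀_10)⟩

end Fermat.GR.RT
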