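import Mathlib
import Fermat.Agent.GR.RT.TraceRing
import Fermat.Agent.GR.ES.Rep
import Fermat.Agent.CFT.Density.Places

/-!
# The trace ring acts through the Hecke algebra

If traces and determinants at Frobenius elements are values of Hecke operators then all traces are:
the trace ring acts on every module whose annihilator contains all Hecke operators vanishing at
all points.
-/

set_option autoImplicit false
set_option linter.unusedSectionVars false

noncomputable section

namespace Fermat.GR.RT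

open IsLocalRing

local notation "Γℚ" => (AlgebraicClosure ℚ ≃ₐ[ℚ] AlgebraicClosure ℚ)
local notation "M2" R => Matrix (Fin 2) (Fin 2) R

/-- Conjugate matrices have equal trace and determinant. -/
theorem trace_det_of_conj {A : Type} [CommRing A] {X Y : M2 A} (P : (M2 A)ˣ)
    (h : X * (P : M2 A) = (P : M2 A) * Y) : X.trace = Y.trace ∧ X.det = Y.det := by
  have hX : X = (P : M2 A) * Y * (↑P⁻¹ : M2 A) := by rw [← h, mul_assoc, P.mul_inv, mul_one]
  subst hX
  exact ⟨Matrix.trace_units_conj P Y, Matrix.det_units_conj P Y⟩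

/-- The kernel of a continuous representation modulo a power of the maximal ideal is open. -/
theorem isOpen_ker_modPow {A : Type} [CommRing A] [IsLocalRing A] {r : Γℚ →* M2 A} (hr : MatCont r)
    (n : ℕ) : IsOpen ((((Ideal.Quotient.mk (maximalIdeal A ^ n)).mapMatrix.toMonoidHom.comp
      r).toHomUnits).ker : Set Γℚ) := by
  obtain ⟨L, hL, h⟩ := hr n
  refine Subgroup.isOpen_mono (H₁ := L.fixingSubgroup) (fun σ hσ => ?_)
    (IntermediateField.fixingSubgroup_isOpen L)
  rw [MonoidHom.mem_ker]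
  refine Units.ext (Matrix.ext fun i j => ?_)
  have h1 := h σ ((IntermediateField.mem_fixingSubgroup_iff L σ).mp hσ) i j
  rw [← Ideal.Quotient.eq_zero_iff_mem, Matrix.sub_apply, map_sub, sub_eq_zero] at h1
  change Ideal.Quotient.mk _ (r σ i j) = (1 : M2 (A ⧸ maximalIdeal A ^ n)) i j
  rw [h1, Matrix.one_apply, Matrix.one_apply]
  split_ifs <;> simp

variable {𝒪 : Type} [CommRing 𝒪] [IsDomain 𝒪] [IsDiscreteValuationRing 𝒪]
  [IsAdicComplete (maximalIdeal 𝒪) 𝒪] [Finite (ResidueField 𝒪)]
  {ι : Type} [Fintype ι] [Nonempty ι] {B : ι → Type} [∀ i, CommRing (B i)] [∀ i, IsLocalRing (B i)]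
  [∀ i, Algebra 𝒪 (B i)] [∀ i, Module.Finite 𝒪 (B i)] [∀ i, IsLocalHom (algebraMap 𝒪 (B i))]
  {N : NormData 𝒪} {r : ∀ i, Γℚ →* M2 (B i)}

/-- The residue field of a trace ring is finite. -/
theorem TraceRep.finite_residueField (T : TraceRep N B r) : Finite (ResidueField T.R) :=
  Finite.of_surjective (ResidueField.map (algebraMap 𝒪 T.R)) fun z => by
    obtain ⟨o, ho⟩ := T.hres z
    exact ⟨residue 𝒪 o, by rw [ResidueField.map_residue]; exact ho⟩

/-- The projections are local. -/
theorem TraceRep.pr_local (T : TraceRep N B r) (i : ι) :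
    (maximalIdeal (B i)).comap (T.pr i : T.R →+* B i) = maximalIdeal T.R := by
  have : Algebra.IsIntegral 𝒪 T.R := Algebra.IsIntegral.of_finite 𝒪 T.R
  set P := (maximalIdeal (B i)).comap (T.pr i : T.R →+* B i)
  refine eq_maximalIdeal (Ideal.isMaximal_of_isIntegral_of_isMaximal_comap (R := 𝒪) P ?_)
  have : P.comap (algebraMap 𝒪 T.R) = maximalIdeal 𝒪 := by
    rw [Ideal.comap_comap, AlgHom.comp_algebraMap]
    ext o
    rw [Ideal.mem_comap]
    exact ⟨fun h hu => h (hu.map _), fun h => map_nonunit (algebraMap 𝒪 (B i)) o h⟩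
  rw [this]
  exact maximalIdeal.isMaximal 𝒪

/-- Values of the trace ring at the points are values of the Hecke algebra. -/
theorem TraceRep.exists_hecke (T : TraceRep N B r) {H : Type} [CommRing H] [Algebra 𝒪 H]
    (pt : ∀ i, H →ₐ[𝒪] B i) (t d : ℕ → H) (bad : Finset ℕ)
    (hfrob : ∀ ℓ : ℕ, ℓ.Prime → ℓ ∉ bad → ∀ A : ValuationSubring (AlgebraicClosure ℚ),
      A.LiesOverPrime ℓ → ∀ φ : Γℚ, A.IsFrobeniusAt φ ℓ →
        ∀ i, (r i φ).trace = pt i (t ℓ) ∧ (r i φ).det = pt i (d ℓ))
    (x : T.R) : ∃ h : H, ∀ i, T.pr i x = pt i h := by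
  classical
  obtain ⟨ϖ, hϖ⟩ := IsDiscreteValuationRing.exists_irreducible 𝒪
  let pts : H →ₐ[𝒪] ((i : ι) → B i) := AlgHom.pi pt
  let prs : T.R →ₐ[𝒪] ((i : ι) → B i) := AlgHom.pi T.pr
  have : IsNoetherian 𝒪 ((i : ι) → B i) := isNoetherian_of_isNoetherianRing_of_finite 𝒪 _
  suffices hsub : prs x ∈ pts.range by
    obtain ⟨h, hh⟩ := hsub
    exact ⟨h, fun i => (congrFun hh i).symm⟩
  have hgen : ∀ σ, prs (T.rep σ).trace ∈ pts.range := by
    intro σ
    have hcl : ∀ k : ℕ, prs (T.rep σ).trace ∈ Subalgebra.toSubmodule pts.range ⊔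
        (maximalIdeal 𝒪 ^ k • ⊤ : Submodule 𝒪 ((i : ι) → B i)) := by
      intro k
      -- a power of the maximal ideal of the trace ring lands in `ϖ ^ k`
      choose e he using fun i => exists_pow_le_smul (B := B) hϖ i k
      have := T.finite_residueField
      set n := Finset.univ.sup e
      have : Finite (T.R ⧸ maximalIdeal T.R ^ n) := finite_quotient_maximalIdeal_pow T.R n
      obtain ⟨ℓ, hℓ, hℓbad, A, hA, -, φ, hφ, j, hj⟩ :=
        Fermat.CFT.exists_frobenius_map_eq_pow _ (isOpen_ker_modPow T.cont n) σ bad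
      rw [← map_pow] at hj
      have hj' : ∀ a b, T.rep σ a b - (T.rep (φ ^ j)) a b ∈ maximalIdeal T.R ^ n := fun a b => by
        have h : (T.rep σ).map (Ideal.Quotient.mk (maximalIdeal T.R ^ n)) =
            (T.rep (φ ^ j)).map (Ideal.Quotient.mk (maximalIdeal T.R ^ n)) :=
          congrArg (fun u : (M2 (T.R ⧸ maximalIdeal T.R ^ n))ˣ =>
            ((u : M2 (T.R ⧸ maximalIdeal T.R ^ n)))) hj
        exact Ideal.Quotient.eq.mp (congrFun (congrFun h a) b)
      have hmem : prs (T.rep (φ ^ j)).trace ∈ pts.range := by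
        refine ⟨powTrace (t ℓ) (d ℓ) j, funext fun i => ?_⟩
        obtain ⟨P, hP⟩ := T.pr_rep i
        obtain ⟨h1, -⟩ := trace_det_of_conj P (hP (φ ^ j))
        obtain ⟨ht, hd⟩ := hfrob ℓ hℓ hℓbad A hA φ hφ i
        change pt i (powTrace (t ℓ) (d ℓ) j) = T.pr i (T.rep (φ ^ j)).trace
        rw [show (pt i (powTrace (t ℓ) (d ℓ) j) : B i) = powTrace (pt i (t ℓ)) (pt i (d ℓ)) j from
          map_powTrace (pt i : H →+* B i) _ _ j, ← ht, ← hd, ← trace_pow_fin_two, ← map_pow, ← h1]
        simp [Matrix.trace_fin_two]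
      have hdiff : prs ((T.rep σ).trace - (T.rep (φ ^ j)).trace) ∈
          (maximalIdeal 𝒪 ^ k • ⊤ : Submodule 𝒪 ((i : ι) → B i)) := by
        have hm : (T.rep σ).trace - (T.rep (φ ^ j)).trace ∈ maximalIdeal T.R ^ n := by
          rw [Matrix.trace_fin_two, Matrix.trace_fin_two, add_sub_add_comm]
          exact add_mem (hj' 0 0) (hj' 1 1)
        have hloc : ∀ i, (maximalIdeal T.R).map (T.pr i : T.R →+* B i) ≤ maximalIdeal (B i) :=
          fun i => Ideal.map_le_iff_le_comap.mpr (T.pr_local i).ge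
        have hy : ∀ i, ∃ y : B i, T.pr i ((T.rep σ).trace - (T.rep (φ ^ j)).trace) = ϖ ^ k • y := by
          intro i
          have h2 : T.pr i ((T.rep σ).trace - (T.rep (φ ^ j)).trace) ∈ maximalIdeal (B i) ^ e i :=
            Ideal.pow_le_pow_right (Finset.le_sup (Finset.mem_univ i))
              (Ideal.pow_right_mono (hloc i) n
                (Ideal.map_pow (T.pr i : T.R →+* B i) _ n ▸ Ideal.mem_map_of_mem _ hm))
          obtain ⟨y, hy⟩ := Ideal.mem_span_singleton'.mp (he i h2)
          exact ⟨y, by rw [Algebra.smul_def, map_pow (algebraMap 𝒪 (B i)), ← hy, mul_comm]⟩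
        choose y hy using hy
        rw [show prs ((T.rep σ).trace - (T.rep (φ ^ j)).trace) = ϖ ^ k • y from funext hy]
        exact Submodule.smul_mem_smul
          (Ideal.pow_mem_pow (hϖ.maximalIdeal_eq ▸ Ideal.mem_span_singleton_self ϖ) k) trivial
      rw [map_sub] at hdiff
      have := Submodule.add_mem_sup
        (show prs (T.rep (φ ^ j)).trace ∈ Subalgebra.toSubmodule pts.range from hmem) hdiff
      rwa [add_sub_cancel] at this
    have : IsHausdorff (maximalIdeal 𝒪)
        (((i : ι) → B i) ⧸ Subalgebra.toSubmodule pts.range) :=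
      IsHausdorff.of_isLocalRing _ _ (maximalIdeal.isMaximal 𝒪).ne_top
    rw [← Subalgebra.mem_toSubmodule, ← Submodule.Quotient.mk_eq_zero]
    refine IsHausdorff.haus' (I := maximalIdeal 𝒪) _ fun k => ?_
    rw [SModEq.zero]
    obtain ⟨u, hu, v, hv, huv⟩ := Submodule.mem_sup.mp (hcl k)
    rw [← huv, Submodule.Quotient.mk_add, (Submodule.Quotient.mk_eq_zero _).mpr hu, zero_add]
    have := Submodule.mem_map_of_mem (f := (Subalgebra.toSubmodule pts.range).mkQ) hv
    rw [Submodule.map_smul''] at this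
    exact Submodule.smul_mono le_rfl le_top this
  have hle : Algebra.adjoin 𝒪 (Set.range fun σ => (T.rep σ).trace) ≤ pts.range.comap prs :=
    Algebra.adjoin_le (by rintro _ ⟨σ, rfl⟩; exact hgen σ)
  exact hle (T.adjoin_traces ▸ Algebra.mem_top)

/-- **The trace ring acts.** An action of operators whose values at almost all Frobenius elements
are traces and determinants factors through the trace ring. -/
theorem TraceRep.exists_action (T : TraceRep N B r) {H E : Type} [CommRing H] [Algebra 𝒪 H]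
    [Ring E] [Algebra 𝒪 E] (pt : ∀ i, H →ₐ[𝒪] B i) (act : H →ₐ[𝒪] E)
    (hker : ∀ h, (∀ i, pt i h = 0) → act h = 0) (t d : ℕ → H) (bad : Finset ℕ)
    (hfrob : ∀ ℓ : ℕ, ℓ.Prime → ℓ ∉ bad → ∀ A : ValuationSubring (AlgebraicClosure ℚ),
      A.LiesOverPrime ℓ → ∀ φ : Γℚ, A.IsFrobeniusAt φ ℓ →
        ∀ i, (r i φ).trace = pt i (t ℓ) ∧ (r i φ).det = pt i (d ℓ)) :
    ∃ α : T.R →ₐ[𝒪] E, ∀ x h, (∀ i, T.pr i x = pt i h) → α x = act h := by
  choose f hf using T.exists_hecke pt t d bad hfrob
  have key : ∀ x h, (∀ i, T.pr i x = pt i h) → act (f x) = act h := fun x h hh => by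
    rw [← sub_eq_zero, ← map_sub]
    exact hker _ fun i => by rw [map_sub, ← hf, ← hh, sub_self]
  refine ⟨AlgHom.mk
    { toFun := fun x => act (f x)
      map_one' := (key 1 1 fun i => by simp).trans (map_one act)
      map_mul' := fun x y => (key (x * y) (f x * f y) fun i => by simp [← hf]).trans
        (map_mul act _ _)
      map_zero' := (key 0 0 fun i => by simp).trans (map_zero act)
      map_add' := fun x y => (key (x + y) (f x + f y) fun i => by simp [← hf]).trans
        (map_add act _ _) }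
    fun o => (key _ (algebraMap 𝒪 H o) fun i => by simp).trans (act.commutes o), key⟩

end Fermat.GR.RT
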