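import Mathlib
import Fermat.Agent.GR.RT.TraceFrob
import Fermat.Agent.GR.ES.Completion
import Fermat.Agent.GR.ES.Frobenius
import Fermat.Agent.CFT.Density.CycloChar

/-!
# The `p`-adic cyclotomic character with values in a complete local ring

`cycO` sends a Frobenius at `ℓ ≠ p` to `ℓ`, and `det_eq_cycO` identifies with it the determinant
of a representation with that property.
-/

set_option autoImplicit false

noncomputable section

open IsLocalRing

namespace Fermat.GR.RT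

local notation "ℚbar" => AlgebraicClosure ℚ
local notation "Γℚ" => (AlgebraicClosure ℚ ≃ₐ[ℚ] AlgebraicClosure ℚ)
local notation "M2" R => Matrix (Fin 2) (Fin 2) R

variable {p : ℕ} [hp : Fact p.Prime]

/-- The `p`-adic cyclotomic character of `ℚ̄`. -/
def padicCyc : Γℚ →* ℤ_[p] :=
  (Units.coeHom ℤ_[p]).comp
    ((cyclotomicCharacter ℚbar p).comp (MulSemiringAction.toRingAut Γℚ ℚbar))

/-- The defining property of `padicCyc` on the roots of unity of `p`-power order. -/
theorem apply_eq_pow_padicCyc (σ : Γℚ) {n : ℕ} {z : ℚbar} (hz : z ^ p ^ n = 1) :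
    σ z = z ^ ((padicCyc (p := p) σ).toZModPow n).val := by
  have : ∀ i, HasEnoughRootsOfUnity ℚbar (p ^ i) := fun i => by
    have : NeZero ((p ^ i : ℕ) : ℚbar) :=
      ⟨Nat.cast_ne_zero.mpr (pow_ne_zero _ hp.out.ne_zero)⟩
    infer_instance
  exact cyclotomicCharacter.spec p (L := ℚbar) (MulSemiringAction.toRingAut Γℚ ℚbar σ) z hz

/-- `ℚ̄` has a primitive `K`th root of unity. -/
theorem exists_primitive_level (K : ℕ) [NeZero K] : ∃ z : ℚbar, IsPrimitiveRoot z K := by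
  have : NeZero ((K : ℕ) : ℚbar) := ⟨Nat.cast_ne_zero.mpr (NeZero.ne K)⟩
  exact HasEnoughRootsOfUnity.exists_primitiveRoot ℚbar K

/-- The value at a Frobenius element at `ℓ ≠ p` is `ℓ`. -/
theorem padicCyc_frobenius {ℓ : ℕ} (hℓ : ℓ.Prime) (hℓp : ℓ ≠ p) {A : ValuationSubring ℚbar}
    (hA : A.LiesOverPrime ℓ) {σ : Γℚ} (hσ : A.IsFrobeniusAt σ ℓ) :
    padicCyc (p := p) σ = (ℓ : ℤ_[p]) := by
  refine PadicInt.ext_of_toZModPow.mp fun n => ?_
  have : NeZero (p ^ n) := ⟨pow_ne_zero _ hp.out.ne_zero⟩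
  obtain ⟨z, hz⟩ := exists_primitive_level (p ^ n)
  have hdvd : ¬ ℓ ∣ p ^ n := fun h =>
    hℓp ((Nat.prime_dvd_prime_iff_eq hℓ hp.out).mp (hℓ.dvd_of_dvd_pow h))
  have h1 := (apply_eq_pow_padicCyc (p := p) σ hz.pow_eq_one).symm.trans
    (Fermat.GR.frobenius_rootOfUnity hℓ hA hσ hdvd hz.pow_eq_one)
  rw [map_natCast, ← ZMod.natCast_zmod_val ((padicCyc (p := p) σ).toZModPow n),
    ZMod.natCast_eq_natCast_iff']
  have h2 := (hz.isOfFinOrder (NeZero.ne _)).pow_inj_mod.mp h1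
  rwa [← hz.eq_orderOf] at h2

variable {O : Type} [CommRing O] [IsLocalRing O] [IsAdicComplete (maximalIdeal O) O]

/-- The cyclotomic character in a complete local ring of residue characteristic `p`. -/
def cycO (hpO : (p : O) ∈ maximalIdeal O) : Γℚ →* O :=
  (Fermat.GR.padicToAdic O hpO).toMonoidHom.comp padicCyc

/-- The value in `O` at a Frobenius element at `ℓ ≠ p` is `ℓ`. -/
theorem cycO_frobenius (hpO : (p : O) ∈ maximalIdeal O) {ℓ : ℕ} (hℓ : ℓ.Prime) (hℓp : ℓ ≠ p)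
    {A : ValuationSubring ℚbar} (hA : A.LiesOverPrime ℓ) {σ : Γℚ} (hσ : A.IsFrobeniusAt σ ℓ) :
    cycO hpO σ = (ℓ : O) := by
  change Fermat.GR.padicToAdic O hpO (padicCyc σ) = _
  rw [padicCyc_frobenius hℓ hℓp hA hσ, map_natCast]

/-- Modulo the maximal ideal it is the mod `p` character. -/
theorem cycO_sub_cycChar_mem (hpO : (p : O) ∈ maximalIdeal O) (σ : Γℚ) :
    cycO hpO σ - (((Fermat.CFT.cycChar p σ : (ZMod p)ˣ) : ZMod p).val : O) ∈ maximalIdeal O := by
  have : NeZero p := ⟨hp.out.ne_zero⟩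
  obtain ⟨z, hz⟩ := Fermat.CFT.exists_primitiveRoot_qbar (q := p)
  have h1 : σ z = z ^ ((padicCyc (p := p) σ).toZModPow 1).val :=
    apply_eq_pow_padicCyc (p := p) σ (by rw [pow_one]; exact hz.pow_eq_one)
  have h2 := Fermat.CFT.cycChar_eq_of_apply hz h1
  have h3 : (p : ℤ_[p]) ^ 1 ∣ padicCyc (p := p) σ -
      ((((Fermat.CFT.cycChar p σ : (ZMod p)ˣ) : ZMod p).val : ℕ) : ℤ_[p]) := by
    rw [← Ideal.mem_span_singleton, ← PadicInt.ker_toZModPow, RingHom.mem_ker, map_sub,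
      map_natCast, sub_eq_zero, h2, ZMod.val_natCast]
    have : NeZero (p ^ 1) := ⟨pow_ne_zero _ hp.out.ne_zero⟩
    conv_lhs => rw [← ZMod.natCast_zmod_val ((padicCyc (p := p) σ).toZModPow 1)]
    rw [ZMod.natCast_eq_natCast_iff']
    simp only [pow_one, Nat.mod_mod]
  have h4 := Fermat.GR.padicToAdic_mem O hpO h3
  rwa [map_sub, map_natCast, pow_one] at h4

/-- The cyclotomic character is trivial modulo each power of the maximal ideal on an open
subgroup. -/
theorem cycO_cont (hpO : (p : O) ∈ maximalIdeal O) (n : ℕ) :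
    ∃ L : IntermediateField ℚ ℚbar, FiniteDimensional ℚ L ∧
      ∀ σ : Γℚ, (∀ x ∈ L, σ x = x) → cycO hpO σ - 1 ∈ maximalIdeal O ^ n := by
  have : NeZero (p ^ n) := ⟨pow_ne_zero _ hp.out.ne_zero⟩
  obtain ⟨z, hz⟩ := exists_primitive_level (p ^ n)
  refine ⟨IntermediateField.adjoin ℚ {z},
    IntermediateField.adjoin.finiteDimensional (Algebra.IsIntegral.isIntegral (R := ℚ) z),
    fun σ hσ => ?_⟩
  have hfix := hσ z (IntermediateField.mem_adjoin_simple_self ℚ z)
  have h1 : z ^ ((padicCyc (p := p) σ).toZModPow n).val = z ^ 1 := by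
    rw [pow_one, ← apply_eq_pow_padicCyc (p := p) σ hz.pow_eq_one]; exact hfix
  have h2 := (hz.isOfFinOrder (NeZero.ne _)).pow_inj_mod.mp h1
  rw [← hz.eq_orderOf, ← ZMod.natCast_eq_natCast_iff', ZMod.natCast_zmod_val, Nat.cast_one] at h2
  have h3 : (p : ℤ_[p]) ^ n ∣ padicCyc (p := p) σ - 1 := by
    rw [← Ideal.mem_span_singleton, ← PadicInt.ker_toZModPow, RingHom.mem_ker, map_sub, map_one,
      h2, sub_self]
  have h4 := Fermat.GR.padicToAdic_mem O hpO h3
  rwa [map_sub, map_one] at h4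

/-- **A continuous representation with determinant `ℓ` at Frobenius elements has cyclotomic
determinant.** -/
theorem det_eq_cycO (hpO : (p : O) ∈ maximalIdeal O) {A : Type} [CommRing A]
    [IsLocalRing A] [IsNoetherianRing A] [Finite (ResidueField A)] [IsHausdorff (maximalIdeal A) A]
    [Algebra O A] [IsLocalHom (algebraMap O A)] {r : Γℚ →* M2 A} (hr : MatCont r) (bad : Finset ℕ)
    (hfrob : ∀ ℓ : ℕ, ℓ.Prime → ℓ ∉ bad → ∀ P : ValuationSubring ℚbar, P.LiesOverPrime ℓ →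
      ∀ φ : Γℚ, P.IsFrobeniusAt φ ℓ → (r φ).det = (ℓ : A)) (σ : Γℚ) :
    (r σ).det = algebraMap O A (cycO hpO σ) := by
  classical
  rw [← sub_eq_zero]
  refine IsHausdorff.haus' (I := maximalIdeal A) _ fun n => ?_
  rw [SModEq.zero, smul_eq_mul, Ideal.mul_top]
  have : Finite (A ⧸ maximalIdeal A ^ n) := finite_quotient_maximalIdeal_pow A n
  -- both characters modulo a power of the maximal ideal, one map with open kernel
  let f : Γℚ →* (A ⧸ maximalIdeal A ^ n)ˣ × (A ⧸ maximalIdeal A ^ n)ˣ :=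
    (((Ideal.Quotient.mk (maximalIdeal A ^ n)).toMonoidHom.comp
      (Matrix.detMonoidHom.comp r)).toHomUnits).prod
    (((Ideal.Quotient.mk (maximalIdeal A ^ n)).toMonoidHom.comp
      ((algebraMap O A).toMonoidHom.comp (cycO hpO))).toHomUnits)
  have hf : IsOpen (f.ker : Set Γℚ) := by
    obtain ⟨L₁, hL₁, h₁⟩ := hr n
    obtain ⟨L₂, hL₂, h₂⟩ := cycO_cont hpO n
    refine Subgroup.isOpen_mono (H₁ := (L₁ ⊔ L₂).fixingSubgroup) (fun τ hτ => ?_)
      (IntermediateField.fixingSubgroup_isOpen _)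
    have hfix := (IntermediateField.mem_fixingSubgroup_iff _ τ).mp hτ
    have e1 : (r τ).map (Ideal.Quotient.mk (maximalIdeal A ^ n)) = 1 := by
      refine Matrix.ext fun i j => ?_
      have h := h₁ τ (fun x hx => hfix x ((le_sup_left : L₁ ≤ L₁ ⊔ L₂) hx)) i j
      rw [← Ideal.Quotient.eq_zero_iff_mem, Matrix.sub_apply, map_sub, sub_eq_zero] at h
      rw [Matrix.map_apply, h, Matrix.one_apply, Matrix.one_apply]
      split_ifs <;> simp
    have e2 : algebraMap O A (cycO hpO τ) - 1 ∈ maximalIdeal A ^ n := by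
      rw [← map_one (algebraMap O A), ← map_sub]
      have h := Ideal.mem_map_of_mem (algebraMap O A)
        (h₂ τ fun x hx => hfix x ((le_sup_right : L₂ ≤ L₁ ⊔ L₂) hx))
      rw [Ideal.map_pow] at h
      have hle : (maximalIdeal O).map (algebraMap O A) ≤ maximalIdeal A :=
        Ideal.map_le_iff_le_comap.mpr fun o ho => map_nonunit (algebraMap O A) o ho
      exact Ideal.pow_right_mono hle n h
    rw [MonoidHom.mem_ker]
    refine Prod.ext (Units.ext ?_) (Units.ext ?_)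
    · change Ideal.Quotient.mk (maximalIdeal A ^ n) (r τ).det = 1
      rw [RingHom.map_det, RingHom.mapMatrix_apply, e1, Matrix.det_one]
    · change Ideal.Quotient.mk (maximalIdeal A ^ n) (algebraMap O A (cycO hpO τ)) = 1
      rw [← sub_eq_zero, ← map_one (Ideal.Quotient.mk (maximalIdeal A ^ n)), ← map_sub,
        Ideal.Quotient.eq_zero_iff_mem]
      exact e2
  -- Chebotarev: its value at `σ` is that at a power of a Frobenius
  obtain ⟨ℓ, hℓ, hℓbad, P, hP, -, φ, hφ, j, hj⟩ :=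
    Fermat.CFT.exists_frobenius_map_eq_pow f hf σ (insert p bad)
  rw [Finset.mem_insert, not_or] at hℓbad
  have e1 := congrArg (fun u : _ × _ =>
    ((u.1 : (A ⧸ maximalIdeal A ^ n)ˣ) : A ⧸ maximalIdeal A ^ n)) hj
  have e2 := congrArg (fun u : _ × _ =>
    ((u.2 : (A ⧸ maximalIdeal A ^ n)ˣ) : A ⧸ maximalIdeal A ^ n)) hj
  simp only [Prod.pow_fst, Prod.pow_snd, Units.val_pow_eq_pow_val] at e1 e2
  rw [← Ideal.Quotient.eq_zero_iff_mem, map_sub, sub_eq_zero]
  change Ideal.Quotient.mk _ (r σ).det = Ideal.Quotient.mk _ (r φ).det ^ j at e1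
  change Ideal.Quotient.mk _ (algebraMap O A (cycO hpO σ)) =
    Ideal.Quotient.mk _ (algebraMap O A (cycO hpO φ)) ^ j at e2
  rw [e1, e2, hfrob ℓ hℓ hℓbad.2 P hP φ hφ, cycO_frobenius hpO hℓ hℓbad.1 hP hφ,
    map_natCast (algebraMap O A)]

end Fermat.GR.RT

end
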