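import Mathlib
import Fermat.Agent.HM.FactorForms
import Fermat.Agent.GR.Deform.MatrixRep
import Fermat.Prelude.Def_GaloisRep_Flat
import Fermat.Prelude.Def_GaloisRep_LocalConditions

/-!
# What modularity lifting uses about the representations of eigen systems

An eigen system of weight two and level `Γ_H(K)` is a ring homomorphism from the polynomial ring on
the Hecke and diamond labels killing every polynomial which kills the cusp forms.
-/

set_option autoImplicit false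

noncomputable section

open MvPolynomial

namespace Fermat.GR.RT

local notation "ℚbar" => AlgebraicClosure ℚ
local notation "Γℚ" => (AlgebraicClosure ℚ ≃ₐ[ℚ] AlgebraicClosure ℚ)
local notation "M2" R => Matrix (Fin 2) (Fin 2) R

variable {K : ℕ} [NeZero K] {H : Subgroup (ZMod K)ˣ} {O : Type} [CommRing O]

/-- An eigen system of level `Γ_H(K)`. -/
structure IsPoint (K : ℕ) [NeZero K] (H : Subgroup (ZMod K)ˣ) {O : Type} [CommRing O]
    (x : MvPolynomial (Nat.Primes ⊕ (ZMod K)ˣ) ℤ →+* O) : Prop where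
  /-- `x` kills every polynomial acting as zero on the cusp forms of level `Γ_H(K)`. -/
  kills : ∀ P, Fermat.HM.formAct K H P = 0 → x P = 0

/-- The value of a Hecke operator. -/
def tVal (x : MvPolynomial (Nat.Primes ⊕ (ZMod K)ˣ) ℤ →+* O) (ℓ : ℕ) : O :=
  if h : ℓ.Prime then x (X (Sum.inl ⟨ℓ, h⟩)) else 0

/-- The value of a diamond operator at a number prime to the level. -/
def eVal (x : MvPolynomial (Nat.Primes ⊕ (ZMod K)ˣ) ℤ →+* O) (a : ℕ) : O :=
  if h : a.Coprime K then x (X (Sum.inr (ZMod.unitOfCoprime a h))) else 0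

variable [IsLocalRing O]

/-- `r` is attached to the eigen system `x`, in the normalisation with the cusp `∞` rational. -/
structure IsAttached (p : ℕ) (x : MvPolynomial (Nat.Primes ⊕ (ZMod K)ˣ) ℤ →+* O)
    (r : Γℚ →* M2 O) : Prop where
  /-- `r` is continuous. -/
  cont : MatCont r
  /-- `r` is unramified away from `K p`. -/
  unramified : ∀ ℓ : ℕ, ℓ.Prime → ¬ ℓ ∣ K * p → ∀ A : ValuationSubring ℚbar, A.LiesOverPrime ℓ →
    ∀ σ ∈ A.inertiaSubgroupIn ℚ, r σ = 1
  /-- Trace and determinant of Frobenius at `ℓ ∤ K p` are `T ℓ ⟨ℓ⟩` and `ℓ ⟨ℓ⟩`. -/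
  frobenius : ∀ ℓ : ℕ, ℓ.Prime → ¬ ℓ ∣ K * p → ∀ A : ValuationSubring ℚbar, A.LiesOverPrime ℓ →
    ∀ φ : Γℚ, A.IsFrobeniusAt φ ℓ →
      (r φ).trace = tVal x ℓ * eVal x ℓ ∧ (r φ).det = (ℓ : O) * eVal x ℓ

/-- The system, away from `q`, already occurs at level `K / q` (all operators `T_ℓ`, `U_ℓ` with
`ℓ ≠ q`, as the degeneracy maps at `q` commute with them). -/
def IsOldAt (K : ℕ) [NeZero K] (H : Subgroup (ZMod K)ˣ)
    (x : MvPolynomial (Nat.Primes ⊕ (ZMod K)ˣ) ℤ →+* O) (q : ℕ) : Prop :=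
  ∃ (K' : ℕ) (_ : NeZero K') (h : K' ∣ K), K' * q = K ∧
    ∃ y : MvPolynomial (Nat.Primes ⊕ (ZMod K')ˣ) ℤ →+* O,
      IsPoint K' (H.map (ZMod.unitsMap h)) y ∧
        (∀ ℓ : ℕ, ℓ.Prime → ℓ ≠ q → tVal y ℓ = tVal x ℓ) ∧
        ∀ u : (ZMod K)ˣ, y (X (Sum.inr (ZMod.unitsMap h u))) = x (X (Sum.inr u))

variable (p : ℕ) [Fact p.Prime]

/-- **Eichler–Shimura.** Every eigen system with values in a complete discrete valuation ring has an
attached representation. Proved by `attachInput`. -/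
def AttachInput : Prop :=
  ∀ (K : ℕ) [NeZero K] (H : Subgroup (ZMod K)ˣ), -1 ∈ H →
    ∀ (O : Type) [CommRing O] [IsDomain O] [IsDiscreteValuationRing O]
      [IsAdicComplete (IsLocalRing.maximalIdeal O) O] [Finite (IsLocalRing.ResidueField O)]
      [CharZero O], (p : O) ∈ IsLocalRing.maximalIdeal O →
      ∀ x : MvPolynomial (Nat.Primes ⊕ (ZMod K)ˣ) ℤ →+* O, IsPoint K H x →
        ∃ r : Γℚ →* M2 O, IsAttached p x r

/-- **Good reduction at `p`**, for representations whose reduction spans all matrices.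
Proved by `Fermat.RED.Flat.flatInput`. -/
def FlatInput : Prop :=
  ∀ (K : ℕ) [NeZero K] (H : Subgroup (ZMod K)ˣ), -1 ∈ H → ¬ p ∣ K → p ≠ 2 →
    ∀ (O : Type) [CommRing O] [IsDomain O] [IsDiscreteValuationRing O]
      [IsAdicComplete (IsLocalRing.maximalIdeal O) O] [Finite (IsLocalRing.ResidueField O)]
      [CharZero O], (p : O) ∈ IsLocalRing.maximalIdeal O →
      ∀ x : MvPolynomial (Nat.Primes ⊕ (ZMod K)ˣ) ℤ →+* O, IsPoint K H x →
        ∀ (r : Γℚ →* M2 O) (hr : IsAttached p x r),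
          Submodule.span (IsLocalRing.ResidueField O)
            (Set.range fun σ => (r σ).map (IsLocalRing.residue O)) = ⊤ →
          (repOf r hr.cont).IsFlatAt p

/-- **Bad reduction at `q ∥ K`, `q ≠ p`, trivial character at `q`.**  Inertia is unipotent; for a
system which is new at `q` the trace of Frobenius is `± (q + 1)` up to the diamond.
Proved from the torsion statements of `BAD/XH` by `newInput_of_torsion`. -/
def NewInput : Prop :=
  ∀ (K : ℕ) [NeZero K] (H : Subgroup (ZMod K)ˣ), -1 ∈ H →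
    ∀ (q : ℕ), q.Prime → q ≠ p → ∀ K' : ℕ, K' * q = K → ¬ q ∣ K' →
      (∀ u : (ZMod K)ˣ, ((u : ZMod K).val : ZMod K') = 1 → u ∈ H) →
    ∀ (O : Type) [CommRing O] [IsDomain O] [IsDiscreteValuationRing O]
      [IsAdicComplete (IsLocalRing.maximalIdeal O) O] [Finite (IsLocalRing.ResidueField O)]
      [CharZero O], (p : O) ∈ IsLocalRing.maximalIdeal O →
      ∀ x : MvPolynomial (Nat.Primes ⊕ (ZMod K)ˣ) ℤ →+* O, IsPoint K H x →
        ∀ (r : Γℚ →* M2 O), IsAttached p x r →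
          ∀ A : ValuationSubring ℚbar, A.LiesOverPrime q →
            (∀ σ ∈ A.inertiaSubgroupIn ℚ, (r σ - 1) * (r σ - 1) = 0) ∧
            (¬ IsOldAt K H x q → ∀ φ : Γℚ, A.IsFrobeniusAt φ q →
              ∀ u : (ZMod K)ˣ, ((u : ZMod K).val : ZMod K') = (q : ZMod K') →
                (r φ).trace ^ 2 = x (X (Sum.inr u)) * ((q : O) + 1) ^ 2)

/-- **Bad reduction at `q ∥ K`, `q ≠ p`, a character of `p`-power order at `q`.**  If the
character is nontrivial then inertia has the eigenvalue `1` (and so `det`).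
Proved by `charInput`. -/
def CharInput : Prop :=
  ∀ (K : ℕ) [NeZero K] (H : Subgroup (ZMod K)ˣ), -1 ∈ H →
    ∀ (q : ℕ), q.Prime → q ≠ p → ∀ K' : ℕ, K' * q = K → ¬ q ∣ K' →
      (∀ u : (ZMod K)ˣ, ((u : ZMod K).val : ZMod K') = 1 → ∃ k : ℕ, u ^ p ^ k ∈ H) →
    ∀ (O : Type) [CommRing O] [IsDomain O] [IsDiscreteValuationRing O]
      [IsAdicComplete (IsLocalRing.maximalIdeal O) O] [Finite (IsLocalRing.ResidueField O)]
      [CharZero O], (p : O) ∈ IsLocalRing.maximalIdeal O →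
      ∀ x : MvPolynomial (Nat.Primes ⊕ (ZMod K)ˣ) ℤ →+* O, IsPoint K H x →
        (∃ u : (ZMod K)ˣ, ((u : ZMod K).val : ZMod K') = 1 ∧ x (X (Sum.inr u)) ≠ 1) →
        ∀ (r : Γℚ →* M2 O), IsAttached p x r →
          ∀ A : ValuationSubring ℚbar, A.LiesOverPrime q → ∀ σ ∈ A.inertiaSubgroupIn ℚ,
            (r σ).trace = 1 + (r σ).det

/-- **Bad reduction at `p ∥ K`, trivial character at `p`.** If the system is new at `p` and the
reduction spans all matrices, then the representation has an unramified quotient at `p`, where the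
square of Frobenius is the diamond value at `p`.
Proved from `OrdTorsion` by `ordInput_of_torsion`. -/
def OrdInput : Prop :=
  ∀ (K : ℕ) [NeZero K] (H : Subgroup (ZMod K)ˣ), -1 ∈ H → p ≠ 2 →
    ∀ K' : ℕ, K' * p = K → ¬ p ∣ K' →
      (∀ u : (ZMod K)ˣ, ((u : ZMod K).val : ZMod K') = 1 → u ∈ H) →
    ∀ (O : Type) [CommRing O] [IsDomain O] [IsDiscreteValuationRing O]
      [IsAdicComplete (IsLocalRing.maximalIdeal O) O] [Finite (IsLocalRing.ResidueField O)]
      [CharZero O], (p : O) ∈ IsLocalRing.maximalIdeal O →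
      ∀ x : MvPolynomial (Nat.Primes ⊕ (ZMod K)ˣ) ℤ →+* O, IsPoint K H x →
        ¬ IsOldAt K H x p →
        ∀ (r : Γℚ →* M2 O), IsAttached p x r →
          Submodule.span (IsLocalRing.ResidueField O)
            (Set.range fun σ => (r σ).map (IsLocalRing.residue O)) = ⊤ →
          ∀ A : ValuationSubring ℚbar, A.LiesOverPrime p → ∃ P : (M2 O)ˣ,
            (∀ σ ∈ A.decompositionSubgroup ℚ, ((P : M2 O) * r σ * (↑P⁻¹ : M2 O)) 1 0 = 0) ∧
            (∀ σ ∈ A.inertiaSubgroupIn ℚ, ((P : M2 O) * r σ * (↑P⁻¹ : M2 O)) 1 1 = 1) ∧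
            ∀ φ : Γℚ, A.IsFrobeniusAt φ p → ∀ u : (ZMod K)ˣ,
              ((u : ZMod K).val : ZMod K') = (p : ZMod K') →
                ((P : M2 O) * r φ * (↑P⁻¹ : M2 O)) 1 1 ^ 2 = x (X (Sum.inr u))

end Fermat.GR.RT

end
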