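import Mathlib
import Fermat.Agent.GR.RT.Inputs
import Fermat.Agent.GR.ES.DVRExt
import Fermat.Agent.JAC.XH.HeckeS2

/-!
# Eigen systems over the coefficient ring

There are finitely many eigen systems of a level in a field of characteristic zero, each has values
in the integers of a finite extension of the coefficient ring, and a complex eigenform gives one
under any embedding of the coefficient ring.
-/

set_option autoImplicit false
set_option linter.unusedSectionVars false

noncomputable section

open MvPolynomial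
open scoped TensorProduct

namespace Fermat.GR.RT

open Fermat.HM Fermat.MC.Lvl

/-- A domain embeds in the algebraic closure of its fraction field. -/
theorem algClosure_algebraMap_injective (O : Type) [CommRing O] [IsDomain O] :
    Function.Injective (algebraMap O (AlgebraicClosure (FractionRing O))) := by
  rw [IsScalarTower.algebraMap_eq O (FractionRing O)]
  exact (algebraMap (FractionRing O) _).injective.comp (IsFractionRing.injective O _)

variable (K : ℕ) [NeZero K] (H : Subgroup (ZMod K)ˣ) [NegMem H]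

local notation "Lab" => MvPolynomial (Nat.Primes ⊕ (ZMod K)ˣ) ℤ
local notation "TK" => Fermat.JAC.HeckeGens.R (Fermat.JAC.XH.heckeGens K H)

/-- An eigen system factors through the Hecke ring of the level. -/
theorem IsPoint.exists_factor {Ω : Type} [CommRing Ω] {x : Lab →+* Ω} (hx : IsPoint K H x) :
    ∃ f : TK →+* Ω, x = f.comp (Fermat.JAC.XH.ringEval K H) := by
  obtain ⟨f, h1, h2⟩ := Fermat.JAC.XH.exists_point K H x hx.kills
  refine ⟨f, MvPolynomial.ringHom_ext (fun n => ?_) fun i => ?_⟩
  · simp
  · rcases i with ℓ | u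
    · rw [RingHom.comp_apply, Fermat.JAC.XH.ringEval_inl, h1]
    · rw [RingHom.comp_apply, Fermat.JAC.XH.ringEval_inr, h2]

/-- Conversely, a point of the Hecke ring gives an eigen system. -/
theorem isPoint_of_factor {Ω : Type} [CommRing Ω] (f : TK →+* Ω) :
    IsPoint K H (f.comp (Fermat.JAC.XH.ringEval K H)) :=
  ⟨fun P hP => by
    rw [RingHom.comp_apply, (Fermat.JAC.XH.ringEval_eq_zero_iff K H P).mpr hP, map_zero]⟩

/-- Only finitely many systems with values in a domain factor through a finite algebra. -/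
theorem finite_factor {T : Type} [CommRing T] [Module.Finite ℤ T] (Ω : Type) [CommRing Ω]
    [IsDomain Ω] [CharZero Ω] (ev : Lab →+* T) :
    {x : Lab →+* Ω | ∃ f : T →+* Ω, x = f.comp ev}.Finite := by
  classical
  obtain ⟨s, hs⟩ := Module.Finite.fg_top (R := ℤ) (M := T)
  choose P hP hP0 using fun t : T => Algebra.IsIntegral.isIntegral (R := ℤ) t
  have hfin : {g : s → Ω | ∀ t, g t ∈ ((P t.1).map (Int.castRingHom Ω)).roots.toFinset}.Finite := by
    refine Set.Finite.subset (Set.Finite.pi fun t : s =>
      (((P t.1).map (Int.castRingHom Ω)).roots.toFinset).finite_toSet) ?_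
    intro g hg t _
    exact hg t
  refine (hfin.biUnion (t := fun g => {x : Lab →+* Ω | ∃ f : T →+* Ω,
      x = f.comp ev ∧ ∀ t : s, f t = g t}) fun g _ =>
    Set.Subsingleton.finite ?_).subset ?_
  · rintro x ⟨f, rfl, hf⟩ y ⟨f', rfl, hf'⟩
    suffices f = f' by rw [this]
    refine RingHom.ext fun t => ?_
    have ht : t ∈ Submodule.span ℤ (s : Set T) := hs ▸ Submodule.mem_top
    induction ht using Submodule.span_induction with
    | mem a ha => exact (hf ⟨a, ha⟩).trans (hf' ⟨a, ha⟩).symm
    | zero => rw [map_zero, map_zero]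
    | add a b _ _ ha hb => rw [map_add, map_add, ha, hb]
    | smul n a _ ha => rw [map_zsmul, map_zsmul, ha]
  · rintro x ⟨f, rfl⟩
    refine Set.mem_biUnion (x := fun t : s => f t) (fun t => ?_) ⟨f, rfl, fun t => rfl⟩
    rw [Multiset.mem_toFinset, Polynomial.mem_roots ((hP t.1).map _).ne_zero, Polynomial.IsRoot,
      Polynomial.eval_map, show Int.castRingHom Ω = f.comp (algebraMap ℤ T) from
        RingHom.ext_int _ _, ← Polynomial.hom_eval₂, hP0, map_zero]

/-- **There are finitely many eigen systems.** -/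
theorem finite_isPoint (Ω : Type) [CommRing Ω] [IsDomain Ω] [CharZero Ω] :
    {x : Lab →+* Ω | IsPoint K H x}.Finite :=
  (finite_factor K Ω (Fermat.JAC.XH.ringEval K H)).subset fun _ hx => IsPoint.exists_factor K H hx

variable (O : Type) [CommRing O] [IsDomain O] [IsDiscreteValuationRing O]
  [IsAdicComplete (IsLocalRing.maximalIdeal O) O] [Finite (IsLocalRing.ResidueField O)] [CharZero O]

/-- A point of a finite algebra takes values in the integers of a finite extension of the
coefficient ring. -/
theorem exists_dvr_factor {T : Type} [CommRing T] [Module.Finite ℤ T]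
    (f : T →+* AlgebraicClosure (FractionRing O)) :
    ∃ (E : DVRExt O) (f' : T →+* E.carrier)
      (j : E.carrier →ₐ[O] AlgebraicClosure (FractionRing O)),
      Function.Injective j ∧ (j : E.carrier →+* _).comp f' = f := by
  have : Module.Finite O (O ⊗[ℤ] T) := Module.Finite.base_change ℤ O T
  let g : O ⊗[ℤ] T →ₐ[O] AlgebraicClosure (FractionRing O) :=
    Algebra.TensorProduct.lift (Algebra.ofId O _)
      { f with commutes' := fun n => by simp } fun _ _ => Commute.all _ _
  obtain ⟨E, f', j, hj, hjf⟩ := exists_dvr_of_algHom (O ⊗[ℤ] T) g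
  refine ⟨E, (f' : O ⊗[ℤ] T →+* E.carrier).comp Algebra.TensorProduct.includeRight.toRingHom, j,
    hj, ?_⟩
  refine RingHom.ext fun t => ?_
  change j (f' (1 ⊗ₜ[ℤ] t)) = f t
  rw [← AlgHom.comp_apply, hjf]
  simp [g]

/-- **An eigen system has values in the integers of a finite extension.** -/
theorem exists_dvr_point {x : Lab →+* AlgebraicClosure (FractionRing O)} (hx : IsPoint K H x) :
    ∃ (E : DVRExt O) (y : Lab →+* E.carrier), IsPoint K H y ∧
      ∃ j : E.carrier →ₐ[O] AlgebraicClosure (FractionRing O),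
        Function.Injective j ∧ (j : E.carrier →+* _).comp y = x := by
  obtain ⟨f, rfl⟩ := IsPoint.exists_factor K H hx
  obtain ⟨E, f', j, hj, hjf⟩ := exists_dvr_factor O f
  exact ⟨E, f'.comp (Fermat.JAC.XH.ringEval K H),
    isPoint_of_factor K H f', j, hj, by rw [← hjf, RingHom.comp_assoc]⟩

/-- A complex point of a finite algebra gives one over the coefficients with the same relations. -/
theorem exists_point_factor {T : Type} [CommRing T] [Module.Finite ℤ T] (u : O →+* ℂ)
    (hu : Function.Injective u) (ev : Lab →+* T) (χ : T →+* ℂ) (c : Nat.Primes ⊕ (ZMod K)ˣ → ℂ)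
    (hχ : ∀ i, c i = χ (ev (X i))) :
    ∃ f' : T →+* AlgebraicClosure (FractionRing O),
      ∀ P : MvPolynomial (Nat.Primes ⊕ (ZMod K)ˣ) O,
        eval₂ (algebraMap O _) (fun i => f'.comp ev (X i)) P = 0 ↔ eval₂ u c P = 0 := by
  have : Module.Finite O (O ⊗[ℤ] T) := Module.Finite.base_change ℤ O T
  let : Algebra O ℂ := u.toAlgebra
  -- the image of `O ⊗ T` in `ℂ` is finite over `O`, so it embeds in the algebraic closure
  let e : O ⊗[ℤ] T →ₐ[O] ℂ :=
    Algebra.TensorProduct.lift (Algebra.ofId O ℂ)
      { χ with commutes' := fun n => by simp } fun _ _ => Commute.all _ _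
  set Q := RingHom.ker e
  have : Q.IsPrime := RingHom.ker_isPrime e
  have hQO : Function.Injective (algebraMap O ((O ⊗[ℤ] T) ⧸ Q)) := by
    rw [injective_iff_map_eq_zero]
    intro a ha
    rw [IsScalarTower.algebraMap_apply O (O ⊗[ℤ] T), Ideal.Quotient.algebraMap_eq,
      Ideal.Quotient.eq_zero_iff_mem, RingHom.mem_ker, AlgHom.commutes] at ha
    exact hu (ha.trans (map_zero u).symm)
  have : Algebra.IsIntegral O ((O ⊗[ℤ] T) ⧸ Q) := Algebra.IsIntegral.of_finite O _
  have hint : (algebraMap O ((O ⊗[ℤ] T) ⧸ Q)).IsIntegral :=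
    algebraMap_isIntegral_iff.mpr ‹_›
  obtain ⟨g, hg⟩ := exists_extend_algClosed (R := O) (S := (O ⊗[ℤ] T) ⧸ Q)
    (algebraMap O ((O ⊗[ℤ] T) ⧸ Q)) hQO hint (algebraMap O (AlgebraicClosure (FractionRing O)))
  have hginj : Function.Injective g := by
    rw [RingHom.injective_iff_ker_eq_bot]
    have := RingHom.ker_isPrime g
    refine Ideal.eq_bot_of_comap_eq_bot (R := O) (S := (O ⊗[ℤ] T) ⧸ Q) (I := RingHom.ker g) ?_
    rw [RingHom.comap_ker, hg]
    exact (RingHom.injective_iff_ker_eq_bot _).mp (algClosure_algebraMap_injective O)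
  let F : O ⊗[ℤ] T →+* AlgebraicClosure (FractionRing O) := g.comp (Ideal.Quotient.mk Q)
  let x : Lab →+* AlgebraicClosure (FractionRing O) :=
    (F.comp Algebra.TensorProduct.includeRight.toRingHom).comp ev
  refine ⟨F.comp Algebra.TensorProduct.includeRight.toRingHom, fun P => ?_⟩
  let E : MvPolynomial (Nat.Primes ⊕ (ZMod K)ˣ) O →+* O ⊗[ℤ] T :=
    eval₂Hom (algebraMap O _) fun i => (1 : O) ⊗ₜ[ℤ] ev (X i)
  have hE1 : eval₂ (algebraMap O _) (fun i => x (X i)) P = F (E P) := by
    change eval₂Hom _ _ P = (F.comp E) P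
    refine RingHom.congr_fun (MvPolynomial.ringHom_ext (fun a => ?_) fun i => ?_) P
    · simp only [eval₂Hom_C, RingHom.comp_apply, E, F]
      exact (RingHom.congr_fun hg a).symm
    · simp only [eval₂Hom_X', RingHom.comp_apply, E, x]
      rfl
  have hE2 : eval₂ u c P = e (E P) := by
    change eval₂Hom _ _ P = ((e : O ⊗[ℤ] T →+* ℂ).comp E) P
    refine RingHom.congr_fun (MvPolynomial.ringHom_ext (fun a => ?_) fun i => ?_) P
    · simp [E]; rfl
    · simp only [eval₂Hom_X', RingHom.comp_apply, E]
      change c i = e ((1 : O) ⊗ₜ[ℤ] _)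
      simp only [e, Algebra.TensorProduct.lift_tmul, map_one, one_mul]
      exact hχ i
  rw [hE1, hE2, RingHom.comp_apply, map_eq_zero_iff g hginj, Ideal.Quotient.eq_zero_iff_mem,
    RingHom.mem_ker]

/-- **A complex eigenform gives an eigen system**, under any embedding of the coefficients. -/
theorem exists_point_of_eigen (u : O →+* ℂ) (hu : Function.Injective u)
    {f : CuspForm (Fermat.MC.Lvl.GammaH K H) 2} (hf : f ≠ 0) (c : Nat.Primes ⊕ (ZMod K)ˣ → ℂ)
    (hc : ∀ i, formOp K H i f = c i • f) :
    ∃ x : Lab →+* AlgebraicClosure (FractionRing O), IsPoint K H x ∧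
      ∀ P : MvPolynomial (Nat.Primes ⊕ (ZMod K)ˣ) O,
        eval₂ (algebraMap O _) (fun i => x (X i)) P = 0 ↔ eval₂ u c P = 0 := by
  obtain ⟨χ, h1, h2⟩ := Fermat.JAC.XH.exists_point_of_eigenform K H hf c hc
  obtain ⟨f', hf'⟩ := exists_point_factor K O u hu (Fermat.JAC.XH.ringEval K H) χ c fun i => by
    rcases i with ℓ | v
    · rw [Fermat.JAC.XH.ringEval_inl]; exact (h1 ℓ).symm
    · rw [Fermat.JAC.XH.ringEval_inr]; exact (h2 v).symm
  exact ⟨f'.comp (Fermat.JAC.XH.ringEval K H), isPoint_of_factor K H f', hf'⟩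

end Fermat.GR.RT

end
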