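import Mathlib
import Fermat.Agent.GR.RT.Cyclotomic
import Fermat.Agent.GR.RT.Points

/-!
# Representations of eigen systems with cyclotomic determinant

The diamond values of an eigen system give a character; when a fixed odd power of every diamond
label is trivial it has a square root, and twisting by it makes the determinant cyclotomic.
-/

set_option autoImplicit false

noncomputable section

open MvPolynomial IsLocalRing
open scoped MatrixGroups

namespace Fermat.GR.RT

open Fermat.HM Fermat.MC.Lvl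

local notation "ℚbar" => AlgebraicClosure ℚ
local notation "Γℚ" => (AlgebraicClosure ℚ ≃ₐ[ℚ] AlgebraicClosure ℚ)
local notation "M2" R => Matrix (Fin 2) (Fin 2) R

variable {K : ℕ} [NeZero K]

/-- The action on the `K`th roots of unity. -/
def cycK (K : ℕ) [NeZero K] : Γℚ →* (ZMod K)ˣ := (exists_primitive_level K).choose_spec.autToPow ℚ

/-- A Frobenius element at `ℓ` prime to `K` acts on the `K`th roots of unity by `ℓ`. -/
theorem cycK_frobenius {ℓ : ℕ} (hℓ : ℓ.Prime) (hK : ℓ.Coprime K) {A : ValuationSubring ℚbar}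
    (hA : A.LiesOverPrime ℓ) {σ : Γℚ} (hσ : A.IsFrobeniusAt σ ℓ) :
    cycK K σ = ZMod.unitOfCoprime ℓ hK := by
  have hz := (exists_primitive_level K).choose_spec
  have h1 := (hz.autToPow_spec ℚ σ).trans (Fermat.GR.frobenius_rootOfUnity hℓ hA hσ
    (fun h => hℓ.coprime_iff_not_dvd.mp hK h) hz.pow_eq_one)
  refine Units.ext ((ZMod.natCast_zmod_val _).symm.trans ?_)
  rw [ZMod.coe_unitOfCoprime, ZMod.natCast_eq_natCast_iff']
  have h2 := (hz.isOfFinOrder (NeZero.ne K)).pow_inj_mod.mp h1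
  rwa [← hz.eq_orderOf] at h2

/-- Inertia at `ℓ` prime to `K` fixes the `K`th roots of unity. -/
theorem cycK_inertia {ℓ : ℕ} (hℓ : ℓ.Prime) (hK : ℓ.Coprime K) {A : ValuationSubring ℚbar}
    (hA : A.LiesOverPrime ℓ) {σ : Γℚ} (hσ : σ ∈ A.inertiaSubgroupIn ℚ) : cycK K σ = 1 := by
  obtain ⟨φ, hφ⟩ := Fermat.CFT.exists_isFrobeniusAt hℓ hA
  have h := cycK_frobenius hℓ hK hA (Fermat.CFT.isFrobeniusAt_inertia_mul hℓ hA hφ hσ)
  rwa [map_mul, cycK_frobenius hℓ hK hA hφ, mul_eq_right] at h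

/-- The action on the `K`th roots of unity is trivial on an open subgroup. -/
theorem cycK_cont (K : ℕ) [NeZero K] : ∃ L : IntermediateField ℚ ℚbar, FiniteDimensional ℚ L ∧
    ∀ σ : Γℚ, (∀ x ∈ L, σ x = x) → cycK K σ = 1 := by
  have hz := (exists_primitive_level K).choose_spec
  refine ⟨IntermediateField.adjoin ℚ {(exists_primitive_level K).choose},
    IntermediateField.adjoin.finiteDimensional (Algebra.IsIntegral.isIntegral (R := ℚ) _),
    fun σ hσ => Units.ext ((ZMod.natCast_zmod_val _).symm.trans ?_)⟩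
  have h1 := (hz.autToPow_spec ℚ σ).trans
    ((hσ _ (IntermediateField.mem_adjoin_simple_self ℚ _)).trans (pow_one _).symm)
  rw [Units.val_one, ← Nat.cast_one, ZMod.natCast_eq_natCast_iff']
  have h2 := (hz.isOfFinOrder (NeZero.ne K)).pow_inj_mod.mp h1
  rwa [← hz.eq_orderOf] at h2

variable {H : Subgroup (ZMod K)ˣ} {O : Type} [CommRing O]
  {x : MvPolynomial (Nat.Primes ⊕ (ZMod K)ˣ) ℤ →+* O}

/-- The diamond operators of `H` act trivially on the forms of level `Γ_H(K)`. -/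
theorem formDia_of_mem {u : (ZMod K)ˣ} (hu : u ∈ H) (f : CuspForm (GammaH K H) 2) :
    formDia K H u f = f := by
  obtain ⟨h1, h2⟩ := (exists_gamma0_lift u).choose_spec
  refine DFunLike.coe_injective ?_
  rw [formDia, IsLevelMap.coe_formPull, toReal_gq, ← ModularForm.SL_slash]
  exact slash_of_mem f (mem_GammaH_iff_upper.mpr ⟨h1, u, hu, h2.symm⟩)

/-- An eigen system of `Γ_H(K)` has diamond value one on `H`. -/
theorem IsPoint.dia_eq_one (hx : IsPoint K H x) {u : (ZMod K)ˣ} (hu : u ∈ H) :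
    x (X (Sum.inr u)) = 1 := by
  have h := hx.kills (X (Sum.inr u) - 1) (LinearMap.ext fun f => by
    rw [map_sub, map_one, LinearMap.sub_apply, formAct_X]
    exact sub_eq_zero.mpr (formDia_of_mem hu f))
  rwa [map_sub, map_one, sub_eq_zero] at h

/-- The values of the diamond operators. -/
def diaVal (hx : IsPoint K H x) : (ZMod K)ˣ →* O where
  toFun u := x (X (Sum.inr u))
  map_one' := hx.dia_eq_one (one_mem H)
  map_mul' u v := by
    have h := hx.kills (X (Sum.inr u) * X (Sum.inr v) - X (Sum.inr (u * v)))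
      (LinearMap.ext fun f => by
        rw [map_sub, map_mul, formAct_X, formAct_X, formAct_X, LinearMap.sub_apply,
          Module.End.mul_apply]
        exact sub_eq_zero.mpr (formDia_mul u v f))
    rw [map_sub, map_mul, sub_eq_zero] at h
    exact h.symm

/-- `diaVal` is the value of the eigen system at the diamond label. -/
theorem diaVal_apply (hx : IsPoint K H x) (u : (ZMod K)ˣ) : diaVal hx u = x (X (Sum.inr u)) := rfl

/-- The square root of the inverse of the diamond character, on the Galois group. -/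
def twistChar (hx : IsPoint K H x) (m : ℕ) : Γℚ →* O :=
  ((powMonoidHom ((m - 1) / 2)).comp (diaVal hx)).comp (cycK K)

/-- `twistChar` written out. -/
theorem twistChar_apply (hx : IsPoint K H x) (m : ℕ) (σ : Γℚ) :
    twistChar hx m σ = diaVal hx (cycK K σ) ^ ((m - 1) / 2) := rfl

/-- The twisting character squares to the inverse of the diamond character. -/
theorem twistChar_sq_mul (hx : IsPoint K H x) {m : ℕ} (hm : Odd m)
    (hH : ∀ u : (ZMod K)ˣ, u ^ m ∈ H) (σ : Γℚ) :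
    twistChar hx m σ ^ 2 * diaVal hx (cycK K σ) = 1 := by
  obtain ⟨e, rfl⟩ := hm
  rw [twistChar_apply, ← pow_mul, ← pow_succ, ← map_pow,
    show (2 * e + 1 - 1) / 2 * 2 + 1 = 2 * e + 1 by omega, diaVal_apply]
  exact hx.dia_eq_one (hH _)

/-- The label carrying the trace of Frobenius. -/
def trLabel (K m ℓ : ℕ) [NeZero K] : MvPolynomial (Nat.Primes ⊕ (ZMod K)ˣ) ℤ :=
  if h : ℓ.Prime ∧ ℓ.Coprime K then
    X (Sum.inl ⟨ℓ, h.1⟩) * X (Sum.inr (ZMod.unitOfCoprime ℓ h.2 ^ ((m + 1) / 2)))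
  else 0

section Twist

variable [IsDomain O] [IsDiscreteValuationRing O] [IsAdicComplete (maximalIdeal O) O]
  [Finite (ResidueField O)] [CharZero O] {p : ℕ} [Fact p.Prime]

/-- **The representation of an eigen system with cyclotomic determinant.** -/
theorem exists_twisted_rep (hA : AttachInput p) (hneg : -1 ∈ H) (hpO : (p : O) ∈ maximalIdeal O)
    (hx : IsPoint K H x) {m : ℕ} (hm : Odd m) (hH : ∀ u : (ZMod K)ˣ, u ^ m ∈ H) :
    ∃ (r ρ : Γℚ →* M2 O), IsAttached p x r ∧ MatCont ρ ∧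
      (∀ σ, ρ σ = twistChar hx m σ • r σ) ∧
      (∀ σ, (ρ σ).det = cycO hpO σ) ∧
      (∀ ℓ : ℕ, ℓ.Prime → ¬ ℓ ∣ K * p → ∀ A : ValuationSubring ℚbar, A.LiesOverPrime ℓ →
        (∀ σ ∈ A.inertiaSubgroupIn ℚ, ρ σ = 1) ∧
        ∀ φ : Γℚ, A.IsFrobeniusAt φ ℓ →
          (ρ φ).trace = x (trLabel K m ℓ) ∧ (ρ φ).det = (ℓ : O)) := by
  obtain ⟨r, hr⟩ := hA K H hneg O hpO x hx
  -- the twist of the attached representation by the character
  let ρ : Γℚ →* M2 O :=
    { toFun := fun σ => twistChar hx m σ • r σ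
      map_one' := by rw [map_one, map_one, one_smul]
      map_mul' := fun σ τ => by rw [map_mul, map_mul, smul_mul_smul_comm] }
  have hcop : ∀ ℓ : ℕ, ℓ.Prime → ¬ ℓ ∣ K * p → ℓ.Coprime K := fun ℓ hℓ h =>
    hℓ.coprime_iff_not_dvd.mpr fun h' => h (h'.mul_right p)
  -- at a good prime the twist makes the determinant `ℓ`
  have hloc : ∀ ℓ : ℕ, ℓ.Prime → ¬ ℓ ∣ K * p → ∀ A : ValuationSubring ℚbar, A.LiesOverPrime ℓ →
      (∀ σ ∈ A.inertiaSubgroupIn ℚ, ρ σ = 1) ∧
      ∀ φ : Γℚ, A.IsFrobeniusAt φ ℓ →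
        (ρ φ).trace = x (trLabel K m ℓ) ∧ (ρ φ).det = (ℓ : O) := by
    intro ℓ hℓ hℓK A hAℓ
    refine ⟨fun σ hσ => ?_, fun φ hφ => ?_⟩
    · change twistChar hx m σ • r σ = 1
      rw [hr.unramified ℓ hℓ hℓK A hAℓ σ hσ, twistChar_apply,
        cycK_inertia hℓ (hcop ℓ hℓ hℓK) hAℓ hσ, map_one, one_pow, one_smul]
    · obtain ⟨ht, hd⟩ := hr.frobenius ℓ hℓ hℓK A hAℓ φ hφ
      have hc := cycK_frobenius hℓ (hcop ℓ hℓ hℓK) hAℓ hφ
      have he : eVal x ℓ = diaVal hx (cycK K φ) := by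
        rw [eVal, dif_pos (hcop ℓ hℓ hℓK), hc, diaVal_apply]
      constructor
      · change (twistChar hx m φ • r φ).trace = _
        rw [Matrix.trace_smul, smul_eq_mul, ht, trLabel, dif_pos ⟨hℓ, hcop ℓ hℓ hℓK⟩, map_mul,
          tVal, dif_pos hℓ, he, twistChar_apply, ← diaVal_apply hx, map_pow, ← hc]
        obtain ⟨e, rfl⟩ := hm
        rw [show (2 * e + 1 + 1) / 2 = (2 * e + 1 - 1) / 2 + 1 by omega, pow_succ]
        ring
      · change (twistChar hx m φ • r φ).det = _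
        rw [Matrix.det_smul, hd, he, Fintype.card_fin, mul_left_comm, twistChar_sq_mul hx hm hH,
          mul_one]
  -- the twist is continuous
  have hcont : MatCont ρ := fun n => by
    obtain ⟨L₁, hL₁, h₁⟩ := hr.cont n
    obtain ⟨L₂, hL₂, h₂⟩ := cycK_cont K
    refine ⟨L₁ ⊔ L₂, inferInstance, fun σ hσ i j => ?_⟩
    change (twistChar hx m σ • r σ - 1) i j ∈ _
    rw [twistChar_apply, h₂ σ (fun y hy => hσ y ((le_sup_right : L₂ ≤ L₁ ⊔ L₂) hy)), map_one,
      one_pow, one_smul]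
    exact h₁ σ (fun y hy => hσ y ((le_sup_left : L₁ ≤ L₁ ⊔ L₂) hy)) i j
  refine ⟨r, ρ, hr, hcont, fun σ => rfl, fun σ => ?_, hloc⟩
  -- cyclotomic determinant, by the Frobenius elements
  have : IsLocalHom (algebraMap O O) := ⟨fun a ha => by simpa using ha⟩
  have h := det_eq_cycO (A := O) hpO hcont (Nat.primeFactors (K * p))
    (fun ℓ hℓ hbad P hP φ hφ => ((hloc ℓ hℓ (fun h => hbad (Nat.mem_primeFactors.mpr
      ⟨hℓ, h, mul_ne_zero (NeZero.ne K) (Fact.out : p.Prime).ne_zero⟩)) P hP).2 φ hφ).2) σ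
  rwa [Algebra.algebraMap_self, RingHom.id_apply] at h

end Twist

end Fermat.GR.RT

end
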