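import Mathlib
import Fermat.Agent.GR.ES.EigenChar
import Fermat.Agent.JAC.XH.HeckeS2
import Fermat.Agent.GR.RT.Attach

/-!
# Eigenforms on `Γ₀(N)` and eigen systems of the full level subgroup

Cusp forms on `Γ₀(N)` are those of `Γ_H(N)` for `H` everything; normalised eigenforms there are the
eigenforms of all operators with first coefficient one.
-/

set_option autoImplicit false

noncomputable section

open CongruenceSubgroup ModularFormClass
open scoped MatrixGroups

namespace Fermat.GR.RT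

open Fermat.HM Fermat.MC.Lvl

variable (N : ℕ) [NeZero N]

omit [NeZero N] in
/-- `Γ_H(N)` for `H` everything is `Γ₀(N)`, as subgroups of `GL₂(ℝ)`. -/
theorem GammaH_top_coe :
    ((GammaH N ⊤ : Subgroup SL(2, ℤ)) : Subgroup (GL (Fin 2) ℝ)) =
      ((Gamma0 N : Subgroup SL(2, ℤ)) : Subgroup (GL (Fin 2) ℝ)) := by
  rw [GammaH_top]

/-- Cusp forms on `Γ₀(N)` as forms of the full level subgroup. -/
def toTop : CuspForm (Gamma0 N) 2 ≃ₗ[ℂ] CuspForm (GammaH N ⊤) 2 where
  toFun f :=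
    { toFun := f
      slash_action_eq' := fun γ hγ => f.slash_action_eq' γ (GammaH_top_coe N ▸ hγ)
      holo' := f.holo'
      zero_at_cusps' := fun {_} hc => f.zero_at_cusps' (GammaH_top_coe N ▸ hc) }
  invFun f :=
    { toFun := f
      slash_action_eq' := fun γ hγ => f.slash_action_eq' γ ((GammaH_top_coe N).symm ▸ hγ)
      holo' := f.holo'
      zero_at_cusps' := fun {_} hc => f.zero_at_cusps' ((GammaH_top_coe N).symm ▸ hc) }
  map_add' _ _ := rfl
  map_smul' _ _ := rfl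
  left_inv _ := rfl
  right_inv _ := rfl

omit [NeZero N] in
/-- `toTop` keeps the underlying function. -/
theorem coe_toTop (f : CuspForm (Gamma0 N) 2) : ⇑(toTop N f) = ⇑f := rfl

omit [NeZero N] in
/-- The inverse of `toTop` keeps the underlying function. -/
theorem coe_toTop_symm (f : CuspForm (GammaH N ⊤) 2) : ⇑((toTop N).symm f) = ⇑f := rfl

/-- The diamond operators are trivial for the full level subgroup. -/
theorem formDia_top (u : (ZMod N)ˣ) (f : CuspForm (GammaH N ⊤) 2) : formDia N ⊤ u f = f :=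
  formDia_of_mem (Subgroup.mem_top u) f

/-- At `ℓ ∣ N` the Hecke operator of the full level subgroup is `U_ℓ`. -/
theorem coe_formHecke_top_of_dvd {ℓ : ℕ} [Fact ℓ.Prime] (h : ℓ ∣ N)
    (f : CuspForm (Gamma0 N) 2) :
    formHecke N ⊤ ℓ (toTop N f) = toTop N (CuspForm.heckeULin 2 h f) :=
  DFunLike.coe_injective <| by
    rw [Fermat.JAC.XH.coe_formHecke_of_dvd N ⊤ h, coe_toTop, coe_toTop]
    exact (CuspForm.coe_heckeULin_apply 2 h f).symm

/-- At `ℓ ∤ N` the Hecke operator of the full level subgroup is `T_ℓ`. -/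
theorem coe_formHecke_top_of_not_dvd {ℓ : ℕ} [hℓ : Fact ℓ.Prime] (h : ¬ ℓ ∣ N)
    (f : CuspForm (Gamma0 N) 2) :
    formHecke N ⊤ ℓ (toTop N f) = toTop N (CuspForm.heckeTLin 2 hℓ.out h f) :=
  DFunLike.coe_injective <| by
    have e := Fermat.JAC.XH.coe_formHecke_of_not_dvd N ⊤ h (toTop N f)
    rw [formDia_top, coe_toTop] at e
    rw [coe_toTop, CuspForm.coe_heckeTLin_apply]
    exact add_right_cancel (e.trans (add_comm _ _))

/-- The eigen values of a normalised eigenform. -/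
def eigenVal {N : ℕ} (f : CuspForm (Gamma0 N) 2) : Nat.Primes ⊕ (ZMod N)ˣ → ℂ :=
  Sum.elim (fun ℓ => qCoeff f (ℓ : ℕ)) fun _ => 1

/-- A normalised eigenform is an eigenform of all operators of the level. -/
theorem formOp_toTop {f : CuspForm (Gamma0 N) 2} (hf : f.IsNormalizedEigenform)
    (i : Nat.Primes ⊕ (ZMod N)ˣ) :
    formOp N ⊤ i (toTop N f) = eigenVal f i • toTop N f := by
  rcases i with ℓ | u
  · have : Fact (ℓ : ℕ).Prime := ⟨ℓ.2⟩
    have h1 : (ℓ : ℕ) ≠ 1 := ℓ.2.one_lt.ne'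
    change formHecke N ⊤ (ℓ : ℕ) (toTop N f) = qCoeff f (ℓ : ℕ) • toTop N f
    by_cases h : (ℓ : ℕ) ∣ N
    · rw [coe_formHecke_top_of_dvd N h, ← map_smul]
      have e := Fermat.GR.heckeAlgebra_apply_eigen hf
        (CuspForm.heckeAlgebra.U ℓ.2 h (Set.notMem_empty _))
      rw [CuspForm.heckeAlgebra.coe_U] at e
      rw [e, Fermat.GR.Lifting.coeff_U ℓ.2 h, mul_one]
    · rw [coe_formHecke_top_of_not_dvd N h, ← map_smul]
      have e := Fermat.GR.heckeAlgebra_apply_eigen hf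
        (CuspForm.heckeAlgebra.T ℓ.2 h (Set.notMem_empty _))
      rw [CuspForm.heckeAlgebra.coe_T] at e
      rw [e, Fermat.GR.Lifting.coeff_T ℓ.2 h, mul_one,
        if_neg (fun h' => h1 (Nat.dvd_one.mp h')), mul_zero, add_zero]
  · change formDia N ⊤ u (toTop N f) = (1 : ℂ) • toTop N f
    rw [formDia_top, one_smul]

/-- An eigenform of all operators gives a normalised eigenform with the same values. -/
theorem exists_normalized {f : CuspForm (GammaH N ⊤) 2} (hf : f ≠ 0)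
    {c : Nat.Primes ⊕ (ZMod N)ˣ → ℂ} (hc : ∀ i, formOp N ⊤ i f = c i • f) :
    ∃ g : CuspForm (Gamma0 N) 2, g.IsNormalizedEigenform ∧
      ∀ ℓ : Nat.Primes, qCoeff g (ℓ : ℕ) = c (Sum.inl ℓ) := by
  set v := (toTop N).symm f
  have hv0 : v ≠ 0 := fun h => hf ((toTop N).symm.map_eq_zero_iff.mp h)
  have hv : toTop N v = f := (toTop N).apply_symm_apply f
  have hU : ∀ (ℓ : Nat.Primes) (h : (ℓ : ℕ) ∣ N),
      CuspForm.heckeULin 2 h v = c (Sum.inl ℓ) • v := fun ℓ h => by
    have : Fact (ℓ : ℕ).Prime := ⟨ℓ.2⟩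
    refine (toTop N).injective ?_
    rw [← coe_formHecke_top_of_dvd N h, map_smul, hv]
    exact hc (Sum.inl ℓ)
  have hT : ∀ (ℓ : Nat.Primes) (h : ¬ (ℓ : ℕ) ∣ N),
      CuspForm.heckeTLin 2 ℓ.2 h v = c (Sum.inl ℓ) • v := fun ℓ h => by
    have : Fact (ℓ : ℕ).Prime := ⟨ℓ.2⟩
    refine (toTop N).injective ?_
    rw [← coe_formHecke_top_of_not_dvd N h, map_smul, hv]
    exact hc (Sum.inl ℓ)
  have hall : ∀ t : CuspForm.heckeAlgebra N 2 (∅ : Set ℕ), ∃ a : ℂ, t.1 v = a • v := by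
    rintro ⟨t, ht⟩
    unfold CuspForm.heckeAlgebra at ht
    induction ht using Algebra.adjoin_induction with
    | mem x hx =>
      rcases hx with ⟨ℓ, hℓ, hℓN, -, rfl⟩ | ⟨q, hqN, hq, -, rfl⟩
      · exact ⟨_, hT ⟨ℓ, hℓ⟩ hℓN⟩
      · exact ⟨_, hU ⟨q, hq⟩ hqN⟩
    | algebraMap n => exact ⟨n, by simp [Int.cast_smul_eq_zsmul]⟩
    | add x y _ _ hx hy =>
      obtain ⟨a, ha⟩ := hx
      obtain ⟨b, hb⟩ := hy
      exact ⟨a + b, by rw [LinearMap.add_apply, ha, hb, add_smul]⟩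
    | mul x y _ _ hx hy =>
      obtain ⟨a, ha⟩ := hx
      obtain ⟨b, hb⟩ := hy
      exact ⟨b * a, by rw [Module.End.mul_apply, hb, map_smul, ha, smul_smul]⟩
  -- the eigen values form a character of the Hecke algebra, and the first coefficient is nonzero
  choose a ha using hall
  have huniq : ∀ {x y : ℂ}, x • v = y • v → x = y := fun h => smul_left_injective ℂ hv0 h
  let χ : CuspForm.heckeAlgebra N 2 (∅ : Set ℕ) →+* ℂ :=
    { toFun := a
      map_one' := huniq ((ha 1).symm.trans (one_smul ℂ v).symm)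
      map_zero' := huniq ((ha 0).symm.trans (zero_smul ℂ v).symm)
      map_add' := fun s t => huniq <| by
        rw [← ha, add_smul, ← ha, ← ha]
        rfl
      map_mul' := fun s t => huniq <| by
        rw [← ha, mul_smul, ← ha t, ← map_smul, mul_comm s t]
        change t.1 (s.1 v) = _
        rw [ha s, map_smul, ha t, smul_smul, mul_comm, ← smul_smul] }
  have h1 : qCoeff v 1 ≠ 0 := Fermat.GR.Lifting.coeff_one_ne_zero hv0 (χ := χ) ha
  set g := (qCoeff v 1)⁻¹ • v with hg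
  have hg1 : qCoeff g 1 = 1 := by
    rw [← Fermat.GR.Lifting.coeffLin_apply, hg, map_smul, Fermat.GR.Lifting.coeffLin_apply,
      smul_eq_mul, inv_mul_cancel₀ h1]
  clear_value g
  refine ⟨g, Fermat.GR.Lifting.isNormalizedEigenform_of_eigen hg1 (χ := χ) fun t => ?_, fun ℓ => ?_⟩
  · rw [hg, map_smul, ha t, smul_comm]
    rfl
  · have hℓ1 : (ℓ : ℕ) ≠ 1 := ℓ.2.one_lt.ne'
    by_cases h : (ℓ : ℕ) ∣ N
    · have e : CuspForm.heckeULin 2 h g = c (Sum.inl ℓ) • g := by
        rw [hg, map_smul, hU ℓ h, smul_comm]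
      have e' := congrArg (Fermat.GR.Lifting.coeffLin N 1) e
      rw [map_smul (Fermat.GR.Lifting.coeffLin N 1), Fermat.GR.Lifting.coeffLin_apply,
        Fermat.GR.Lifting.coeffLin_apply, hg1, Fermat.GR.Lifting.coeff_U ℓ.2 h, mul_one,
        smul_eq_mul, mul_one] at e'
      exact e'
    · have e : CuspForm.heckeTLin 2 ℓ.2 h g = c (Sum.inl ℓ) • g := by
        rw [hg, map_smul, hT ℓ h, smul_comm]
      have e' := congrArg (Fermat.GR.Lifting.coeffLin N 1) e
      rw [map_smul (Fermat.GR.Lifting.coeffLin N 1), Fermat.GR.Lifting.coeffLin_apply,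
        Fermat.GR.Lifting.coeffLin_apply, hg1,
        Fermat.GR.Lifting.coeff_T ℓ.2 h, mul_one, if_neg (fun h' => hℓ1 (Nat.dvd_one.mp h')),
        mul_zero, add_zero, smul_eq_mul, mul_one] at e'
      exact e'

/-- The Hecke ring acts faithfully on the forms of the level. -/
theorem exists_formHom :
    ∃ inj : (Fermat.JAC.XH.heckeGens N (⊤ : Subgroup (ZMod N)ˣ)).R →+*
        Module.End ℂ (CuspForm (GammaH N ⊤) 2),
      Function.Injective inj ∧ ∀ P, inj (Fermat.JAC.XH.ringEval N ⊤ P) = formAct N ⊤ P := by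
  let inj := (Fermat.JAC.XH.ringEval N ⊤).liftOfSurjective (Fermat.JAC.XH.ringEval_surjective N ⊤)
    ⟨(formAct N ⊤).toRingHom, fun P hP =>
      RingHom.mem_ker.mpr ((Fermat.JAC.XH.ringEval_eq_zero_iff N ⊤ P).mp (RingHom.mem_ker.mp hP))⟩
  have h : ∀ P, inj (Fermat.JAC.XH.ringEval N ⊤ P) = formAct N ⊤ P := fun P =>
    RingHom.liftOfRightInverse_comp_apply _ _ _ _ P
  refine ⟨inj, (injective_iff_map_eq_zero _).mpr fun t ht => ?_, h⟩
  obtain ⟨P, rfl⟩ := Fermat.JAC.XH.ringEval_surjective N ⊤ t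
  rw [h] at ht
  exact (Fermat.JAC.XH.ringEval_eq_zero_iff N ⊤ P).mpr ht

end Fermat.GR.RT

end
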