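import Mathlib
import Fermat.Agent.HM.Raise.Semisimple
import Fermat.Agent.HM.Package
import Fermat.Agent.GR.RT.Points

/-!
# Congruent eigen systems and the modules of a level

The systems congruent to a residual one separate the operators prime to the level on the localised
homomorphisms; the localisation is nonzero exactly when such a system exists.
-/

set_option autoImplicit false
set_option linter.unusedSectionVars false

noncomputable section

open MvPolynomial IsLocalRing
open scoped MatrixGroups

namespace Fermat.GR.RT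

open Fermat.HM Fermat.MC.Lvl

variable {K : ℕ} [NeZero K] {H : Subgroup (ZMod K)ˣ}

local notation "Lbl" => Nat.Primes ⊕ (ZMod K)ˣ

section Forms

/-- The operator of a label on forms is `formOp`. -/
theorem formOpOver_labelOp (i : Lbl) :
    formOpOver (LevelOver.self K H) (labelOp K i) = formOp K H i :=
  LinearMap.ext fun f => formPeriod_injective (by rw [formPeriod_formOpOver, formPeriod_formOp])

/-- The image of an additive map to a torsion-free group is a combination of integral ones. -/
theorem exists_eq_sum_int {A : Type*} [AddCommGroup A] [IsAddTorsionFree A]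
    {Γ : Subgroup SL(2, ℤ)} [Γ.FiniteIndex] (φ : Additive Γ →+ A) :
    ∃ (n : ℕ) (z : Fin n → A) (ψ : Fin n → (Additive Γ →+ ℤ)),
      ∀ γ, φ γ = ∑ i, ψ i γ • z i := by
  classical
  have : Group.FG SL(2, ℤ) := Group.fg_iff.mpr
    ⟨_, SpecialLinearGroup.SL2Z_generators, Set.toFinite _⟩
  have : Group.FG Γ := Subgroup.fg_of_index_ne_zero Γ
  have : AddGroup.FG (Additive Γ) := inferInstance
  have : AddGroup.FG φ.range := AddGroup.fg_range φ
  have : Module.Finite ℤ φ.range := Module.Finite.iff_addGroup_fg.mpr ‹_›
  have : Module.IsTorsionFree ℤ φ.range := inferInstance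
  have : Module.Free ℤ φ.range := inferInstance
  let b := Module.finBasis ℤ φ.range
  refine ⟨_, fun i => (b i : A),
    fun i => ((b.coord i).toAddMonoidHom).comp φ.rangeRestrict, fun γ => ?_⟩
  have h := congrArg (fun y : φ.range => (y : A)) (b.sum_repr (φ.rangeRestrict γ))
  simp only [AddSubgroup.val_finsetSum, AddSubgroupClass.coe_zsmul] at h
  exact h.symm

/-- An integral operator killing the integral homomorphisms kills the cusp forms. -/
theorem formAct_eq_zero_of_homAct {P : MvPolynomial Lbl ℤ}
    (hP : ∀ φ : Homs ℤ (GammaH K H), homAct ℤ K H P φ = 0) : formAct K H P = 0 := by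
  refine LinearMap.ext fun f => formPeriod_injective ?_
  rw [formPeriod_formAct, LinearMap.zero_apply, map_zero]
  obtain ⟨n, z, ψ, hψ⟩ := exists_eq_sum_int (formPeriod (N := K) (H := H) f)
  have h : formPeriod (N := K) (H := H) f =
      ∑ i, ((smulAddHom ℤ ℂ).flip (z i)).comp (ψ i) := AddMonoidHom.ext fun γ => by
    rw [hψ, AddMonoidHom.finsetSum_apply]
    rfl
  rw [h, map_sum]
  exact Finset.sum_eq_zero fun i _ => by rw [← comp_homAct, hP, AddMonoidHom.comp_zero]

/-- An operator without nonzero eigenvalues is nilpotent. -/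
theorem isNilpotent_of_eigenvalues {V : Type*} [AddCommGroup V] [Module ℂ V]
    [FiniteDimensional ℂ V] (a : Module.End ℂ V) (h : ∀ μ, a.HasEigenvalue μ → μ = 0) :
    IsNilpotent a := by
  have htop : a.maxGenEigenspace 0 = ⊤ := by
    rw [eq_top_iff, ← Module.End.iSup_maxGenEigenspace_eq_top a]
    refine iSup_le fun μ => ?_
    by_cases hμ : μ = 0
    · rw [hμ]
    · refine (le_of_eq ?_).trans bot_le
      by_contra hne
      obtain ⟨v, hv, hv0⟩ := (Submodule.ne_bot_iff _).mp hne
      obtain ⟨k, hk⟩ := Module.End.mem_maxGenEigenspace a μ v |>.mp hv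
      exact hμ (h μ (Module.End.hasEigenvalue_of_hasGenEigenvalue (k := k)
        (fun hb => hv0 (by
          have hm : v ∈ a.genEigenspace μ k := Module.End.mem_genEigenspace_nat.mpr
            (LinearMap.mem_ker.mpr hk)
          rwa [hb, Submodule.mem_bot] at hm))))
  refine ((LinearMap.charpoly_nilpotent_tfae a).out 2 0).mp fun v => ?_
  obtain ⟨k, hk⟩ := (Module.End.mem_maxGenEigenspace a 0 v).mp (htop ▸ Submodule.mem_top)
  exact ⟨k, by simpa using hk⟩

end Forms

variable {O : Type} [CommRing O] [IsDomain O] [IsDiscreteValuationRing O]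
  [IsAdicComplete (maximalIdeal O) O] [Finite (ResidueField O)] [CharZero O]
  {σ : Type} {p : σ → ℕ} [hp : ∀ i, Fact (p i).Prime]

/-- The label of a prime of the family. -/
def heckeLbl (p : σ → ℕ) [hp : ∀ i, Fact (p i).Prime] (K : ℕ) (i : σ) :
    Nat.Primes ⊕ (ZMod K)ˣ := Sum.inl ⟨p i, (hp i).out⟩

/-- `x` is congruent to the residual system cutting out `m`: every polynomial in the values at the
primes of the family which vanishes at `x` lies in `m`. -/
def CongruentTo {Ω : Type} [CommRing Ω] [Algebra O Ω] (p : σ → ℕ) [∀ i, Fact (p i).Prime]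
    (m : Ideal (MvPolynomial σ O)) (x : MvPolynomial Lbl ℤ →+* Ω) : Prop :=
  ∀ P : MvPolynomial σ O, aeval (fun i => x (X (heckeLbl p K i))) P = 0 → P ∈ m

/-- A system with the residual values in a local extension is congruent to the residual one. -/
theorem congruentTo_of_residue {O' : Type} [CommRing O'] [IsLocalRing O'] [Algebra O O']
    [IsLocalHom (algebraMap O O')] {θ : σ → ResidueField O} {x : MvPolynomial Lbl ℤ →+* O'}
    (h : ∀ i, residue O' (x (X (heckeLbl p K i))) = ResidueField.map (algebraMap O O') (θ i)) :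
    CongruentTo p (sysIdeal θ) x := by
  intro P hP
  rw [sysIdeal, RingHom.mem_ker]
  refine (ResidueField.map (algebraMap O O')).injective ?_
  rw [map_zero]
  have key : (ResidueField.map (algebraMap O O')).comp
      ((aeval (R := O) θ : MvPolynomial σ O →ₐ[O] ResidueField O) : MvPolynomial σ O →+* _) =
      (residue O').comp ((aeval (R := O) fun i => x (X (heckeLbl p K i)) :
        MvPolynomial σ O →ₐ[O] O') : MvPolynomial σ O →+* _) := by
    refine MvPolynomial.ringHom_ext (fun o => ?_) fun i => ?_
    · simp only [RingHom.comp_apply, RingHom.coe_coe, aeval_C]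
      exact ResidueField.map_residue (algebraMap O O') o
    · simp only [RingHom.comp_apply, RingHom.coe_coe, aeval_X]
      exact (h i).symm
  have := RingHom.congr_fun key P
  simp only [RingHom.comp_apply, RingHom.coe_coe] at this
  rw [this, hP, map_zero]

/-- A congruent system in a finite domain over the coefficients has the residual values. -/
theorem residue_of_congruentTo {O' : Type} [CommRing O'] [IsDomain O'] [IsLocalRing O']
    [Algebra O O'] [IsLocalHom (algebraMap O O')] [Module.Finite O O'] {θ : σ → ResidueField O}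
    {x : MvPolynomial Lbl ℤ →+* O'} (h : CongruentTo p (sysIdeal θ) x) (i : σ) :
    residue O' (x (X (heckeLbl p K i))) = ResidueField.map (algebraMap O O') (θ i) := by
  obtain ⟨a, ha⟩ := residue_surjective (θ i)
  rw [← ha, ResidueField.map_residue, ← sub_eq_zero, ← map_sub, residue_eq_zero_iff]
  let ev : MvPolynomial σ O →ₐ[O] O' := aeval fun i => x (X (heckeLbl p K i))
  have : IsNoetherian O O' := isNoetherian_of_isNoetherianRing_of_finite O O'
  have : Module.Finite O ev.range :=
    Module.Finite.of_injective ev.range.val.toLinearMap Subtype.val_injective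
  have : IsLocalRing ev.range := Fermat.GR.isLocalRing_of_finite_domain (O := O) ev.range
  -- `X i - a` lies in the system ideal
  have hmem : X i - C a ∈ sysIdeal θ := by
    rw [sysIdeal, RingHom.mem_ker, map_sub, aeval_X, aeval_C, sub_eq_zero]
    exact ha.symm
  intro hu
  -- a unit value would be a unit in the image of `ev`, local and finite over `O`
  have hu' : IsUnit (ev.rangeRestrict (X i - C a)) := by
    by_contra hn
    have hint : RingHom.IsIntegral (ev.range.val : ev.range →+* O') :=
      RingHom.IsIntegral.tower_top (algebraMap O ev.range) _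
        (fun z => Algebra.IsIntegral.isIntegral (R := O) z)
    have hloc' : IsLocalHom (ev.range.val : ev.range →+* O') :=
      RingHom.IsIntegral.isLocalHom hint fun a b h => Subtype.val_injective h
    refine hn (hloc'.map_nonunit _ ?_)
    change IsUnit (ev (X i - C a))
    rw [map_sub, aeval_X, aeval_C]
    exact hu
  obtain ⟨b, hb⟩ := hu'.exists_right_inv
  obtain ⟨P, rfl⟩ := ev.rangeRestrict_surjective b
  -- then `1` would lie in the system ideal
  have h1 : (X i - C a) * P - 1 ∈ sysIdeal θ := h _ (by
    change ev ((X i - C a) * P - 1) = 0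
    rw [map_sub, map_one, sub_eq_zero]
    have := congrArg Subtype.val hb
    rw [map_mul]
    exact this)
  refine (Ideal.ne_top_iff_one _).mp (isMaximal_sysIdeal θ).ne_top ?_
  have := sub_mem (Ideal.mul_mem_right P _ hmem) h1
  rwa [sub_sub_cancel] at this

/-- The operators of all labels on homomorphisms. -/
abbrev lblAct (O : Type) [CommRing O] (K : ℕ) [NeZero K] (H : Subgroup (ZMod K)ˣ) :
    MvPolynomial (Nat.Primes ⊕ (ZMod K)ˣ) O →ₐ[O] Module.End O (Homs O (GammaH K H)) :=
  opsAct O O (LevelOver.self K H) (labelOp K)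

/-- On the labels of the family `lblAct` is the Hecke action. -/
theorem lblAct_rename_hecke (P : MvPolynomial σ O) (φ : Homs O (GammaH K H)) :
    lblAct O K H (rename (heckeLbl p K) P) φ = heckeAct O O K H p P φ := by
  rw [lblAct, opsAct_rename, ← opsAct_hecke (LevelOver.self K H) p P φ]
  rfl

/-- On integral polynomials `lblAct` is `homAct`. -/
theorem lblAct_map (Q : MvPolynomial Lbl ℤ) (φ : Homs O (GammaH K H)) :
    lblAct O K H (MvPolynomial.map (Int.castRingHom O) Q) φ = homAct O K H Q φ := by
  induction Q using MvPolynomial.induction_on generalizing φ with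
  | C a =>
    rw [MvPolynomial.map_C, eq_intCast, map_intCast, map_intCast, eq_intCast, map_intCast,
      Module.End.intCast_apply, Module.End.intCast_apply]
  | add P Q hP hQ => simp only [map_add, LinearMap.add_apply, hP, hQ]
  | mul_X P i hP =>
    rw [map_mul, map_mul, map_mul, MvPolynomial.map_X, Module.End.mul_apply, Module.End.mul_apply,
      hP, opsAct_X, homAct_X]

section Point

variable {Ω : Type} [Field Ω] [Algebra O Ω] [CharZero Ω]

/-- An eigen system kills the polynomials acting as zero on the localised homomorphisms. -/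
theorem evalPoly_eq_zero_of_lblAct {x : MvPolynomial Lbl ℤ →+* Ω} (hx : IsPoint K H x)
    (hinj : Function.Injective (algebraMap O Ω)) {s : MvPolynomial Lbl O}
    (hs : ∀ φ, lblAct O K H s φ = 0) : aeval (fun i => x (X i)) s = 0 := by
  classical
  let Kf := FractionRing O
  have : CharZero Kf := IsFractionRing.charZero_of_isFractionRing O
  let emb : Kf →+* Ω := IsFractionRing.lift (K := Kf) hinj
  -- for every rational functional on the coefficients
  have key : ∀ w : Kf →ₗ[ℚ] ℚ, ∑ d ∈ s.support,
      (w (algebraMap O Kf (s.coeff d)) : Ω) * x (monomial d 1) = 0 := by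
    intro w
    obtain ⟨N, hN⟩ := IsLocalization.exist_integer_multiples (nonZeroDivisors ℤ) s.support
      fun d => w (algebraMap O Kf (s.coeff d))
    choose n hn using hN
    let Q : MvPolynomial Lbl ℤ := ∑ d ∈ s.support.attach, n d.1 d.2 • monomial d.1 1
    have hQ : formAct K H Q = 0 := by
      refine formAct_eq_zero_of_homAct fun φ => AddMonoidHom.ext fun γ => ?_
      let u : ℤ →+ O := (Int.castRingHom O).toAddMonoidHom
      have h1 : ∀ d : Lbl →₀ ℕ, lblAct O K H (monomial d 1) (u.comp φ) =
          u.comp (homAct ℤ K H (monomial d 1) φ) := fun d => by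
        rw [comp_homAct, ← lblAct_map, MvPolynomial.map_monomial, map_one (Int.castRingHom O)]
      have h2 := DFunLike.congr_fun (hs (u.comp φ)) γ
      rw [MvPolynomial.as_sum s, map_sum, LinearMap.sum_apply, AddMonoidHom.finsetSum_apply] at h2
      have h3 : ∀ d : Lbl →₀ ℕ, lblAct O K H (monomial d (s.coeff d)) (u.comp φ) γ =
          s.coeff d * ((homAct ℤ K H (monomial d 1) φ γ : ℤ) : O) := fun d => by
        rw [show monomial d (s.coeff d) = s.coeff d • monomial d (1 : O) by
          rw [smul_monomial, smul_eq_mul, mul_one], map_smul, LinearMap.smul_apply, h1]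
        rfl
      rw [Finset.sum_congr rfl fun d _ => h3 d] at h2
      have h4 := congrArg (fun o : O => w (algebraMap O Kf o)) h2
      simp only [map_sum, map_mul, map_intCast, AddMonoidHom.zero_apply, map_zero] at h4
      have h5 : ∑ d ∈ s.support.attach,
          ((n d.1 d.2 : ℤ) : ℚ) * (homAct ℤ K H (monomial d.1 1) φ γ : ℤ) = 0 := by
        have : ∀ d : s.support, ((n d.1 d.2 : ℤ) : ℚ) * (homAct ℤ K H (monomial d.1 1) φ γ : ℤ) =
            ((N : ℤ) : ℚ) *
              w (algebraMap O Kf (s.coeff d.1) * (homAct ℤ K H (monomial d.1 1) φ γ : ℤ)) :=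
          fun d => by
            have e := hn d.1 d.2
            rw [eq_intCast, zsmul_eq_mul] at e
            rw [mul_comm (algebraMap O Kf _), ← zsmul_eq_mul (algebraMap O Kf _), map_zsmul,
              zsmul_eq_mul, e]
            ring
        rw [Finset.sum_congr rfl fun d _ => this d, ← Finset.mul_sum,
          Finset.sum_attach (s.support) fun d =>
            w (algebraMap O Kf (s.coeff d) * (homAct ℤ K H (monomial d 1) φ γ : ℤ)), h4, mul_zero]
      rw [map_sum, LinearMap.sum_apply, AddMonoidHom.finsetSum_apply, AddMonoidHom.zero_apply]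
      refine Int.cast_injective (α := ℚ) ?_
      rw [Int.cast_sum, Int.cast_zero, ← h5]
      refine Finset.sum_congr rfl fun d _ => ?_
      rw [map_zsmul, LinearMap.smul_apply, AddMonoidHom.smul_apply, smul_eq_mul, Int.cast_mul]
    have hxQ := hx.kills Q hQ
    rw [map_sum] at hxQ
    have hNΩ : ((N : ℤ) : Ω) ≠ 0 := Int.cast_ne_zero.mpr (nonZeroDivisors.ne_zero N.2)
    refine (mul_eq_zero.mp (Eq.trans ?_ hxQ)).resolve_left hNΩ
    rw [Finset.mul_sum, ← Finset.sum_attach]
    refine Finset.sum_congr rfl fun d _ => ?_
    have e := hn d.1 d.2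
    rw [eq_intCast, zsmul_eq_mul] at e
    rw [map_zsmul, zsmul_eq_mul, ← mul_assoc, ← Rat.cast_intCast (α := Ω) (N : ℤ), ← Rat.cast_mul,
      ← e, Rat.cast_intCast]
  -- coordinates of the coefficients
  let V : Submodule ℚ Kf :=
    Submodule.span ℚ ((fun d => algebraMap O Kf (s.coeff d)) '' (s.support : Set (Lbl →₀ ℕ)))
  have : Module.Finite ℚ V := Module.Finite.span_of_finite ℚ (s.support.finite_toSet.image _)
  let b := Module.finBasis ℚ V
  obtain ⟨π, hπ⟩ := V.exists_isCompl
  let pr : Kf →ₗ[ℚ] V := V.projectionOnto π hπ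
  have hcoord : ∀ d ∈ s.support, algebraMap O Kf (s.coeff d) =
      ∑ i, (b.coord i (pr (algebraMap O Kf (s.coeff d)))) • (b i : Kf) := fun d hd => by
    have hm : algebraMap O Kf (s.coeff d) ∈ V := Submodule.subset_span ⟨d, hd, rfl⟩
    have h := congrArg (fun y : V => (y : Kf)) (b.sum_repr ⟨_, hm⟩)
    simp only [Submodule.coe_sum, Submodule.coe_smul] at h
    rw [show pr (algebraMap O Kf (s.coeff d)) = (⟨_, hm⟩ : V) from
      Submodule.projectionOnto_apply_left hπ ⟨_, hm⟩]
    exact h.symm
  have hemb : ∀ q : ℚ, ∀ y : Kf, emb (q • y) = (q : Ω) * emb y := fun q y => by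
    rw [Algebra.smul_def, map_mul, eq_ratCast, map_ratCast]
  have hmono : ∀ d : Lbl →₀ ℕ, x (monomial d 1) = d.prod fun i e => x (X i) ^ e := fun d => by
    rw [monomial_eq, map_one, one_mul, map_finsuppProd]
    simp only [map_pow]
  calc aeval (fun i => x (X i)) s
      = ∑ d ∈ s.support, algebraMap O Ω (s.coeff d) * x (monomial d 1) := by
        rw [aeval_def, eval₂_eq]
        exact Finset.sum_congr rfl fun d _ => by rw [hmono]; rfl
    _ = ∑ d ∈ s.support, ∑ i,
          emb (b i : Kf) * ((b.coord i (pr (algebraMap O Kf (s.coeff d))) : Ω) *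
            x (monomial d 1)) := by
        refine Finset.sum_congr rfl fun d hd => ?_
        conv_lhs => rw [show algebraMap O Ω (s.coeff d) = emb (algebraMap O Kf (s.coeff d)) from
          (IsFractionRing.lift_algebraMap hinj _).symm, hcoord d hd, map_sum, Finset.sum_mul]
        exact Finset.sum_congr rfl fun i _ => by rw [hemb]; ring
    _ = 0 := by
        rw [Finset.sum_comm]
        refine Finset.sum_eq_zero fun i _ => ?_
        rw [← Finset.mul_sum]
        exact mul_eq_zero_of_right _ (key ((b.coord i).comp pr))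

/-- **A congruent system shows that the localisation is nonzero.** -/
theorem exists_mem_locPart_ne_zero {m : Ideal (MvPolynomial σ O)} [m.IsMaximal]
    [Module.Finite O (Homs O (GammaH K H))] {x : MvPolynomial Lbl ℤ →+* Ω} (hx : IsPoint K H x)
    (hinj : Function.Injective (algebraMap O Ω)) (hc : CongruentTo p m x) :
    ∃ φ ∈ locPart m (heckeAct O O K H p), φ ≠ 0 := by
  by_contra hne
  push Not at hne
  obtain ⟨s, hs⟩ := exists_projector m (heckeAct O O K H p)
  refine hs.1 (hc s ?_)
  have h := evalPoly_eq_zero_of_lblAct hx hinj (s := rename (heckeLbl p K) s) fun φ => by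
    rw [lblAct_rename_hecke]
    exact hne _ (hs.locPart_eq ▸ ⟨φ, rfl⟩)
  rwa [aeval_rename] at h

end Point

section Separation

local notation "Ω₀" => AlgebraicClosure (FractionRing O)

/-- **The congruent systems separate the operators prime to the level.** -/
theorem lblAct_eq_zero_of_congruent [NegMem H] {m : Ideal (MvPolynomial σ O)} [m.IsMaximal]
    [Module.Finite O (Homs O (GammaH K H))] (hm : NonEisenstein p m) {u : O →+* ℂ}
    (hu : Function.Injective u) {ι : Type} (g : ι → Lbl)
    (hg : ∀ i (l : Nat.Primes), g i = Sum.inl l → ¬ (l : ℕ) ∣ K) (h : MvPolynomial ι O)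
    (hh : ∀ x : MvPolynomial Lbl ℤ →+* Ω₀, IsPoint K H x → CongruentTo p m x →
      aeval (fun i => x (X (g i))) h = 0)
    {φ : Homs O (GammaH K H)} (hφ : φ ∈ locPart m (heckeAct O O K H p)) :
    lblAct O K H (rename g h) φ = 0 := by
  classical
  let fam : ι → Op K := fun i => labelOp K (g i)
  have hgood : ∀ i (l : Nat.Primes), fam i = .hecke l → ¬ (l : ℕ) ∣ K := fun i l hi => by
    refine hg i l ?_
    rcases hgi : g i with l' | v
    · simp only [fam, hgi, labelOp, Sum.elim_inl, Op.hecke.injEq] at hi
      rw [hi]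
    · simp [fam, hgi, labelOp] at hi
  -- an operator outside `m` vanishing at the other systems
  obtain ⟨S, hSm, hS⟩ : ∃ S, S ∉ m ∧ ∀ x : MvPolynomial Lbl ℤ →+* Ω₀, IsPoint K H x →
      ¬ CongruentTo p m x → aeval (fun i => x (X (heckeLbl p K i))) S = 0 := by
    have hs : ∀ x : MvPolynomial Lbl ℤ →+* Ω₀, ∃ s, s ∉ m ∧
        (¬ CongruentTo p m x → aeval (fun i => x (X (heckeLbl p K i))) s = 0) := fun x => by
      by_cases hc : CongruentTo p m x
      · exact ⟨1, (Ideal.ne_top_iff_one m).mp (Ideal.IsPrime.ne_top inferInstance),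
          fun h => absurd hc h⟩
      · simp only [CongruentTo, not_forall] at hc
        obtain ⟨P, hP, hPm⟩ := hc
        exact ⟨P, hPm, fun _ => hP⟩
    choose s hs1 hs2 using hs
    have hfin := finite_isPoint K H Ω₀
    refine ⟨∏ x ∈ hfin.toFinset, s x, fun hp' => ?_, fun x hx hc => ?_⟩
    · obtain ⟨x, -, hx⟩ := (Ideal.IsPrime.prod_mem_iff).mp hp'
      exact hs1 x hx
    · rw [map_prod]
      exact Finset.prod_eq_zero (hfin.mem_toFinset.mpr hx) (hs2 x hc)
  set G : MvPolynomial Lbl O := rename (heckeLbl p K) S * rename g h with hG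
  set Gop : MvPolynomial (Op K) O := rename (labelOp K) G
  -- it is nilpotent on cusp forms
  have hnil : ∀ v : O →+* ℂ, Function.Injective v →
      IsNilpotent (formEval (LevelOver.self K H) (MvPolynomial.map v Gop)) := by
    intro v hv
    set a := formEval (LevelOver.self K H) (MvPolynomial.map v Gop)
    refine isNilpotent_of_eigenvalues a fun μ hμ => ?_
    obtain ⟨f, ⟨hf, hf0⟩, c, hc⟩ : ∃ f, (a f = μ • f ∧ f ≠ 0) ∧ ∃ c : Op K → ℂ,
        ∀ i, formOpOver (LevelOver.self K H) i f = c i • f := by
      obtain ⟨f, hf, hf0, hev⟩ := exists_common_eigenvector (formOpOver (LevelOver.self K H))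
        (formOpOver_comm _) (Module.End.eigenspace a μ)
        (Module.End.hasEigenvalue_iff.mp hμ) fun i y hy => by
          rw [Module.End.mem_eigenspace_iff] at hy ⊢
          rw [show formOpOver (LevelOver.self K H) i = formEval (LevelOver.self K H) (X i) from
            (commAeval_X _ _ i).symm, ← Module.End.mul_apply, ← map_mul, mul_comm, map_mul,
            Module.End.mul_apply, hy, map_smul]
      choose c hc using hev
      exact ⟨f, ⟨Module.End.mem_eigenspace_iff.mp hf, hf0⟩, c, hc⟩
    have hμv : μ = MvPolynomial.eval c (MvPolynomial.map v Gop) := by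
      rw [show a f = _ from commAeval_apply_eigen _ _ hc _] at hf
      exact (smul_left_injective ℂ hf0 hf).symm
    obtain ⟨x, hx, hxeq⟩ := exists_point_of_eigen K H O v hv hf0 (fun i => c (labelOp K i))
      fun i => by rw [← formOpOver_labelOp]; exact hc _
    rw [hμv, MvPolynomial.eval_map, eval₂_rename]
    refine (hxeq G).mp ?_
    rw [← aeval_def, hG, map_mul, aeval_rename, aeval_rename]
    by_cases hcx : CongruentTo p m x
    · rw [show aeval ((fun i => x (X i)) ∘ g) h = 0 from hh x hx hcx, mul_zero]
    · rw [show aeval ((fun i => x (X i)) ∘ heckeLbl p K) S = 0 from hS x hx hcx, zero_mul]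
  -- so a power kills the element
  obtain ⟨f, f', e⟩ := exists_mapCoeff_eq_formPeriod hm u hφ
  obtain ⟨k₁, hk₁⟩ := hnil u hu
  obtain ⟨k₂, hk₂⟩ := hnil ((starRingEnd ℂ).comp u) ((starRingEnd ℂ).injective.comp hu)
  set k := k₁ + k₂
  have hGk : opsAct O O (LevelOver.self K H) id (Gop ^ k) φ = 0 := by
    refine mapCoeff_injective hu ?_
    rw [mapCoeff_opsAct_periods _ u _ e, map_zero, map_pow, map_pow, map_pow, map_pow, pow_add,
      pow_add, hk₁, zero_mul, hk₂, mul_zero, LinearMap.zero_apply, LinearMap.zero_apply, map_zero,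
      map_zero, add_zero]
  have key : ∀ (P : MvPolynomial Lbl O) (ψ : Homs O (GammaH K H)),
      opsAct O O (LevelOver.self K H) id (rename (labelOp K) P) ψ = lblAct O K H P ψ :=
    fun P ψ => opsAct_rename _ _ _ P ψ
  have hh' : ∀ (P : MvPolynomial ι O) (ψ : Homs O (GammaH K H)),
      lblAct O K H (rename g P) ψ = opsAct O O (LevelOver.self K H) fam P ψ :=
    fun P ψ => opsAct_rename _ _ _ P ψ
  rw [← map_pow, key, hG, mul_pow, ← map_pow, ← map_pow, map_mul, Module.End.mul_apply,
    lblAct_rename_hecke, hh'] at hGk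
  have hloc : ∀ P : MvPolynomial ι O,
      opsAct O O (LevelOver.self K H) fam P φ ∈ locPart m (heckeAct O O K H p) :=
    fun P => opsAct_mem_locPart _ fam P hφ
  have h0 : opsAct O O (LevelOver.self K H) fam (h ^ k) φ = 0 :=
    eq_zero_of_killed (fun hmem => hSm (Ideal.IsPrime.mem_of_pow_mem inferInstance k hmem))
      (hloc _) hGk
  rw [hh']
  clear hGk
  clear_value k
  induction k with
  | zero =>
    rw [pow_zero, map_one, Module.End.one_apply] at h0
    rw [h0, map_zero]
  | succ j ih =>
    rcases j with - | j
    · rwa [pow_one] at h0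
    · refine ih ?_
      rw [pow_succ' h j, map_mul, Module.End.mul_apply]
      refine opsAct_eq_zero_of_sq fam (heckeSemisimple K H) (LevelOver.self K H) hgood hm hu h
        (hloc _) ?_
      rw [← Module.End.mul_apply (opsAct O O (LevelOver.self K H) fam h) (opsAct _ _ _ fam (h ^ j)),
        ← map_mul, ← Module.End.mul_apply, ← map_mul, ← pow_succ', ← pow_succ']
      exact h0

/-- **A nonzero localisation has a congruent system.** -/
theorem exists_congruent_point [NegMem H] {m : Ideal (MvPolynomial σ O)} [m.IsMaximal]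
    [Module.Finite O (Homs O (GammaH K H))] (hm : NonEisenstein p m) {u : O →+* ℂ}
    (hu : Function.Injective u) {φ : Homs O (GammaH K H)}
    (hφ : φ ∈ locPart m (heckeAct O O K H p)) (h0 : φ ≠ 0) :
    ∃ x : MvPolynomial Lbl ℤ →+* Ω₀, IsPoint K H x ∧ CongruentTo p m x := by
  by_contra hne
  push Not at hne
  refine h0 ?_
  have h := lblAct_eq_zero_of_congruent hm hu (fun e : Empty => e.elim) (fun e => e.elim) 1
    (fun x hx hc => absurd hc (hne x hx)) hφ
  simpa using h

end Separation

section LocModLevel

variable [NegMem H] {ΔA : Type} [CommGroup ΔA] {m : Ideal (MvPolynomial σ O)} [m.IsMaximal]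
  [Module.Finite O (Homs O (GammaH K H))]

/-- The operators of the family on the module, in terms of homomorphisms. -/
theorem val_labelAct_lblAct (D : DiamondQuot K ⊤ H ΔA) (P : MvPolynomial (σ ⊕ (ZMod K)ˣ) O)
    (x : D.LocMod p m) :
    ((labelAct D p m P x).val : Homs O (GammaH K H)) =
      lblAct O K H (rename (Sum.elim (heckeLbl p K) Sum.inr) P)
        (x.val : Homs O (GammaH K H)) := by
  induction P using MvPolynomial.induction_on generalizing x with
  | C a =>
    rw [rename_C, ← MvPolynomial.algebraMap_eq, ← MvPolynomial.algebraMap_eq,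
      (labelAct D p m).commutes, (lblAct O K H).commutes, Module.algebraMap_end_apply,
      Module.algebraMap_end_apply, DiamondQuot.LocMod.val_smul, Submodule.coe_smul]
  | add P Q hP hQ =>
    rw [map_add (labelAct D p m), map_add (rename _), map_add (lblAct O K H), LinearMap.add_apply,
      LinearMap.add_apply, DiamondQuot.LocMod.val_add, Submodule.coe_add, hP, hQ]
  | mul_X P l hP =>
    rw [map_mul (labelAct D p m), map_mul (rename _), map_mul (lblAct O K H),
      Module.End.mul_apply, Module.End.mul_apply, hP]
    congr 1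
    rw [rename_X, opsAct_X]
    rcases l with i | u
    · rw [labelAct_hecke, DiamondQuot.LocMod.act_apply, coe_locAct, heckeAct_X]
      rfl
    · rw [labelAct_dia, LinearMap.smul_apply, Module.End.one_apply, DiamondQuot.LocMod.of_smul,
        DiamondQuot.coe_diaLoc, ← homAct_dia D u, homAct_X]
      rfl

/-- **Separation on the module**: an element of the algebra of operators prime to the level which
vanishes at the congruent systems acts as zero. -/
theorem labelAct_rename_eq_zero (D : DiamondQuot K ⊤ H ΔA) (hm : NonEisenstein p m) {u : O →+* ℂ}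
    (hu : Function.Injective u) {τ : Type} (f : τ → σ) (hf : ∀ i, ¬ p (f i) ∣ K)
    (h : MvPolynomial (τ ⊕ (ZMod K)ˣ) O)
    (hh : ∀ x : MvPolynomial Lbl ℤ →+* AlgebraicClosure (FractionRing O), IsPoint K H x →
      CongruentTo p m x →
        aeval (fun i => x (X (Sum.elim (heckeLbl p K) Sum.inr (Sum.map f id i)))) h = 0) :
    labelAct D p m (rename (Sum.map f id) h) = 0 := by
  refine LinearMap.ext fun x => DiamondQuot.LocMod.ext_val ?_
  rw [val_labelAct_lblAct, rename_rename, LinearMap.zero_apply, DiamondQuot.LocMod.val_zero,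
    Submodule.coe_zero]
  refine lblAct_eq_zero_of_congruent hm hu _ (fun i l hi => ?_) h (fun y hy hc => ?_) x.val.2
  · rcases i with t | v
    · obtain rfl : (⟨p (f t), (hp (f t)).out⟩ : Nat.Primes) = l := Sum.inl.inj hi
      exact hf t
    · simp at hi
  · exact hh y hy hc

end LocModLevel

end Fermat.GR.RT

end
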