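import Mathlib
import Fermat.Agent.GR.RT.Gamma0Bridge
import Fermat.Agent.GR.RT.Targets
import Fermat.Agent.GR.RT.Sep

/-!
# Residual modularity and congruent eigen systems

`rb` is modular of level `M` exactly when some eigen system of the full level subgroup of `M` is
congruent to it.
-/

set_option autoImplicit false

noncomputable section

open MvPolynomial IsLocalRing
open scoped TensorProduct

namespace Fermat.GR.RT

open Fermat.HM

local notation "ℚbar" => AlgebraicClosure ℚ
local notation "Γℚ" => (AlgebraicClosure ℚ ≃ₐ[ℚ] AlgebraicClosure ℚ)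

variable {p : ℕ} [hp : Fact p.Prime]

local notation "M2p" => Matrix (Fin 2) (Fin 2) (ZMod p)

variable {rb : Γℚ →* GL (Fin 2) (ZMod p)} {M : ℕ} [NeZero M]

section Generic

/-- A residual system of a finite ring lands in an algebraically closed field of characteristic
`p`. -/
theorem exists_residual_hom {T L F : Type} [CommRing T] [Module.Finite ℤ T] [Field L] [Field F]
    [IsAlgClosed F] [CharP F p] (q : T →+* L) (hq : q (p : T) = 0) :
    ∃ θ : T →+* F, ∀ t (n : ℕ), q t = (n : L) → θ t = (n : F) := by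
  have : (RingHom.ker q).IsPrime := RingHom.ker_isPrime q
  have : CharP (T ⧸ RingHom.ker q) p :=
    (CharP.charP_iff_prime_eq_zero hp.out).mpr (by
      rw [← map_natCast (Ideal.Quotient.mk (RingHom.ker q)), Ideal.Quotient.eq_zero_iff_mem]
      exact hq)
  have : Module.Finite ℤ (T ⧸ RingHom.ker q) :=
    Module.Finite.of_surjective ((Ideal.Quotient.mkₐ ℤ (RingHom.ker q)).toLinearMap)
      Ideal.Quotient.mk_surjective
  let : Algebra (ZMod p) (T ⧸ RingHom.ker q) := ZMod.algebra _ p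
  have : IsScalarTower ℤ (ZMod p) (T ⧸ RingHom.ker q) :=
    IsScalarTower.of_algebraMap_eq' (RingHom.ext_int _ _)
  have : Module.Finite (ZMod p) (T ⧸ RingHom.ker q) :=
    Module.Finite.of_restrictScalars_finite ℤ (ZMod p) _
  have : Algebra.IsIntegral (ZMod p) (T ⧸ RingHom.ker q) :=
    Algebra.IsIntegral.of_finite (ZMod p) _
  obtain ⟨e, -⟩ := exists_extend_algClosed (R := ZMod p) (S := T ⧸ RingHom.ker q)
    (algebraMap (ZMod p) _) (RingHom.injective _) (algebraMap_isIntegral_iff.mpr inferInstance)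
    (ZMod.castHom (dvd_refl p) F)
  refine ⟨e.comp (Ideal.Quotient.mk (RingHom.ker q)), fun t n h => ?_⟩
  have hm : t - (n : T) ∈ RingHom.ker q := by
    rw [RingHom.mem_ker, map_sub, map_natCast, h, sub_self]
  rw [RingHom.comp_apply, (Ideal.Quotient.mk_eq_mk_iff_sub_mem _ _).mpr hm, map_natCast,
    map_natCast]

variable (O : Type) [CommRing O] [IsDomain O] [IsDiscreteValuationRing O]

/-- **Lifting a residual system to characteristic zero.** -/
theorem exists_lift_system {T : Type} [CommRing T] [Module.Finite ℤ T] [Module.Free ℤ T]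
    {F : Type} [Field F] [Algebra O F] (θ : T →+* F) :
    ∃ G : T →+* AlgebraicClosure (FractionRing O), ∀ {σ : Type} (t : σ → T) (P : MvPolynomial σ O),
      aeval (fun i => G (t i)) P = 0 → aeval (fun i => θ (t i)) P = 0 := by
  classical
  have : Module.Finite O (O ⊗[ℤ] T) := Module.Finite.base_change ℤ O T
  -- take a minimal prime below the kernel of `θ` on `O ⊗ T`
  let Φ : O ⊗[ℤ] T →ₐ[O] F :=
    Algebra.TensorProduct.lift (Algebra.ofId O F)
      { θ with commutes' := fun n => by simp } fun _ _ => Commute.all _ _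
  have : (RingHom.ker Φ).IsPrime := RingHom.ker_isPrime Φ
  obtain ⟨Q, hQ, hQle⟩ := Ideal.exists_minimalPrimes_le
    (I := (⊥ : Ideal (O ⊗[ℤ] T))) (J := RingHom.ker Φ) bot_le
  have : Q.IsPrime := hQ.1.1
  let b := Module.Free.chooseBasis O (O ⊗[ℤ] T)
  have hnzd : ∀ a : O, a ≠ 0 → algebraMap O (O ⊗[ℤ] T) a ∈ nonZeroDivisors (O ⊗[ℤ] T) := by
    intro a ha
    rw [mem_nonZeroDivisors_iff_right]
    intro z hz
    rw [mul_comm, ← Algebra.smul_def] at hz
    refine b.repr.injective (Finsupp.ext fun i => ?_)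
    have h := DFunLike.congr_fun (congrArg b.repr hz) i
    rw [map_smul, map_zero, Finsupp.smul_apply, Finsupp.coe_zero, Pi.zero_apply, smul_eq_mul] at h
    rw [map_zero, Finsupp.coe_zero, Pi.zero_apply]
    exact (mul_eq_zero.mp h).resolve_left ha
  -- it contains no constants, so the quotient embeds in the algebraic closure
  have hQO : Function.Injective (algebraMap O ((O ⊗[ℤ] T) ⧸ Q)) := by
    rw [injective_iff_map_eq_zero]
    intro a ha
    rw [IsScalarTower.algebraMap_apply O (O ⊗[ℤ] T), Ideal.Quotient.algebraMap_eq,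
      Ideal.Quotient.eq_zero_iff_mem] at ha
    by_contra h0
    exact Set.disjoint_left.mp (Ideal.disjoint_nonZeroDivisors_of_mem_minimalPrimes hQ) ha
      (hnzd a h0)
  have : Algebra.IsIntegral O ((O ⊗[ℤ] T) ⧸ Q) := Algebra.IsIntegral.of_finite O _
  obtain ⟨g, hg⟩ := exists_extend_algClosed (R := O) (S := (O ⊗[ℤ] T) ⧸ Q)
    (algebraMap O ((O ⊗[ℤ] T) ⧸ Q)) hQO (algebraMap_isIntegral_iff.mpr ‹_›)
    (algebraMap O (AlgebraicClosure (FractionRing O)))
  have hginj : Function.Injective g := by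
    rw [RingHom.injective_iff_ker_eq_bot]
    have := RingHom.ker_isPrime g
    refine Ideal.eq_bot_of_comap_eq_bot (R := O) (S := (O ⊗[ℤ] T) ⧸ Q) (I := RingHom.ker g) ?_
    rw [RingHom.comap_ker, hg]
    exact (RingHom.injective_iff_ker_eq_bot _).mp (algClosure_algebraMap_injective O)
  let Gf : O ⊗[ℤ] T →ₐ[O] AlgebraicClosure (FractionRing O) :=
    { g.comp (Ideal.Quotient.mk Q) with commutes' := fun a => RingHom.congr_fun hg a }
  -- relations at the lift hold at `θ`
  refine ⟨Gf.toRingHom.comp Algebra.TensorProduct.includeRight.toRingHom, fun {σ} t P hP => ?_⟩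
  let E : MvPolynomial σ O →ₐ[O] O ⊗[ℤ] T := aeval fun i => (1 : O) ⊗ₜ[ℤ] t i
  have hG : aeval (fun i => (Gf.toRingHom.comp Algebra.TensorProduct.includeRight.toRingHom)
    (t i)) =
      Gf.comp E := MvPolynomial.algHom_ext fun i => by
    rw [AlgHom.comp_apply, aeval_X, aeval_X]
    rfl
  have hΦ : aeval (fun i => θ (t i)) = Φ.comp E := MvPolynomial.algHom_ext fun i => by
    simp [E, Φ, Algebra.TensorProduct.lift_tmul]
  rw [hG, AlgHom.comp_apply] at hP
  have hEQ : E P ∈ Q := by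
    rw [← Ideal.Quotient.eq_zero_iff_mem]
    exact hginj (hP.trans (map_zero g).symm)
  rw [hΦ]
  exact hQle hEQ

/-- A maximal ideal of the algebraic integers over a prime of a ring of systems. -/
theorem exists_maximal_over {T : Type} [CommRing T] (χ : T →+* integralClosure ℤ ℂ)
    (P : Ideal T) [P.IsPrime] (hle : RingHom.ker χ ≤ P) (hpP : (p : T) ∈ P) :
    ∃ 𝔪 : Ideal (integralClosure ℤ ℂ), 𝔪.IsMaximal ∧ (p : integralClosure ℤ ℂ) ∈ 𝔪 ∧
      ∀ t ∈ P, χ t ∈ 𝔪 := by
  let χb : T ⧸ RingHom.ker χ →+* integralClosure ℤ ℂ := RingHom.kerLift χ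
  let := χb.toAlgebra
  have : IsScalarTower ℤ (T ⧸ RingHom.ker χ) (integralClosure ℤ ℂ) :=
    IsScalarTower.of_algebraMap_eq' (RingHom.ext_int _ _)
  have : Algebra.IsIntegral (T ⧸ RingHom.ker χ) (integralClosure ℤ ℂ) :=
    ⟨fun z => (Algebra.IsIntegral.isIntegral (R := ℤ) z).tower_top⟩
  have : (P.map (Ideal.Quotient.mk (RingHom.ker χ))).IsPrime :=
    Ideal.map_isPrime_of_surjective Ideal.Quotient.mk_surjective (by rwa [Ideal.mk_ker])
  obtain ⟨𝔪, -, h𝔪, h𝔪c⟩ := Ideal.exists_ideal_over_prime_of_isIntegral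
    (P.map (Ideal.Quotient.mk (RingHom.ker χ))) (⊥ : Ideal (integralClosure ℤ ℂ)) (by
      rw [← RingHom.ker_eq_comap_bot, (RingHom.injective_iff_ker_eq_bot _).mp
        (show Function.Injective (algebraMap (T ⧸ RingHom.ker χ) (integralClosure ℤ ℂ))
          from RingHom.kerLift_injective _)]
      exact bot_le)
  have := h𝔪
  have hmem : ∀ t ∈ P, χ t ∈ 𝔪 := fun t ht => by
    have : Ideal.Quotient.mk (RingHom.ker χ) t ∈
        𝔪.comap (algebraMap (T ⧸ RingHom.ker χ) (integralClosure ℤ ℂ)) := by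
      rw [h𝔪c]; exact Ideal.mem_map_of_mem _ ht
    exact this
  have hpm : (p : integralClosure ℤ ℂ) ∈ 𝔪 := map_natCast χ p ▸ hmem _ hpP
  have hbot : (Ideal.span {(p : ℤ)}).IsMaximal := Int.ideal_span_isMaximal_of_prime p
  refine ⟨𝔪, Ideal.isMaximal_of_isIntegral_of_isMaximal_comap (R := ℤ) 𝔪 ?_, hpm, hmem⟩
  rwa [← hbot.eq_of_le (Ideal.IsPrime.ne_top (Ideal.IsPrime.comap _))
    ((Ideal.span_singleton_le_iff_mem _).mpr (by rw [Ideal.mem_comap, map_natCast]; exact hpm))]

end Generic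

local notation "TK" => Fermat.JAC.HeckeGens.R (Fermat.JAC.XH.heckeGens M (⊤ : Subgroup (ZMod M)ˣ))

/-- A Hecke ring homomorphism to `ℂ` has algebraic integer values. -/
def intVal (χ : TK →+* ℂ) : TK →+* integralClosure ℤ ℂ :=
  χ.codRestrict (integralClosure ℤ ℂ).toSubring fun t =>
    (Algebra.IsIntegral.isIntegral (R := ℤ) t).map χ.toIntAlgHom

/-- `intVal` has the values of `χ`. -/
theorem coe_intVal (χ : TK →+* ℂ) (t : TK) : (intVal χ t : ℂ) = χ t := rfl

section Coeff

variable {O : Type} [CommRing O] [IsDomain O] [IsDiscreteValuationRing O]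
  [IsAdicComplete (maximalIdeal O) O] [Finite (ResidueField O)] [CharZero O]
  {σ : Type} {pr : σ → ℕ} [hpr : ∀ i, Fact (pr i).Prime]

omit [IsAdicComplete (maximalIdeal O) O] [Finite (ResidueField O)] [CharZero O] in
/-- A normalised eigenform congruent to the values `v` at the indices gives an eigen system
congruent to them. -/
theorem exists_congruent_of_form (hpO : (p : O) ∈ maximalIdeal O)
    {f : CuspForm (CongruenceSubgroup.Gamma0 M) 2} {𝔪 : Ideal (integralClosure ℤ ℂ)}
    (hf : f.IsNormalizedEigenform) (hmax : 𝔪.IsMaximal) (hpm : (p : integralClosure ℤ ℂ) ∈ 𝔪)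
    (v : σ → ZMod p) (c : ZMod p →+* ResidueField O)
    (hcong : ∀ i, ∃ a : integralClosure ℤ ℂ, (a : ℂ) = ModularFormClass.qCoeff f (pr i) ∧
      a - ((v i).val : integralClosure ℤ ℂ) ∈ 𝔪) :
    ∃ x : MvPolynomial (Nat.Primes ⊕ (ZMod M)ˣ) ℤ →+* AlgebraicClosure (FractionRing O),
      IsPoint M ⊤ x ∧ CongruentTo pr (sysIdeal fun i => c (v i)) x := by
  classical
  have := hmax
  -- the eigenform gives a character of the Hecke ring into the algebraic integers, read modulo `𝔪`
  obtain ⟨χ, hχ1, -⟩ := Fermat.JAC.XH.exists_point_of_eigenform M ⊤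
    (fun e => hf.ne_zero ((toTop M).map_eq_zero_iff.mp e)) (eigenVal f) (formOp_toTop M hf)
  let q : TK →+* integralClosure ℤ ℂ ⧸ 𝔪 := (Ideal.Quotient.mk 𝔪).comp (intVal χ)
  let := Ideal.Quotient.field 𝔪
  have : CharP (ResidueField O) p := (CharP.charP_iff_prime_eq_zero hp.out).mpr (by
    rw [← map_natCast (residue O), residue_eq_zero_iff]
    exact hpO)
  have : CharP (AlgebraicClosure (ResidueField O)) p :=
    charP_of_injective_algebraMap (algebraMap (ResidueField O) _).injective p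
  obtain ⟨θb, hθb⟩ := exists_residual_hom (p := p) (F := AlgebraicClosure (ResidueField O)) q (by
    rw [map_natCast, ← map_natCast (Ideal.Quotient.mk 𝔪), Ideal.Quotient.eq_zero_iff_mem]
    exact hpm)
  -- lift it to characteristic zero
  obtain ⟨G, hG⟩ := exists_lift_system O θb
  refine ⟨G.comp (Fermat.JAC.XH.ringEval M ⊤), isPoint_of_factor M ⊤ G, fun P hP => ?_⟩
  let t : σ → TK := fun i => Fermat.JAC.XH.tOp M ⊤ ⟨pr i, (hpr i).out⟩
  have hlbl : ∀ i, Fermat.JAC.XH.ringEval M ⊤ (X (heckeLbl pr M i)) = t i := fun i =>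
    Fermat.JAC.XH.ringEval_inl M ⊤ _
  simp only [RingHom.comp_apply, hlbl] at hP
  have h1 := hG t P hP
  have h2 : ∀ i, θb (t i) =
      algebraMap (ResidueField O) (AlgebraicClosure (ResidueField O)) (c (v i)) := fun i => by
    obtain ⟨a, ha, han⟩ := hcong i
    have hint : intVal χ (t i) = a := Subtype.ext <| by
      rw [coe_intVal]
      exact (hχ1 _).trans ha.symm
    rw [hθb (t i) (v i).val (by
        change Ideal.Quotient.mk 𝔪 (intVal χ (t i)) = _
        rw [hint, ← map_natCast (Ideal.Quotient.mk 𝔪), Ideal.Quotient.mk_eq_mk_iff_sub_mem]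
        exact han)]
    conv_rhs => rw [← ZMod.natCast_zmod_val (v i), map_natCast c, map_natCast]
  simp only [h2] at h1
  rw [sysIdeal, RingHom.mem_ker]
  refine (algebraMap (ResidueField O) (AlgebraicClosure (ResidueField O))).injective ?_
  rw [map_zero, ← h1, aeval_def, aeval_def, MvPolynomial.eval₂_comp_left]
  rfl

omit [IsAdicComplete (maximalIdeal O) O] [Finite (ResidueField O)] [CharZero O] in
/-- **A modular `rb` gives a congruent eigen system.** -/
theorem exists_congruent_of_modularOf (hpO : (p : O) ∈ maximalIdeal O)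
    (h : ModularOf p rb M) (hgood : ∀ i, ¬ pr i ∣ M ∧ pr i ≠ p ∧ IsResUnramified p rb (pr i))
    (θ : σ → ResidueField O) (c : ZMod p →+* ResidueField O)
    (hθ : ∀ i (A : ValuationSubring ℚbar), A.LiesOverPrime (pr i) → ∀ φ : Γℚ,
      A.IsFrobeniusAt φ (pr i) → θ i = c (rb φ : M2p).trace)
    (hfrob : ∀ i, ∃ A : ValuationSubring ℚbar, A.LiesOverPrime (pr i) ∧
      ∃ φ : Γℚ, A.IsFrobeniusAt φ (pr i)) :
    ∃ x : MvPolynomial (Nat.Primes ⊕ (ZMod M)ˣ) ℤ →+* AlgebraicClosure (FractionRing O),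
      IsPoint M ⊤ x ∧ CongruentTo pr (sysIdeal θ) x := by
  obtain ⟨-, f, 𝔪, hf, hmax, hpm, hcong⟩ := h
  choose A hA φ hφ using hfrob
  rw [show θ = fun i => c (rb (φ i) : M2p).trace from funext fun i => hθ i _ (hA i) _ (hφ i)]
  refine exists_congruent_of_form hpO hf hmax hpm _ c fun i => ?_
  obtain ⟨hM, hne, hunr⟩ := hgood i
  simpa only [Int.cast_natCast] using hcong (pr i) (hpr i).out hM hne hunr _ (hA i) _ (hφ i)
    (((rb (φ i) : M2p).trace).val : ℤ) (by rw [Int.cast_natCast, ZMod.natCast_zmod_val])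

end Coeff

/-- **A congruent eigen system shows that `rb` is modular.** -/
theorem modularOf_of_point {B : Type} [CommRing B] [IsLocalRing B]
    {y : MvPolynomial (Nat.Primes ⊕ (ZMod M)ˣ) ℤ →+* B} (hy : IsPoint M ⊤ y)
    (hpB : (p : B) ∈ maximalIdeal B) (c : ZMod p →+* ResidueField B)
    (hres : ∀ ℓ : ℕ, ℓ.Prime → ¬ ℓ ∣ M → ℓ ≠ p → IsResUnramified p rb ℓ →
      ∀ A : ValuationSubring ℚbar, A.LiesOverPrime ℓ → ∀ φ : Γℚ, A.IsFrobeniusAt φ ℓ →
        residue B (tVal y ℓ) = c (rb φ : M2p).trace) :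
    ModularOf p rb M := by
  classical
  obtain ⟨f, rfl⟩ := IsPoint.exists_factor M ⊤ hy
  let q : TK →+* ResidueField B := (residue B).comp f
  have : (RingHom.ker q).IsPrime := RingHom.ker_isPrime q
  obtain ⟨inj, hinj, hinj_apply⟩ := exists_formHom M
  obtain ⟨χ, hle, v, hv0, hv⟩ := Fermat.GR.exists_eigen_ker_le inj hinj (RingHom.ker q)
  obtain ⟨g, hg, hgc⟩ := exists_normalized M hv0
    (c := fun i => χ (Fermat.JAC.XH.ringEval M ⊤ (X i))) fun i => by
      rw [← formAct_X, ← hinj_apply]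
      exact hv _
  obtain ⟨𝔪, hmax, hpm, hmem⟩ := exists_maximal_over (p := p) (intVal χ) (RingHom.ker q)
    (fun t ht => hle (by
      rw [RingHom.mem_ker] at ht ⊢
      rw [← coe_intVal, ht]
      rfl)) (by
      rw [RingHom.mem_ker, map_natCast, ← map_natCast (residue B), residue_eq_zero_iff]
      exact hpB)
  refine ⟨Nat.pos_of_ne_zero (NeZero.ne M), g, 𝔪, hg, hmax, hpm,
    fun ℓ hℓ hM hne hunr A hA φ hφ n hn => ?_⟩
  refine ⟨intVal χ (Fermat.JAC.XH.ringEval M ⊤ (X (Sum.inl ⟨ℓ, hℓ⟩))), (hgc ⟨ℓ, hℓ⟩).symm, ?_⟩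
  rw [← map_intCast (intVal χ), ← map_sub]
  refine hmem _ ?_
  rw [RingHom.mem_ker, map_sub, map_intCast, sub_eq_zero]
  have := hres ℓ hℓ hM hne hunr A hA φ hφ
  rw [← hn, map_intCast, tVal, dif_pos hℓ] at this
  exact this

end Fermat.GR.RT

end
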