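import Mathlib
import Fermat.Agent.GR.RT.Attach
import Fermat.Agent.CFT.Global.AuxChar

/-!
# Cyclotomic characters on inertia

At a prime dividing a level exactly once inertia fills the units congruent to one modulo the rest of
the level; away from `p` it is killed by the `p`-adic cyclotomic character.
-/

set_option autoImplicit false

noncomputable section

open IsLocalRing

namespace Fermat.GR.RT

open Fermat.CFT

local notation "ℚbar" => AlgebraicClosure ℚ
local notation "Γℚ" => (AlgebraicClosure ℚ ≃ₐ[ℚ] AlgebraicClosure ℚ)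

variable {K : ℕ} [NeZero K]

/-- The cyclotomic character from the action on any primitive root. -/
theorem cycK_eq_of_apply {z : ℚbar} (hz : IsPrimitiveRoot z K) {σ : Γℚ} {a : ℕ}
    (h : σ z = z ^ a) : ((cycK K σ : (ZMod K)ˣ) : ZMod K) = (a : ZMod K) := by
  have h0 := (exists_primitive_level K).choose_spec
  obtain ⟨j, -, hj⟩ := hz.eq_pow_of_pow_eq_one h0.pow_eq_one
  have h1 : σ (exists_primitive_level K).choose = (exists_primitive_level K).choose ^ a := by
    rw [← hj, map_pow, h, ← pow_mul, ← pow_mul, mul_comm]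
  refine (ZMod.natCast_zmod_val _).symm.trans ?_
  rw [ZMod.natCast_eq_natCast_iff']
  have h2 := (h0.isOfFinOrder (NeZero.ne K)).pow_inj_mod.mp ((h0.autToPow_spec ℚ σ).trans h1)
  rwa [← h0.eq_orderOf] at h2

/-- The defining property of `cycK` on all `K`th roots of unity. -/
theorem apply_eq_pow_cycK {z : ℚbar} (hz : z ^ K = 1) (σ : Γℚ) :
    σ z = z ^ ((cycK K σ : (ZMod K)ˣ) : ZMod K).val := by
  have h0 := (exists_primitive_level K).choose_spec
  obtain ⟨j, -, hj⟩ := h0.eq_pow_of_pow_eq_one hz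
  rw [← hj, map_pow, ← (h0.autToPow_spec ℚ σ), ← pow_mul, ← pow_mul, mul_comm]
  rfl

/-- The characters of different levels are compatible. -/
theorem unitsMap_cycK {d : ℕ} [NeZero d] (h : d ∣ K) (σ : Γℚ) :
    ZMod.unitsMap h (cycK K σ) = cycK d σ := by
  obtain ⟨z, hz⟩ := exists_primitive_level d
  refine Units.ext ?_
  rw [cycK_eq_of_apply hz
    (apply_eq_pow_cycK (K := K) (hz.pow_eq_one_iff_dvd K |>.mpr h) σ), ZMod.unitsMap_val,
    ZMod.natCast_val]

/-- At a prime level `cycK` is the mod `q` cyclotomic character. -/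
theorem cycK_prime_eq_cycChar (q : ℕ) [Fact q.Prime] (σ : Γℚ) :
    cycK q σ = cycChar q σ := by
  obtain ⟨z, hz⟩ := exists_primitiveRoot_qbar (q := q)
  exact Units.ext ((cycK_eq_of_apply hz (apply_eq_pow_cycChar σ hz.pow_eq_one)).trans
    (ZMod.natCast_zmod_val _))

/-- At `q ∥ K` inertia fills the units congruent to one modulo `K / q`. -/
theorem exists_inertia_cycK {q K' : ℕ} (hq : q.Prime) (hK : K' * q = K) (hqK' : ¬ q ∣ K')
    {A : ValuationSubring ℚbar} (hA : A.LiesOverPrime q) (u : (ZMod K)ˣ)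
    (hu : ((u : ZMod K).val : ZMod K') = 1) : ∃ τ ∈ A.inertiaSubgroupIn ℚ, cycK K τ = u := by
  have := Fact.mk hq
  have : NeZero K' := ⟨fun h => NeZero.ne K (by rw [← hK, h, zero_mul])⟩
  have hd : K' ∣ K := hK ▸ dvd_mul_right _ _
  have hdq : q ∣ K := hK ▸ dvd_mul_left _ _
  obtain ⟨τ, hτ, hτu⟩ := CFT.exists_mem_inertia_cycChar hA (ZMod.unitsMap hdq u)
  refine ⟨τ, hτ, Units.ext ?_⟩
  have h1 : ZMod.unitsMap hdq (cycK K τ) = ZMod.unitsMap hdq u := by
    rw [unitsMap_cycK, cycK_prime_eq_cycChar, hτu]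
  have h2 : ZMod.unitsMap hd (cycK K τ) = ZMod.unitsMap hd u := by
    rw [unitsMap_cycK, cycK_inertia hq (hq.coprime_iff_not_dvd.mpr hqK') hA hτ]
    exact Units.ext (by rw [ZMod.unitsMap_val, Units.val_one, ← ZMod.natCast_val, hu])
  have hcop : Nat.Coprime K' q := (hq.coprime_iff_not_dvd.mpr hqK').symm
  have h1' := congrArg Units.val h1
  have h2' := congrArg Units.val h2
  rw [ZMod.unitsMap_val, ZMod.unitsMap_val, ← ZMod.natCast_val, ← ZMod.natCast_val,
    ZMod.natCast_eq_natCast_iff] at h1' h2'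
  have h3 := (Nat.modEq_and_modEq_iff_modEq_mul hcop).mp ⟨h2', h1'⟩
  rw [hK] at h3
  rw [← ZMod.natCast_zmod_val ((cycK K τ : (ZMod K)ˣ) : ZMod K), ← ZMod.natCast_zmod_val
    (u : ZMod K)]
  exact (ZMod.natCast_eq_natCast_iff _ _ _).mpr h3

variable {p : ℕ} [Fact p.Prime] {O : Type} [CommRing O] [IsLocalRing O]
  [IsAdicComplete (maximalIdeal O) O]

/-- The `p`-adic cyclotomic character is trivial on inertia away from `p`. -/
theorem cycO_inertia (hpO : (p : O) ∈ maximalIdeal O) {q : ℕ} (hq : q.Prime)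
    (hqp : q ≠ p) {A : ValuationSubring ℚbar} (hA : A.LiesOverPrime q) {σ : Γℚ}
    (hσ : σ ∈ A.inertiaSubgroupIn ℚ) : cycO hpO σ = 1 := by
  obtain ⟨φ, hφ⟩ := exists_isFrobeniusAt hq hA
  have h := cycO_frobenius hpO hq hqp hA (isFrobeniusAt_inertia_mul hq hA hφ hσ)
  rw [map_mul, cycO_frobenius hpO hq hqp hA hφ] at h
  exact (isUnit_natCast_of_prime_ne hpO hq hqp).mul_eq_right.mp h

end Fermat.GR.RT

end
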