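import Fermat.Agent.BAD.XH.Degen
import Fermat.Agent.CFT.Density.CycloChar

/-!
# Torsion of `X_H (M p)` at a decomposition group over `p ∤ M`, trivial character at `p`: statement

For odd `p` there is a subgroup `Z` (the classes whose two reductions are powers) with: up to one
fixed multiple, inertia is trivial modulo `Z`; on the classes killed by both pushforwards the square
of a Frobenius is the diamond of `p` modulo `Z`; and one element of inertia with nontrivial
cyclotomic character is, up to nilpotents, that character on the classes in `Z` killed by both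
pushforwards.
-/

set_option autoImplicit false

noncomputable section

open AlgebraicCurve

namespace Fermat.GR.RT

open Fermat.MC Fermat.JAC Fermat.JAC.XH Fermat.BAD.XH
open Fermat.JAC.X0 (embC)

local notation "Qb" => AlgebraicClosure ℚ
local notation "Γℚ" => (AlgebraicClosure ℚ ≃ₐ[ℚ] AlgebraicClosure ℚ)

variable (p : ℕ) [Fact p.Prime] [NeZero p]

/-- **Torsion at level `M p`, `p ∤ M`.** Up to a multiple `d` there is a subgroup `Z` with
unramified quotient on the `p`-power torsion, such that on the classes killed by both pushforwards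
the square of Frobenius is the diamond at `p` modulo `Z`, and those in `Z` are generalised
eigenvectors of an element of inertia whose cyclotomic value is not `1`, for that value. -/
def OrdTorsion : Prop :=
  ∀ (M : ℕ) [NeZero M] (H : Subgroup (ZMod M)ˣ) [Lvl.NegMem H] (hpM : ¬ p ∣ M), p ≠ 2 →
    ∀ A : ValuationSubring Qb, A.LiesOverPrime p →
      ∀ u : (ZMod (M * p))ˣ, ZMod.unitsMap (dvd_mul_right M p) u = qUnit M p Fact.out hpM →
        ∃ (Z : AddSubgroup (Pic0 Qb (FU M p H))) (γ : Γℚ) (d : ℕ), d ≠ 0 ∧
          γ ∈ A.inertiaSubgroupIn ℚ ∧ Fermat.CFT.cycChar p γ ≠ 1 ∧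
          (∀ σ ∈ A.inertiaSubgroupIn ℚ, ∀ (n : ℕ) (x : Pic0 Qb (FU M p H)), p ^ n • x = 0 →
            d • (σ • x - x) ∈ Z) ∧
          (∀ φ : Γℚ, A.IsFrobeniusAt φ p → ∀ (n : ℕ) (x : Pic0 Qb (FU M p H)), p ^ n • x = 0 →
            pushPic (al M p H) x = 0 → pushPic (be M p H) x = 0 →
              d • (φ • φ • x -
                SemilinearAut.ofAlgAut (Lvl.diamondHom (upH M H p) embC u) • x) ∈ Z) ∧
          ∀ (n : ℕ) (x : Pic0 Qb (FU M p H)), x ∈ Z → p ^ n • x = 0 →
            pushPic (al M p H) x = 0 → pushPic (be M p H) x = 0 →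
              d • (fun z => γ • z -
                ((Fermat.CFT.cycChar p γ : (ZMod p)ˣ) : ZMod p).val • z)^[n] x = 0

end Fermat.GR.RT

end
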