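import Mathlib
import Fermat.Agent.GR.RT.Gamma0Bridge
import Fermat.Agent.GR.RT.Points
import Fermat.Agent.MC.IntStructure

/-!
# Every complex point of the Hecke ring of `Γ₀(N)` is the system of an eigenform

The forms with integral expansions span and are preserved by the operators, so operators independent
over `ℤ` are independent over `ℂ`; hence the complex points of the Hecke ring are the maximal
ideals of the algebra of operators, all of which have eigenforms.
-/

set_option autoImplicit false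

noncomputable section

open CongruenceSubgroup ModularFormClass
open scoped TensorProduct

namespace Fermat.GR.RT

open Fermat.HM Fermat.MC.Lvl

/-- A complex point of a ring of operators whose basis is independent over `ℂ` has an
eigenvector. -/
theorem exists_eigen_of_hom {V : Type} [AddCommGroup V] [Module ℂ V] [FiniteDimensional ℂ V]
    {T : Type} [CommRing T] [Module.Finite ℤ T] (inj : T →+* Module.End ℂ V) {ι : Type} [Fintype ι]
    (b : Module.Basis ι ℤ T)
    (hind : ∀ c : ι → ℂ, ∑ i, c i • inj (b i) = 0 → c = 0) (χ : T →+* ℂ) :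
    ∃ v : V, v ≠ 0 ∧ ∀ t, inj t v = χ t • v := by
  classical
  -- `ℂ ⊗ T` acts faithfully, as the operators are independent over `ℂ`
  let Φ : ℂ ⊗[ℤ] T →ₐ[ℂ] Module.End ℂ V :=
    Algebra.TensorProduct.lift (Algebra.ofId ℂ _) inj.toIntAlgHom fun z t => Algebra.commutes z _
  have hΦ : Function.Injective Φ := by
    let B := b.baseChange ℂ
    rw [injective_iff_map_eq_zero]
    intro z hz
    rw [← B.sum_repr z, map_sum] at hz
    have hB : ∀ i, Φ (B i) = inj (b i) := fun i => by
      rw [show B i = (1 : ℂ) ⊗ₜ[ℤ] b i from b.baseChange_apply ℂ i]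
      exact (Algebra.TensorProduct.lift_tmul _ _ _ _ _).trans (by rw [map_one, one_mul]; rfl)
    have hc := hind (fun i => B.repr z i) (by
      refine Eq.trans (Finset.sum_congr rfl fun i _ => ?_) hz
      rw [map_smul, hB])
    exact B.repr.map_eq_zero_iff.mp (Finsupp.ext fun i => congrFun hc i)
  -- the kernel of `χ` is a minimal prime of the artinian ring, hence associated to `V`
  let ψ : ℂ ⊗[ℤ] T →ₐ[ℂ] ℂ :=
    Algebra.TensorProduct.lift (AlgHom.id ℂ ℂ) χ.toIntAlgHom fun _ _ => Commute.all _ _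
  have : Module.Finite ℂ (ℂ ⊗[ℤ] T) := Module.Finite.base_change ℤ ℂ T
  have : IsArtinianRing (ℂ ⊗[ℤ] T) := IsArtinianRing.of_finite ℂ _
  set M : Ideal (ℂ ⊗[ℤ] T) := RingHom.ker ψ with hM
  have : M.IsPrime := RingHom.ker_isPrime ψ
  let : Module (ℂ ⊗[ℤ] T) V := Module.compHom V Φ.toRingHom
  have : IsScalarTower ℂ (ℂ ⊗[ℤ] T) V := ⟨fun z a f => by
    change Φ (z • a) f = z • Φ a f
    rw [map_smul, LinearMap.smul_apply]⟩
  have : Module.Finite (ℂ ⊗[ℤ] T) V := Module.Finite.of_restrictScalars_finite ℂ _ V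
  have hann : Module.annihilator (ℂ ⊗[ℤ] T) V = ⊥ := by
    rw [eq_bot_iff]
    intro a ha
    rw [Submodule.mem_bot]
    exact hΦ ((LinearMap.ext fun f => Module.mem_annihilator.mp ha f).trans (map_zero Φ).symm)
  have hMmin : M ∈ (Module.annihilator (ℂ ⊗[ℤ] T) V).minimalPrimes := by
    rw [hann]
    refine ⟨⟨inferInstance, bot_le⟩, fun J hJ hJM => ?_⟩
    have := hJ.1
    exact ((IsArtinianRing.isMaximal_of_isPrime J).eq_of_le (Ideal.IsPrime.ne_top inferInstance)
      hJM).ge
  -- a vector with this annihilator is the eigenvector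
  obtain ⟨-, v, hv⟩ := isAssociatedPrime_iff.mp
    (Module.associatedPrimes.minimalPrimes_annihilator_subset_associatedPrimes _ V hMmin)
  refine ⟨v, ?_, fun t => ?_⟩
  · rintro rfl
    exact (Ideal.IsPrime.ne_top (inferInstance : M.IsPrime)) (hv.trans (by simp))
  · have h1 : (1 : ℂ) ⊗ₜ[ℤ] t - algebraMap ℂ (ℂ ⊗[ℤ] T) (χ t) ∈ M := by
      rw [hM, RingHom.mem_ker, map_sub, AlgHom.commutes]
      simp [ψ]
    rw [hv, Submodule.mem_colon_singleton, Submodule.mem_bot, sub_smul, sub_eq_zero] at h1
    rw [algebraMap_smul] at h1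
    refine Eq.trans ?_ h1
    change inj t v = Φ ((1 : ℂ) ⊗ₜ[ℤ] t) v
    rw [show Φ ((1 : ℂ) ⊗ₜ[ℤ] t) = inj t from
      (Algebra.TensorProduct.lift_tmul _ _ _ _ _).trans (by rw [map_one, one_mul]; rfl)]

variable (N : ℕ) [NeZero N]

local notation "TK" => Fermat.JAC.HeckeGens.R (Fermat.JAC.XH.heckeGens N (⊤ : Subgroup (ZMod N)ˣ))

/-- The operators preserve the forms with integral expansions. -/
theorem formAct_top_mem_intLattice (P : MvPolynomial (Nat.Primes ⊕ (ZMod N)ˣ) ℤ)
    {f : CuspForm (Gamma0 N) 2} (hf : f ∈ CuspForm.intLattice N 2) :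
    (toTop N).symm (formAct N ⊤ P (toTop N f)) ∈ CuspForm.intLattice N 2 := by
  induction P using MvPolynomial.induction_on generalizing f with
  | C a =>
    rw [show formAct N ⊤ (MvPolynomial.C a) (toTop N f) = a • toTop N f by
      rw [eq_intCast, map_intCast, Module.End.intCast_apply], map_zsmul,
        LinearEquiv.symm_apply_apply]
    exact (CuspForm.intLattice N 2).smul_mem a hf
  | add P Q hP hQ =>
    rw [map_add, LinearMap.add_apply, map_add]
    exact (CuspForm.intLattice N 2).add_mem (hP hf) (hQ hf)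
  | mul_X P i hP =>
    obtain ⟨f', hf', e⟩ : ∃ f' ∈ CuspForm.intLattice N 2,
        formOp N ⊤ i (toTop N f) = toTop N f' := by
      rcases i with ℓ | u
      · have : Fact (ℓ : ℕ).Prime := ⟨ℓ.2⟩
        by_cases h : (ℓ : ℕ) ∣ N
        · exact ⟨_, CuspForm.mem_intLattice_of_mem_heckeAlgebra (S := ∅) (by norm_num)
            (CuspForm.heckeULin_mem_heckeAlgebra ℓ.2 h (Set.notMem_empty _)) hf,
            coe_formHecke_top_of_dvd N h f⟩
        · exact ⟨_, CuspForm.mem_intLattice_of_mem_heckeAlgebra (S := ∅) (by norm_num)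
            (CuspForm.heckeTLin_mem_heckeAlgebra ℓ.2 h (Set.notMem_empty _)) hf,
            coe_formHecke_top_of_not_dvd N h f⟩
      · exact ⟨f, hf, formDia_top N u _⟩
    rw [map_mul, Module.End.mul_apply, formAct_X, e]
    exact hP hf'

/-- Operators on forms which are independent over `ℤ` are independent over `ℂ`. -/
theorem eq_zero_of_sum_smul_formAct {ι : Type} [Fintype ι]
    (P : ι → MvPolynomial (Nat.Primes ⊕ (ZMod N)ˣ) ℤ)
    (hP : LinearIndependent ℤ fun i => formAct N ⊤ (P i)) {c : ι → ℂ}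
    (hc : ∑ i, c i • formAct N ⊤ (P i) = 0) : c = 0 := by
  classical
  -- a rational functional gives, cleared of denominators, an integral relation
  have hzero : ∀ w : ℂ →ₗ[ℚ] ℚ, ∀ i, w (c i) = 0 := by
    intro w
    obtain ⟨D, hD⟩ := IsLocalization.exist_integer_multiples (nonZeroDivisors ℤ) Finset.univ
      fun i => w (c i)
    choose k hk using fun i => hD i (Finset.mem_univ i)
    have hD0 : ((D : ℤ) : ℚ) ≠ 0 := Int.cast_ne_zero.mpr (nonZeroDivisors.ne_zero D.2)
    have hk' : ∀ i, (k i : ℚ) = ((D : ℤ) : ℚ) * w (c i) := fun i => by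
      have e := hk i
      rwa [eq_intCast, zsmul_eq_mul] at e
    suffices h : ∑ i, k i • formAct N ⊤ (P i) = 0 by
      intro i
      have e := hk' i
      rw [Fintype.linearIndependent_iff.mp hP k h i, Int.cast_zero] at e
      exact (mul_eq_zero.mp e.symm).resolve_left hD0
    have hspan := Fermat.GR.Lifting.span_intLattice (Fermat.MC.hasIntegralBasis N)
    suffices h : ∀ x ∈ (CuspForm.intLattice N 2 : Set (CuspForm (Gamma0 N) 2)),
        (∑ i, k i • formAct N ⊤ (P i)) (toTop N x) = 0 by
      refine LinearMap.ext fun y => ?_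
      obtain ⟨x, rfl⟩ := (toTop N).surjective y
      exact LinearMap.congr_fun (LinearMap.ext_on (f := (∑ i, k i • formAct N ⊤ (P i)).comp
        (toTop N).toLinearMap) (g := 0) hspan h) x
    intro x hx
    refine (toTop N).symm.map_eq_zero_iff.mp (Fermat.GR.Lifting.eq_zero_of_qCoeff fun n => ?_)
    have hint : ∀ i, ∃ m : ℤ, Fermat.GR.Lifting.coeffLin N n
        ((toTop N).symm (formAct N ⊤ (P i) (toTop N x))) = (m : ℂ) := fun i => by
      obtain ⟨m, hm⟩ :=
        Fermat.GR.Lifting.mem_intLattice_iff.mp (formAct_top_mem_intLattice N (P i) hx) n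
      exact ⟨m, hm⟩
    choose m hm using hint
    have h := congrArg (fun T : Module.End ℂ (CuspForm (GammaH N ⊤) 2) =>
      w (Fermat.GR.Lifting.coeffLin N n ((toTop N).symm (T (toTop N x))))) hc
    simp only [LinearMap.sum_apply, LinearMap.smul_apply, map_sum, map_smul, smul_eq_mul, hm,
      LinearMap.zero_apply, map_zero] at h
    have h' : ∀ i, w (c i * (m i : ℂ)) = w (c i) * (m i : ℚ) := fun i => by
      rw [mul_comm, ← Int.smul_one_eq_cast, smul_mul_assoc, one_mul, map_zsmul, zsmul_eq_mul,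
        mul_comm]
    simp only [h'] at h
    rw [← Fermat.GR.Lifting.coeffLin_apply]
    simp only [LinearMap.sum_apply, LinearMap.smul_apply, map_sum, ← Int.cast_smul_eq_zsmul ℂ,
      map_smul, smul_eq_mul, hm]
    rw [Finset.sum_congr rfl fun i _ => show (k i : ℂ) * (m i : ℂ) =
      (((D : ℤ) : ℚ) : ℂ) * ((w (c i) * (m i : ℚ) : ℚ) : ℂ) by
        rw [← Rat.cast_intCast (k i), hk' i]; push_cast; ring,
      ← Finset.mul_sum, ← Rat.cast_sum, h, Rat.cast_zero, mul_zero]
  -- and rational functionals separate complex numbers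
  refine funext fun i => ?_
  exact (Module.forall_dual_apply_eq_zero_iff ℚ (c i)).mp fun w => hzero w i

/-- **Every complex point of the Hecke ring is the system of an eigenform.** -/
theorem exists_normalized_of_point (χ : TK →+* ℂ) :
    ∃ g : CuspForm (Gamma0 N) 2, g.IsNormalizedEigenform ∧
      ∀ ℓ : Nat.Primes, qCoeff g (ℓ : ℕ) = χ (Fermat.JAC.XH.tOp N ⊤ ℓ) := by
  classical
  have : FiniteDimensional ℂ (CuspForm (Gamma0 N) 2) :=
    Fermat.GR.Lifting.finiteDimensional (Fermat.MC.hasIntegralBasis N)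
  have : FiniteDimensional ℂ (CuspForm (GammaH N ⊤) 2) := Module.Finite.equiv (toTop N)
  let V := CuspForm (GammaH N ⊤) 2
  obtain ⟨inj, hinj, hinj_apply⟩ := exists_formHom N
  have : IsAddTorsionFree TK := ⟨fun n hn a b hab => hinj (by
    have h := congrArg inj hab
    rw [map_nsmul, map_nsmul, ← Nat.cast_smul_eq_nsmul ℂ, ← Nat.cast_smul_eq_nsmul ℂ] at h
    exact smul_right_injective _ (Nat.cast_ne_zero.mpr hn) h)⟩
  have : Module.Free ℤ TK := Module.free_of_finite_type_torsion_free'
  let b := Module.Free.chooseBasis ℤ TK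
  choose P hPb using fun i => Fermat.JAC.XH.ringEval_surjective N ⊤ (b i)
  have h1 : (fun i => formAct N ⊤ (P i)) = inj.toAddMonoidHom.toIntLinearMap ∘ b :=
    funext fun i => by rw [← hinj_apply, hPb]; rfl
  have hli : LinearIndependent ℤ fun i => formAct N ⊤ (P i) := by
    rw [h1]
    exact b.linearIndependent.map' _ (LinearMap.ker_eq_bot.mpr hinj)
  obtain ⟨v, hv0, hev⟩ := exists_eigen_of_hom inj b (fun c hc => eq_zero_of_sum_smul_formAct N P hli
    (c := c) (by
      refine Eq.trans (Finset.sum_congr rfl fun i _ => ?_) hc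
      rw [← hinj_apply, hPb])) χ
  obtain ⟨g, hg, hgc⟩ := exists_normalized N hv0
    (c := fun i => χ (Fermat.JAC.XH.ringEval N ⊤ (MvPolynomial.X i))) fun i => by
      rw [← formAct_X, ← hinj_apply]
      exact hev _
  exact ⟨g, hg, fun ℓ => (hgc ℓ).trans (congrArg χ (Fermat.JAC.XH.ringEval_inl N ⊤ ℓ))⟩

end Fermat.GR.RT

end
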