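import Mathlib
import Fermat.Agent.FLAT.LocalGroup

/-!
# Tame inertia

If a homomorphism of finite level kills wild inertia then inertia has cyclic image, so decomposition
is generated by a Frobenius and one element of inertia.  Wild inertia is killed as soon as inertia
acts through an `ℓ`-group with `ℓ` different from the residue characteristic.
-/

set_option autoImplicit false

noncomputable section

open Fermat.EC.Val IsLocalRing Fermat.FLAT

namespace Fermat.GR.RT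

local notation "ℚbar" => AlgebraicClosure ℚ
local notation "Γℚ" => (AlgebraicClosure ℚ ≃ₐ[ℚ] AlgebraicClosure ℚ)

variable {q : ℕ} {A : ValuationSubring ℚbar}

/-- `psi σ y` only depends on the order of `y`. -/
theorem psi_eq_of_ord_eq (h : IsPlace A q) {σ : Γℚ} (hσ : σ ∈ A.inertiaSubgroupIn ℚ) {y z : ℚbar}
    (hy : y ≠ 0) (hz : z ≠ 0) (ho : ord A q y = ord A q z) : psi A σ y = psi A σ z := by
  have hu : Is A q (y / z) 0 := ⟨div_ne_zero hy hz, by
    rw [div_eq_mul_inv, ord_mul h hy (inv_ne_zero hz), ord_inv h, ho]; ring⟩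
  conv_lhs => rw [← div_mul_cancel₀ y hz]
  exact psi_unit_mul h hσ hu

/-- Finitely many elements have, up to units, a common root in the group they generate. -/
theorem exists_common_root (h : IsPlace A q) (L : IntermediateField ℚ ℚbar) (Y : Finset ℚbar)
    (hY : ∀ y ∈ Y, y ∈ L ∧ y ≠ 0) :
    ∃ π ∈ L, π ≠ 0 ∧ ∀ y ∈ Y, ∃ n : ℤ, ord A q y = n * ord A q π := by
  classical
  set d : ℕ := ∏ y ∈ Y, (ord A q y).den with hd
  have hd0 : d ≠ 0 := Finset.prod_ne_zero_iff.mpr fun y _ => (ord A q y).den_nz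
  have hint : ∀ y ∈ Y, ∃ m : ℤ, (m : ℚ) = d * ord A q y := by
    intro y hy
    obtain ⟨e, he⟩ := Finset.dvd_prod_of_mem (fun y => (ord A q y).den) hy
    refine ⟨e * (ord A q y).num, ?_⟩
    rw [hd, he]
    push_cast
    rw [mul_comm ((ord A q y).den : ℚ) e, mul_assoc, Rat.den_mul_eq_num]
  choose m hm using hint
  let G : AddSubgroup ℤ :=
    { carrier := {n | ∃ π ∈ L, π ≠ 0 ∧ (n : ℚ) = d * ord A q π}
      zero_mem' := ⟨1, one_mem L, one_ne_zero, by simp [ord_one h]⟩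
      add_mem' := by
        rintro a b ⟨x, hx, hx0, ha⟩ ⟨y, hy, hy0, hb⟩
        exact ⟨x * y, mul_mem hx hy,
          mul_ne_zero hx0 hy0, by rw [ord_mul h hx0 hy0]; push_cast; rw [ha, hb]; ring⟩
      neg_mem' := by
        rintro a ⟨x, hx, hx0, ha⟩
        exact ⟨x⁻¹, inv_mem hx, inv_ne_zero hx0, by rw [ord_inv h]; push_cast; rw [ha]; ring⟩ }
  obtain ⟨g, hg⟩ := Int.subgroup_cyclic G
  obtain ⟨π, hπL, hπ0, hπ⟩ : g ∈ G := hg ▸ AddSubgroup.subset_closure rfl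
  refine ⟨π, hπL, hπ0, fun y hy => ?_⟩
  have hmem : m y hy ∈ G := ⟨y, (hY y hy).1, (hY y hy).2, hm y hy⟩
  rw [hg, AddSubgroup.mem_closure_singleton] at hmem
  obtain ⟨n, hn⟩ := hmem
  refine ⟨n, mul_left_cancel₀ (Nat.cast_ne_zero.mpr hd0 : (d : ℚ) ≠ 0) ?_⟩
  rw [← hm y hy, ← hn, zsmul_eq_mul]
  push_cast
  rw [hπ]; ring

variable {L : IntermediateField ℚ ℚbar} [Normal ℚ L] [FiniteDimensional ℚ L] {G : Type*} [Group G]

section Decomposition

variable {ρD : A.decompositionSubgroup ℚ →* G}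

/-- The element of decomposition given by an element of inertia. -/
def inD (σ : A.inertiaSubgroupIn ℚ) : A.decompositionSubgroup ℚ :=
  ⟨σ.1, by obtain ⟨x, -, hx⟩ := σ.2; exact hx ▸ x.2⟩

/-- **Inertia has cyclic image** when wild inertia dies. -/
theorem exists_inertia_generator_decomposition (h : IsPlace A q)
    (hL : ∀ δ : A.decompositionSubgroup ℚ, δ.1 ∈ L.fixingSubgroup → ρD δ = 1)
    (hwild : ∀ σ : A.inertiaSubgroupIn ℚ, σ.1 ∈ wildOn A L → ρD (inD σ) = 1) :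
    ∃ τ : A.inertiaSubgroupIn ℚ, ∀ σ : A.inertiaSubgroupIn ℚ,
      ∃ j : ℕ, ρD (inD σ) = ρD (inD τ) ^ j := by
  classical
  set I := A.inertiaSubgroupIn ℚ
  let res : I → (L ≃ₐ[ℚ] L) := fun σ => AlgEquiv.restrictNormalHom L σ.1
  have : Finite (Set.range res) := inferInstance
  -- one element of inertia for each restriction to `L`
  choose rep hrep using fun g : Set.range res => g.2
  have hρ : ∀ σ σ' : I, res σ = res σ' → ρD (inD σ) = ρD (inD σ') ∧ ∀ y ∈ L,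
      psi A σ y = psi A σ' y := by
    intro σ σ' he
    have hfix : σ'.1⁻¹ * σ.1 ∈ L.fixingSubgroup := by
      rw [← Fermat.CFT.restrict_eq_one_iff L, map_mul, map_inv,
        show AlgEquiv.restrictNormalHom L σ.1 = AlgEquiv.restrictNormalHom L σ'.1 from he,
        inv_mul_cancel]
    refine ⟨?_, fun y hy => ?_⟩
    · have := hL ((inD σ')⁻¹ * inD σ) hfix
      rw [map_mul, map_inv, inv_mul_eq_one] at this
      exact this.symm
    · have h1 := (IntermediateField.mem_fixingSubgroup_iff L _).mp hfix y hy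
      change red A (σ.1 y / y) = red A (σ'.1 y / y)
      rw [show σ.1 y = σ'.1 y by
        rw [AlgEquiv.mul_apply] at h1
        conv_rhs => rw [← h1]
        exact (σ'.1.apply_symm_apply _).symm]
  have hex : ∀ g : Set.range res, ρD (inD (rep g)) ≠ 1 → ∃ y ∈ L, y ≠ 0 ∧
      psi A (rep g).1 y ≠ 1 := by
    intro g hg
    by_contra hc
    push Not at hc
    exact hg (hwild _ ⟨(rep g).2, hc⟩)
  let yof : Set.range res → ℚbar := fun g => if hg : ρD (inD (rep g)) ≠ 1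
    then (hex g hg).choose else 1
  have hyof : ∀ g, yof g ∈ L ∧ yof g ≠ 0 := fun g => by
    by_cases hg : ρD (inD (rep g)) ≠ 1
    · simp only [yof, dif_pos hg]
      exact ⟨(hex g hg).choose_spec.1, (hex g hg).choose_spec.2.1⟩
    · simp only [yof, dif_neg hg]
      exact ⟨one_mem L, one_ne_zero⟩
  have := Fintype.ofFinite (Set.range res)
  -- one element whose tame character detects all of them
  obtain ⟨π, hπL, hπ0, hπ⟩ := exists_common_root h L (Finset.univ.image yof) (by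
    intro y hy
    obtain ⟨g, -, rfl⟩ := Finset.mem_image.mp hy
    exact hyof g)
  let f : I →* (ResidueField A)ˣ :=
    { toFun := fun σ => Units.mk0 (psi A σ.1 π) (psi_ne_zero h σ.2 hπ0)
      map_one' := Units.ext (psi_one hπ0)
      map_mul' := fun σ σ' => Units.ext (psi_mul h σ.2 σ'.2 hπ0) }
  have hker : ∀ σ : I, f σ = 1 → ρD (inD σ) = 1 := by
    intro σ hσ
    set g : Set.range res := ⟨res σ, σ, rfl⟩
    obtain ⟨h1, h2⟩ := hρ σ (rep g) (hrep g).symm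
    rw [h1]
    by_contra hg
    have hy : psi A (rep g).1 (yof g) ≠ 1 := by
      simp only [yof, dif_pos hg]
      exact (hex g hg).choose_spec.2.2
    apply hy
    obtain ⟨n, hn⟩ := hπ (yof g) (Finset.mem_image_of_mem _ (Finset.mem_univ g))
    rw [← ord_zpow h] at hn
    rw [← h2 _ (hyof g).1, psi_eq_of_ord_eq h σ.2 (hyof g).2 (zpow_ne_zero _ hπ0) hn]
    let f' : ℚbarˣ →* ResidueField A :=
      { toFun := fun y => psi A σ.1 (y : ℚbar)
        map_one' := by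
          change red A (σ.1 1 / 1) = 1
          rw [map_one, div_one, red_one]
        map_mul' := fun y z => psi_mul_right h σ.2 y.ne_zero z.ne_zero }
    have h3 : f'.toHomUnits ((Units.mk0 π hπ0) ^ n) = 1 := by
      rw [map_zpow, show f'.toHomUnits (Units.mk0 π hπ0) = 1 from Units.ext (by
        change psi A σ.1 π = 1
        exact congrArg Units.val hσ), one_zpow]
    have h4 : psi A σ.1 (((Units.mk0 π hπ0) ^ n : ℚbarˣ) : ℚbar) = 1 := congrArg Units.val h3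
    rw [Units.val_zpow_eq_zpow_val, Units.val_mk0] at h4
    exact h4
  have : Finite f.range := by
    refine Finite.of_surjective (fun g : Set.range res => (⟨f (rep g), rep g, rfl⟩ : f.range)) ?_
    rintro ⟨_, σ, rfl⟩
    refine ⟨⟨res σ, σ, rfl⟩, Subtype.ext (Units.ext ?_)⟩
    exact (hρ _ σ (hrep ⟨res σ, σ, rfl⟩)).2 π hπL
  -- the character has finite, hence cyclic, image
  obtain ⟨⟨_, τ, rfl⟩, hτ⟩ := IsCyclic.exists_monoid_generator (α := f.range)
  refine ⟨τ, fun σ => ?_⟩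
  obtain ⟨j, hj⟩ := hτ ⟨f σ, σ, rfl⟩
  refine ⟨j, ?_⟩
  have h1 : f (σ * (τ ^ j)⁻¹) = 1 := by
    have hj' : (f τ) ^ j = f σ := congrArg Subtype.val hj
    rw [map_mul, map_inv, map_pow, hj', mul_inv_cancel]
  have h2 := hker _ h1
  rw [show inD (σ * (τ ^ j)⁻¹) = inD σ * ((inD τ) ^ j)⁻¹ from Subtype.ext rfl, map_mul, map_inv,
    map_pow, mul_inv_eq_one] at h2
  exact h2

/-- Wild inertia dies where inertia acts through an `ℓ`-group, `ℓ ≠ q`. -/
theorem wild_eq_one_decomposition (h : IsPlace A q)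
    (hL : ∀ δ : A.decompositionSubgroup ℚ, δ.1 ∈ L.fixingSubgroup → ρD δ = 1) {ℓ : ℕ}
    (hℓ : Nat.Coprime ℓ q) (hI : ∀ σ : A.inertiaSubgroupIn ℚ, ∃ b : ℕ, ρD (inD σ) ^ ℓ ^ b = 1)
    (σ : A.inertiaSubgroupIn ℚ) (hσ : σ.1 ∈ wildOn A L) : ρD (inD σ) = 1 := by
  obtain ⟨a, ha⟩ := exists_pow_eq_one_of_wild (L := L) (ρ := AlgEquiv.restrictNormalHom L) h
    (fun g hg => (Fermat.CFT.restrict_eq_one_iff L g).mpr hg) hσ
  rw [← map_pow, Fermat.CFT.restrict_eq_one_iff] at ha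
  have ha' : ρD (inD σ) ^ q ^ a = 1 := by
    rw [← map_pow]
    exact hL _ ha
  obtain ⟨b, hb⟩ := hI σ
  have h1 := Nat.dvd_gcd (orderOf_dvd_of_pow_eq_one ha') (orderOf_dvd_of_pow_eq_one hb)
  rw [Nat.Coprime.pow a b hℓ.symm, Nat.dvd_one, orderOf_eq_one_iff] at h1
  exact h1

/-- **Decomposition is generated by a Frobenius and one element of inertia**, for homomorphisms of
the decomposition group. -/
theorem exists_generators_decomposition (h : IsPlace A q)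
    (hL : ∀ δ : A.decompositionSubgroup ℚ, δ.1 ∈ L.fixingSubgroup → ρD δ = 1) {ℓ : ℕ}
    (hℓ : Nat.Coprime ℓ q) (hI : ∀ σ : A.inertiaSubgroupIn ℚ, ∃ b : ℕ, ρD (inD σ) ^ ℓ ^ b = 1)
    {φ : Γℚ} (hφ : A.IsFrobeniusAt φ q) :
    ∃ τ : A.inertiaSubgroupIn ℚ,
      ρD (⟨φ, hφ.mem_decompositionSubgroup⟩ * inD τ * ⟨φ, hφ.mem_decompositionSubgroup⟩⁻¹) =
        ρD (inD τ) ^ q ∧
      (∀ σ : A.inertiaSubgroupIn ℚ, ∃ j : ℕ, ρD (inD σ) = ρD (inD τ) ^ j) ∧
      ∀ δ : A.decompositionSubgroup ℚ, ∃ i j : ℕ,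
        ρD δ = ρD ⟨φ, hφ.mem_decompositionSubgroup⟩ ^ i * ρD (inD τ) ^ j := by
  obtain ⟨τ, hgen⟩ :=
    exists_inertia_generator_decomposition h hL (wild_eq_one_decomposition h hL hℓ hI)
  refine ⟨τ, ?_, hgen, fun δ => ?_⟩
  · have := wild_eq_one_decomposition h hL hℓ hI
      ⟨φ * τ.1 * φ⁻¹ * (τ.1 ^ q)⁻¹, (frob_conj_mem_wildOn (L := L) h hφ τ.2).1⟩
      (frob_conj_mem_wildOn (L := L) h hφ τ.2)
    rw [show inD ⟨φ * τ.1 * φ⁻¹ * (τ.1 ^ q)⁻¹, _⟩ =
      ⟨φ, hφ.mem_decompositionSubgroup⟩ * inD τ * ⟨φ, hφ.mem_decompositionSubgroup⟩⁻¹ *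
        ((inD τ) ^ q)⁻¹ from Subtype.ext rfl, map_mul, map_inv, map_pow, mul_inv_eq_one] at this
    exact this
  · obtain ⟨i, σ, hσ, hi⟩ := exists_frob_pow_mul (L := L) (ρ := AlgEquiv.restrictNormalHom L) h
      (fun g hg => (Fermat.CFT.restrict_eq_one_iff L g).mpr hg) hφ δ.2
    have hfix : (φ ^ i * σ)⁻¹ * δ.1 ∈ L.fixingSubgroup := by
      rw [← Fermat.CFT.restrict_eq_one_iff L, map_mul, map_inv, map_mul, map_pow,
        hi, inv_mul_cancel]
    have h1 := hL ((⟨φ, hφ.mem_decompositionSubgroup⟩ ^ i * inD ⟨σ, hσ⟩)⁻¹ * δ) hfix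
    rw [map_mul, map_inv, inv_mul_eq_one, map_mul, map_pow] at h1
    obtain ⟨j, hj⟩ := hgen ⟨σ, hσ⟩
    exact ⟨i, j, by rw [← h1, hj]⟩

end Decomposition

variable {ρ : Γℚ →* G}

/-- **Inertia has cyclic image**, for homomorphisms of the Galois group. -/
theorem exists_inertia_generator (h : IsPlace A q) (hL : L.fixingSubgroup ≤ ρ.ker)
    (hwild : ∀ σ ∈ wildOn A L, ρ σ = 1) :
    ∃ τ ∈ A.inertiaSubgroupIn ℚ, ∀ σ ∈ A.inertiaSubgroupIn ℚ, ∃ j : ℕ, ρ σ = ρ τ ^ j := by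
  obtain ⟨τ, hτ⟩ := exists_inertia_generator_decomposition
    (ρD := ρ.comp (A.decompositionSubgroup ℚ).subtype) h (fun δ hδ => hL hδ) fun σ hσ => hwild _ hσ
  exact ⟨τ.1, τ.2, fun σ hσ => hτ ⟨σ, hσ⟩⟩

omit [Normal ℚ L] in
/-- Wild inertia dies in a group of order prime to the residue characteristic. -/
theorem wild_eq_one (h : IsPlace A q) [Normal ℚ L] (hL : L.fixingSubgroup ≤ ρ.ker) {ℓ : ℕ}
    (hℓ : Nat.Coprime ℓ q) (hI : ∀ σ ∈ A.inertiaSubgroupIn ℚ, ∃ b : ℕ, ρ σ ^ ℓ ^ b = 1)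
    {σ : Γℚ} (hσ : σ ∈ wildOn A L) : ρ σ = 1 := by
  obtain ⟨a, ha⟩ := exists_pow_eq_one_of_wild h hL hσ
  obtain ⟨b, hb⟩ := hI σ hσ.1
  have h1 := Nat.dvd_gcd (orderOf_dvd_of_pow_eq_one ha) (orderOf_dvd_of_pow_eq_one hb)
  rw [Nat.Coprime.pow a b hℓ.symm, Nat.dvd_one, orderOf_eq_one_iff] at h1
  exact h1

/-- **Decomposition is generated by a Frobenius and one element of inertia.** -/
theorem exists_decomposition_generators (h : IsPlace A q) (hL : L.fixingSubgroup ≤ ρ.ker) {ℓ : ℕ}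
    (hℓ : Nat.Coprime ℓ q) (hI : ∀ σ ∈ A.inertiaSubgroupIn ℚ, ∃ b : ℕ, ρ σ ^ ℓ ^ b = 1)
    {φ : Γℚ} (hφ : A.IsFrobeniusAt φ q) :
    ∃ τ ∈ A.inertiaSubgroupIn ℚ, ρ (φ * τ * φ⁻¹) = ρ τ ^ q ∧
      (∀ σ ∈ A.inertiaSubgroupIn ℚ, ∃ j : ℕ, ρ σ = ρ τ ^ j) ∧
      ∀ δ ∈ A.decompositionSubgroup ℚ, ∃ i j : ℕ, ρ δ = ρ φ ^ i * ρ τ ^ j := by
  obtain ⟨τ, hτ, hgen⟩ := exists_inertia_generator h hL fun σ hσ => wild_eq_one h hL hℓ hI hσ
  refine ⟨τ, hτ, ?_, hgen, fun δ hδ => ?_⟩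
  · have := wild_eq_one h hL hℓ hI (frob_conj_mem_wildOn (L := L) h hφ hτ)
    rw [map_mul, mul_eq_one_iff_eq_inv, map_inv, inv_inv, map_pow] at this
    exact this
  · obtain ⟨i, σ, hσ, hi⟩ := exists_frob_pow_mul h hL hφ hδ
    obtain ⟨j, hj⟩ := hgen σ hσ
    exact ⟨i, j, by rw [hi, hj]⟩

end Fermat.GR.RT
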