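import Mathlib
import Fermat.Agent.GR.RT.Tame
import Fermat.Agent.CFT.Local.Data

/-!
# Local cohomology at a prime different from `ℓ`, inertia acting trivially

For a finite `𝔽_ℓ`-module on which inertia at `q ≠ ℓ` acts trivially, a class is determined by its
value at one element of inertia, which lies in the `q`-eigenspace of Frobenius, and by the value at
Frobenius modulo coboundaries.
-/

set_option autoImplicit false

noncomputable section

open Fermat.EC.Val Fermat.CFT

namespace Fermat.GR.RT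

local notation "ℚbar" => AlgebraicClosure ℚ
local notation "Γℚ" => (AlgebraicClosure ℚ ≃ₐ[ℚ] AlgebraicClosure ℚ)

/-- A type all of whose finite subsets have at most `N` elements is finite with at most `N`
elements. -/
theorem finite_of_forall_finset {α : Type*} {N : ℕ} (h : ∀ F : Finset α, F.card ≤ N) :
    Finite α ∧ Nat.card α ≤ N := by
  have : Finite α := by
    by_contra hc
    rw [not_finite_iff_infinite] at hc
    obtain ⟨F, hF⟩ := Infinite.exists_subset_card_eq α (N + 1)
    have := h F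
    omega
  have := Fintype.ofFinite α
  exact ⟨inferInstance, by rw [Nat.card_eq_fintype_card]; exact h Finset.univ⟩

variable {ℓ : ℕ} [Fact ℓ.Prime] {A : ValuationSubring ℚbar} {M : Type} [AddCommGroup M]
  [Module (ZMod ℓ) M] {ρ : Representation (ZMod ℓ) (A.decompositionSubgroup ℚ) M}

/-- The affine action of a cocycle. -/
def affineAct {z : A.decompositionSubgroup ℚ → M}
    (hz : z ∈ Coh.Z1 (glev (A.decompositionSubgroup ℚ).subtype) ρ) :
    A.decompositionSubgroup ℚ →* Equiv.Perm M :=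
  MonoidHom.toHomPerm
    { toFun := fun g m => ρ g m + z g
      map_one' := funext fun m => by
        change ρ 1 m + z 1 = m
        rw [Coh.Z1_one hz, add_zero, map_one]
        rfl
      map_mul' := fun g h => funext fun m => by
        change ρ (g * h) m + z (g * h) = ρ g (ρ h m + z h) + z g
        rw [Coh.cocycle₁ hz, map_add, map_mul, Module.End.mul_apply, add_assoc] }

/-- The affine action written out. -/
theorem affineAct_apply {z : A.decompositionSubgroup ℚ → M}
    (hz : z ∈ Coh.Z1 (glev (A.decompositionSubgroup ℚ).subtype) ρ) (g : A.decompositionSubgroup ℚ)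
    (m : M) : affineAct hz g m = ρ g m + z g := rfl

/-- Where the linear part is trivial the affine action translates. -/
theorem affineAct_pow_of_trivial {z : A.decompositionSubgroup ℚ → M}
    (hz : z ∈ Coh.Z1 (glev (A.decompositionSubgroup ℚ).subtype) ρ) {g : A.decompositionSubgroup ℚ}
    (hg : ρ g = 1) (m : M) : ∀ n : ℕ, (affineAct hz g ^ n) m = m + n • z g
  | 0 => by simp
  | n + 1 => by
    rw [pow_succ', Equiv.Perm.mul_apply, affineAct_pow_of_trivial hz hg m n, affineAct_apply, hg,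
      Module.End.one_apply, succ_nsmul, add_assoc]

/-- Affine actions intertwined by a translation at generators come from cohomologous cocycles. -/
theorem cl₁_eq_of_intertwine
    {z w : Coh.Z1 (glev (A.decompositionSubgroup ℚ).subtype) ρ}
    {g₁ g₂ : A.decompositionSubgroup ℚ} (Δ : M)
    (hgen : ∀ δ, ∃ i j : ℕ, affineAct z.2 δ = affineAct z.2 (g₁ ^ i * g₂ ^ j) ∧
      affineAct w.2 δ = affineAct w.2 (g₁ ^ i * g₂ ^ j))
    (h₁ : ∀ a, affineAct w.2 g₁ (a + Δ) = affineAct z.2 g₁ a + Δ)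
    (h₂ : ∀ a, affineAct w.2 g₂ (a + Δ) = affineAct z.2 g₂ a + Δ) :
    Coh.cl₁ (glev (A.decompositionSubgroup ℚ).subtype) ρ z =
      Coh.cl₁ (glev (A.decompositionSubgroup ℚ).subtype) ρ w := by
  let E : A.decompositionSubgroup ℚ → Prop := fun g =>
    ∀ a, affineAct w.2 g (a + Δ) = affineAct z.2 g a + Δ
  have hmul : ∀ g g', E g → E g' → E (g * g') := fun g g' hg hg' a => by
    rw [map_mul, map_mul, Equiv.Perm.mul_apply, Equiv.Perm.mul_apply, hg' a, hg]
  have hpow : ∀ g, E g → ∀ i : ℕ, E (g ^ i) := fun g hg i => by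
    induction i with
    | zero => intro a; simp
    | succ i ih => rw [pow_succ]; exact hmul _ _ ih hg
  rw [Coh.cl₁_eq_iff]
  refine ⟨Δ, funext fun δ => ?_⟩
  obtain ⟨i, j, hz, hw⟩ := hgen δ
  have e := hmul _ _ (hpow _ h₁ i) (hpow _ h₂ j) 0
  rw [← hz, ← hw, affineAct_apply, affineAct_apply, zero_add, map_zero, zero_add] at e
  rw [Coh.d₀_apply, Pi.sub_apply]
  linear_combination (norm := abel) e

/-- For an endomorphism of a finite module the cokernel is as large as the kernel. -/
theorem card_quotient_range_eq_card_ker {R N : Type*} [Ring R] [AddCommGroup N] [Module R N]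
    [Finite N] (T : N →ₗ[R] N) :
    Nat.card (N ⧸ LinearMap.range T) = Nat.card (LinearMap.ker T) := by
  have hTfin : Nat.card N = Nat.card (N ⧸ LinearMap.range T) * Nat.card (LinearMap.range T) :=
    (Submodule.card_eq_card_quotient_mul_card (LinearMap.range T)).trans (mul_comm _ _)
  have hker : Nat.card N = Nat.card (LinearMap.ker T) * Nat.card (LinearMap.range T) := by
    rw [← Nat.card_congr T.quotKerEquivRange.toEquiv]
    exact Submodule.card_eq_card_quotient_mul_card (LinearMap.ker T)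
  exact Nat.eq_of_mul_eq_mul_right Nat.card_pos (hTfin.symm.trans hker)

/-- A level on which finitely many cocycles and the action are constant. -/
theorem exists_common_field [Finite M]
    (hsm : Coh.IsSmooth (glev (A.decompositionSubgroup ℚ).subtype) ρ)
    (F : Finset (Coh.Z1 (glev (A.decompositionSubgroup ℚ).subtype) ρ)) :
    ∃ L : IntermediateField ℚ ℚbar, FiniteDimensional ℚ L ∧ Normal ℚ L ∧
      ∀ δ : A.decompositionSubgroup ℚ, δ.1 ∈ L.fixingSubgroup →
        (∀ m, ρ δ m = m) ∧ ∀ z ∈ F, z.1 δ = 0 := by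
  classical
  let lv := glev (A.decompositionSubgroup ℚ).subtype
  have key : ∀ F' : Finset (Coh.Z1 lv ρ),
      ∃ N, lv.IsLevel N ∧ ∀ δ ∈ N, (∀ m, ρ δ m = m) ∧ ∀ z ∈ F', z.1 δ = 0 := by
    obtain ⟨N₀, hN₀, hfix⟩ := hsm.exists_fix (Set.finite_univ (α := M))
    intro F'
    induction F' using Finset.induction_on with
    | empty => exact ⟨N₀, hN₀, fun δ hδ => ⟨fun m => hfix δ hδ m trivial, by simp⟩⟩
    | @insert z F' _ ih =>
      obtain ⟨N, hN, hN1⟩ := ih
      obtain ⟨N', hN', hN'1⟩ := z.2.1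
      obtain ⟨N'', hN'', h1, h2⟩ := lv.exists_le N N' hN hN'
      refine ⟨N'', hN'', fun δ hδ => ⟨(hN1 δ (h1 hδ)).1, fun w hw => ?_⟩⟩
      rcases Finset.mem_insert.mp hw with rfl | hw
      · have := hN'1 1 δ (h2 hδ)
        rwa [one_mul, Coh.Z1_one w.2] at this
      · exact (hN1 δ (h1 hδ)).2 w hw
  obtain ⟨_, ⟨_, ⟨L, hL, hLn, -, rfl⟩, rfl⟩, h⟩ := key F
  exact ⟨L, hL, hLn, fun δ hδ => h δ hδ⟩

/-- **Classes at `q ≠ ℓ`, inertia acting trivially**: at most the `q`-eigenvectors of Frobenius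
times the invariants. -/
theorem card_H1_unramified_le [Finite M] {q : ℕ} (h : IsPlace A q) (hne : ℓ ≠ q)
    (hsm : Coh.IsSmooth (glev (A.decompositionSubgroup ℚ).subtype) ρ)
    (hI : ∀ σ : A.inertiaSubgroupIn ℚ, ρ (inD σ) = 1) {φ : Γℚ} (hφ : A.IsFrobeniusAt φ q) :
    Finite (Coh.H1 (glev (A.decompositionSubgroup ℚ).subtype) ρ) ∧
      Nat.card (Coh.H1 (glev (A.decompositionSubgroup ℚ).subtype) ρ) ≤
        Nat.card {m : M // ρ ⟨φ, hφ.mem_decompositionSubgroup⟩ m = (q : ZMod ℓ) • m} *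
          Nat.card (Coh.H0 ρ) := by
  classical
  set lv := glev (A.decompositionSubgroup ℚ).subtype
  set φD : A.decompositionSubgroup ℚ := ⟨φ, hφ.mem_decompositionSubgroup⟩
  set T : M →ₗ[ZMod ℓ] M := ρ φD - 1
  have hcop : Nat.Coprime ℓ q := (Nat.coprime_primes (Fact.out) h.1).mpr hne
  refine finite_of_forall_finset fun F => ?_
  choose rep hrep using fun x : Coh.H1 lv ρ => Coh.cl₁_surjective x
  obtain ⟨L, hL, hLn, hfix⟩ := exists_common_field hsm (F.image rep)
  let ρD : A.decompositionSubgroup ℚ →* (F → Equiv.Perm M) :=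
    MonoidHom.pi fun x => affineAct (rep x.1).2
  have hLρ : ∀ δ : A.decompositionSubgroup ℚ, δ.1 ∈ L.fixingSubgroup → ρD δ = 1 := fun δ hδ =>
    funext fun x => Equiv.ext fun m => by
      change ρ δ m + (rep x.1).1 δ = m
      rw [(hfix δ hδ).1, (hfix δ hδ).2 _ (Finset.mem_image_of_mem _ x.2), add_zero]
  have hIρ : ∀ σ : A.inertiaSubgroupIn ℚ, ∃ b : ℕ, ρD (inD σ) ^ ℓ ^ b = 1 := fun σ =>
    ⟨1, funext fun x => Equiv.ext fun m => by
      change (affineAct (rep x.1).2 (inD σ) ^ ℓ ^ 1) m = m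
      rw [affineAct_pow_of_trivial _ (hI σ), pow_one, ← Nat.cast_smul_eq_nsmul (ZMod ℓ),
        ZMod.natCast_self, zero_smul, add_zero]⟩
  obtain ⟨τ, hconj, -, hgen⟩ := exists_generators_decomposition h hLρ hcop hIρ hφ
  set τD := inD τ
  -- the value on inertia lies in the eigenspace
  have hτ : ∀ x : F, ρ φD ((rep x.1).1 τD) = (q : ZMod ℓ) • (rep x.1).1 τD := by
    intro x
    have h1 := congrArg (fun e : F → Equiv.Perm M => e x 0) hconj
    change ρ (φD * τD * φD⁻¹) 0 + (rep x.1).1 (φD * τD * φD⁻¹) =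
      (affineAct (rep x.1).2 τD ^ q) 0 at h1
    rw [map_zero, zero_add, affineAct_pow_of_trivial _ (hI τ), zero_add,
      ← Nat.cast_smul_eq_nsmul (ZMod ℓ), Coh.cocycle₁ (rep x.1).2, Coh.cocycle₁ (rep x.1).2] at h1
    rw [← h1, Coh.Z1_inv (rep x.1).2, map_neg, map_mul, Module.End.mul_apply,
      show ρ τD = 1 from hI τ, Module.End.one_apply, ← Module.End.mul_apply, ← map_mul,
      mul_inv_cancel, map_one, Module.End.one_apply, ← add_assoc, add_comm (-(rep x.1).1 φD),
      add_assoc, neg_add_cancel, add_zero]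
  let Θ : F → {m : M // ρ φD m = (q : ZMod ℓ) • m} × (M ⧸ LinearMap.range T) := fun x =>
    (⟨(rep x.1).1 τD, hτ x⟩, Submodule.Quotient.mk ((rep x.1).1 φD))
  have hΘ : Function.Injective Θ := by
    intro x y hxy
    have h1 : (rep x.1).1 τD = (rep y.1).1 τD := congrArg (fun z => z.1.1) hxy
    obtain ⟨m, hm⟩ : (rep x.1).1 φD - (rep y.1).1 φD ∈ LinearMap.range T :=
      (Submodule.Quotient.eq _).mp (congrArg Prod.snd hxy)
    refine Subtype.ext ?_
    rw [← hrep x.1, ← hrep y.1]
    refine cl₁_eq_of_intertwine (g₁ := φD) (g₂ := τD) m (fun δ => ?_) (fun a => ?_) fun a => ?_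
    · obtain ⟨i, j, hij⟩ := hgen δ
      exact ⟨i, j, by simp only [map_mul, map_pow]; exact congrFun hij x,
        by simp only [map_mul, map_pow]; exact congrFun hij y⟩
    · rw [affineAct_apply, affineAct_apply, map_add,
        show (rep x.1).1 φD = (rep y.1).1 φD + (ρ φD m - m) by
          rw [show ρ φD m - m = T m from rfl, hm]; abel]
      abel
    · rw [affineAct_apply, affineAct_apply, show ρ τD = 1 from hI τ, Module.End.one_apply,
        Module.End.one_apply, h1]
      abel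
  have : Finite (M ⧸ LinearMap.range T) := Finite.of_surjective _ (Submodule.mkQ_surjective _)
  have hF := Nat.card_le_card_of_injective Θ hΘ
  rw [Nat.card_eq_finsetCard, Nat.card_prod] at hF
  refine hF.trans (Nat.mul_le_mul_left _ ?_)
  -- cokernel = kernel
  rw [card_quotient_range_eq_card_ker]
  have : Finite (Coh.H0 ρ) := Subtype.finite
  refine Nat.card_le_card_of_injective (fun m => (⟨m.1, Coh.mem_ker_d₀.mpr fun δ => ?_⟩ : Coh.H0 ρ))
    fun a b hab => Subtype.ext (congrArg (fun z : Coh.H0 ρ => z.1) hab)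
  obtain ⟨i, σ, hσ, hi⟩ := Fermat.FLAT.exists_frob_pow_mul (L := L)
    (ρ := AlgEquiv.restrictNormalHom L) h
    (fun g hg => (Fermat.CFT.restrict_eq_one_iff L g).mpr hg) hφ δ.2
  have hfx : ((φD ^ i * inD ⟨σ, hσ⟩)⁻¹ * δ : A.decompositionSubgroup ℚ).1 ∈ L.fixingSubgroup := by
    rw [← Fermat.CFT.restrict_eq_one_iff L]
    change AlgEquiv.restrictNormalHom L ((φ ^ i * σ)⁻¹ * δ.1) = 1
    rw [map_mul, map_inv, map_mul, map_pow, hi, inv_mul_cancel]
  have hm1 : ρ φD m.1 = m.1 := sub_eq_zero.mp (LinearMap.mem_ker.mp m.2)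
  have h2 := (hfix _ hfx).1 m.1
  rw [map_mul, Module.End.mul_apply] at h2
  have h3 : ρ (φD ^ i * inD ⟨σ, hσ⟩) m.1 = m.1 := by
    rw [map_mul, hI, mul_one, map_pow, Module.End.coe_pow]
    exact Function.iterate_fixed hm1 i
  calc ρ δ m.1 = ρ (φD ^ i * inD ⟨σ, hσ⟩) (ρ ((φD ^ i * inD ⟨σ, hσ⟩)⁻¹) (ρ δ m.1)) := by
        rw [← Module.End.mul_apply, ← map_mul, mul_inv_cancel, map_one, Module.End.one_apply]
    _ = m.1 := by rw [h2, h3]

end Fermat.GR.RT
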