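import Fermat.Agent.GR.S56.Orbit

/-!
# Cohomology through a normal subgroup of order prime to `p`

`exists_eq_coboundary_of_coprime`: a crossed homomorphism vanishing on `N` is a coboundary if a
normal subgroup above it, of index prime to `p` over it, has no fixed vector.
-/

set_option autoImplicit false

noncomputable section

namespace Fermat.GR.RT

variable {p : ℕ} [Fact p.Prime] {G M : Type} [Group G] [AddCommGroup M] [Module (ZMod p) M]

/-- A crossed homomorphism vanishing on `N` is a coboundary if some normal `P ⊇ N`, of index prime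
to `p` over `N`, has no fixed vector. -/
theorem exists_eq_coboundary_of_coprime (ρ : Representation (ZMod p) G M) (z : G → M)
    (hz : ∀ g h, z (g * h) = ρ g (z h) + z g) (N P : Subgroup G) [P.Normal] [N.Normal]
    (hzN : ∀ n ∈ N, z n = 0) [Finite (P ⧸ N.subgroupOf P)]
    (hcop : ¬ p ∣ Nat.card (P ⧸ N.subgroupOf P)) (hfix : ∀ m : M, (∀ x ∈ P, ρ x m = m) → m = 0) :
    ∃ m : M, ∀ g, z g = ρ g m - m := by
  obtain ⟨m, hm⟩ := S56.exists_coboundary_of_index (G := P) (ρ.comp P.subtype) (fun x => z x.1)
    (fun a b => hz a.1 b.1) (N.subgroupOf P) hcop fun u hu => hzN _ (Subgroup.mem_subgroupOf.mp hu)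
  exact ⟨m, S56.eq_coboundary_of_normal ρ z hz P hfix fun x hx => hm ⟨x, hx⟩⟩

end Fermat.GR.RT
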