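import Mathlib
import Fermat.Agent.CFT.Local.Data

/-!
# The adjoint representation, Selmer groups and cocycles of tangent vectors

`adRep r` is the representation of `Gal(ℚ̄/ℚ)` on trace zero matrices through conjugation by `r`.
A derivation `d : R → k` over `π : R → k` turns a representation over `R` with constant determinant
into a cocycle `tcoc` for it.
-/

set_option autoImplicit false
set_option linter.unusedSectionVars false

noncomputable section

open Fermat.CFT

namespace Fermat.GR.RT

local notation "ℚbar" => AlgebraicClosure ℚ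
local notation "Γℚ" => (AlgebraicClosure ℚ ≃ₐ[ℚ] AlgebraicClosure ℚ)
local notation "M2" R => Matrix (Fin 2) (Fin 2) R

variable (p : ℕ) [Fact p.Prime] {k : Type} [Field k] [Algebra (ZMod p) k]

variable (k) in
/-- Trace zero matrices. -/
def adZero : Submodule (ZMod p) (M2 k) :=
  LinearMap.ker ((Matrix.traceLinearMap (Fin 2) k k).restrictScalars (ZMod p))

variable {p} in
/-- A matrix lies in `adZero` exactly when its trace is zero. -/
theorem mem_adZero {X : M2 k} : X ∈ adZero p k ↔ X.trace = 0 := Iff.rfl

variable {p} in
/-- A homomorphism to matrices sends `σ⁻¹` to a right inverse of the image of `σ`. -/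
theorem hom_mul_inv {G R : Type} [Group G] [CommRing R] (r : G →* M2 R) (σ : G) :
    r σ * r σ⁻¹ = 1 := by rw [← map_mul, mul_inv_cancel, map_one]

variable {p} in
/-- A homomorphism to matrices sends `σ⁻¹` to a left inverse of the image of `σ`. -/
theorem hom_inv_mul {G R : Type} [Group G] [CommRing R] (r : G →* M2 R) (σ : G) :
    r σ⁻¹ * r σ = 1 := by rw [← map_mul, inv_mul_cancel, map_one]

variable {p} in
/-- Conjugation by a value of `r` preserves the trace. -/
theorem trace_conj_inv {G : Type} [Group G] (r : G →* M2 k) (σ : G) (X : M2 k) :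
    (r σ * X * r σ⁻¹).trace = X.trace := by
  rw [Matrix.trace_mul_comm, ← mul_assoc, hom_inv_mul, one_mul]

/-- The adjoint representation on trace zero matrices. -/
def adRep (r : Γℚ →* M2 k) : Representation (ZMod p) Γℚ (adZero p k) where
  toFun σ :=
    { toFun := fun X => ⟨r σ * X.1 * r σ⁻¹, by
        rw [mem_adZero, trace_conj_inv]; exact X.2⟩
      map_add' := fun X Y => Subtype.ext (by
        simp only [Submodule.coe_add, mul_add, add_mul])
      map_smul' := fun c X => Subtype.ext (by
        simp only [Submodule.coe_smul, RingHom.id_apply, Matrix.mul_smul, Matrix.smul_mul]) }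
  map_one' := LinearMap.ext fun X => Subtype.ext (by
    change r 1 * X.1 * r 1⁻¹ = X.1
    rw [inv_one, map_one, one_mul, mul_one])
  map_mul' σ τ := LinearMap.ext fun X => Subtype.ext (by
    change r (σ * τ) * X.1 * r (σ * τ)⁻¹ = r σ * (r τ * X.1 * r τ⁻¹) * r σ⁻¹
    rw [mul_inv_rev, map_mul, map_mul]
    simp only [mul_assoc])

variable {p} in
/-- The adjoint representation is conjugation, on the underlying matrices. -/
@[simp] theorem coe_adRep (r : Γℚ →* M2 k) (σ : Γℚ) (X : adZero p k) :
    ((adRep p r σ X : adZero p k) : M2 k) = r σ * X.1 * r σ⁻¹ := rfl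

/-- The adjoint representation at a place. -/
abbrev locRep (r : Γℚ →* M2 k) (A : ValuationSubring ℚbar) :
    Representation (ZMod p) (A.decompositionSubgroup ℚ) (adZero p k) :=
  (adRep p r).comp (A.decompositionSubgroup ℚ).subtype

/-- Cohomology of the adjoint representation at a place. -/
abbrev locH1 (r : Γℚ →* M2 k) (A : ValuationSubring ℚbar) : Type :=
  Coh.H1 (glev (A.decompositionSubgroup ℚ).subtype) (locRep p r A)

/-- Restriction from `Gal(ℚ̄/ℚ)` to a decomposition group respects the levels. -/
theorem isLevelsHom_decomposition (S : Set Nat.Primes) (A : ValuationSubring ℚbar) :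
    Coh.IsLevelsHom (galLevels S) (glev (A.decompositionSubgroup ℚ).subtype)
      (A.decompositionSubgroup ℚ).subtype :=
  (galLevels_mono (Set.subset_univ S)).comp
    (Coh.IsLevelsHom.comap (galLevels Set.univ) (A.decompositionSubgroup ℚ).subtype)

/-- Localisation of classes. -/
def loc (S : Set Nat.Primes) (r : Γℚ →* M2 k) (A : ValuationSubring ℚbar) :
    Coh.H1 (galLevels S) (adRep p r) →ₗ[ZMod p] locH1 p r A :=
  Coh.map₁ (isLevelsHom_decomposition S A)
      (Coh.IsEquivariant.restrict (adRep p r) (A.decompositionSubgroup ℚ).subtype)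

/-- The Selmer group of a family of local conditions. -/
def selmer (S : Set Nat.Primes) (r : Γℚ →* M2 k) {V : Type} (pl : V → ValuationSubring ℚbar)
    (L : ∀ v, Submodule (ZMod p) (locH1 p r (pl v))) :
    Submodule (ZMod p) (Coh.H1 (galLevels S) (adRep p r)) :=
  ⨅ v, (L v).comap (loc p S r (pl v))

variable {p} in
/-- A class is a Selmer class exactly when every localisation satisfies its condition. -/
theorem mem_selmer {S : Set Nat.Primes} {r : Γℚ →* M2 k} {V : Type}
    {pl : V → ValuationSubring ℚbar} {L : ∀ v, Submodule (ZMod p) (locH1 p r (pl v))}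
    {x : Coh.H1 (galLevels S) (adRep p r)} :
    x ∈ selmer p S r pl L ↔ ∀ v, loc p S r (pl v) x ∈ L v := by
  simp [selmer, Submodule.mem_iInf]

/-! ### Tangent vectors -/

variable {R : Type} [CommRing R]

/-- A derivation into `k` along `π`. -/
structure IsDeriv (π : R →+* k) (d : R → k) : Prop where
  /-- `d` is additive. -/
  add : ∀ a b, d (a + b) = d a + d b
  /-- The Leibniz rule along `π`. -/
  mul : ∀ a b, d (a * b) = π a * d b + π b * d a

namespace IsDeriv

variable {p} {π : R →+* k} {d : R → k} (hd : IsDeriv π d)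
include hd

/-- A derivation kills `0`. -/
theorem zero : d 0 = 0 := by
  have := hd.add 0 0
  rwa [add_zero, left_eq_add] at this

/-- A derivation kills `1`. -/
theorem one : d 1 = 0 := by
  have := hd.mul 1 1
  rwa [mul_one, map_one, one_mul, left_eq_add] at this

/-- A derivation commutes with subtraction. -/
theorem sub (a b : R) : d (a - b) = d a - d b := by
  have := hd.add (a - b) b
  rw [sub_add_cancel] at this
  rw [this, add_sub_cancel_right]

/-- The Leibniz rule on matrices. -/
theorem map_mul (X Y : M2 R) :
    (X * Y).map d = X.map π * Y.map d + X.map d * Y.map π := by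
  ext i j
  simp only [Matrix.map_apply, Matrix.mul_apply, Matrix.add_apply, Fin.sum_univ_two, hd.add, hd.mul]
  ring

/-- A derivation applied to the entries of the identity matrix gives zero. -/
theorem map_one : (1 : M2 R).map d = 0 := by
  ext i j
  rw [Matrix.map_apply, Matrix.one_apply, Matrix.zero_apply]
  split_ifs
  · exact hd.one
  · exact hd.zero

/-- A derivation is constant on classes modulo the square of an ideal killed by `π`. -/
theorem eq_of_sub_mem_sq {I : Ideal R} (hI : ∀ a ∈ I, π a = 0) {a b : R} (h : a - b ∈ I ^ 2) :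
    d a = d b := by
  rw [← sub_eq_zero, ← hd.sub]
  rw [pow_two] at h
  refine Submodule.mul_induction_on h (fun x hx y hy => ?_) (fun x y hx hy => ?_)
  · rw [hd.mul, hI x hx, hI y hy, zero_mul, zero_mul, add_zero]
  · rw [hd.add, hx, hy, add_zero]

end IsDeriv

variable {p} (π : R →+* k) (rep : Γℚ →* M2 R)

/-- The residual representation. -/
def resHom : Γℚ →* M2 k := (π.mapMatrix (m := Fin 2)).toMonoidHom.comp rep

/-- The residual representation is the entrywise image under `π`. -/
theorem resHom_apply (σ : Γℚ) : resHom π rep σ = (rep σ).map π := rfl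

/-- The cochain of a tangent vector. -/
def tcoc (d : R → k) (σ : Γℚ) : M2 k := (rep σ).map d * resHom π rep σ⁻¹

variable {π rep} {d : R → k} (hd : IsDeriv π d)
include hd

omit hd in
/-- The cochain `tcoc` is the derivative of `rep` translated to the identity. -/
theorem map_eq_tcoc_mul (σ : Γℚ) : (rep σ).map d = tcoc π rep d σ * resHom π rep σ := by
  rw [tcoc, mul_assoc, hom_inv_mul, mul_one]

/-- The cochain `tcoc` satisfies the cocycle relation of the adjoint representation. -/
theorem tcoc_mul (σ τ : Γℚ) : tcoc π rep d (σ * τ) =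
    resHom π rep σ * tcoc π rep d τ * resHom π rep σ⁻¹ + tcoc π rep d σ := by
  rw [tcoc, map_mul, hd.map_mul, ← resHom_apply, ← resHom_apply, mul_inv_rev, map_mul, add_mul,
    map_eq_tcoc_mul τ, map_eq_tcoc_mul σ]
  simp only [mul_assoc]
  rw [← mul_assoc (resHom π rep τ) (resHom π rep τ⁻¹), hom_mul_inv, one_mul,
    hom_mul_inv, mul_one]

/-- The trace of the derived matrix is the derivative of the trace. -/
theorem trace_map_eq (σ : Γℚ) : ((rep σ).map d).trace = d (rep σ).trace := by
  rw [Matrix.trace_fin_two, Matrix.trace_fin_two, hd.add]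
  rfl

/-- With constant determinant the cochain has trace zero. -/
theorem trace_tcoc (hdet : ∀ σ, d (rep σ).det = 0) (σ : Γℚ) : (tcoc π rep d σ).trace = 0 := by
  set X := rep σ
  have hinv : (X.map π).det • resHom π rep σ⁻¹ = (X.map π).adjugate := by
    have h := congrArg (fun Y : M2 k => (X.map π).adjugate * Y) (hom_mul_inv (resHom π rep) σ)
    simp only [← mul_assoc, mul_one] at h
    rw [← h, show resHom π rep σ = X.map π from rfl, Matrix.adjugate_mul, Matrix.smul_mul, one_mul]
  have hne : (X.map π).det ≠ 0 := by
    intro h0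
    have := congrArg Matrix.det (hom_mul_inv (resHom π rep) σ)
    rw [Matrix.det_mul, resHom_apply, h0, zero_mul, Matrix.det_one] at this
    exact zero_ne_one this
  refine (mul_right_inj' hne).mp (Eq.trans ?_ (mul_zero _).symm)
  rw [tcoc, ← smul_eq_mul, ← Matrix.trace_smul, ← Matrix.mul_smul, hinv]
  have := hdet σ
  rw [Matrix.det_fin_two, hd.sub, hd.mul, hd.mul] at this
  simp only [Matrix.adjugate_fin_two, Matrix.trace_fin_two, Matrix.mul_apply, Fin.sum_univ_two,
    Matrix.map_apply, Matrix.of_apply, Matrix.cons_val', Matrix.cons_val_zero, Matrix.cons_val_one,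
    Matrix.cons_val_fin_one]
  linear_combination this

/-- The cochain depends only on `rep` modulo the square of an ideal killed by `π`. -/
theorem tcoc_congr {I : Ideal R} (hI : ∀ a ∈ I, π a = 0) {σ τ : Γℚ}
    (h : ∀ i j, rep σ i j - rep τ i j ∈ I ^ 2) : tcoc π rep d σ = tcoc π rep d τ := by
  have h1 : resHom π rep σ = resHom π rep τ := Matrix.ext fun i j => by
    change π (rep σ i j) = π (rep τ i j)
    rw [← sub_eq_zero, ← _root_.map_sub]
    exact hI _ (Ideal.pow_le_self two_ne_zero (h i j))
  have h2 : resHom π rep σ⁻¹ = resHom π rep τ⁻¹ :=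
    left_inv_eq_right_inv (hom_inv_mul _ σ) (by rw [h1]; exact hom_mul_inv _ τ)
  rw [tcoc, tcoc, h2]
  exact congrArg (· * _) (Matrix.ext fun i j => hd.eq_of_sub_mem_sq hI (h i j))

/-- A coboundary cochain makes the derivation kill all traces. -/
theorem trace_eq_zero_of_coboundary {V : M2 k}
    (h : ∀ σ, tcoc π rep d σ = resHom π rep σ * V * resHom π rep σ⁻¹ - V) (σ : Γℚ) :
    d (rep σ).trace = 0 := by
  rw [← trace_map_eq hd, map_eq_tcoc_mul σ, h σ, sub_mul, mul_assoc, hom_inv_mul, mul_one,
    Matrix.trace_sub, Matrix.trace_mul_comm, sub_self]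

end Fermat.GR.RT
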