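import Mathlib
import Fermat.Agent.GR.RT.Adjoint
import Fermat.Agent.CFT.Global.Setup

/-!
# The dual of the adjoint representation

Trace zero matrices twisted by the cyclotomic character, in duality with trace zero matrices by the
trace form.
-/

set_option autoImplicit false

noncomputable section

open Fermat.CFT ExtCitation

namespace Fermat.GR.RT

local notation "Γℚ" => (AlgebraicClosure ℚ ≃ₐ[ℚ] AlgebraicClosure ℚ)
local notation "M2" R => Matrix (Fin 2) (Fin 2) R

variable (p : ℕ) [Fact p.Prime] {k : Type} [Field k] [Algebra (ZMod p) k]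

/-- The adjoint representation twisted by the cyclotomic character. -/
def adTw (r : Γℚ →* M2 k) : Representation (ZMod p) Γℚ (adZero p k) where
  toFun σ := ((cycloChar p σ : (ZMod p)ˣ) : ZMod p) • adRep p r σ
  map_one' := by rw [map_one, map_one, Units.val_one, one_smul]
  map_mul' σ τ := by rw [map_mul, map_mul, Units.val_mul, smul_mul_smul_comm]

variable {p} in
/-- The twisted adjoint action on the underlying matrices. -/
theorem coe_adTw (r : Γℚ →* M2 k) (σ : Γℚ) (X : adZero p k) :
    ((adTw p r σ X : adZero p k) : M2 k) =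
      ((cycloChar p σ : (ZMod p)ˣ) : ZMod p) • (r σ * X.1 * r σ⁻¹) := rfl

variable (k) in
/-- The trace form. -/
def adPair [Finite k] : adZero p k →ₗ[ZMod p] adZero p k →ₗ[ZMod p] ZMod p :=
  LinearMap.mk₂ (ZMod p) (fun X Y => Algebra.trace (ZMod p) k (X.1 * Y.1).trace)
    (fun X X' Y => by rw [Submodule.coe_add, add_mul, Matrix.trace_add, map_add])
    (fun c X Y => by rw [Submodule.coe_smul, Matrix.smul_mul, Matrix.trace_smul, map_smul])
    (fun X Y Y' => by rw [Submodule.coe_add, mul_add, Matrix.trace_add, map_add])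
    (fun c X Y => by rw [Submodule.coe_smul, Matrix.mul_smul, Matrix.trace_smul, map_smul])

variable {p} in
/-- The trace form written out. -/
theorem adPair_apply [Finite k] (X Y : adZero p k) :
    adPair p k X Y = Algebra.trace (ZMod p) k (X.1 * Y.1).trace := rfl

/-- The trace form pairs the adjoint representation and its twist into the cyclotomic
character. -/
theorem isPairing_adPair [Finite k] (r : Γℚ →* M2 k) :
    Coh.IsPairing (adRep p r) (adTw p r) (Coh.charRep (cycloChar p)) (adPair p k) := by
  intro g X Y
  rw [adPair_apply, Coh.charRep_apply, adPair_apply, coe_adRep, coe_adTw, Matrix.mul_smul,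
    Matrix.trace_smul, map_smul, smul_eq_mul]
  refine congrArg (fun t => ((cycloChar p g : (ZMod p)ˣ) : ZMod p) * Algebra.trace (ZMod p) k t) ?_
  simp only [← mul_assoc]
  rw [mul_assoc (r g * X.1), hom_inv_mul, mul_one, mul_assoc (r g), trace_conj_inv]

/-- The trace pairing of the twisted adjoint is injective away from characteristic two. -/
theorem adPair_injective [Finite k] (h2 : (2 : k) ≠ 0) : Function.Injective (adPair p k) := by
  rw [injective_iff_map_eq_zero]
  intro X hX
  have : FiniteDimensional (ZMod p) k := Module.Finite.of_finite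
  have hnd := traceForm_nondegenerate (ZMod p) k
  have key : ∀ Y : adZero p k, (X.1 * Y.1).trace = 0 := by
    intro Y
    refine hnd.1 _ fun c => ?_
    have hY : (c • Y.1).trace = 0 := by
      rw [Matrix.trace_smul, show (Y.1).trace = 0 from Y.2, smul_zero]
    have h := LinearMap.congr_fun hX ⟨c • Y.1, hY⟩
    rw [LinearMap.zero_apply, adPair_apply] at h
    rw [Algebra.traceForm_apply, ← h, Matrix.mul_smul, Matrix.trace_smul, smul_eq_mul, mul_comm]
  refine Subtype.ext (Matrix.ext fun i j => ?_)
  have h01 := key ⟨!![0, 1; 0, 0], by simp [mem_adZero, Matrix.trace_fin_two]⟩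
  have h10 := key ⟨!![0, 0; 1, 0], by simp [mem_adZero, Matrix.trace_fin_two]⟩
  have hd := key ⟨!![1, 0; 0, -1], by simp [mem_adZero, Matrix.trace_fin_two]⟩
  have htr : X.1 0 0 + X.1 1 1 = 0 := by
    have := X.2
    rwa [mem_adZero, Matrix.trace_fin_two] at this
  simp [Matrix.trace_fin_two, Matrix.mul_apply] at h01 h10 hd
  have h00 : X.1 0 0 = 0 := (mul_eq_zero.mp
    (show (2 : k) * X.1 0 0 = 0 by linear_combination hd + htr)).resolve_left h2
  have h11 : X.1 1 1 = 0 := by linear_combination htr - h00
  fin_cases i <;> fin_cases j <;> simp [h00, h11, h01, h10]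

/-- The trace form is perfect away from characteristic two. -/
theorem adPair_bijective [Finite k] (h2 : (2 : k) ≠ 0) : Function.Bijective (adPair p k) := by
  have : Finite (adZero p k) := Subtype.finite
  have : FiniteDimensional (ZMod p) (adZero p k) := Module.Finite.of_finite
  exact ⟨adPair_injective p h2, (LinearMap.injective_iff_surjective_of_finrank_eq_finrank
    Subspace.dual_finrank_eq.symm).mp (adPair_injective p h2)⟩

/-- The smoothness of the twist. -/
theorem isSmooth_adTw (r : Γℚ →* M2 k) {T : Set Nat.Primes} (hpT : pPrime p ∈ T)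
    (hsm : Coh.IsSmooth (galLevels T) (adRep p r)) :
    Coh.IsSmooth (galLevels T) (adTw p r) := by
  intro X
  obtain ⟨N, hN, h⟩ := hsm X
  obtain ⟨N', hN', h'⟩ := charSmooth_galLevels (p := p) hpT
  obtain ⟨N'', hN'', h1, h2⟩ := (galLevels T).exists_le N N' hN hN'
  refine ⟨N'', hN'', fun s hs => ?_⟩
  change ((cycloChar p s : (ZMod p)ˣ) : ZMod p) • adRep p r s X = X
  rw [h' s (h2 hs), Units.val_one, one_smul, h s (h1 hs)]

/-- Trace zero matrices and their twist. -/
def adDualPair [Finite k] (h2 : (2 : k) ≠ 0) (T : Finset Nat.Primes) (r : Γℚ →* M2 k)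
    (hpT : pPrime p ∈ T)
    (hsm : Coh.IsSmooth (galLevels (T : Set Nat.Primes)) (adRep p r)) :
    DualPair T (adRep p r) (adTw p r) where
  P := adPair p k
  isPairing := isPairing_adPair p r
  bij := adPair_bijective p h2
  smooth := hsm
  smooth' := isSmooth_adTw p r hpT hsm
  mem := hpT

end Fermat.GR.RT
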