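import Mathlib
import Fermat.Agent.GR.RT.Twist
import Fermat.Agent.GR.RT.Coprime

/-!
# Taylor–Wiles primes detecting a class

If the residual representation has image `GL₂(𝔽_p)` with cyclotomic determinant then every nonzero
class of the twisted adjoint representation is nonzero at some prime `q ≡ 1` modulo a given power
of `p` whose Frobenius has two eigenvalues of square `-1`.
-/

set_option autoImplicit false
set_option linter.unusedSectionVars false

noncomputable section

open Fermat.CFT ExtCitation NumberField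
open scoped Pointwise

namespace Fermat.GR.RT

local notation "ℚbar" => AlgebraicClosure ℚ
local notation "Γℚ" => (AlgebraicClosure ℚ ≃ₐ[ℚ] AlgebraicClosure ℚ)
local notation "M2" R => Matrix (Fin 2) (Fin 2) R

/-- A Frobenius fixing a root of unity of order prime to the residue characteristic. -/
theorem dvd_sub_one_of_frobenius {ℓ m : ℕ} (hℓ : ℓ.Prime) (hm : 0 < m) (hlm : ¬ ℓ ∣ m)
    {A : ValuationSubring ℚbar} (hA : A.LiesOverPrime ℓ) {ζ : ℚbar} (hζ : IsPrimitiveRoot ζ m)
    {φ : Γℚ} (hφ : A.IsFrobeniusAt φ ℓ) (hfix : φ ζ = ζ) : m ∣ ℓ - 1 := by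
  let z : 𝓞 ℚbar := ⟨ζ, hζ.isIntegral hm⟩
  have hz : IsPrimitiveRoot z m :=
    IsPrimitiveRoot.of_map_of_injective (f := algebraMap (𝓞 ℚbar) ℚbar) hζ
      RingOfIntegers.coe_injective
  have := primeOf_isPrime A
  set mk := Ideal.Quotient.mk (primeOf A)
  -- modulo the place, `z ^ ℓ = z`
  have h := (isFrobeniusAt_iff hℓ hA φ).mp hφ z
  rw [show φ • z = z from RingOfIntegers.ext hfix, ← Ideal.Quotient.eq_zero_iff_mem, map_sub,
    sub_eq_zero] at h
  have hpow : mk (z ^ (ℓ - 1)) = 1 := by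
    have hzu : mk z ≠ 0 := fun h0 => by
      have h1 := congrArg mk hz.pow_eq_one
      rw [map_pow, h0, zero_pow hm.ne', map_one] at h1
      exact zero_ne_one h1
    refine mul_left_cancel₀ hzu ?_
    rw [mul_one, map_pow, ← pow_succ', Nat.sub_add_cancel hℓ.one_le, ← map_pow]
    exact h.symm
  refine (hz.pow_eq_one_iff_dvd _).mp ?_
  -- else the order `d > 1` of `z ^ (ℓ - 1)` vanishes at the place, so `ℓ ∣ d ∣ m`
  by_contra hne
  set w := z ^ (ℓ - 1)
  have hw : w ^ m = 1 := by rw [← pow_mul, mul_comm, pow_mul, hz.pow_eq_one, one_pow]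
  have hfin : IsOfFinOrder w := isOfFinOrder_iff_pow_eq_one.mpr ⟨m, hm, hw⟩
  set d := orderOf w with hd
  have hd1 : 1 < d := by
    have h0 : 0 < d := hfin.orderOf_pos
    rcases Nat.lt_or_ge 1 d with h1 | h1
    · exact h1
    · exact absurd (orderOf_eq_one_iff.mp (by omega : orderOf w = 1)) hne
  have hsum := congrArg mk (IsPrimitiveRoot.geom_sum_eq_zero (IsPrimitiveRoot.orderOf w) hd1)
  rw [map_sum, map_zero] at hsum
  simp only [map_pow, hpow, one_pow, Finset.sum_const, Finset.card_range, nsmul_one] at hsum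
  have hdvd := dvd_of_intCast_mem_primeOf hℓ hA (c := (d : ℤ)) (by
    rw [Int.cast_natCast, ← Ideal.Quotient.eq_zero_iff_mem, map_natCast]
    exact hsum)
  exact hlm ((Int.natCast_dvd_natCast.mp hdvd).trans (orderOf_dvd_of_pow_eq_one hw))

/-- The quaternion group in `SL₂(𝔽₃)`. -/
def quat (a b c d : ZMod 3) : Prop :=
  a * d - b * c = 1 ∧ (a + d = 0 ∨ (b = 0 ∧ c = 0 ∧ a = d))

/-- `quat` is decidable. -/
instance (a b c d : ZMod 3) : Decidable (quat a b c d) := by unfold quat; infer_instance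

/-- The quaternion group is closed under products. -/
theorem quat_mul : ∀ a b c d : ZMod 3, quat a b c d → ∀ e f g h, quat e f g h →
    quat (a * e + b * g) (a * f + b * h) (c * e + d * g) (c * f + d * h) := by decide

/-- The quaternion group is closed under inverses. -/
theorem quat_inv : ∀ a b c d : ZMod 3, quat a b c d → quat d (-b) (-c) a := by decide

/-- The quaternion group has exponent four. -/
theorem quat_pow_four : ∀ a b c d : ZMod 3, quat a b c d →
    (!![a, b; c, d] : M2 (ZMod 3)) ^ 4 = 1 := by decide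

/-- The identity lies in the quaternion group. -/
theorem quat_one : quat 1 0 0 1 := by decide

/-- The rotation by a quarter turn lies in the quaternion group. -/
theorem quat_w : quat ((!![0, 1; -1, 0] : M2 (ZMod 3)) 0 0) ((!![0, 1; -1, 0] : M2 (ZMod 3)) 0 1)
    ((!![0, 1; -1, 0] : M2 (ZMod 3)) 1 0) ((!![0, 1; -1, 0] : M2 (ZMod 3)) 1 1) := by decide

/-- The matrix with rows `(1, 1)`, `(1, 2)` lies in the quaternion group. -/
theorem quat_v : quat ((!![1, 1; 1, 2] : M2 (ZMod 3)) 0 0) ((!![1, 1; 1, 2] : M2 (ZMod 3)) 0 1)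
    ((!![1, 1; 1, 2] : M2 (ZMod 3)) 1 0) ((!![1, 1; 1, 2] : M2 (ZMod 3)) 1 1) := by decide

variable {p : ℕ} [hp : Fact p.Prime] {k : Type} [Field k] [Algebra (ZMod p) k] {r : Γℚ →* M2 k}
  (hdet : ∀ σ, (r σ).det = algebraMap (ZMod p) k ((cycloChar p σ : (ZMod p)ˣ) : ZMod p))
  (himg : ∀ σ, ∃ g : M2 (ZMod p), r σ = g.map (algebraMap (ZMod p) k))
  (hsurj : ∀ g : M2 (ZMod p), IsUnit g.det → ∃ σ, r σ = g.map (algebraMap (ZMod p) k))
  (h2 : 2 < p)

include h2 in
/-- `2` is invertible in characteristic `p > 2`. -/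
theorem two_ne_zero_of_two_lt : (2 : k) ≠ 0 := by
  intro h
  have h' : algebraMap (ZMod p) k 2 = 0 := by rw [map_ofNat]; exact h
  rw [map_eq_zero] at h'
  have := (ZMod.natCast_eq_zero_iff 2 p).mp (by exact_mod_cast h')
  exact absurd (Nat.le_of_dvd two_pos this) (by omega)

section Image

variable {n : ℕ} {ζ : ℚbar} (hζ : IsPrimitiveRoot ζ (p ^ n))

/-- The action on `p^n`-th roots of unity. -/
def rootAct : Γℚ →* (ZMod (p ^ n))ˣ :=
  haveI : NeZero (p ^ n) := ⟨pow_ne_zero _ hp.out.ne_zero⟩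
  hζ.autToPow ℚ

/-- The action on the root is trivial iff the root is fixed. -/
theorem rootAct_eq_one {σ : Γℚ} : rootAct hζ σ = 1 ↔ σ ζ = ζ := by
  have : NeZero (p ^ n) := ⟨pow_ne_zero _ hp.out.ne_zero⟩
  have hspec := hζ.autToPow_spec ℚ σ
  constructor
  · intro h
    rw [← hspec, show hζ.autToPow ℚ σ = 1 from h, Units.val_one]
    rcases Nat.eq_or_lt_of_le (Nat.one_le_pow n p hp.out.pos) with hn | hn
    · have : ζ = 1 := by have := hζ.pow_eq_one; rwa [← hn, pow_one] at this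
      rw [this, one_pow]
    · have : Fact (1 < p ^ n) := ⟨hn⟩
      rw [ZMod.val_one, pow_one]
  · intro h
    refine Units.ext ((ZMod.natCast_zmod_val _).symm.trans ?_)
    have h1 : ζ ^ ((rootAct hζ σ : (ZMod (p ^ n))ˣ) : ZMod (p ^ n)).val = ζ ^ 1 := by
      rw [pow_one]; exact hspec.trans h
    rw [Units.val_one, ← Nat.cast_one, ZMod.natCast_eq_natCast_iff']
    have := hζ.isOfFinOrder (pow_ne_zero _ hp.out.ne_zero) |>.pow_inj_mod.mp h1
    rwa [← hζ.eq_orderOf] at this

/-- The common kernel of `r` and the roots of unity. -/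
def jointKer : Subgroup Γℚ := r.ker ⊓ (rootAct hζ).ker

/-- The joint kernel is normal. -/
instance normal_jointKer : (jointKer (r := r) hζ).Normal := Subgroup.normal_inf_normal _ _

/-- Membership in the joint kernel. -/
theorem mem_jointKer {σ : Γℚ} :
    σ ∈ jointKer (r := r) hζ ↔ r σ = 1 ∧ rootAct hζ σ = 1 := Iff.rfl

/-- The joint kernel has finite index. -/
theorem finite_quotient_jointKer [Finite k] : Finite (Γℚ ⧸ jointKer (r := r) hζ) := by
  have : NeZero (p ^ n) := ⟨pow_ne_zero _ hp.out.ne_zero⟩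
  let f : Γℚ →* (M2 k) × (ZMod (p ^ n))ˣ := r.prod (rootAct hζ)
  refine Finite.of_injective (fun x : Γℚ ⧸ jointKer (r := r) hζ => f x.out) fun x y h => ?_
  rw [← QuotientGroup.out_eq' x, ← QuotientGroup.out_eq' y, QuotientGroup.eq, mem_jointKer]
  have h1 : r x.out = r y.out := congrArg Prod.fst h
  have h2 : rootAct hζ x.out = rootAct hζ y.out := congrArg Prod.snd h
  exact ⟨by rw [map_mul, ← h1, hom_inv_mul], by rw [map_mul, map_inv, h2, inv_mul_cancel]⟩

/-- The image in `M₂(𝔽_p)` of the elements fixing the roots of unity. -/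
def InImage (g : M2 (ZMod p)) : Prop :=
  ∃ σ, rootAct hζ σ = 1 ∧ r σ = g.map (algebraMap (ZMod p) k)

/-- `InImage` is closed under products. -/
theorem InImage.mul {g h : M2 (ZMod p)} (hg : InImage (r := r) hζ g) (hh : InImage (r := r) hζ h) :
    InImage (r := r) hζ (g * h) := by
  obtain ⟨σ, hσ, hσ'⟩ := hg
  obtain ⟨τ, hτ, hτ'⟩ := hh
  exact ⟨σ * τ, by rw [map_mul, hσ, hτ, one_mul],
    by rw [map_mul, hσ', hτ', Matrix.map_mul]⟩

include hsurj in
/-- A commutator of invertible matrices is a value at an element fixing the roots of unity. -/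
theorem inImage_comm (D U D' U' : M2 (ZMod p)) (hD : D * D' = 1) (hU : U * U' = 1) :
    InImage (r := r) hζ (D * U * D' * U') := by
  obtain ⟨σ, hσ⟩ := hsurj D (IsUnit.of_mul_eq_one _ (by rw [← Matrix.det_mul, hD, Matrix.det_one]))
  obtain ⟨τ, hτ⟩ := hsurj U (IsUnit.of_mul_eq_one _ (by rw [← Matrix.det_mul, hU, Matrix.det_one]))
  have hinv : ∀ (δ : Γℚ) (X X' : M2 (ZMod p)), X * X' = 1 →
      r δ = X.map (algebraMap (ZMod p) k) → r δ⁻¹ = X'.map (algebraMap (ZMod p) k) := by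
    intro δ X X' hX h
    refine left_inv_eq_right_inv (hom_inv_mul r δ) ?_
    rw [h, ← Matrix.map_mul, hX, Matrix.map_one _ (map_zero _) (map_one _)]
  refine ⟨σ * τ * σ⁻¹ * τ⁻¹, by rw [map_mul, map_mul, map_mul, map_inv, map_inv, mul_comm
    (rootAct hζ σ), mul_inv_cancel_right, mul_inv_cancel], ?_⟩
  rw [map_mul, map_mul, map_mul, hσ, hτ, hinv σ D D' hD hσ, hinv τ U U' hU hτ]
  simp only [Matrix.map_mul]

include hsurj h2 in
/-- Unipotent triangular matrices are values at elements fixing the roots of unity. -/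
theorem inImage_unipotent (x : ZMod p) :
    InImage (r := r) hζ !![1, x; 0, 1] ∧ InImage (r := r) hζ !![1, 0; x, 1] := by
  have h2' : (2 : ZMod p) ≠ 0 := two_ne_zero_of_two_lt h2
  constructor
  · convert inImage_comm hsurj hζ !![2, 0; 0, 1] !![1, x; 0, 1] !![2⁻¹, 0; 0, 1] !![1, -x; 0, 1]
      ?_ ?_ using 1 <;>
      (ext i j; fin_cases i <;> fin_cases j <;>
        simp [Matrix.mul_apply, Fin.sum_univ_two, h2']); ring
  · convert inImage_comm hsurj hζ !![1, 0; 0, 2] !![1, 0; x, 1] !![1, 0; 0, 2⁻¹] !![1, 0; -x, 1]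
      ?_ ?_ using 1 <;>
      (ext i j; fin_cases i <;> fin_cases j <;>
        simp [Matrix.mul_apply, Fin.sum_univ_two, h2']); ring

include hsurj h2 in
/-- So is the rotation by a quarter turn. -/
theorem inImage_w : InImage (r := r) hζ !![0, 1; -1, 0] := by
  convert ((inImage_unipotent hsurj h2 hζ 1).1.mul hζ (inImage_unipotent hsurj h2 hζ (-1)).2).mul hζ
    (inImage_unipotent hsurj h2 hζ 1).1 using 1
  ext i j; fin_cases i <;> fin_cases j <;> simp [Matrix.mul_apply, Fin.sum_univ_two]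

include hsurj h2 in
/-- So is the matrix with rows `(1, 1)`, `(1, 2)`. -/
theorem inImage_v : InImage (r := r) hζ !![1, 1; 1, 2] := by
  convert (inImage_unipotent hsurj h2 hζ 1).2.mul hζ (inImage_unipotent hsurj h2 hζ 1).1 using 1
  ext i j; fin_cases i <;> fin_cases j <;> norm_num [Matrix.mul_apply, Fin.sum_univ_two]

/-- Elements fixing the `p ^ n`th roots of unity have trivial mod `p` character. -/
theorem cycloChar_eq_one (hn : 1 ≤ n) {σ : Γℚ} (h : rootAct hζ σ = 1) : cycloChar p σ = 1 := by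
  have hfix := (rootAct_eq_one hζ).mp h
  obtain ⟨j, rfl⟩ := Nat.exists_eq_succ_of_ne_zero (by omega : n ≠ 0)
  have hz : IsPrimitiveRoot (ζ ^ (p ^ j)) p :=
    hζ.pow (pow_pos hp.out.pos _) (by rw [pow_succ])
  exact (cycChar_eq_one_iff hz).mpr (by rw [map_pow, hfix])

/-- A crossed homomorphism killing the joint kernel is a coboundary if a normal subgroup of
exponent prime to `p` modulo the joint kernel has no fixed vector. -/
private theorem exists_coboundary_of_exponent [Finite k] (z : Γℚ → adZero p k)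
    (hz : ∀ g h, z (g * h) = adTw p r g (z h) + z g)
    (hzN : ∀ s ∈ jointKer (r := r) hζ, z s = 0) (P : Subgroup Γℚ) [P.Normal]
    {e : ℕ} (he : ¬ p ∣ e)
    (hxe : ∀ x ∈ P, x ^ e ∈ jointKer (r := r) hζ)
    (hfix : ∀ m, (∀ x ∈ P, adTw p r x m = m) → m = 0) :
    ∃ m, ∀ g, z g = adTw p r g m - m := by
  set N := jointKer (r := r) hζ
  have : Finite (Γℚ ⧸ N) := finite_quotient_jointKer hζ
  have : Finite (P ⧸ N.subgroupOf P) := Finite.of_injective
    (QuotientGroup.map (N.subgroupOf P) N P.subtype le_rfl) fun a b h => by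
      obtain ⟨a, rfl⟩ := QuotientGroup.mk_surjective a
      obtain ⟨b, rfl⟩ := QuotientGroup.mk_surjective b
      rw [QuotientGroup.map_mk, QuotientGroup.map_mk, QuotientGroup.eq] at h
      rw [QuotientGroup.eq]
      exact h
  refine exists_eq_coboundary_of_coprime (adTw p r) z hz N P hzN (fun hdvd => ?_) hfix
  obtain ⟨x, hx⟩ := exists_prime_orderOf_dvd_card' p hdvd
  refine he (hx ▸ orderOf_dvd_of_pow_eq_one ?_)
  obtain ⟨y, rfl⟩ := QuotientGroup.mk_surjective x
  rw [← QuotientGroup.mk_pow, QuotientGroup.eq_one_iff]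
  exact Subgroup.mem_subgroupOf.mpr (hxe _ y.2)

section Three

variable {k : Type} [Field k] [Algebra (ZMod 3) k] {r : Γℚ →* M2 k} {n : ℕ} {ζ : ℚbar}
  (hζ : IsPrimitiveRoot ζ (3 ^ n))

/-- The elements fixing the roots of unity with quaternion image. -/
private def quatSubgroup : Subgroup Γℚ where
  carrier := {x | rootAct hζ x = 1 ∧ ∃ a b c d : ZMod 3, quat a b c d ∧
    r x = (!![a, b; c, d] : M2 (ZMod 3)).map (algebraMap (ZMod 3) k)}
  mul_mem' := by
    rintro x y ⟨hx, a, b, c, d, hq, hrx⟩ ⟨hy, e, f, g, h, hq', hry⟩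
    refine ⟨by rw [map_mul, hx, hy, one_mul], _, _, _, _, quat_mul a b c d hq e f g h hq', ?_⟩
    rw [map_mul, hrx, hry, ← Matrix.map_mul]
    congr 1
    ext i j; fin_cases i <;> fin_cases j <;> simp [Matrix.mul_apply, Fin.sum_univ_two]
  one_mem' := ⟨map_one _, 1, 0, 0, 1, quat_one, by
    rw [map_one]; ext i j; fin_cases i <;> fin_cases j <;> simp⟩
  inv_mem' := by
    rintro x ⟨hx, a, b, c, d, hq, hrx⟩
    refine ⟨by rw [map_inv, hx, inv_one], _, _, _, _, quat_inv a b c d hq,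
      left_inv_eq_right_inv (hom_inv_mul r x) ?_⟩
    rw [hrx, ← Matrix.map_mul, ← Matrix.map_one _ (map_zero (algebraMap (ZMod 3) k)) (map_one _)]
    congr 1
    have := hq.1
    ext i j; fin_cases i <;> fin_cases j <;> simp [Matrix.mul_apply, Fin.sum_univ_two] <;>
      first | linear_combination this | linear_combination -this | linear_combination 0 * this

/-- A conjugate of a quaternion matrix is a quaternion matrix. -/
private theorem quat_conj {a b c d : ZMod 3} (hq : quat a b c d) {G G' : M2 (ZMod 3)}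
    (hGG : G * G' = 1) :
    quat ((G * !![a, b; c, d] * G') 0 0) ((G * !![a, b; c, d] * G') 0 1)
      ((G * !![a, b; c, d] * G') 1 0) ((G * !![a, b; c, d] * G') 1 1) := by
  set Y := G * !![a, b; c, d] * G' with hY
  refine ⟨?_, ?_⟩
  · rw [← Matrix.det_fin_two, hY, Matrix.det_mul, Matrix.det_mul, mul_right_comm,
      ← Matrix.det_mul, hGG, Matrix.det_one, one_mul, Matrix.det_fin_two]
    simpa using hq.1
  rcases hq.2 with h | ⟨hb, hc, had⟩
  · refine Or.inl (Eq.trans ?_ h)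
    rw [← Matrix.trace_fin_two, hY, Matrix.trace_mul_cycle, mul_eq_one_comm.mp hGG, one_mul,
      Matrix.trace_fin_two]
    simp
  · have hY' : Y = a • (1 : M2 (ZMod 3)) := by
      rw [hY, show (!![a, b; c, d] : M2 (ZMod 3)) = a • 1 from Matrix.ext fun i j => by
        fin_cases i <;> fin_cases j <;> simp [hb, hc, had],
        Matrix.mul_smul, mul_one, Matrix.smul_mul, hGG]
    exact Or.inr ⟨by rw [hY']; simp, by rw [hY']; simp, by rw [hY']; simp⟩

/-- The quaternion subgroup is normal. -/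
private theorem normal_quatSubgroup
    (himg : ∀ σ, ∃ g : M2 (ZMod 3), r σ = g.map (algebraMap (ZMod 3) k)) :
    (quatSubgroup (r := r) hζ).Normal := ⟨fun x ⟨hx, a, b, c, d, hq, hrx⟩ g => by
  refine ⟨by rw [map_mul, map_mul, hx, mul_one, map_inv, mul_inv_cancel], ?_⟩
  obtain ⟨G, hG⟩ := himg g
  obtain ⟨G', hG'⟩ := himg g⁻¹
  have hGG : G * G' = 1 := Matrix.map_injective (algebraMap (ZMod 3) k).injective (by
    change (G * G').map _ = (1 : M2 (ZMod 3)).map _
    rw [Matrix.map_mul, ← hG, ← hG', hom_mul_inv, Matrix.map_one _ (map_zero _) (map_one _)])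
  refine ⟨_, _, _, _, quat_conj hq hGG, ?_⟩
  rw [map_mul, map_mul, hG, hrx, hG', ← Matrix.map_mul, ← Matrix.map_mul,
    ← Matrix.eta_fin_two (G * !![a, b; c, d] * G')]⟩

/-- A trace zero matrix commuting with the quaternion subgroup vanishes. -/
private theorem eq_zero_of_fixed_quat
    (hsurj : ∀ g : M2 (ZMod 3), IsUnit g.det → ∃ σ, r σ = g.map (algebraMap (ZMod 3) k))
    (hn : 1 ≤ n) {m : adZero 3 k} (hm : ∀ x ∈ quatSubgroup (r := r) hζ, adTw 3 r x m = m) :
    m = 0 := by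
  have comm : ∀ g : M2 (ZMod 3), quat (g 0 0) (g 0 1) (g 1 0) (g 1 1) →
      InImage (r := r) hζ g →
      g.map (algebraMap (ZMod 3) k) * m.1 = m.1 * g.map (algebraMap (ZMod 3) k) := by
    rintro g hg ⟨σ, hσ, hrσ⟩
    have h := congrArg Subtype.val
      (hm σ ⟨hσ, _, _, _, _, hg, by rw [hrσ, ← Matrix.eta_fin_two g]⟩)
    rw [coe_adTw, cycloChar_eq_one hζ hn hσ, Units.val_one, one_smul] at h
    have h' := congrArg (fun X : M2 k => X * r σ) h
    simp only [mul_assoc, hom_inv_mul, mul_one] at h'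
    rwa [hrσ] at h'
  have hw := comm !![0, 1; -1, 0] quat_w (inImage_w hsurj (by norm_num) hζ)
  have hv := comm !![1, 1; 1, 2] quat_v (inImage_v hsurj (by norm_num) hζ)
  have e00 := congrFun (congrFun hw 0) 0
  have e01 := congrFun (congrFun hw 0) 1
  have f00 := congrFun (congrFun hv 0) 0
  simp [Matrix.mul_apply, Fin.sum_univ_two] at e00 e01 f00
  have h3 : (3 : k) = 0 := by
    have := congrArg (algebraMap (ZMod 3) k) (show (3 : ZMod 3) = 0 from rfl)
    rwa [map_ofNat, map_zero] at this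
  have htr : m.1 0 0 + m.1 1 1 = 0 := by
    have := m.2
    rwa [mem_adZero, Matrix.trace_fin_two] at this
  have h00 : m.1 0 0 = 0 := by
    linear_combination -(htr - e01) + m.1 0 0 * h3
  have h11 : m.1 1 1 = 0 := by linear_combination htr - h00
  have h01 : m.1 0 1 = 0 := by linear_combination (f00 - e00) + m.1 0 1 * h3
  have h10 : m.1 1 0 = 0 := by linear_combination e00 - h01
  refine Subtype.ext (Matrix.ext fun i j => ?_)
  fin_cases i <;> fin_cases j <;> simp [h00, h11, h01, h10]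

/-- The case `p = 3`. -/
private theorem exists_coboundary_three
    (himg : ∀ σ, ∃ g : M2 (ZMod 3), r σ = g.map (algebraMap (ZMod 3) k))
    (hsurj : ∀ g : M2 (ZMod 3), IsUnit g.det → ∃ σ, r σ = g.map (algebraMap (ZMod 3) k))
    [Finite k] (hn : 1 ≤ n) (z : Γℚ → adZero 3 k)
    (hz : ∀ g h, z (g * h) = adTw 3 r g (z h) + z g)
    (hzN : ∀ s ∈ jointKer (r := r) hζ, z s = 0) :
    ∃ m, ∀ g, z g = adTw 3 r g m - m := by
  have : (quatSubgroup (r := r) hζ).Normal := normal_quatSubgroup hζ himg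
  refine exists_coboundary_of_exponent hζ z hz hzN (quatSubgroup (r := r) hζ)
    (e := 4) (by decide)
    (fun x ⟨hx, a, b, c, d, hq, hrx⟩ => ⟨?_, ?_⟩)
    fun m hm => eq_zero_of_fixed_quat hζ hsurj hn hm
  · change r (x ^ 4) = 1
    rw [map_pow, hrx, ← RingHom.mapMatrix_apply, ← map_pow, quat_pow_four a b c d hq, map_one]
  · change rootAct hζ (x ^ 4) = 1
    rw [map_pow, hx, one_pow]

end Three

include hsurj h2 in
/-- An element acting by the scalar `2` with order prime to `p` modulo the joint kernel. -/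
private theorem exists_scalar_element [Finite k] :
    ∃ (σ : Γℚ) (e : ℕ), r σ = (algebraMap (ZMod p) k 2) • (1 : M2 k) ∧ ¬ p ∣ e ∧
      σ ^ e ∈ jointKer (r := r) hζ := by
  set N := jointKer (r := r) hζ
  have : Finite (Γℚ ⧸ N) := finite_quotient_jointKer hζ
  obtain ⟨σ₁, hσ₁⟩ := hsurj ((2 : ZMod p) • (1 : M2 (ZMod p))) (by
    rw [Matrix.det_smul, Matrix.det_one, mul_one]
    exact (IsUnit.pow _ (Ne.isUnit (two_ne_zero_of_two_lt h2))))
  have hM₀ : orderOf (QuotientGroup.mk σ₁ : Γℚ ⧸ N) ≠ 0 := (orderOf_pos _).ne'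
  obtain ⟨b, e, he, hM⟩ := Nat.exists_eq_pow_mul_and_not_dvd hM₀ p hp.out.ne_one
  refine ⟨σ₁ ^ p ^ b, e, ?_, he, ?_⟩
  · rw [map_pow, hσ₁, ← RingHom.mapMatrix_apply, ← map_pow, Matrix.smul_one_eq_diagonal,
      Matrix.diagonal_pow, RingHom.mapMatrix_apply, Matrix.diagonal_map (map_zero _),
      Matrix.smul_one_eq_diagonal]
    congr 1
    funext i
    rw [Pi.pow_apply, ZMod.pow_card_pow]
  · rw [← QuotientGroup.eq_one_iff (N := N), ← pow_mul, ← hM, QuotientGroup.mk_pow,
      pow_orderOf_eq_one]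

include hdet in
/-- An element acting by the scalar `2` acts on the twisted adjoint representation by `4`. -/
private theorem adTw_of_scalar {σ : Γℚ} (hrσ : r σ = (algebraMap (ZMod p) k 2) • (1 : M2 k))
    (X : adZero p k) : adTw p r σ X = (4 : ZMod p) • X := by
  have hχσ : ((cycloChar p σ : (ZMod p)ˣ) : ZMod p) = 4 := by
    refine (algebraMap (ZMod p) k).injective ?_
    rw [← hdet, hrσ, Matrix.det_smul, Matrix.det_one, mul_one, Fintype.card_fin, ← map_pow]
    norm_num
  refine Subtype.ext ?_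
  have h := hom_mul_inv r σ
  rw [hrσ, Matrix.smul_mul, one_mul] at h
  rw [coe_adTw, hχσ, Submodule.coe_smul, hrσ, Matrix.smul_mul, one_mul, Matrix.smul_mul,
    ← Matrix.mul_smul, h, mul_one]

/-- The subgroup generated over the joint kernel by a scalar element is normal. -/
private theorem normal_comap_zpowers {σ : Γℚ} {c : k} (hrσ : r σ = c • (1 : M2 k)) :
    ((Subgroup.zpowers (QuotientGroup.mk σ : Γℚ ⧸ jointKer (r := r) hζ)).comap
      (QuotientGroup.mk' (jointKer (r := r) hζ))).Normal := by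
  set N := jointKer (r := r) hζ
  have hcen : ∀ x : Γℚ, (QuotientGroup.mk x : Γℚ ⧸ N) * QuotientGroup.mk σ =
      QuotientGroup.mk σ * QuotientGroup.mk x := by
    intro x
    rw [← QuotientGroup.mk_mul, ← QuotientGroup.mk_mul, QuotientGroup.eq, mem_jointKer]
    refine ⟨?_, ?_⟩
    · rw [map_mul, show r (σ * x) = r (x * σ) by
        rw [map_mul, map_mul, hrσ, Matrix.smul_mul, Matrix.mul_smul, one_mul, mul_one],
        hom_inv_mul]
    · simp only [map_mul, map_inv]
      rw [mul_comm (rootAct hζ σ), inv_mul_cancel]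
  refine Subgroup.Normal.comap ⟨fun y hy g => ?_⟩ _
  obtain ⟨g, rfl⟩ := QuotientGroup.mk_surjective g
  obtain ⟨j, rfl⟩ := hy
  rw [((Commute.zpow_right (hcen g) j)).eq, mul_inv_cancel_right]
  exact ⟨j, rfl⟩

include hdet hsurj h2 in
/-- The case `p ≠ 3`. -/
private theorem exists_coboundary_ne_three [Finite k] (hp3 : p ≠ 3)
    (z : Γℚ → adZero p k) (hz : ∀ g h, z (g * h) = adTw p r g (z h) + z g)
    (hzN : ∀ s ∈ jointKer (r := r) hζ, z s = 0) :
    ∃ m, ∀ g, z g = adTw p r g m - m := by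
  obtain ⟨σ, e, hrσ, he, hσe⟩ := exists_scalar_element hsurj h2 hζ
  set N := jointKer (r := r) hζ
  have := normal_comap_zpowers hζ hrσ
  refine exists_coboundary_of_exponent hζ z hz hzN
    ((Subgroup.zpowers (QuotientGroup.mk σ : Γℚ ⧸ N)).comap (QuotientGroup.mk' N))
    he (fun x hx => ?_) fun m hm => ?_
  · rw [← QuotientGroup.eq_one_iff (N := N), QuotientGroup.mk_pow]
    obtain ⟨j, hj⟩ := hx
    change QuotientGroup.mk σ ^ j = (QuotientGroup.mk x : Γℚ ⧸ N) at hj
    rw [← hj, ← zpow_natCast, ← zpow_mul, mul_comm, zpow_mul, zpow_natCast,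
      ← QuotientGroup.mk_pow, (QuotientGroup.eq_one_iff _).mpr hσe, one_zpow]
  · have h := hm σ (Subgroup.mem_zpowers _)
    rw [adTw_of_scalar hdet hrσ] at h
    have h3 : (3 : ZMod p) ≠ 0 := by
      intro h
      have := (ZMod.natCast_eq_zero_iff 3 p).mp (by exact_mod_cast h)
      exact hp3 ((Nat.prime_dvd_prime_iff_eq hp.out Nat.prime_three).mp this)
    refine (smul_eq_zero.mp (?_ : (3 : ZMod p) • m = 0)).resolve_left h3
    rw [← sub_eq_zero.mpr h]
    module

include hdet himg hsurj h2 in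
/-- A crossed homomorphism killing the joint kernel is a coboundary. -/
theorem exists_eq_coboundary_of_vanish [Finite k] (hn : 1 ≤ n) (z : Γℚ → adZero p k)
    (hz : ∀ g h, z (g * h) = adTw p r g (z h) + z g)
    (hzN : ∀ s ∈ jointKer (r := r) hζ, z s = 0) :
    ∃ m, ∀ g, z g = adTw p r g m - m := by
  by_cases hp3 : p = 3
  · subst hp3
    exact exists_coboundary_three hζ himg hsurj hn z hz hzN
  · exact exists_coboundary_ne_three hdet hsurj h2 hζ hp3 z hz hzN

omit [Fact p.Prime] in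
/-- A trace-zero matrix orthogonal, for the trace form, to `w = (0 1; -1 0)` and to its conjugates
by `(1 ±1; 0 1)` is zero. -/
theorem eq_zero_of_trace_orth {K : Type*} [Field K] (h2 : (2 : K) ≠ 0) {Z : M2 K}
    (htr : Z 0 0 + Z 1 1 = 0) (h0 : (Z * !![0, 1; -1, 0]).trace = 0)
    (h1 : (!![1, 1; 0, 1] * Z * !![1, -1; 0, 1] * !![0, 1; -1, 0]).trace = 0)
    (hm1 : (!![1, -1; 0, 1] * Z * !![1, 1; 0, 1] * !![0, 1; -1, 0]).trace = 0) : Z = 0 := by
  simp only [Matrix.trace_fin_two, Matrix.mul_apply, Fin.sum_univ_two] at h0 h1 hm1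
  simp at h0 h1 hm1
  have hb : Z 0 1 = Z 1 0 := by linear_combination -h0
  have h01 : Z 0 1 = 0 := (mul_eq_zero.mp (show (2 : K) * Z 0 1 = 0 by
    linear_combination h1 + hm1 + 4 * hb)).resolve_left h2
  have h00 : Z 0 0 = 0 := (mul_eq_zero.mp ((mul_eq_zero.mp (show (2 : K) * ((2 : K) * Z 0 0) = 0 by
    linear_combination h1 - hm1 + 2 * htr)).resolve_left h2)).resolve_left h2
  have h11 : Z 1 1 = 0 := by linear_combination htr - h00
  refine Matrix.ext fun i j => ?_
  fin_cases i <;> fin_cases j <;> simp [h00, h11, h01, ← hb]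

include hdet himg hsurj h2 in
/-- An element detecting a crossed homomorphism. -/
theorem exists_detecting [Finite k] (hn : 1 ≤ n) (z : Γℚ → adZero p k)
    (hz : ∀ g h, z (g * h) = adTw p r g (z h) + z g)
    (hne : ¬ ∃ m, ∀ g, z g = adTw p r g m - m) :
    ∃ σ, rootAct hζ σ = 1 ∧ r σ = (!![0, 1; -1, 0] : M2 (ZMod p)).map (algebraMap (ZMod p) k) ∧
      ∀ m, z σ ≠ adTw p r σ m - m := by
  set N := jointKer (r := r) hζ
  obtain ⟨σ₀, hσ₀, hrσ₀⟩ := inImage_w hsurj h2 hζ
  set w : M2 k := (!![0, 1; -1, 0] : M2 (ZMod p)).map (algebraMap (ZMod p) k)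
  let lam : adZero p k → k := fun X => (X.1 * w).trace
  have hlam : ∀ σ, r σ = w → rootAct hζ σ = 1 → ∀ m, lam (adTw p r σ m - m) = 0 := by
    intro σ hσ hσ' m
    change (((adTw p r σ m).1 - m.1) * w).trace = 0
    rw [coe_adTw, cycloChar_eq_one hζ hn hσ', Units.val_one, one_smul, sub_mul, ← hσ,
      mul_assoc (r σ * m.1), hom_inv_mul, mul_one, Matrix.trace_sub,
      Matrix.trace_mul_comm, sub_self]
  -- otherwise the functional `lam` of the values kills `z` on the joint kernel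
  by_contra hcon
  push Not at hcon
  have hN1 : ∀ s ∈ N, ∀ X, adTw p r s X = X := fun s hs X => Subtype.ext (by
    have hs' : r s⁻¹ = 1 := by
      have := hom_mul_inv r s
      rwa [hs.1, one_mul] at this
    rw [coe_adTw, cycloChar_eq_one hζ hn hs.2, Units.val_one, one_smul, hs.1, hs', one_mul,
      mul_one])
  have hlam0 : ∀ s ∈ N, lam (z s) = 0 := by
    have key : ∀ s ∈ N, lam (adTw p r σ₀ (z s) + z σ₀) = 0 := by
      intro s hs
      obtain ⟨m, hm⟩ := hcon (σ₀ * s)
        (by rw [map_mul, hσ₀, show rootAct hζ s = 1 from hs.2, one_mul])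
        (by rw [map_mul, hs.1, mul_one, hrσ₀])
      rw [← hz, hm]
      exact hlam _ (by rw [map_mul, hs.1, mul_one, hrσ₀])
        (by rw [map_mul, hσ₀, show rootAct hζ s = 1 from hs.2, one_mul]) m
    have hadd : ∀ X Y : adZero p k, lam (X + Y) = lam X + lam Y := fun X Y => by
      change ((X.1 + Y.1) * w).trace = _
      rw [add_mul, Matrix.trace_add]
    have hzero : lam (z σ₀) = 0 := by
      obtain ⟨m, hm⟩ := hcon σ₀ hσ₀ hrσ₀
      rw [hm]; exact hlam σ₀ hrσ₀ hσ₀ m
    intro s hs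
    have h := key s hs
    rw [hadd, hzero, add_zero] at h
    have h' := hlam σ₀ hrσ₀ hσ₀ (z s)
    rw [show adTw p r σ₀ (z s) - z s = adTw p r σ₀ (z s) + (-z s) from sub_eq_add_neg _ _, hadd, h,
      zero_add] at h'
    have h2' : lam (-z s) = -lam (z s) := by
      change ((-(z s).1) * w).trace = _
      rw [Matrix.neg_mul, Matrix.trace_neg]
    rwa [h2', neg_eq_zero] at h'
  refine hne (exists_eq_coboundary_of_vanish hdet himg hsurj h2 hζ hn z hz fun s hs => ?_)
  -- and so do its conjugates by unipotent elements, which forces `z s = 0`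
  have hconj : ∀ g, rootAct hζ g = 1 → lam (adTw p r g (z s)) = 0 := by
    intro g hg
    have hs' : g * s * g⁻¹ ∈ N := Subgroup.Normal.conj_mem inferInstance s hs g
    have e := hz g s
    have e2 := hz (g * s * g⁻¹) g
    rw [show g * s * g⁻¹ * g = g * s by group, e, hN1 _ hs', add_comm, add_right_inj] at e2
    rw [e2]; exact hlam0 _ hs'
  have hsym : ∀ x : ZMod p,
      (((!![1, x; 0, 1] : M2 (ZMod p)).map (algebraMap (ZMod p) k) * (z s).1 *
        (!![1, -x; 0, 1] : M2 (ZMod p)).map (algebraMap (ZMod p) k)) * w).trace = 0 := by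
    intro x
    obtain ⟨g, hg, hrg⟩ := (inImage_unipotent hsurj h2 hζ x).1
    have hrg' : r g⁻¹ = (!![1, -x; 0, 1] : M2 (ZMod p)).map (algebraMap (ZMod p) k) := by
      refine left_inv_eq_right_inv (hom_inv_mul r g) ?_
      rw [hrg, ← Matrix.map_mul, ← Matrix.map_one _ (map_zero (algebraMap (ZMod p) k))
        (map_one _)]
      congr 1
      ext i j; fin_cases i <;> fin_cases j <;> simp [Matrix.mul_apply, Fin.sum_univ_two]
    have h := hconj g hg
    simp only [lam, coe_adTw, cycloChar_eq_one hζ hn hg, Units.val_one, one_smul, hrg,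
      hrg'] at h
    exact h
  have htr : (z s).1 0 0 + (z s).1 1 1 = 0 := by
    have := (z s).2
    rwa [mem_adZero, Matrix.trace_fin_two] at this
  have hmap : ∀ a b c d : ZMod p, (!![a, b; c, d] : M2 (ZMod p)).map (algebraMap (ZMod p) k) =
      !![algebraMap _ k a, algebraMap _ k b; algebraMap _ k c, algebraMap _ k d] :=
    fun a b c d => by ext i j; fin_cases i <;> fin_cases j <;> rfl
  exact Subtype.ext (eq_zero_of_trace_orth (two_ne_zero_of_two_lt h2) htr
    (by simpa [lam, w, hmap] using hlam0 s hs) (by simpa [w, hmap] using hsym 1)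
    (by simpa [w, hmap] using hsym (-1)))

end Image

/-- **A Chebotarev prime for a detecting element.**  A prime of depth `n`, unramified in `r`, at
which the class is nonzero and whose Frobenius generates, up to conjugation, the same group as
`σ`. -/
theorem exists_prime_detecting [Finite k] {T : Set Nat.Primes}
    (hsm : Coh.IsSmooth (galLevels T) (adTw p r))
    (hr : ∃ N, (galLevels T).IsLevel N ∧ ∀ s ∈ N, r s = 1)
    (z : Coh.Z1 (galLevels T) (adTw p r)) {n : ℕ} {ζ : ℚbar} (hζ : IsPrimitiveRoot ζ (p ^ n))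
    {σ : Γℚ} (hσa : rootAct hζ σ = 1) (hσz : ∀ m, z.1 σ ≠ adTw p r σ m - m) (avoid : Finset ℕ) :
    ∃ v : Nat.Primes, (v : ℕ) ∉ avoid ∧ (v : ℕ) ≠ p ∧ p ^ n ∣ (v : ℕ) - 1 ∧
      (∀ s ∈ (placeAt v).inertiaSubgroupIn ℚ, r s = 1) ∧
      (∃ φ : Γℚ, (placeAt v).IsFrobeniusAt φ v ∧ ∃ (A : M2 k) (i j : ℕ),
        A ^ i = r σ ∧ r σ ^ j = A ∧ (r φ).trace = A.trace ∧ (r φ).det = A.det) ∧
      Coh.map₁ (locHom T v) (Coh.IsEquivariant.restrict (adTw p r) (decAt v).subtype)
        (Coh.cl₁ (galLevels T) (adTw p r) z) ≠ 0 := by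
  classical
  have : NeZero (p ^ n) := ⟨pow_ne_zero _ hp.out.ne_zero⟩
  have : NeZero ((p ^ n : ℕ) : ℚbar) := ⟨Nat.cast_ne_zero.mpr (NeZero.ne _)⟩
  let aff : Γℚ →* Equiv.Perm (adZero p k) := MonoidHom.toHomPerm
    { toFun := fun g m => adTw p r g m + z.1 g
      map_one' := funext fun m => by
        change adTw p r 1 m + z.1 1 = m
        rw [Coh.Z1_one z.2, add_zero, map_one]
        rfl
      map_mul' := fun g h => funext fun m => by
        change adTw p r (g * h) m + z.1 (g * h) = adTw p r g (adTw p r h m + z.1 h) + z.1 g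
        rw [Coh.cocycle₁ z.2, map_add, map_mul, Module.End.mul_apply, add_assoc] }
  have haff : ∀ g m, aff g m = adTw p r g m + z.1 g := fun g m => rfl
  let Φ : Γℚ →* Equiv.Perm (adZero p k) × ((M2 k)ˣ × (ZMod (p ^ n))ˣ) :=
    aff.prod (r.toHomUnits.prod (rootAct hζ))
  -- a level on which everything is constant
  obtain ⟨N₁, hN₁, hrN⟩ := hr
  obtain ⟨N₂, hN₂, hzN⟩ := z.2.1
  have : Finite (adZero p k) := Subtype.finite
  obtain ⟨N₃, hN₃, hfixN⟩ := hsm.exists_fix (Set.finite_univ (α := adZero p k))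
  obtain ⟨N₄, hN₄, h41, h42⟩ := (galLevels T).exists_le _ _ hN₁ hN₂
  obtain ⟨N₅, hN₅, h54, h53⟩ := (galLevels T).exists_le _ _ hN₄ hN₃
  obtain ⟨F, hF, -, -, rfl⟩ := hN₅
  have := hF
  have := IntermediateField.adjoin.finiteDimensional (Algebra.IsIntegral.isIntegral (R := ℚ) ζ)
  have hker : IsOpen (Φ.ker : Set Γℚ) := by
    refine isOpen_ker_of_forall Φ (F ⊔ IntermediateField.adjoin ℚ {ζ}) fun g hg => ?_
    have hgF : g ∈ F.fixingSubgroup :=
        (IntermediateField.mem_fixingSubgroup_iff F g).mpr fun y hy =>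
      hg y (le_sup_left (b := IntermediateField.adjoin ℚ {ζ}) hy)
    refine Prod.ext (Equiv.ext fun m => ?_) (Prod.ext (Units.ext (hrN g (h41 (h54 hgF)))) ?_)
    · change aff g m = m
      rw [haff, hfixN g (h53 hgF) m trivial]
      have := hzN 1 g (h42 (h54 hgF))
      rw [one_mul, Coh.Z1_one z.2] at this
      rw [this, add_zero]
    · exact (rootAct_eq_one hζ).mpr (hg ζ
        (le_sup_right (a := F) (IntermediateField.mem_adjoin_simple_self ℚ ζ)))
  -- a Frobenius element generating the same group as `σ`, moved to the chosen place by `g`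
  obtain ⟨ℓ, hℓ, hℓT, B, hB, hI, φ, hφ, hgen⟩ :=
    exists_frobenius_map_zpowers_eq Φ hker σ (insert p avoid)
  set v : Nat.Primes := ⟨ℓ, hℓ⟩
  obtain ⟨g, hg⟩ := exists_smul_place hℓ hB (placeAt_spec v)
  obtain ⟨i, hi⟩ : Φ σ ∈ Subgroup.zpowers (Φ φ) := hgen ▸ Subgroup.mem_zpowers _
  obtain ⟨j, hj⟩ : Φ φ ∈ Subgroup.zpowers (Φ σ) := hgen.symm ▸ Subgroup.mem_zpowers _
  have hφa : rootAct hζ φ = 1 := by
    have h1 : (rootAct hζ σ) ^ j = rootAct hζ φ := by
      simpa [Φ] using congrArg (fun e => e.2.2) hj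
    rw [← h1, hσa, one_zpow]
  have : Finite (M2 k) := inferInstanceAs (Finite (Fin 2 → Fin 2 → k))
  obtain ⟨i', hi'⟩ : Φ σ ∈ Submonoid.powers (Φ φ) :=
    mem_powers_iff_mem_zpowers.mpr ⟨i, hi⟩
  obtain ⟨j', hj'⟩ : Φ φ ∈ Submonoid.powers (Φ σ) :=
    mem_powers_iff_mem_zpowers.mpr ⟨j, hj⟩
  refine ⟨v, fun h => hℓT (Finset.mem_insert_of_mem h),
    fun h => hℓT (Finset.mem_insert.mpr (Or.inl h)), ?_, ?_,
    ⟨g * φ * g⁻¹, hg ▸ isFrobeniusAt_conj hℓ hB hφ g, r φ, i', j',
      congrArg (fun e => ((e.2.1 : (M2 k)ˣ) : M2 k)) hi',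
      congrArg (fun e => ((e.2.1 : (M2 k)ˣ) : M2 k)) hj', ?_, ?_⟩, fun h0 => ?_⟩
  · exact dvd_sub_one_of_frobenius hℓ (pow_pos hp.out.pos _) (fun h =>
      hℓT (Finset.mem_insert.mpr (Or.inl ((Nat.prime_dvd_prime_iff_eq hℓ hp.out).mp
        (hℓ.dvd_of_dvd_pow h))))) hB hζ hφ ((rootAct_eq_one hζ).mp hφa)
  · intro s hs
    have hsB : g⁻¹ * s * g⁻¹⁻¹ ∈ B.inertiaSubgroupIn ℚ := by
      have := mem_inertiaSubgroupIn_smul hℓ (placeAt_spec v) hs g⁻¹
      rwa [← hg, inv_smul_smul] at this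
    have h1 := congrArg (fun e => ((e.2.1 : (M2 k)ˣ) : M2 k)) (hI _ hsB)
    change r (g⁻¹ * s * g⁻¹⁻¹) = 1 at h1
    rw [map_mul, map_mul, inv_inv] at h1
    calc r s = r g * (r g⁻¹ * r s * r g) * r g⁻¹ := by
          simp only [← mul_assoc, hom_mul_inv, one_mul]
          rw [mul_assoc, hom_mul_inv, mul_one]
      _ = 1 := by rw [h1, mul_one, hom_mul_inv]
  · rw [map_mul, map_mul, Matrix.trace_mul_cycle, hom_inv_mul, one_mul]
  · rw [map_mul, map_mul, Matrix.det_mul, Matrix.det_mul, mul_right_comm, ← Matrix.det_mul,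
      hom_mul_inv, Matrix.det_one, one_mul]
  · -- a fixed point of the affine action of the Frobenius element would be one of `σ`
    rw [Coh.map₁_cl₁, Coh.cl₁_eq_zero] at h0
    obtain ⟨m, hm⟩ := h0
    have hmem : g * φ * g⁻¹ ∈ decAt v :=
      (hg ▸ isFrobeniusAt_conj hℓ hB hφ g : (placeAt v).IsFrobeniusAt _ ℓ).mem_decompositionSubgroup
    have h1 := congrFun hm ⟨_, hmem⟩
    change adTw p r (g * φ * g⁻¹) m - m = z.1 (g * φ * g⁻¹) at h1
    have hfix : aff (g * φ * g⁻¹) (-m) = -m := by rw [haff, map_neg, ← h1]; abel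
    have hfix' : aff φ (aff g⁻¹ (-m)) = aff g⁻¹ (-m) := by
      conv_rhs => rw [← hfix, ← Equiv.Perm.mul_apply, ← map_mul]
      rw [← Equiv.Perm.mul_apply, ← map_mul]
      congr 2
      group
    have hσf : aff σ (aff g⁻¹ (-m)) = aff g⁻¹ (-m) := by
      rw [show aff σ = (aff φ) ^ i by simpa [Φ] using (congrArg (fun e => e.1) hi).symm]
      exact Function.IsFixedPt.perm_zpow hfix' i
    rw [haff] at hσf
    refine hσz (-(aff g⁻¹ (-m))) ?_
    rw [map_neg]
    linear_combination (norm := abel) hσf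

include hdet himg hsurj h2 in
/-- **A Taylor–Wiles prime detecting a class.** -/
theorem exists_twPrime [Finite k] {T : Set Nat.Primes}
    (hsm : Coh.IsSmooth (galLevels T) (adTw p r))
    (hr : ∃ N, (galLevels T).IsLevel N ∧ ∀ s ∈ N, r s = 1)
    (x : Coh.H1 (galLevels T) (adTw p r)) (hx : x ≠ 0) (n : ℕ) (hn : 1 ≤ n) (avoid : Finset ℕ) :
    ∃ v : Nat.Primes, (v : ℕ) ∉ avoid ∧ (v : ℕ) ≠ p ∧ p ^ n ∣ (v : ℕ) - 1 ∧
      (∀ s ∈ (placeAt v).inertiaSubgroupIn ℚ, r s = 1) ∧
      (∃ φ : Γℚ, (placeAt v).IsFrobeniusAt φ v ∧ (r φ).trace = 0 ∧ (r φ).det = 1) ∧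
      Coh.map₁ (locHom T v) (Coh.IsEquivariant.restrict (adTw p r) (decAt v).subtype) x ≠ 0 := by
  classical
  obtain ⟨z, rfl⟩ := Coh.cl₁_surjective x
  have hne : ¬ ∃ m, ∀ g, z.1 g = adTw p r g m - m := by
    rintro ⟨m, hm⟩
    exact hx (Coh.cl₁_eq_zero.mpr ⟨m, funext fun g => (hm g).symm⟩)
  have : NeZero (p ^ n) := ⟨pow_ne_zero _ hp.out.ne_zero⟩
  have : NeZero ((p ^ n : ℕ) : ℚbar) := ⟨Nat.cast_ne_zero.mpr (NeZero.ne _)⟩
  obtain ⟨ζ, hζ⟩ := HasEnoughRootsOfUnity.exists_primitiveRoot ℚbar (p ^ n)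
  obtain ⟨σ, hσa, hσr, hσz⟩ := exists_detecting hdet himg hsurj h2 hζ hn z.1 (Coh.cocycle₁ z.2) hne
  obtain ⟨v, hv, hvp, hvn, hvI, ⟨φ, hφ, A, i, j, hi, hj, htr, hd⟩, hvx⟩ :=
    exists_prime_detecting hsm hr z hζ hσa hσz avoid
  refine ⟨v, hv, hvp, hvn, hvI, ⟨φ, hφ, ?_⟩, hvx⟩
  set w := r σ with hw
  have hwv : w = !![0, 1; -1, 0] := by
    rw [hσr]; ext a b; fin_cases a <;> fin_cases b <;> simp
  have hw2 : w ^ 2 = -1 := by
    rw [hwv, pow_two]; ext a b; fin_cases a <;> fin_cases b <;>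
      simp [Matrix.mul_apply, Fin.sum_univ_two]
  rcases Nat.even_or_odd' j with ⟨m, rfl | rfl⟩
  · have h01 := congrFun (congrFun hi 0) 1
    rw [← hj, pow_mul, hw2, ← pow_mul] at h01
    rcases neg_one_pow_eq_or (M2 k) (m * i) with h | h <;> simp [h, hwv] at h01
  · rw [htr, hd, ← hj, pow_succ, pow_mul, hw2, hwv]
    rcases neg_one_pow_eq_or (M2 k) m with h | h <;>
      simp [h, Matrix.trace_fin_two, Matrix.det_fin_two]

end Fermat.GR.RT
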