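import Mathlib
import Fermat.Agent.GR.RT.TWPrime

/-!
# Killing dual Selmer classes with Taylor–Wiles primes

A class unramified outside `T ∪ Q` vanishing locally at the primes of `Q` comes from `T`.  A finite
space of classes is detected by boundedly many Taylor–Wiles primes of any prescribed depth, and the
number may be taken independent of the depth.
-/

set_option autoImplicit false
set_option linter.unusedSectionVars false

noncomputable section

open Fermat.CFT ExtCitation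
open scoped Pointwise

namespace Fermat.GR.RT

local notation "Γℚ" => (AlgebraicClosure ℚ ≃ₐ[ℚ] AlgebraicClosure ℚ)
local notation "M2" R => Matrix (Fin 2) (Fin 2) R

variable {p : ℕ} [hp : Fact p.Prime]

section Descent

variable {M : Type} [AddCommGroup M] [Module (ZMod p) M] [Finite M]
  {ρ : Representation (ZMod p) Γℚ M}

/-- Inflation between sets of primes. -/
def infl (ρ : Representation (ZMod p) Γℚ M) {T T' : Set Nat.Primes} (h : T ⊆ T') :
    Coh.H1 (galLevels T) ρ →ₗ[ZMod p] Coh.H1 (galLevels T') ρ :=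
  Coh.map₁ (galLevels_mono h) (Coh.IsEquivariant.id ρ)

/-- Localisation at the chosen place. -/
def locAt (T : Set Nat.Primes) (ρ : Representation (ZMod p) Γℚ M) (v : Nat.Primes) :
    Coh.H1 (galLevels T) ρ →ₗ[ZMod p] LH1 v ρ :=
  Coh.map₁ (locHom T v) (Coh.IsEquivariant.restrict ρ (decAt v).subtype)

/-- Localisation commutes with inflation. -/
theorem locAt_infl {T T' : Set Nat.Primes} (h : T ⊆ T') (v : Nat.Primes)
    (x : Coh.H1 (galLevels T) ρ) : locAt T' ρ v (infl ρ h x) = locAt T ρ v x := by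
  obtain ⟨z, rfl⟩ := Coh.cl₁_surjective x
  rfl

/-- A class vanishing at the new primes comes from the old ones. -/
theorem exists_eq_infl {T T' : Set Nat.Primes} (h : T ⊆ T')
    (hsm : Coh.IsSmooth (galLevels T) ρ) (x : Coh.H1 (galLevels T') ρ)
    (hx : ∀ v ∈ T', v ∉ T → locAt T' ρ v x = 0) : ∃ y, infl ρ h y = x := by
  obtain ⟨z, rfl⟩ := Coh.cl₁_surjective x
  obtain ⟨N₀, hN₀, hfix⟩ := hsm.exists_fix (Set.finite_univ (α := M))
  obtain ⟨F₀, hF₀, -, hF₀u, rfl⟩ := hN₀
  obtain ⟨N₁, hN₁, hz⟩ := z.2.1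
  obtain ⟨F₁, hF₁, -, hF₁u, rfl⟩ := hN₁
  have := hF₀
  have := hF₁
  -- the subgroup on which the action and the cocycle are trivial is open
  let H : Subgroup Γℚ :=
    { carrier := {g | (∀ m, ρ g m = m) ∧ z.1 g = 0}
      mul_mem' := by
        rintro a b ⟨ha, ha'⟩ ⟨hb, hb'⟩
        exact ⟨fun m => by rw [map_mul, Module.End.mul_apply, hb, ha],
          by rw [Coh.cocycle₁ z.2, ha', hb', map_zero, add_zero]⟩
      one_mem' := ⟨fun m => by rw [map_one, Module.End.one_apply], Coh.Z1_one z.2⟩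
      inv_mem' := by
        rintro a ⟨ha, ha'⟩
        refine ⟨fun m => ?_, by rw [Coh.Z1_inv z.2, ha', map_zero, neg_zero]⟩
        conv_lhs => rw [← ha m, ← Module.End.mul_apply, ← map_mul, inv_mul_cancel, map_one,
          Module.End.one_apply] }
  set L := F₀ ⊔ F₁
  have hLH : L.fixingSubgroup ≤ H := fun g hg => by
    have h0 : g ∈ F₀.fixingSubgroup := IntermediateField.fixingSubgroup_le le_sup_left hg
    have h1 : g ∈ F₁.fixingSubgroup := IntermediateField.fixingSubgroup_le le_sup_right hg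
    refine ⟨fun m => hfix g h0 m trivial, ?_⟩
    have := hz 1 g h1
    rwa [one_mul, Coh.Z1_one z.2] at this
  have hHopen : IsOpen (H : Set Γℚ) :=
    Subgroup.isOpen_mono hLH (IntermediateField.fixingSubgroup_isOpen L)
  let F' := IntermediateField.fixedField H
  have hF'L : F' ≤ L := fun x hx => by
    rw [← InfiniteGalois.fixedField_fixingSubgroup L]
    exact fun g => hx ⟨g.1, hLH g.2⟩
  have : FiniteDimensional ℚ F' :=
    .of_injective (IntermediateField.inclusion hF'L).toLinearMap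
      (IntermediateField.inclusion hF'L).injective
  have hF'H : F'.fixingSubgroup ≤ H :=
    (InfiniteGalois.fixingSubgroup_fixedField ⟨H, Subgroup.isClosed_of_isOpen H hHopen⟩).le
  -- at a new prime inertia lies in it, the class being trivial there
  have hunr : UnramOutside T F' := by
    intro q hq A hA σ hσ
    have hσH : σ ∈ H := by
      have hσ0 : σ ∈ F₀.fixingSubgroup := hF₀u q hq A hA hσ
      refine ⟨fun m => hfix σ hσ0 m trivial, ?_⟩
      by_cases hq' : q ∈ T'
      · obtain ⟨g, hg⟩ := exists_smul_place q.2 hA (placeAt_spec q)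
        have hσ' : g * σ * g⁻¹ ∈ (placeAt q).inertiaSubgroupIn ℚ :=
          hg ▸ mem_inertiaSubgroupIn_smul q.2 hA hσ g
        have h0 := hx q hq' hq
        rw [locAt, Coh.map₁_cl₁, Coh.cl₁_eq_zero] at h0
        obtain ⟨m, hm⟩ := h0
        have hρσ' : ρ (g * σ * g⁻¹) m = m :=
          hfix _ (hF₀u q hq _ (placeAt_spec q) hσ') m trivial
        have hdec : g * σ * g⁻¹ ∈ decAt q := by
          obtain ⟨y, -, hy⟩ := hσ'
          exact hy ▸ y.2
        have h1 := congrFun hm ⟨_, hdec⟩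
        change ρ (g * σ * g⁻¹) m - m = z.1 (g * σ * g⁻¹) at h1
        rw [hρσ', sub_self, Coh.cocycle₁ z.2, Coh.cocycle₁ z.2, map_mul,
          Module.End.mul_apply, hfix σ hσ0 _ trivial, Coh.Z1_inv z.2, map_neg,
          ← Module.End.mul_apply (ρ g) (ρ g⁻¹), ← map_mul, mul_inv_cancel, map_one,
          Module.End.one_apply] at h1
        have h2 : ρ g (z.1 σ) = 0 := by rw [h1]; abel
        have h3 := congrArg (ρ g⁻¹) h2
        rwa [← Module.End.mul_apply, ← map_mul, inv_mul_cancel, map_one, Module.End.one_apply,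
          map_zero] at h3
      · have := hz 1 σ (hF₁u q hq' A hA hσ)
        rwa [one_mul, Coh.Z1_one z.2] at this
    exact (IntermediateField.mem_fixingSubgroup_iff F' σ).mpr fun x hx' => hx' ⟨σ, hσH⟩
  obtain ⟨N, hN, hNle⟩ := exists_galLevel_le F' hunr
  refine ⟨Coh.cl₁ (galLevels T) ρ ⟨z.1, ⟨N, hN, fun g s hs => ?_⟩, z.2.2⟩, rfl⟩
  rw [Coh.cocycle₁ z.2, (hF'H (hNle hs)).2, map_zero, zero_add]

end Descent

variable {k : Type} [Field k] [Algebra (ZMod p) k] {r : Γℚ →* M2 k}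

/-- The conditions on a Taylor–Wiles prime of depth `n`. -/
def IsTWPrime (p : ℕ) (r : Γℚ →* M2 k) (n : ℕ) (v : Nat.Primes) : Prop :=
  (v : ℕ) ≠ p ∧ p ^ n ∣ (v : ℕ) - 1 ∧ (∀ s ∈ (placeAt v).inertiaSubgroupIn ℚ, r s = 1) ∧
    ∃ φ : Γℚ, (placeAt v).IsFrobeniusAt φ v ∧ (r φ).trace = 0 ∧ (r φ).det = 1

/-- A Taylor–Wiles prime of depth `m` is one of every smaller depth. -/
theorem IsTWPrime.mono {n m : ℕ} (h : n ≤ m) {v : Nat.Primes} (hv : IsTWPrime p r m v) :
    IsTWPrime p r n v := ⟨hv.1, (pow_dvd_pow p h).trans hv.2.1, hv.2.2⟩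

set_option maxSynthPendingDepth 3 in
/-- At most `dim W` primes detect `W`, given primes detecting each class. -/
private theorem exists_detecting_finset {T : Set Nat.Primes} {P : ℕ → Nat.Primes → Prop}
    (hP : ∀ x : Coh.H1 (galLevels T) (adTw p r), x ≠ 0 → ∀ n : ℕ, 1 ≤ n → ∀ avoid : Finset ℕ,
      ∃ v : Nat.Primes, (v : ℕ) ∉ avoid ∧ P n v ∧ locAt T (adTw p r) v x ≠ 0)
    (W : Submodule (ZMod p) (Coh.H1 (galLevels T) (adTw p r)))
    [FiniteDimensional (ZMod p) W] (n : ℕ) (hn : 1 ≤ n) (avoid : Finset ℕ) :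
    ∃ Q : Finset Nat.Primes, Q.card ≤ Module.finrank (ZMod p) W ∧
      (∀ v ∈ Q, (v : ℕ) ∉ avoid ∧ P n v) ∧
      ∀ x ∈ W, (∀ v ∈ Q, locAt T (adTw p r) v x = 0) → x = 0 := by
  classical
  induction hD : Module.finrank (ZMod p) W using Nat.strong_induction_on generalizing W avoid with
  | _ D ih =>
    by_cases hW : W = ⊥
    · exact ⟨∅, by simp, by simp, fun x hx _ => by rwa [hW, Submodule.mem_bot] at hx⟩
    obtain ⟨x, hxW, hx0⟩ := Submodule.exists_mem_ne_zero_of_ne_bot hW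
    obtain ⟨v, hv, hvP, hvx⟩ := hP x hx0 n hn avoid
    let W' := W ⊓ LinearMap.ker (locAt T (adTw p r) v)
    have hlt : W' < W := lt_of_le_of_ne inf_le_left fun he => hvx (by
      have : x ∈ W' := he ▸ hxW
      exact this.2)
    have : FiniteDimensional (ZMod p) W' := Submodule.finiteDimensional_of_le inf_le_left
    have hfr := Submodule.finrank_lt_finrank_of_lt hlt
    obtain ⟨Q, hQc, hQ, hQ'⟩ := ih _ (hD ▸ hfr) W' (insert (v : ℕ) avoid) rfl
    refine ⟨insert v Q, (Finset.card_insert_le _ _).trans (by omega), ?_, fun y hy hy' => ?_⟩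
    · intro w hw
      rcases Finset.mem_insert.mp hw with rfl | hw
      · exact ⟨hv, hvP⟩
      · exact ⟨fun h => (hQ w hw).1 (Finset.mem_insert_of_mem h), (hQ w hw).2⟩
    · exact hQ' y ⟨hy, hy' v (Finset.mem_insert_self _ _)⟩
        fun w hw => hy' w (Finset.mem_insert_of_mem hw)

/-- A number of primes independent of the depth detects `W`, given primes detecting each class. -/
theorem exists_detecting_family {T : Set Nat.Primes} {P : ℕ → Nat.Primes → Prop}
    (hmono : ∀ n m v, n ≤ m → P m v → P n v)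
    (hP : ∀ x : Coh.H1 (galLevels T) (adTw p r), x ≠ 0 → ∀ n : ℕ, 1 ≤ n → ∀ avoid : Finset ℕ,
      ∃ v : Nat.Primes, (v : ℕ) ∉ avoid ∧ P n v ∧ locAt T (adTw p r) v x ≠ 0)
    (W : Submodule (ZMod p) (Coh.H1 (galLevels T) (adTw p r)))
    [FiniteDimensional (ZMod p) W] (avoid : Finset ℕ) :
    ∃ R : ℕ, ∀ n : ℕ, ∃ vs : Fin R → Nat.Primes, Function.Injective vs ∧
      (∀ i, ((vs i : Nat.Primes) : ℕ) ∉ avoid ∧ P n (vs i)) ∧
      ∀ x ∈ W, (∀ i, locAt T (adTw p r) (vs i) x = 0) → x = 0 := by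
  classical
  choose Q hQc hQ hQ' using fun n : ℕ =>
    exists_detecting_finset hP W (n + 1) (Nat.le_add_left 1 n) avoid
  obtain ⟨R, hR⟩ : ∃ R : Fin (Module.finrank (ZMod p) W + 1), {n | (Q n).card = R}.Infinite := by
    by_contra hc
    push Not at hc
    refine Set.infinite_univ (α := ℕ) ((Set.finite_iUnion hc).subset fun n _ => ?_)
    exact Set.mem_iUnion.mpr ⟨⟨(Q n).card, Nat.lt_succ_of_le (hQc n)⟩, rfl⟩
  refine ⟨R, fun n => ?_⟩
  obtain ⟨m, hm, hnm⟩ := hR.exists_gt n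
  let e := (Finset.equivFinOfCardEq (hm : (Q m).card = R)).symm
  refine ⟨fun i => (e i).1, Subtype.val_injective.comp e.injective, fun i => ?_, fun x hx h => ?_⟩
  · exact ⟨(hQ m _ (e i).2).1, hmono _ _ _ (by omega) (hQ m _ (e i).2).2⟩
  · refine hQ' m x hx fun v hv => ?_
    obtain ⟨i, hi⟩ := e.surjective ⟨v, hv⟩
    obtain rfl : ((e i).1 : Nat.Primes) = v := congrArg Subtype.val hi
    exact h i

variable (hdet : ∀ σ, (r σ).det = algebraMap (ZMod p) k ((cycloChar p σ : (ZMod p)ˣ) : ZMod p))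
  (himg : ∀ σ, ∃ g : M2 (ZMod p), r σ = g.map (algebraMap (ZMod p) k))
  (hsurj : ∀ g : M2 (ZMod p), IsUnit g.det → ∃ σ, r σ = g.map (algebraMap (ZMod p) k))
  (h2 : 2 < p) [Finite k] {T : Set Nat.Primes}
  (hsm : Coh.IsSmooth (galLevels T) (adTw p r))
  (hr : ∃ N, (galLevels T).IsLevel N ∧ ∀ s ∈ N, r s = 1)

include hdet himg hsurj h2 hsm hr in
/-- **A fixed number of Taylor–Wiles primes of every depth detects `W`.** -/
theorem exists_twSet (W : Submodule (ZMod p) (Coh.H1 (galLevels T) (adTw p r)))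
    [FiniteDimensional (ZMod p) W] (avoid : Finset ℕ) :
    ∃ R : ℕ, ∀ n : ℕ, ∃ vs : Fin R → Nat.Primes, Function.Injective vs ∧
      (∀ i, ((vs i : Nat.Primes) : ℕ) ∉ avoid ∧ IsTWPrime p r n (vs i)) ∧
      ∀ x ∈ W, (∀ i, locAt T (adTw p r) (vs i) x = 0) → x = 0 := by
  have : Finite (adZero p k) := Subtype.finite
  exact exists_detecting_family (P := IsTWPrime p r) (fun _ _ _ h hv => IsTWPrime.mono h hv)
    (fun x hx n hn avoid => by
    obtain ⟨v, hv, hvp, hvn, hvI, hvF, hvx⟩ :=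
      exists_twPrime hdet himg hsurj h2 hsm hr x hx n hn avoid
    exact ⟨v, hv, ⟨hvp, hvn, hvI, hvF⟩, hvx⟩) W avoid

/-- A dual Selmer class at a Taylor–Wiles level vanishes. -/
theorem eq_zero_of_twSet {M : Type} [AddCommGroup M] [Module (ZMod p) M] [Finite M]
    {ρ : Representation (ZMod p) Γℚ M} (hsm : Coh.IsSmooth (galLevels T) ρ)
    {T' : Set Nat.Primes} (h : T ⊆ T') (C : ∀ v : Nat.Primes, Submodule (ZMod p) (LH1 v ρ))
    (hW : ∀ y, (∀ v ∈ T, locAt T ρ v y ∈ C v) → (∀ v ∈ T', v ∉ T → locAt T ρ v y = 0) → y = 0)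
    (x : Coh.H1 (galLevels T') ρ) (hx : ∀ v ∈ T, locAt T' ρ v x ∈ C v)
    (hx' : ∀ v ∈ T', v ∉ T → locAt T' ρ v x = 0) : x = 0 := by
  obtain ⟨y, rfl⟩ := exists_eq_infl h hsm x hx'
  rw [hW y (fun v hv => by rw [← locAt_infl h]; exact hx v hv)
    (fun v hv hv' => by rw [← locAt_infl h]; exact hx' v hv hv'), map_zero]

end Fermat.GR.RT
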