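import Mathlib
import Fermat.Agent.GR.RT.TWPrime
import Fermat.Prelude.Def_GaloisRep_ComplexConjugation

/-!
# Invariants of the adjoint representations

No global invariants, and a line of invariants of complex conjugation.
-/

set_option autoImplicit false

noncomputable section

open Fermat.CFT ExtCitation

namespace Fermat.GR.RT

local notation "Γℚ" => (AlgebraicClosure ℚ ≃ₐ[ℚ] AlgebraicClosure ℚ)
local notation "M2" R => Matrix (Fin 2) (Fin 2) R

variable {p : ℕ} [hp : Fact p.Prime] {k : Type} [Field k] [Algebra (ZMod p) k] {r : Γℚ →* M2 k}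

/-- The centraliser of an involution of determinant `-1` among trace zero matrices is a line. -/
theorem card_centraliser_involution (h2 : (2 : k) ≠ 0) {g : M2 k} (hg : g * g = 1)
    (hdet : g.det = -1) :
    Nat.card {X : adZero p k // g * X.1 = X.1 * g} = Nat.card k := by
  have e00 := congrFun (congrFun hg 0) 0
  have e01 := congrFun (congrFun hg 0) 1
  simp [Matrix.mul_apply, Fin.sum_univ_two] at e00 e01
  rw [Matrix.det_fin_two] at hdet
  -- the involution has trace zero
  have htr : g 0 0 + g 1 1 = 0 := by
    by_contra ht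
    have h01 : g 0 1 = 0 := (mul_eq_zero.mp
      (show g 0 1 * (g 0 0 + g 1 1) = 0 by linear_combination e01)).resolve_right ht
    rw [h01] at e00 hdet
    simp only [zero_mul, add_zero, sub_zero] at e00 hdet
    exact ht (by linear_combination g 1 1 * e00 * (-1) + g 0 0 * hdet)
  -- `X ↦ tr (g X) / 2` is inverse to `c ↦ c g`
  refine Nat.card_congr
    { toFun := fun X => (g * X.1.1).trace / 2
      invFun := fun c => ⟨⟨c • g, by rw [mem_adZero, Matrix.trace_smul, Matrix.trace_fin_two, htr,
        smul_zero]⟩, by rw [Matrix.mul_smul, Matrix.smul_mul]⟩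
      left_inv := fun X => ?_
      right_inv := fun c => ?_ }
  · obtain ⟨⟨X, hX⟩, hgX⟩ := X
    rw [mem_adZero, Matrix.trace_fin_two] at hX
    -- for trace zero `g` and `X`, `g X + X g` is the scalar `tr (g X)`
    have key : g * X + X * g = (g * X).trace • (1 : M2 k) := by
      ext i j
      fin_cases i <;> fin_cases j <;>
        simp [Matrix.mul_apply, Matrix.trace_fin_two, Fin.sum_univ_two]
      · linear_combination g 0 0 * hX - X 1 1 * htr
      · linear_combination X 0 1 * htr + g 0 1 * hX
      · linear_combination X 1 0 * htr + g 1 0 * hX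
      · linear_combination g 1 1 * hX - X 0 0 * htr
    change g * X = X * g at hgX
    rw [← hgX, ← two_smul k] at key
    have h3 : g * X = ((g * X).trace / 2) • (1 : M2 k) := by
      rw [div_eq_inv_mul, ← smul_smul, ← key, smul_smul, inv_mul_cancel₀ h2, one_smul]
    refine Subtype.ext (Subtype.ext ?_)
    change ((g * X).trace / 2) • g = X
    calc ((g * X).trace / 2) • g = g * (((g * X).trace / 2) • (1 : M2 k)) := by
          rw [Matrix.mul_smul, mul_one]
      _ = X := by rw [← h3, ← mul_assoc, hg, one_mul]
  · change (g * (c • g)).trace / 2 = c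
    rw [Matrix.mul_smul, hg, Matrix.trace_smul, Matrix.trace_one, Fintype.card_fin, smul_eq_mul,
      Nat.cast_two, mul_div_assoc, div_self h2, mul_one]

variable (hdet : ∀ σ, (r σ).det = algebraMap (ZMod p) k ((cycloChar p σ : (ZMod p)ˣ) : ZMod p))
  (hsurj : ∀ g : M2 (ZMod p), IsUnit g.det → ∃ σ, r σ = g.map (algebraMap (ZMod p) k))
  (h2 : 2 < p)

include hdet h2 in
/-- Complex conjugation fixes a line of the adjoint representation. -/
theorem card_invariants_infty :
    Nat.card {X : adZero p k // adRep p r complexConjugation X = X} = Nat.card k := by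
  have h20 : (2 : k) ≠ 0 := two_ne_zero_of_two_lt h2
  have hg : r complexConjugation * r complexConjugation = 1 := by
    rw [← map_mul, complexConjugation_mul_self, map_one]
  rw [← card_centraliser_involution (p := p) h20 hg (by
    rw [hdet, cycloChar_complexConjugation, map_neg, map_one])]
  refine Nat.card_congr (Equiv.subtypeEquivRight fun X => ?_)
  rw [Subtype.ext_iff, coe_adRep]
  constructor
  · intro h
    conv_rhs => rw [← h, mul_assoc, hom_inv_mul, mul_one]
  · intro h
    rw [h, mul_assoc, hom_mul_inv, mul_one]

include hdet hsurj h2 in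
/-- There are no global invariants in either representation. -/
theorem eq_zero_of_invariant (X : adZero p k)
    (hX : (∀ σ, adRep p r σ X = X) ∨ ∀ σ, adTw p r σ X = X) : X = 0 := by
  have key : ∀ g : M2 (ZMod p), g.det = 1 →
      g.map (algebraMap (ZMod p) k) * X.1 = X.1 * g.map (algebraMap (ZMod p) k) := by
    intro g hg
    obtain ⟨σ, hσ⟩ := hsurj g (by rw [hg]; exact isUnit_one)
    have hχ : cycloChar p σ = 1 := Units.ext (by
      refine (algebraMap (ZMod p) k).injective ?_
      rw [Units.val_one, map_one, ← hdet, hσ, ← RingHom.mapMatrix_apply, ← RingHom.map_det, hg,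
        map_one])
    have h : r σ * X.1 * r σ⁻¹ = X.1 := by
      rcases hX with h | h
      · exact congrArg Subtype.val (h σ)
      · have := congrArg Subtype.val (h σ)
        rwa [coe_adTw, hχ, Units.val_one, one_smul] at this
    rw [← hσ]
    conv_rhs => rw [← h, mul_assoc, hom_inv_mul, mul_one]
  have hu := key !![1, 1; 0, 1] (by simp [Matrix.det_fin_two])
  have hl := key !![1, 0; 1, 1] (by simp [Matrix.det_fin_two])
  have a0 := congrFun (congrFun hu 0) 0
  have a1 := congrFun (congrFun hu 0) 1
  have b0 := congrFun (congrFun hl 0) 0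
  simp [Matrix.mul_apply, Fin.sum_univ_two] at a0 a1 b0
  have htr : X.1 0 0 + X.1 1 1 = 0 := by
    have := X.2
    rwa [mem_adZero, Matrix.trace_fin_two] at this
  have h20 : (2 : k) ≠ 0 := two_ne_zero_of_two_lt h2
  have h00 : X.1 0 0 = 0 := (mul_eq_zero.mp
    (show (2 : k) * X.1 0 0 = 0 by linear_combination htr - a1)).resolve_left h20
  have h11 : X.1 1 1 = 0 := by linear_combination htr - h00
  refine Subtype.ext (Matrix.ext fun i j => ?_)
  fin_cases i <;> fin_cases j <;> simp [h00, h11, a0, b0]

end Fermat.GR.RT
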