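import Mathlib
import Fermat.Agent.GR.RT.DualSelmer
import Fermat.Agent.GR.RT.Invariants
import Fermat.Agent.GR.RT.LocalCount
import Fermat.Agent.CFT.Coh.Devissage

/-!
# The Selmer count at the Taylor–Wiles levels

From the Greenberg–Wiles bound: with zero condition at the framed primes, bounded conditions at the
bad primes and no condition at the chosen Taylor–Wiles primes, the Selmer group times the framed
invariants has at most `|k|^R` elements, `R` the number of Taylor–Wiles primes, independent of their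
depth.  The primes killing the dual Selmer group of the smallest conditions serve every larger one.
-/

set_option autoImplicit false
-- Mathlib's value: with less, the instance searches on cohomology groups fail slowly
set_option maxSynthPendingDepth 3

noncomputable section

open Fermat.CFT ExtCitation
open scoped Pointwise

namespace Fermat.GR.RT

local notation "Γℚ" => (AlgebraicClosure ℚ ≃ₐ[ℚ] AlgebraicClosure ℚ)
local notation "M2" R => Matrix (Fin 2) (Fin 2) R

variable {p : ℕ} [hp : Fact p.Prime]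

/-- The classes satisfying conditions at the primes of `T`. -/
def selAt {M : Type} [AddCommGroup M] [Module (ZMod p) M] (T : Finset Nat.Primes)
    (ρ : Representation (ZMod p) Γℚ M) (L : ∀ v : Nat.Primes, Submodule (ZMod p) (LH1 v ρ)) :
    Submodule (ZMod p) (Coh.H1 (galLevels (T : Set Nat.Primes)) ρ) :=
  ⨅ v : T, (L v).comap (locAt (T : Set Nat.Primes) ρ v)

/-- A class lies in `selAt` exactly when its localisation at each prime of `T` satisfies the
condition there. -/
theorem mem_selAt {M : Type} [AddCommGroup M] [Module (ZMod p) M] {T : Finset Nat.Primes}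
    {ρ : Representation (ZMod p) Γℚ M} {L : ∀ v : Nat.Primes, Submodule (ZMod p) (LH1 v ρ)}
    {x : Coh.H1 (galLevels (T : Set Nat.Primes)) ρ} :
    x ∈ selAt T ρ L ↔ ∀ v ∈ T, locAt (T : Set Nat.Primes) ρ v x ∈ L v := by
  simp [selAt, Submodule.mem_iInf]

/-- The orthogonal conditions. -/
def orth (h2 : 2 < p) {M M' : Type} [AddCommGroup M] [Module (ZMod p) M] [AddCommGroup M']
    [Module (ZMod p) M'] [Finite M] [Finite M'] {T : Finset Nat.Primes}
    {ρ : Representation (ZMod p) Γℚ M} {ρ' : Representation (ZMod p) Γℚ M'} (D : DualPair T ρ ρ')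
    (L : ∀ v : Nat.Primes, Submodule (ZMod p) (LH1 v ρ)) (v : Nat.Primes) :
    Submodule (ZMod p) (LH1 v ρ') :=
  haveI : FiniteDimensional (ZMod p) M := Module.Finite.of_finite
  haveI : FiniteDimensional (ZMod p) M' := Module.Finite.of_finite
  Devissage.perp (D.q₁ h2 v) (L v)

/-- **The Greenberg–Wiles bound.** Proved by `Fermat.CFT.gwBound`. -/
def GWBound (p : ℕ) [Fact p.Prime] : Prop :=
  ∀ (h2 : 2 < p) (M M' : Type) [AddCommGroup M] [Module (ZMod p) M] [AddCommGroup M']
    [Module (ZMod p) M'] [Finite M] [Finite M'] (T : Finset Nat.Primes)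
    (ρ : Representation (ZMod p) Γℚ M) (ρ' : Representation (ZMod p) Γℚ M')
    (D : DualPair T ρ ρ') (L : ∀ v : Nat.Primes, Submodule (ZMod p) (LH1 v ρ)),
    Finite (selAt T ρ L) ∧ Finite (selAt T ρ' (orth h2 D L)) ∧
      Nat.card (selAt T ρ L) * Nat.card (Coh.H0 ρ') *
          (∏ v ∈ T, Nat.card (Coh.H0 (repAt v ρ))) *
            Nat.card {m : M // ρ complexConjugation m = m} ≤
        Nat.card (selAt T ρ' (orth h2 D L)) * Nat.card (Coh.H0 ρ) * ∏ v ∈ T, Nat.card (L v)

/-- Larger conditions have smaller orthogonals. -/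
private theorem orth_anti (h2 : 2 < p) {M M' : Type} [AddCommGroup M] [Module (ZMod p) M]
    [AddCommGroup M']
    [Module (ZMod p) M'] [Finite M] [Finite M'] {T : Finset Nat.Primes}
    {ρ : Representation (ZMod p) Γℚ M} {ρ' : Representation (ZMod p) Γℚ M'} (D : DualPair T ρ ρ')
    {L₀ L : ∀ v : Nat.Primes, Submodule (ZMod p) (LH1 v ρ)} {v : Nat.Primes} (h : L₀ v ≤ L v) :
    orth h2 D L v ≤ orth h2 D L₀ v := fun _ hx =>
  Devissage.mem_perp.mpr fun _ hy => Devissage.mem_perp.mp hx _ (h hy)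

variable {k : Type} [Field k] [Algebra (ZMod p) k] {r : Γℚ →* M2 k}

/-- The fixed vectors of a trace zero element of determinant `1` form at most a line. -/
theorem card_fixed_trace_zero_le [Finite k] (h20 : (2 : k) ≠ 0) {g : M2 k} (ht : g.trace = 0)
    (hd : g.det = 1) :
    Nat.card {X : adZero p k // g * X.1 = X.1 * g} ≤ Nat.card k := by
  refine Nat.card_le_card_of_injective (fun X => (g * X.1.1).trace) fun X Y h => ?_
  rw [Matrix.trace_fin_two] at ht
  rw [Matrix.det_fin_two] at hd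
  have hX := X.1.2
  have hY := Y.1.2
  rw [mem_adZero, Matrix.trace_fin_two] at hX hY
  have key : ∀ Z : M2 k, Z 0 0 + Z 1 1 = 0 → g * Z = Z * g → (g * Z).trace = 0 → Z = 0 := by
    intro Z hZ hgZ htZ
    have e : g * Z + Z * g = (g * Z).trace • (1 : M2 k) := by
      ext i j
      fin_cases i <;> fin_cases j <;>
        simp [Matrix.mul_apply, Matrix.trace_fin_two, Fin.sum_univ_two]
      · linear_combination g 0 0 * hZ - Z 1 1 * ht
      · linear_combination Z 0 1 * ht + g 0 1 * hZ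
      · linear_combination Z 1 0 * ht + g 1 0 * hZ
      · linear_combination g 1 1 * hZ - Z 0 0 * ht
    rw [htZ, zero_smul, ← hgZ, ← two_smul k] at e
    have h0 : g * Z = 0 := (smul_eq_zero.mp e).resolve_left h20
    have hu : IsUnit g.det := by rw [Matrix.det_fin_two, hd]; exact isUnit_one
    have h1 := congrArg (fun W => g⁻¹ * W) h0
    simpa [← Matrix.mul_assoc, Matrix.nonsing_inv_mul _ hu] using h1
  refine Subtype.ext (Subtype.ext (sub_eq_zero.mp (key _ ?_ ?_ ?_)))
  · simp only [Matrix.sub_apply]; linear_combination hX - hY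
  · rw [mul_sub, sub_mul, X.2, Y.2]
  · rw [mul_sub, Matrix.trace_sub]
    exact sub_eq_zero.mpr h

variable (hdet : ∀ σ, (r σ).det = algebraMap (ZMod p) k ((cycloChar p σ : (ZMod p)ˣ) : ZMod p))
  (himg : ∀ σ, ∃ g : M2 (ZMod p), r σ = g.map (algebraMap (ZMod p) k))
  (hsurj : ∀ g : M2 (ZMod p), IsUnit g.det → ∃ σ, r σ = g.map (algebraMap (ZMod p) k))
  (h2 : 2 < p) [Finite k]

/-- Local classes at a prime of depth `n` with a Frobenius having a small centraliser number at most
`|k| |H⁰|`. -/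
theorem card_LH1_le_of_card_centraliser {T : Set Nat.Primes}
    (hsm : Coh.IsSmooth (galLevels T) (adRep p r)) {n : ℕ} (hn : 1 ≤ n) {v : Nat.Primes}
    (hvp : (v : ℕ) ≠ p) (hvn : p ^ n ∣ (v : ℕ) - 1)
    (hI : ∀ s ∈ (placeAt v).inertiaSubgroupIn ℚ, r s = 1) {φ : Γℚ}
    (hφ : (placeAt v).IsFrobeniusAt φ v)
    (hcard : Nat.card {X : adZero p k // r φ * X.1 = X.1 * r φ} ≤ Nat.card k) :
    Finite (LH1 v (adRep p r)) ∧
      Nat.card (LH1 v (adRep p r)) ≤ Nat.card k * Nat.card (Coh.H0 (repAt v (adRep p r))) := by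
  have : Finite (adZero p k) := Subtype.finite
  have hplace : Fermat.EC.Val.IsPlace (placeAt v) (v : ℕ) := ⟨v.2, placeAt_spec v⟩
  obtain ⟨hfin, hle⟩ := card_H1_unramified_le (ρ := repAt v (adRep p r)) hplace (Ne.symm hvp)
    (Coh.IsSmooth.comp (locHom T v) hsm) (fun σ => LinearMap.ext fun X => Subtype.ext (by
      change r σ.1 * X.1 * r (σ.1)⁻¹ = X.1
      rw [hI σ.1 σ.2, hI _ (inv_mem σ.2), one_mul, mul_one])) hφ
  refine ⟨hfin, hle.trans (Nat.mul_le_mul_right _ ?_)⟩
  have hq : ((v : ℕ) : ZMod p) = 1 := by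
    rw [← Nat.cast_one, ZMod.natCast_eq_natCast_iff']
    exact ((Nat.modEq_iff_dvd' v.2.one_le).mpr ((dvd_pow_self p (by omega)).trans hvn)).symm
  refine le_trans (Nat.card_le_card_of_injective (fun X => (⟨X.1, ?_⟩ :
    {X : adZero p k // r φ * X.1 = X.1 * r φ})) fun X Y h =>
      Subtype.ext (congrArg (fun z => z.1) h))
    hcard
  have hX : ((v : ℕ) : ZMod p) • X.1 = X.1 := by simp [hq]
  have h := congrArg Subtype.val (X.2.trans hX)
  change r φ * X.1.1 * r φ⁻¹ = X.1.1 at h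
  calc r φ * X.1.1 = r φ * X.1.1 * r φ⁻¹ * r φ := by rw [mul_assoc _ (r φ⁻¹), hom_inv_mul, mul_one]
    _ = X.1.1 * r φ := by rw [h]

/-- Enlarging `T` by primes which detect the dual Selmer group of `L₀ ≤ L`, with free conditions
there, leaves no dual Selmer group. -/
private theorem selAt_orth_eq_bot (h20 : (2 : k) ≠ 0) {T T' : Finset Nat.Primes}
    (hpT : pPrime p ∈ T) (hsub : T ⊆ T')
    (hsm : Coh.IsSmooth (galLevels (T : Set Nat.Primes)) (adRep p r))
    (hsm' : Coh.IsSmooth (galLevels (T' : Set Nat.Primes)) (adRep p r))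
    {L₀ L : ∀ v : Nat.Primes, Submodule (ZMod p) (LH1 v (adRep p r))}
    (hL₀ : ∀ v ∈ T, L₀ v ≤ L v)
    (hkill : ∀ y ∈ selAt T (adTw p r) (orth h2 (adDualPair p h20 T r hpT hsm) L₀),
      (∀ v ∈ T', v ∉ T → locAt (T : Set Nat.Primes) (adTw p r) v y = 0) → y = 0) :
    selAt T' (adTw p r) (orth h2 (adDualPair p h20 T' r (hsub hpT) hsm')
      fun v => if v ∈ T then L v else ⊤) = ⊥ := by
  classical
  have : Finite (adZero p k) := Subtype.finite
  have : FiniteDimensional (ZMod p) (adZero p k) := Module.Finite.of_finite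
  set D₀ := adDualPair p h20 T r hpT hsm
  set D := adDualPair p h20 T' r (hsub hpT) hsm'
  set L' : ∀ v : Nat.Primes, Submodule (ZMod p) (LH1 v (adRep p r)) :=
    fun v => if v ∈ T then L v else ⊤ with hL'
  refine (Submodule.eq_bot_iff _).mpr fun x hx => ?_
  -- off `T` the orthogonal of `⊤` is zero
  have hperp : ∀ v ∉ T, ∀ w ∈ orth h2 D L' v, w = 0 := by
    intro v hv w hw
    have hw' := Devissage.mem_perp.mp hw
    have := D.finite_LH1 h2 v
    have := D.flip.finite_LH1 h2 v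
    refine (LinearMap.flip_bijective_iff₁.mpr (D.q₁_bijective h2 v)).1 ?_
    rw [map_zero]
    refine LinearMap.ext fun s => ?_
    exact hw' s (by rw [hL']; simp [hv])
  -- so `x` comes from level `T`, where it lies in the orthogonal of `L₀`
  refine eq_zero_of_twSet (isSmooth_adTw p r hpT hsm) (Finset.coe_subset.mpr hsub) (orth h2 D₀ L₀)
    (fun y hy hy' => hkill y (mem_selAt.mpr hy) hy') x (fun v hv => ?_)
    fun v hv hv' => hperp v hv' _ (mem_selAt.mp hx v hv)
  have h := mem_selAt.mp hx v (hsub hv)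
  have he : orth h2 D L' v = orth h2 D₀ L v := by
    change Devissage.perp (D.q₁ h2 v) (L' v) = Devissage.perp (D₀.q₁ h2 v) (L v)
    have hLv : L' v = L v := if_pos hv
    rw [hLv]
    rfl
  rw [he] at h
  exact orth_anti h2 D₀ (hL₀ v hv) h

/-- The count, after cancelling the local invariants away from `A`. -/
private theorem count_of_local_bounds {ι : Type} [DecidableEq ι] {T A S : Finset ι} (hAT : A ⊆ T)
    (hdisj : Disjoint T S) {H l : ι → ℕ} (hH : ∀ v, 0 < H v) {v₀ : ι} (hv₀ : v₀ ∈ T)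
    (hv₀A : v₀ ∉ A) {c q X K : ℕ} (hA : ∀ v ∈ A, l v = 1)
    (hT : ∀ v ∈ T, v ∉ A → l v ≤ H v * if v = v₀ then c else 1)
    (hS : ∀ v ∈ S, l v ≤ q * H v) (h : X * (∏ v ∈ T ∪ S, H v) * K ≤ ∏ v ∈ T ∪ S, l v) :
    X * (∏ v ∈ A, H v) * K ≤ c * q ^ S.card := by
  have hT1 : ∏ v ∈ T \ A, l v ≤ (∏ v ∈ T \ A, H v) * c := by
    refine (Finset.prod_le_prod' fun v hv => ?_).trans (le_of_eq ?_)
      (b := ∏ v ∈ T \ A, H v * if v = v₀ then c else 1)
    · exact hT v (Finset.mem_sdiff.mp hv).1 (Finset.mem_sdiff.mp hv).2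
    · rw [Finset.prod_mul_distrib, Finset.prod_ite_eq', if_pos (Finset.mem_sdiff.mpr ⟨hv₀, hv₀A⟩)]
  have hS1 : ∏ v ∈ S, l v ≤ (∏ v ∈ S, H v) * q ^ S.card := by
    refine (Finset.prod_le_prod' hS).trans (le_of_eq ?_)
    rw [Finset.prod_mul_distrib, Finset.prod_const, mul_comm]
  rw [Finset.prod_union hdisj, Finset.prod_union hdisj, ← Finset.prod_sdiff hAT,
    ← Finset.prod_sdiff hAT, Finset.prod_eq_one hA, mul_one] at h
  refine Nat.le_of_mul_le_mul_left ?_ (Nat.mul_pos
    (Finset.prod_pos fun v (_ : v ∈ T \ A) => hH v) (Finset.prod_pos fun v (_ : v ∈ S) => hH v))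
  calc _ = _ := by ring
    _ ≤ _ := h.trans (Nat.mul_le_mul hT1 hS1)
    _ = _ := by ring

include hdet h2 in
/-- **The count** from auxiliary primes, for every family of conditions containing the given one. -/
theorem exists_selmer_family_of_detecting {P : ℕ → Nat.Primes → Prop}
    (hmono : ∀ n m v, n ≤ m → P m v → P n v)
    (hdetect : ∀ {T : Set Nat.Primes}, Coh.IsSmooth (galLevels T) (adTw p r) →
      (∃ N, (galLevels T).IsLevel N ∧ ∀ s ∈ N, r s = 1) →
      ∀ (W : Submodule (ZMod p) (Coh.H1 (galLevels T) (adTw p r))) [FiniteDimensional (ZMod p) W]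
        (avoid : Finset ℕ),
        ∃ R : ℕ, ∀ n : ℕ, ∃ vs : Fin R → Nat.Primes, Function.Injective vs ∧
          (∀ i, ((vs i : Nat.Primes) : ℕ) ∉ avoid ∧ P n (vs i)) ∧
          ∀ x ∈ W, (∀ i, locAt T (adTw p r) (vs i) x = 0) → x = 0)
    (hinv : ∀ X, ((∀ σ, adRep p r σ X = X) ∨ ∀ σ, adTw p r σ X = X) → X = 0)
    (hloc : ∀ {T : Set Nat.Primes}, Coh.IsSmooth (galLevels T) (adRep p r) →
      ∀ {n : ℕ}, 1 ≤ n → ∀ {v : Nat.Primes}, P n v →
        Finite (LH1 v (adRep p r)) ∧
          Nat.card (LH1 v (adRep p r)) ≤ Nat.card k * Nat.card (Coh.H0 (repAt v (adRep p r))))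
    (hGW : GWBound p) {T : Finset Nat.Primes}
    (hpT : pPrime p ∈ T) (hsm : Coh.IsSmooth (galLevels (T : Set Nat.Primes)) (adRep p r))
    (hr : ∃ N, (galLevels (T : Set Nat.Primes)).IsLevel N ∧ ∀ s ∈ N, r s = 1)
    (Afr : Finset Nat.Primes) (hAT : Afr ⊆ T) (hpA : pPrime p ∉ Afr)
    (L₀ : ∀ v : Nat.Primes, Submodule (ZMod p) (LH1 v (adRep p r))) (avoid : Finset ℕ) :
    ∃ R : ℕ, ∀ n : ℕ, ∃ vs : Fin R → Nat.Primes, Function.Injective vs ∧
      (∀ i, ((vs i : Nat.Primes) : ℕ) ∉ avoid ∧ vs i ∉ T ∧ P n (vs i)) ∧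
      ∀ L : ∀ v : Nat.Primes, Submodule (ZMod p) (LH1 v (adRep p r)),
        (∀ v ∈ T, L₀ v ≤ L v) → (∀ v ∈ Afr, L v = ⊥) → ∀ c : ℕ,
        (∀ v ∈ T, v ∉ Afr → Nat.card (L v) ≤
          Nat.card (Coh.H0 (repAt v (adRep p r))) * if v = pPrime p then c else 1) →
        Finite (selAt (T ∪ Finset.univ.image vs) (adRep p r)
          fun v => if v ∈ T then L v else ⊤) ∧
        Nat.card (selAt (T ∪ Finset.univ.image vs) (adRep p r)
            fun v => if v ∈ T then L v else ⊤) *
          (∏ v ∈ Afr, Nat.card (Coh.H0 (repAt v (adRep p r)))) * Nat.card k ≤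
            c * Nat.card k ^ R := by
  classical
  have : Finite (adZero p k) := Subtype.finite
  have : FiniteDimensional (ZMod p) (adZero p k) := Module.Finite.of_finite
  have h20 : (2 : k) ≠ 0 := two_ne_zero_of_two_lt h2
  set D₀ := adDualPair p h20 T r hpT hsm
  set W := selAt T (adTw p r) (orth h2 D₀ L₀)
  have : Finite W := (hGW h2 _ _ T _ _ D₀ L₀).2.1
  have : FiniteDimensional (ZMod p) W := Module.Finite.of_finite
  obtain ⟨R, hR⟩ := hdetect (isSmooth_adTw p r hpT hsm) hr W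
    (avoid ∪ T.image fun v : Nat.Primes => (v : ℕ))
  refine ⟨R, fun n => ?_⟩
  obtain ⟨vs, hinj, hvs, hkill⟩ := hR (n + 1)
  have hvT : ∀ i, vs i ∉ T := fun i h =>
    (hvs i).1 (Finset.mem_union_right _ (Finset.mem_image_of_mem _ h))
  refine ⟨vs, hinj, fun i => ⟨fun h => (hvs i).1 (Finset.mem_union_left _ h), hvT i,
    hmono _ _ _ (Nat.le_succ n) (hvs i).2⟩, fun L hL₀ hLA c hL => ?_⟩
  set T' := T ∪ Finset.univ.image vs with hT'
  have hsub : (T : Set Nat.Primes) ⊆ (T' : Set Nat.Primes) :=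
    Finset.coe_subset.mpr Finset.subset_union_left
  have hsm' : Coh.IsSmooth (galLevels (T' : Set Nat.Primes)) (adRep p r) := fun X => by
    obtain ⟨N, hN, h⟩ := hsm X
    obtain ⟨N', hN', hle⟩ := galLevels_mono hsub N hN
    exact ⟨N', hN', fun s hs => h s (hle hs)⟩
  set D := adDualPair p h20 T' r (Finset.mem_union_left _ hpT) hsm'
  set L' : ∀ v : Nat.Primes, Submodule (ZMod p) (LH1 v (adRep p r)) :=
    fun v => if v ∈ T then L v else ⊤ with hL'
  obtain ⟨hfin, -, hineq⟩ := hGW h2 _ _ T' _ _ D L'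
  refine ⟨hfin, ?_⟩
  -- the dual group vanishes
  have hdual : selAt T' (adTw p r) (orth h2 D L') = ⊥ :=
    selAt_orth_eq_bot h2 h20 hpT Finset.subset_union_left hsm hsm' hL₀ fun y hy hy' =>
      hkill y hy fun i => hy' _
        (Finset.mem_union_right _ (Finset.mem_image_of_mem _ (Finset.mem_univ i))) (hvT i)
  -- global invariants
  have h0 : Nat.card (Coh.H0 (adRep p r)) = 1 ∧ Nat.card (Coh.H0 (adTw p r)) = 1 := by
    constructor <;>
    · rw [Nat.card_eq_one_iff_unique]
      refine ⟨⟨fun a b => Subtype.ext ?_⟩, ⟨0⟩⟩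
      rw [hinv a.1 (by first
          | exact Or.inl (Coh.H0_fixed a) | exact Or.inr (Coh.H0_fixed a)),
        hinv b.1 (by first
          | exact Or.inl (Coh.H0_fixed b) | exact Or.inr (Coh.H0_fixed b))]
  rw [hdual, Nat.card_unique (α := (⊥ : Submodule (ZMod p) _)), h0.1, h0.2,
    card_invariants_infty hdet h2] at hineq
  simp only [mul_one, one_mul] at hineq
  -- the local bounds
  have hdisj : Disjoint T (Finset.univ.image vs) := Finset.disjoint_right.mpr fun v hv => by
    obtain ⟨i, -, rfl⟩ := Finset.mem_image.mp hv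
    exact hvT i
  have hRcard : (Finset.univ.image vs).card = R := by
    rw [Finset.card_image_of_injective _ hinj, Finset.card_univ, Fintype.card_fin]
  rw [← hRcard]
  refine count_of_local_bounds hAT hdisj (H := fun v => Nat.card (Coh.H0 (repAt v (adRep p r))))
    (l := fun v => Nat.card (L' v)) (fun v => ?_) hpT hpA (fun v hv => ?_) (fun v hv hv' => ?_)
    (fun v hv => ?_) hineq
  · have : Finite (Coh.H0 (repAt v (adRep p r))) := Subtype.finite
    exact Nat.card_pos
  · rw [hL']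
    simp only [hAT hv, if_true]
    rw [hLA v hv, Nat.card_unique]
  · rw [hL']
    simp only [hv, if_true]
    exact hL v hv hv'
  · obtain ⟨i, -, rfl⟩ := Finset.mem_image.mp hv
    obtain ⟨hfin', hle⟩ := hloc hsm (Nat.le_add_left 1 n) (hvs i).2
    rw [hL']
    simp only [hvT i, if_false]
    exact (Nat.card_le_card_of_injective _ Subtype.val_injective).trans hle

include hdet himg hsurj h2 in
/-- **The count**, for every family of conditions containing the given one. -/
theorem exists_twPrimes_selmer_family (hGW : GWBound p) {T : Finset Nat.Primes}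
    (hpT : pPrime p ∈ T) (hsm : Coh.IsSmooth (galLevels (T : Set Nat.Primes)) (adRep p r))
    (hr : ∃ N, (galLevels (T : Set Nat.Primes)).IsLevel N ∧ ∀ s ∈ N, r s = 1)
    (Afr : Finset Nat.Primes) (hAT : Afr ⊆ T) (hpA : pPrime p ∉ Afr)
    (L₀ : ∀ v : Nat.Primes, Submodule (ZMod p) (LH1 v (adRep p r))) (avoid : Finset ℕ) :
    ∃ R : ℕ, ∀ n : ℕ, ∃ vs : Fin R → Nat.Primes, Function.Injective vs ∧
      (∀ i, ((vs i : Nat.Primes) : ℕ) ∉ avoid ∧ vs i ∉ T ∧ IsTWPrime p r n (vs i)) ∧
      ∀ L : ∀ v : Nat.Primes, Submodule (ZMod p) (LH1 v (adRep p r)),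
        (∀ v ∈ T, L₀ v ≤ L v) → (∀ v ∈ Afr, L v = ⊥) → ∀ c : ℕ,
        (∀ v ∈ T, v ∉ Afr → Nat.card (L v) ≤
          Nat.card (Coh.H0 (repAt v (adRep p r))) * if v = pPrime p then c else 1) →
        Finite (selAt (T ∪ Finset.univ.image vs) (adRep p r)
          fun v => if v ∈ T then L v else ⊤) ∧
        Nat.card (selAt (T ∪ Finset.univ.image vs) (adRep p r)
            fun v => if v ∈ T then L v else ⊤) *
          (∏ v ∈ Afr, Nat.card (Coh.H0 (repAt v (adRep p r)))) * Nat.card k ≤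
            c * Nat.card k ^ R :=
  exists_selmer_family_of_detecting hdet h2 (P := IsTWPrime p r)
    (fun _ _ _ h hv => IsTWPrime.mono h hv)
    (fun hsm hr W _ => exists_twSet hdet himg hsurj h2 hsm hr W)
    (eq_zero_of_invariant hdet hsurj h2)
    (fun hsm _ hn _ ⟨hvp, hvn, hI, _, hφ, ht, hd⟩ => card_LH1_le_of_card_centraliser hsm hn hvp hvn
      hI hφ (card_fixed_trace_zero_le (two_ne_zero_of_two_lt h2) ht hd))
    hGW hpT hsm hr Afr hAT hpA L₀ avoid

include hdet himg hsurj h2 in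
/-- **The count**: auxiliary primes at which the Selmer group of the given conditions is bounded by
a power of `|k|`. -/
theorem exists_twPrimes_selmer_le (hGW : GWBound p) {T : Finset Nat.Primes} (hpT : pPrime p ∈ T)
    (hsm : Coh.IsSmooth (galLevels (T : Set Nat.Primes)) (adRep p r))
    (hr : ∃ N, (galLevels (T : Set Nat.Primes)).IsLevel N ∧ ∀ s ∈ N, r s = 1)
    (Afr : Finset Nat.Primes) (hAT : Afr ⊆ T) (hpA : pPrime p ∉ Afr)
    (L : ∀ v : Nat.Primes, Submodule (ZMod p) (LH1 v (adRep p r)))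
    (hLA : ∀ v ∈ Afr, L v = ⊥)
    (hL : ∀ v ∈ T, v ∉ Afr → Nat.card (L v) ≤
      Nat.card (Coh.H0 (repAt v (adRep p r))) * if v = pPrime p then Nat.card k else 1)
    (avoid : Finset ℕ) :
    ∃ R : ℕ, ∀ n : ℕ, ∃ vs : Fin R → Nat.Primes, Function.Injective vs ∧
      (∀ i, ((vs i : Nat.Primes) : ℕ) ∉ avoid ∧ vs i ∉ T ∧ IsTWPrime p r n (vs i)) ∧
      Finite (selAt (T ∪ Finset.univ.image vs) (adRep p r)
        fun v => if v ∈ T then L v else ⊤) ∧
      Nat.card (selAt (T ∪ Finset.univ.image vs) (adRep p r)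
          fun v => if v ∈ T then L v else ⊤) *
        ∏ v ∈ Afr, Nat.card (Coh.H0 (repAt v (adRep p r))) ≤ Nat.card k ^ R := by
  obtain ⟨R, hR⟩ :=
    exists_twPrimes_selmer_family hdet himg hsurj h2 hGW hpT hsm hr Afr hAT hpA L avoid
  refine ⟨R, fun n => ?_⟩
  obtain ⟨vs, hinj, hvs, hsel⟩ := hR n
  obtain ⟨hfin, hle⟩ := hsel L (fun _ _ => le_rfl) hLA (Nat.card k) hL
  exact ⟨vs, hinj, hvs, hfin, Nat.le_of_mul_le_mul_right (hle.trans_eq (mul_comm _ _)) Nat.card_pos⟩

end Fermat.GR.RT
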