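import Mathlib

/-!
# A stable line from an adjugate

If all `2 × 2` matrices of a right ideal of combinations are singular then the adjugate of one of
them kills all; a nonzero singular matrix killed on the left gives an adapted basis.
-/

set_option autoImplicit false

noncomputable section

namespace Fermat.GR.RT

variable {O : Type} [CommRing O]

local notation "M2" => Matrix (Fin 2) (Fin 2) O

/-- The determinant of a sum of two `2 × 2` matrices. -/
theorem det_add_fin_two (X Y : M2) :
    (X + Y).det = X.det + (X.adjugate * Y).trace + Y.det := by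
  simp [Matrix.det_fin_two, Matrix.adjugate_fin_two, Matrix.trace_fin_two, Matrix.vecMul,
    dotProduct, Fin.sum_univ_two]
  ring

/-- A matrix whose products with a spanning set have trace zero is zero. -/
theorem eq_zero_of_trace_mul {ι : Type*} {r : ι → M2} (hspan : Submodule.span O (Set.range r) = ⊤)
    {X : M2} (h : ∀ i, (X * r i).trace = 0) : X = 0 := by
  have hall : ∀ Y ∈ Submodule.span O (Set.range r), (X * Y).trace = 0 := by
    intro Y hY
    induction hY using Submodule.span_induction with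
    | mem Y hY => obtain ⟨i, rfl⟩ := hY; exact h i
    | zero => simp
    | add Y Y' _ _ hY hY' => rw [mul_add, Matrix.trace_add, hY, hY', add_zero]
    | smul z Y _ hY => rw [mul_smul_comm, Matrix.trace_smul, hY, smul_zero]
  ext a b
  have h1 := hall (Matrix.single b a (1 : O)) (hspan ▸ Submodule.mem_top)
  fin_cases a <;> fin_cases b <;>
    simpa [Matrix.trace_fin_two, Matrix.mul_apply, Fin.sum_univ_two, Matrix.single_apply] using h1

/-- Two vectors killed by a common nonzero vector are proportional. -/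
theorem cross_eq_zero [IsDomain O] {w z v : Fin 2 → O} (hv : v ≠ 0) (hw : dotProduct w v = 0)
    (hz : dotProduct z v = 0) : z 0 * w 1 - z 1 * w 0 = 0 := by
  simp only [dotProduct, Fin.sum_univ_two] at hw hz
  by_contra hne
  refine hv (funext fun i => ?_)
  fin_cases i
  · change v 0 = 0
    exact (mul_eq_zero.mp (show (z 0 * w 1 - z 1 * w 0) * v 0 = 0 by
      linear_combination (w 1) * hz - (z 1) * hw)).resolve_left hne
  · change v 1 = 0
    exact (mul_eq_zero.mp (show (z 0 * w 1 - z 1 * w 0) * v 1 = 0 by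
      linear_combination (z 0) * hw - (w 0) * hz)).resolve_left hne

/-- A row is a multiple of a primitive row. -/
theorem exists_primitive [IsDomain O] [ValuationRing O] {z : Fin 2 → O} (hz : z ≠ 0) :
    ∃ (w u : Fin 2 → O) (a : O), a ≠ 0 ∧ dotProduct w u = 1 ∧ z = a • w := by
  rcases ValuationRing.dvd_total (z 0) (z 1) with ⟨c, hc⟩ | ⟨c, hc⟩
  · refine ⟨![1, c], ![1, 0], z 0, fun h0 => hz ?_, by simp [dotProduct, Fin.sum_univ_two], ?_⟩
    · funext i; fin_cases i <;> simp [h0, hc]
    · funext i; fin_cases i <;> simp [hc]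
  · refine ⟨![c, 1], ![0, 1], z 1, fun h0 => hz ?_, by simp [dotProduct, Fin.sum_univ_two], ?_⟩
    · funext i; fin_cases i <;> simp [h0, hc]
    · funext i; fin_cases i <;> simp [hc]

/-- **The adapted basis.**  If `N ≠ 0` kills `X₀ ≠ 0`, the `r g * X₀` for `g ∈ D`, the `r g - 1` for
`g ∈ I` and the `r g * r g - e` for `g ∈ F`, then in some basis `r` is upper triangular on `D`, with
lower right entry `1` on `I` and of square `e` on `F`. -/
theorem exists_triangular_of_kill [IsDomain O] [ValuationRing O] {G : Type} (r : G → M2)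
    (D I F : Set G) {N X₀ : M2} (hN : N ≠ 0) (hX : X₀ ≠ 0) (hNX : N * X₀ = 0)
    (hD : ∀ g ∈ D, N * r g * X₀ = 0) (hI : ∀ g ∈ I, N * (r g - 1) = 0) (e : O)
    (hFD : F ⊆ D) (hF : ∀ g ∈ F, N * (r g * r g - e • 1) = 0) :
    ∃ P : M2ˣ, (∀ g ∈ D, ((P : M2) * r g * (↑P⁻¹ : M2)) 1 0 = 0) ∧
      (∀ g ∈ I, ((P : M2) * r g * (↑P⁻¹ : M2)) 1 1 = 1) ∧
      ∀ g ∈ F, ((P : M2) * r g * (↑P⁻¹ : M2)) 1 1 ^ 2 = e := by
  obtain ⟨i₀, hi₀⟩ : ∃ i, N i ≠ 0 := by
    by_contra h
    push Not at h
    exact hN (funext h)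
  -- a primitive vector `w` proportional to a row of `N`, completed to a basis
  obtain ⟨w, u, a, ha, hwu, hrow⟩ := exists_primitive hi₀
  obtain ⟨j₀, hj₀⟩ : ∃ j, (fun i => X₀ i j) ≠ 0 := by
    by_contra h
    push Not at h
    exact hX (Matrix.ext fun i j => congrFun (h j) i)
  have hkill : ∀ Y : M2, N * Y = 0 → Matrix.vecMul w Y = 0 := fun Y hY => by
    have h1 : Matrix.vecMul (N i₀) Y = 0 := funext fun j => congrFun (congrFun hY i₀) j
    rw [hrow, Matrix.smul_vecMul] at h1
    exact (smul_eq_zero.mp h1).resolve_left ha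
  simp only [dotProduct, Fin.sum_univ_two] at hwu
  let P : M2ˣ :=
    { val := !![u 1, -u 0; w 0, w 1]
      inv := !![w 1, u 0; -w 0, u 1]
      val_inv := by
        rw [Matrix.mul_fin_two, Matrix.one_fin_two]
        congrm !![?_, ?_; ?_, ?_] <;>
          first | ring1 | linear_combination hwu
      inv_val := by
        rw [Matrix.mul_fin_two, Matrix.one_fin_two]
        congrm !![?_, ?_; ?_, ?_] <;>
          first | ring1 | linear_combination hwu }
  have h10 : ∀ Y : M2, ((P : M2) * Y * (↑P⁻¹ : M2)) 1 0 =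
      Matrix.vecMul w Y 0 * w 1 - Matrix.vecMul w Y 1 * w 0 := fun Y => by
    simp [P, Matrix.mul_apply, Matrix.vecMul, dotProduct, Fin.sum_univ_two]
    ring
  have h11 : ∀ Y : M2, ((P : M2) * Y * (↑P⁻¹ : M2)) 1 1 =
      dotProduct (Matrix.vecMul w Y) u := fun Y => by
    simp [P, Matrix.mul_apply, Matrix.vecMul, dotProduct, Fin.sum_univ_two]
  -- `w` is a common eigenvector on the decomposition group
  have hline : ∀ g ∈ D, ((P : M2) * r g * (↑P⁻¹ : M2)) 1 0 = 0 := fun g hg => by
    rw [h10]
    refine cross_eq_zero hj₀ ?_ ?_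
    · exact congrFun (hkill X₀ hNX) j₀
    · have h2 := congrFun (hkill (r g * X₀) (by rw [← mul_assoc]; exact hD g hg)) j₀
      rwa [← Matrix.vecMul_vecMul] at h2
  have hone : ∀ c : O, ((P : M2) * (c • (1 : M2)) * (↑P⁻¹ : M2)) = c • 1 := fun c => by
    rw [mul_smul_comm, smul_mul_assoc, mul_one, Units.mul_inv]
  refine ⟨P, hline, fun g hg => ?_, fun g hg => ?_⟩
  · have h2 := hkill _ (hI g hg)
    rw [Matrix.vecMul_sub, Matrix.vecMul_one, sub_eq_zero] at h2
    rw [h11, h2]
    simpa [dotProduct, Fin.sum_univ_two] using hwu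
  · have h2 := hkill _ (hF g hg)
    have h3 : ((P : M2) * (r g * r g - e • 1) * (↑P⁻¹ : M2)) 1 1 = 0 := by
      rw [h11, h2]; simp
    rw [mul_sub, sub_mul, hone, show (P : M2) * (r g * r g) * (↑P⁻¹ : M2) =
      ((P : M2) * r g * (↑P⁻¹ : M2)) * ((P : M2) * r g * (↑P⁻¹ : M2)) by
        simp only [mul_assoc, Units.inv_mul_cancel_left], Matrix.sub_apply, Matrix.mul_apply,
      Fin.sum_univ_two, hline g (hFD hg), Matrix.smul_apply, Matrix.one_apply_eq, smul_eq_mul,
      zero_mul, zero_add, mul_one] at h3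
    linear_combination h3

end Fermat.GR.RT

end
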