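import Mathlib
import Fermat.Agent.GR.RT.Attach
import Fermat.Agent.CFT.Global.Recip
import Fermat.Agent.GR.RT.Targets
import Fermat.Agent.HM.System

/-!
# The residual system of `rb`

The traces of Frobenius outside a finite set of primes form a non-Eisenstein system.
-/

set_option autoImplicit false

noncomputable section

namespace Fermat.GR.RT

open IsLocalRing Fermat.CFT

local notation "ℚbar" => AlgebraicClosure ℚ
local notation "Γℚ" => (AlgebraicClosure ℚ ≃ₐ[ℚ] AlgebraicClosure ℚ)

/-- The primes not dividing `B`. -/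
abbrev GoodIx (B : ℕ) : Type := {ℓ : Nat.Primes // ¬ (ℓ : ℕ) ∣ B}

/-- The prime of an index. -/
abbrev goodPr (B : ℕ) (i : GoodIx B) : ℕ := ((i.1 : Nat.Primes) : ℕ)

/-- The prime of an index is prime. -/
instance fact_goodPr (B : ℕ) (i : GoodIx B) : Fact (goodPr B i).Prime := ⟨i.1.2⟩

/-- Distinct indices have distinct primes. -/
theorem goodPr_injective (B : ℕ) : Function.Injective (goodPr B) := fun _ _ h =>
  Subtype.ext (Subtype.ext h)

variable {p : ℕ} [hp : Fact p.Prime] {rb : Γℚ →* GL (Fin 2) (ZMod p)}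

local notation "M2p" => Matrix (Fin 2) (Fin 2) (ZMod p)

/-- A chosen Frobenius. -/
def frobOf (v : Nat.Primes) : Γℚ := (exists_isFrobeniusAt v.2 (placeAt_spec v)).choose

/-- The chosen element is a Frobenius element at the chosen place. -/
theorem frobOf_spec (v : Nat.Primes) : (placeAt v).IsFrobeniusAt (frobOf v) v :=
  (exists_isFrobeniusAt v.2 (placeAt_spec v)).choose_spec

variable (rb) in
/-- The residual system of `rb`. -/
def resSys {k : Type} [Field k] (c : ZMod p →+* k) (B : ℕ) (i : GoodIx B) : k :=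
  c (rb (frobOf i.1) : M2p).trace

/-- The residual system gives the trace at every Frobenius. -/
theorem resSys_eq {k : Type} [Field k] (c : ZMod p →+* k) {B : ℕ} (i : GoodIx B)
    (hunr : IsResUnramified p rb (goodPr B i)) (A : ValuationSubring ℚbar)
    (hA : A.LiesOverPrime (goodPr B i)) (φ : Γℚ) (hφ : A.IsFrobeniusAt φ (goodPr B i)) :
    resSys rb c B i = c (rb φ : M2p).trace :=
  congrArg c (trace_frobenius_eq i.1.2 hunr hA (placeAt_spec i.1) hφ (frobOf_spec i.1))

/-- If `A * B = C * (B * A)` for invertible `A` and `B`, then `C` is the image of an element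
killed by every abelian character. -/
theorem exists_map_commutator_eq (hs : Function.Surjective rb) {A B C : M2p} (hA : A.det ≠ 0)
    (hB : B.det ≠ 0) (h : A * B = C * (B * A)) :
    ∃ σ : Γℚ, (∀ (G : Type) [CommGroup G] (f : Γℚ →* G), f σ = 1) ∧ (rb σ : M2p) = C := by
  obtain ⟨a, ha⟩ := hs (Matrix.GeneralLinearGroup.mkOfDetNeZero A hA)
  obtain ⟨b, hb⟩ := hs (Matrix.GeneralLinearGroup.mkOfDetNeZero B hB)
  refine ⟨a * b * (b * a)⁻¹, fun G _ f => by simp [mul_comm (f a)], ?_⟩
  rw [map_mul, map_inv, Units.val_mul, Units.mul_inv_eq_iff_eq_mul, map_mul, map_mul, ha, hb]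
  exact h

/-- Some element killed by every character has no generator of trace `2` of the cyclic group of its
image. -/
theorem exists_commutator_trace_ne (hs : Function.Surjective rb) (h2 : 2 < p) :
    ∃ σ : Γℚ, (∀ (G : Type) [CommGroup G] (f : Γℚ →* G), f σ = 1) ∧
      ∀ g : GL (Fin 2) (ZMod p), Subgroup.zpowers g = Subgroup.zpowers (rb σ) →
        (g : M2p).trace ≠ 2 := by
  have h20 : (2 : ZMod p) ≠ 0 := by
    intro h
    have := Nat.le_of_dvd two_pos ((ZMod.natCast_eq_zero_iff 2 p).mp h)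
    omega
  obtain ⟨a, ha2⟩ : ∃ a : ZMod p, a = 2 := ⟨2, rfl⟩
  have ha : a ≠ 0 := ha2 ▸ h20
  -- the commutator of `diag (a, 1)` and the Weyl element is `diag (a, a⁻¹)`
  obtain ⟨σ, hσ, hval⟩ := exists_map_commutator_eq hs (A := !![a, 0; 0, 1]) (B := !![0, 1; 1, 0])
    (C := !![a, 0; 0, a⁻¹]) (by simp [Matrix.det_fin_two_of, ha])
    (by simp [Matrix.det_fin_two_of]) (by simp [ha])
  refine ⟨σ, hσ, fun g hg htr => ?_⟩
  have hpow : ∀ k : ℕ, (rb σ : M2p) ^ k = !![a ^ k, 0; 0, (a ^ k)⁻¹] := by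
    intro k
    induction k with
    | zero => ext i j; fin_cases i <;> fin_cases j <;> simp
    | succ k ih =>
      rw [pow_succ, ih, hval]
      ext i j
      fin_cases i <;> fin_cases j <;>
        simp [Matrix.mul_apply, Fin.sum_univ_two, pow_succ, mul_comm]
  -- a generator of its powers with trace two would be trivial
  have hmem : g ∈ Subgroup.zpowers (rb σ) := hg ▸ Subgroup.mem_zpowers g
  rw [← mem_powers_iff_mem_zpowers] at hmem
  obtain ⟨k, hk⟩ := hmem
  have hk' : (g : M2p) = !![a ^ k, 0; 0, (a ^ k)⁻¹] := by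
    rw [← hpow, ← Units.val_pow_eq_pow_val]
    exact congrArg Units.val hk.symm
  rw [hk', Matrix.trace_fin_two_of] at htr
  have h1 : a ^ k = 1 := by
    refine sub_eq_zero.mp (mul_self_eq_zero.mp ?_)
    linear_combination a ^ k * htr - mul_inv_cancel₀ (pow_ne_zero k ha)
  have hg1 : g = 1 := Units.ext <| by
    rw [hk', h1, inv_one]
    exact Matrix.one_fin_two.symm
  rw [hg1, Subgroup.zpowers_one_eq_bot, eq_comm, Subgroup.zpowers_eq_bot] at hg
  have h2' := congrArg (fun m : M2p => m 0 0) (hval.symm.trans (congrArg Units.val hg))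
  simp [ha2] at h2'
  exact one_ne_zero (α := ZMod p) (by linear_combination h2')

/-- The joint kernel with a cyclotomic character is open. -/
theorem isOpen_ker_prod_cycK (hker : IsOpen (rb.ker : Set Γℚ)) (M : ℕ) [NeZero M] :
    IsOpen ((rb.prod (cycK M)).ker : Set Γℚ) := by
  obtain ⟨L, hL, hL1⟩ := cycK_cont M
  have := hL
  refine Subgroup.isOpen_mono (H₁ := rb.ker ⊓ L.fixingSubgroup) ?_ ?_
  · intro σ hσ
    rw [MonoidHom.mem_ker, MonoidHom.prod_apply, MonoidHom.mem_ker.mp hσ.1,
      hL1 σ ((IntermediateField.mem_fixingSubgroup_iff L σ).mp hσ.2)]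
    rfl
  · exact hker.inter L.fixingSubgroup_isOpen

/-- **The residual system is not Eisenstein.** -/
theorem nonEisenstein_resSys (hrb : IsSemistableResidual p rb) (h2 : 2 < p) {O : Type}
    [CommRing O] [IsLocalRing O] (c : ZMod p →+* ResidueField O)
    {B : ℕ} (hB : B ≠ 0) (hunr : ∀ i : GoodIx B, IsResUnramified p rb (goodPr B i)) :
    Fermat.HM.NonEisenstein (goodPr B) (Fermat.HM.sysIdeal (O := O) (resSys rb c B)) := by
  intro M hM
  have : NeZero (M * p) := ⟨Nat.mul_ne_zero hM hp.out.ne_zero⟩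
  -- a commutator with suitable trace, realised by a Frobenius at `ℓ`
  obtain ⟨σ, hσab, hσtr⟩ := exists_commutator_trace_ne hrb.surjective h2
  obtain ⟨ℓ, hℓ, hT, A, hA, -, φ, hφ, hgen⟩ := exists_frobenius_map_zpowers_eq
    (rb.prod (cycK (M * p))) (isOpen_ker_prod_cycK hrb.isOpen_ker (M * p)) σ
    (B.primeFactors ∪ (M * p).primeFactors)
  simp only [Finset.mem_union, Nat.mem_primeFactors, not_or, not_and] at hT
  have hℓB : ¬ ℓ ∣ B := fun h => hT.1 hℓ h hB
  have hcop : ℓ.Coprime (M * p) :=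
    hℓ.coprime_iff_not_dvd.mpr fun h => hT.2 hℓ h (NeZero.ne _)
  let i : GoodIx B := ⟨⟨ℓ, hℓ⟩, hℓB⟩
  -- so `ℓ ≡ 1` modulo `M * p`
  have hone : cycK (M * p) φ = 1 := by
    have h1 := congrArg (Subgroup.map (MonoidHom.snd _ (ZMod (M * p))ˣ)) hgen
    rw [MonoidHom.map_zpowers, MonoidHom.map_zpowers, MonoidHom.prod_apply, MonoidHom.prod_apply,
      MonoidHom.coe_snd, hσab _ (cycK (M * p)), Subgroup.zpowers_one_eq_bot,
      Subgroup.zpowers_eq_bot] at h1
    exact h1
  rw [cycK_frobenius hℓ hcop hA hφ] at hone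
  have hℓ1 : (ℓ : ZMod (M * p)) = 1 := congrArg Units.val hone
  have hrbφ : Subgroup.zpowers (rb φ) = Subgroup.zpowers (rb σ) := by
    have h1 := congrArg (Subgroup.map (MonoidHom.fst _ (ZMod (M * p))ˣ)) hgen
    rwa [MonoidHom.map_zpowers, MonoidHom.map_zpowers] at h1
  refine ⟨i, ?_, fun hmem => ?_⟩
  · have := congrArg (ZMod.castHom (dvd_mul_right M p) (ZMod M)) hℓ1
    rwa [map_natCast, map_one] at this
  · have hℓp : (ℓ : ZMod p) = 1 := by
      have := congrArg (ZMod.castHom (dvd_mul_left p M) (ZMod p)) hℓ1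
      rwa [map_natCast, map_one] at this
    -- an Eisenstein congruence would make the trace `2`
    rw [Fermat.HM.sysIdeal, RingHom.mem_ker, Fermat.HM.eisElt] at hmem
    simp only [map_sub, MvPolynomial.aeval_X, map_natCast] at hmem
    rw [resSys_eq c i (hunr i) A hA φ hφ] at hmem
    refine hσtr _ hrbφ (c.injective ?_)
    rw [sub_eq_zero.mp hmem, show (2 : ZMod p) = ((ℓ + 1 : ℕ) : ZMod p) by
      rw [Nat.cast_add, Nat.cast_one, hℓp, one_add_one_eq_two], map_natCast]

end Fermat.GR.RT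

end
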