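import Mathlib
import Fermat.Agent.GR.RT.Targets
import Fermat.Agent.GR.RT.TraceFrob

/-!
# The residual representation as normalisation data

Lifts of the entries of a surjective `rb` to the coefficient ring give the data normalising
deformations, and a representation whose traces are congruent to those of `rb` reduces to it in
some basis.
-/

set_option autoImplicit false

noncomputable section

namespace Fermat.GR.RT

open IsLocalRing

local notation "Γℚ" => (AlgebraicClosure ℚ ≃ₐ[ℚ] AlgebraicClosure ℚ)
local notation "M2" R => Matrix (Fin 2) (Fin 2) R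

section Conj

variable {k : Type} [Field k] {G : Type} [Monoid G]

/-- Two representations with equal traces, one of them spanning all matrices, are conjugate. -/
theorem exists_conj_of_trace_eq (a b : G →* M2 k) (ha : Submodule.span k (Set.range a) = ⊤)
    (h : ∀ g, (a g).trace = (b g).trace) :
    ∃ P : (M2 k)ˣ, ∀ g, (P : M2 k) * b g = a g * (P : M2 k) := by
  classical
  -- extend both to the monoid algebra: `La` is onto and traces of products detect zero
  let La : MonoidAlgebra k G →ₐ[k] M2 k := MonoidAlgebra.lift k (M2 k) G a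
  let Lb : MonoidAlgebra k G →ₐ[k] M2 k := MonoidAlgebra.lift k (M2 k) G b
  have hLa : ∀ g, La (MonoidAlgebra.single g 1) = a g := fun g => by simp [La]
  have hLb : ∀ g, Lb (MonoidAlgebra.single g 1) = b g := fun g => by simp [Lb]
  have htr : ∀ x, (La x).trace = (Lb x).trace := fun x => by
    induction x using MonoidAlgebra.induction_on with
    | of g => rw [MonoidAlgebra.of_apply, hLa, hLb, h]
    | add x y hx hy => simp only [map_add, Matrix.trace_add, hx, hy]
    | smul c x hx => simp only [map_smul, Matrix.trace_smul, hx]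
  have hsurjA : Function.Surjective La := by
    intro M
    have hM : M ∈ Submodule.span k (Set.range a) := ha ▸ Submodule.mem_top
    induction hM using Submodule.span_induction with
    | mem M hM => obtain ⟨g, rfl⟩ := hM; exact ⟨_, hLa g⟩
    | zero => exact ⟨0, map_zero La⟩
    | add M N _ _ hM hN =>
      obtain ⟨x, rfl⟩ := hM
      obtain ⟨y, rfl⟩ := hN
      exact ⟨x + y, map_add La x y⟩
    | smul c M _ hM =>
      obtain ⟨x, rfl⟩ := hM
      exact ⟨c • x, map_smul La c x⟩
  have hnd : ∀ M : M2 k, (∀ N : M2 k, (M * N).trace = 0) → M = 0 := fun M hM =>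
    Matrix.ext fun i j => by
      have := hM (Matrix.single j i 1)
      rwa [Matrix.trace_mul_single, MulOpposite.op_one, one_smul] at this
  -- `Ψ` sends a value of `La` to that of `Lb`: injective, so an algebra automorphism
  choose pre hpre using fun i j => hsurjA (Matrix.single i j 1)
  let Ψ : (M2 k) →ₗ[k] M2 k :=
    { toFun := fun M => ∑ i, ∑ j, M i j • Lb (pre i j)
      map_add' := fun M N => by simp only [Matrix.add_apply, add_smul, Finset.sum_add_distrib]
      map_smul' := fun c M => by
        simp only [Matrix.smul_apply, smul_eq_mul, mul_smul, Finset.smul_sum, RingHom.id_apply] }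
  have hΨ : ∀ M, ∃ x, La x = M ∧ Lb x = Ψ M := fun M => by
    refine ⟨∑ i, ∑ j, M i j • pre i j, ?_, ?_⟩
    · simp only [map_sum, map_smul, hpre, Matrix.smul_single, smul_eq_mul, mul_one]
      exact (Matrix.matrix_eq_sum_single M).symm
    · simp only [map_sum, map_smul]
      rfl
  have hΨinj : Function.Injective Ψ := by
    rw [injective_iff_map_eq_zero]
    intro M hM
    refine hnd M fun N => ?_
    obtain ⟨x, hxa, hxb⟩ := hΨ M
    obtain ⟨y, hya, hyb⟩ := hΨ N
    rw [← hxa, ← hya, ← map_mul, htr, map_mul, hxb, hM, zero_mul, Matrix.trace_zero]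
  have hsurjB : Function.Surjective Lb := fun M => by
    obtain ⟨N, hN⟩ := LinearMap.injective_iff_surjective.mp hΨinj M
    obtain ⟨x, -, hx⟩ := hΨ N
    exact ⟨x, hx.trans hN⟩
  have hker : ∀ x, La x = 0 → Lb x = 0 := fun x hx => hnd _ fun N => by
    obtain ⟨y, rfl⟩ := hsurjB N
    rw [← map_mul, ← htr, map_mul, hx, zero_mul, Matrix.trace_zero]
  have hker' : ∀ x y, La x = La y → Lb x = Lb y := fun x y hxy => by
    rw [← sub_eq_zero, ← map_sub]
    exact hker _ (by rw [map_sub, hxy, sub_self])
  have hΨeq : ∀ x, Ψ (La x) = Lb x := fun x => by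
    obtain ⟨y, hya, hyb⟩ := hΨ (La x)
    rw [← hyb]
    exact hker' y x hya
  let f : (M2 k) →ₐ[k] M2 k := AlgHom.ofLinearMap Ψ
    ((congrArg Ψ (map_one La).symm).trans ((hΨeq 1).trans (map_one Lb)))
    (fun M N => by
      obtain ⟨x, rfl⟩ := hsurjA M
      obtain ⟨y, rfl⟩ := hsurjA N
      rw [← map_mul, hΨeq, hΨeq, hΨeq, map_mul])
  let F : (M2 k) ≃ₐ[k] M2 k :=
    AlgEquiv.ofBijective f ⟨hΨinj, LinearMap.injective_iff_surjective.mp hΨinj⟩
  -- automorphisms of the endomorphism algebra are inner
  let E : (M2 k) ≃ₐ[k] Module.End k (Fin 2 → k) := Matrix.toLinAlgEquiv'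
  obtain ⟨T, hT⟩ := AlgEquiv.eq_linearEquivConjAlgEquiv ((E.symm.trans F).trans E)
  refine ⟨⟨E.symm T.symm.toLinearMap, E.symm T.toLinearMap, ?_, ?_⟩, fun g => ?_⟩
  · rw [← map_mul, ← map_one E.symm]
    exact congrArg E.symm (LinearMap.ext fun v => T.symm_apply_apply v)
  · rw [← map_mul, ← map_one E.symm]
    exact congrArg E.symm (LinearMap.ext fun v => T.apply_symm_apply v)
  change E.symm T.symm.toLinearMap * b g = a g * E.symm T.symm.toLinearMap
  refine E.injective ?_
  rw [map_mul, map_mul, AlgEquiv.apply_symm_apply]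
  have h1 : E (b g) = ((E.symm.trans F).trans E) (E (a g)) := by
    change E (b g) = E (Ψ (E.symm (E (a g))))
    rw [AlgEquiv.symm_apply_apply, ← hLa, hΨeq, hLb]
  rw [h1, hT]
  refine LinearMap.ext fun v => ?_
  simp only [Module.End.mul_apply, LinearEquiv.conjAlgEquiv_apply, LinearMap.comp_apply,
    LinearEquiv.coe_coe, T.symm_apply_apply]

end Conj

variable {p : ℕ} [Fact p.Prime] (rb : Γℚ →* GL (Fin 2) (ZMod p))

local notation "M2p" => Matrix (Fin 2) (Fin 2) (ZMod p)

/-- The lifts of the residual matrices. -/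
def barOf (O : Type) [CommRing O] (σ : Γℚ) : M2 O :=
  (rb σ : M2p).map fun x => ((x.val : ℕ) : O)

/-- The entries of the lifts are the representatives in `[0, p)`. -/
theorem barOf_apply (O : Type) [CommRing O] (σ : Γℚ) (i j : Fin 2) :
    barOf rb O σ i j = ((((rb σ : M2p) i j).val : ℕ) : O) := rfl

/-- Their reductions are the residual matrices. -/
theorem barOf_map {O k : Type} [CommRing O] [CommRing k] (f : O →+* k) (c : ZMod p →+* k)
    (σ : Γℚ) : (barOf rb O σ).map f = (rb σ : M2p).map c :=
  Matrix.ext fun i j => by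
    rw [Matrix.map_apply, Matrix.map_apply, barOf_apply, map_natCast, ← map_natCast c,
      ZMod.natCast_zmod_val]

/-- Every invertible residual matrix is a value of a surjective `rb`. -/
theorem exists_preimage (hs : Function.Surjective rb) (M : M2p) (hM : M.det ≠ 0) :
    ∃ σ, (rb σ : M2p) = M := by
  obtain ⟨σ, hσ⟩ := hs (Matrix.GeneralLinearGroup.mkOfDetNeZero M hM)
  exact ⟨σ, by rw [hσ]; rfl⟩

variable {rb}

/-- A surjective representation spans all matrices over any field of characteristic `p`. -/
theorem span_range_map_eq_top (hs : Function.Surjective rb) {k : Type} [Field k]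
    (c : ZMod p →+* k) :
    Submodule.span k (Set.range fun σ => (rb σ : M2p).map c) = ⊤ := by
  classical
  set V := Submodule.span k (Set.range fun σ => (rb σ : M2p).map c)
  -- the image contains every invertible matrix over `ZMod p`
  have hmem : ∀ M : M2p, M.det ≠ 0 → M.map c ∈ V := fun M hM => by
    obtain ⟨σ, hσ⟩ := exists_preimage rb hs M hM
    exact Submodule.subset_span ⟨σ, congrArg (fun N : M2p => N.map c) hσ⟩
  have hw := hmem !![0, 1; 1, 0] (by simp [Matrix.det_fin_two])
  have h1 := hmem 1 (by simp)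
  -- differences of these give the matrix units
  have hs00 : Matrix.single 0 0 (1 : k) ∈ V := by
    convert sub_mem (hmem !![1, 1; 1, 0] (by simp [Matrix.det_fin_two])) hw using 1
    ext i j
    fin_cases i <;> fin_cases j <;> simp [Matrix.single]
  have hs11 : Matrix.single 1 1 (1 : k) ∈ V := by
    convert sub_mem (hmem !![0, 1; 1, 1] (by simp [Matrix.det_fin_two])) hw using 1
    ext i j
    fin_cases i <;> fin_cases j <;> simp [Matrix.single]
  have hs01 : Matrix.single 0 1 (1 : k) ∈ V := by
    convert sub_mem (hmem !![1, 1; 0, 1] (by simp [Matrix.det_fin_two])) h1 using 1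
    ext i j
    fin_cases i <;> fin_cases j <;> simp [Matrix.single]
  have hs10 : Matrix.single 1 0 (1 : k) ∈ V := by
    convert sub_mem (hmem !![1, 0; 1, 1] (by simp [Matrix.det_fin_two])) h1 using 1
    ext i j
    fin_cases i <;> fin_cases j <;> simp [Matrix.single]
  -- which span
  rw [eq_top_iff]
  intro M _
  rw [Matrix.matrix_eq_sum_single M]
  refine sum_mem fun i _ => sum_mem fun j _ => ?_
  rw [show Matrix.single i j (M i j) = M i j • Matrix.single i j (1 : k) by
    rw [Matrix.smul_single, smul_eq_mul, mul_one]]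
  refine V.smul_mem _ ?_
  fin_cases i <;> fin_cases j
  exacts [hs00, hs01, hs10, hs11]

section Data

variable {O : Type} [CommRing O] [IsLocalRing O]

/-- The data normalising lifts of a surjective `rb`. -/
def normDataOf (hs : Function.Surjective rb) (O : Type) [CommRing O] [IsLocalRing O] :
    NormData O where
  len := 2
  g := ![(exists_preimage rb hs !![0, 1; 1, 1] (by simp [Matrix.det_fin_two])).choose,
    (exists_preimage rb hs !![0, 1; 1, 0] (by simp [Matrix.det_fin_two])).choose]
  c := ![1, -1]
  g₀ := (exists_preimage rb hs !![1, 0; 1, 1] (by simp [Matrix.det_fin_two])).choose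
  bar := barOf rb O
  diag_cond i j := by
    rw [Fin.sum_univ_two]
    simp only [Matrix.cons_val_zero, Matrix.cons_val_one, Matrix.cons_val_fin_one, Matrix.add_apply,
      Matrix.smul_apply, barOf_apply,
      (exists_preimage rb hs !![0, 1; 1, 1] (by simp [Matrix.det_fin_two])).choose_spec,
      (exists_preimage rb hs !![0, 1; 1, 0] (by simp [Matrix.det_fin_two])).choose_spec]
    convert zero_mem (maximalIdeal O) using 1
    fin_cases i <;> fin_cases j <;> simp [ZMod.val_one]
  g₀_cond := by
    rw [barOf_apply, (exists_preimage rb hs !![1, 0; 1, 1] (by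
      simp [Matrix.det_fin_two])).choose_spec]
    simp [ZMod.val_one]

/-- The lifts of the data are those of `barOf`. -/
theorem normDataOf_bar (hs : Function.Surjective rb) (σ : Γℚ) :
    (normDataOf hs O).bar σ = barOf rb O σ := rfl

/-- The lifts are `1` where `rb` is. -/
theorem normDataOf_bar_eq_one (hs : Function.Surjective rb) {σ : Γℚ} (hσ : rb σ = 1) :
    (normDataOf hs O).bar σ = 1 := by
  rw [normDataOf_bar]
  ext i j
  rw [barOf_apply, hσ, Units.val_one, Matrix.one_apply, Matrix.one_apply]
  have : Fact (1 < p) := ⟨(Fact.out : p.Prime).one_lt⟩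
  split_ifs <;> simp [ZMod.val_one]

/-- Some lift has a unit upper right entry. -/
theorem exists_isUnit_bar (hs : Function.Surjective rb) :
    ∃ σ, IsUnit ((normDataOf hs O).bar σ 0 1) := by
  obtain ⟨σ, hσ⟩ := exists_preimage rb hs !![0, 1; 1, 0] (by simp [Matrix.det_fin_two])
  refine ⟨σ, ?_⟩
  rw [normDataOf_bar, barOf_apply, hσ]
  simp [ZMod.val_one]

/-- **Congruent traces give the fixed reduction in some basis.** -/
theorem exists_isRed (hs : Function.Surjective rb) {B : Type} [CommRing B] [IsLocalRing B]
    [Algebra O B] (c : ZMod p →+* ResidueField B) (r : Γℚ →* M2 B)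
    (htr : ∀ σ, residue B (r σ).trace = c (rb σ : M2p).trace) :
    ∃ P : (M2 B)ˣ, (normDataOf hs O).IsRed (conjHom P r) := by
  classical
  let a : Γℚ →* M2 (ResidueField B) :=
    c.mapMatrix.toMonoidHom.comp ((Units.coeHom M2p).comp rb)
  let b : Γℚ →* M2 (ResidueField B) := (residue B).mapMatrix.toMonoidHom.comp r
  obtain ⟨Q, hQ⟩ := exists_conj_of_trace_eq a b (span_range_map_eq_top hs c) fun σ => by
    change ((rb σ : M2p).map c).trace = ((r σ).map (residue B)).trace
    simp only [Matrix.trace_fin_two, Matrix.map_apply]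
    rw [← map_add, ← map_add, ← Matrix.trace_fin_two, ← Matrix.trace_fin_two]
    exact (htr σ).symm
  -- a lift of the residual change of basis is invertible
  obtain ⟨P, hP⟩ := exists_unit_lift Q
  refine ⟨P, fun σ i j => ?_⟩
  have hconj : (residue B).mapMatrix (conjHom P r σ) = a σ := by
    have hmul : conjHom P r σ * (P : M2 B) = (P : M2 B) * r σ := by
      change (P : M2 B) * r σ * (↑P⁻¹ : M2 B) * (P : M2 B) = _
      rw [mul_assoc, P.inv_mul, mul_one]
    have h := congrArg (residue B).mapMatrix hmul
    rw [map_mul, map_mul, hP] at h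
    rw [← Q.mul_left_inj, h]
    exact hQ σ
  rw [← residue_eq_zero_iff, map_sub, sub_eq_zero]
  refine (congrFun (congrFun hconj i) j).trans ?_
  rw [normDataOf_bar]
  exact (congrFun (congrFun (barOf_map rb ((residue B).comp (algebraMap O B)) c σ) i) j).symm

end Data

/-- **Congruences at Frobenius elements give congruent traces everywhere.** -/
theorem residue_trace_eq {B : Type} [CommRing B] [IsLocalRing B]
    (c : ZMod p →+* ResidueField B) (hker : IsOpen (rb.ker : Set Γℚ)) {r : Γℚ →* M2 B}
    (hr : MatCont r) (bad : Finset ℕ)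
    (hfrob : ∀ ℓ : ℕ, ℓ.Prime → ℓ ∉ bad → ∀ A : ValuationSubring (AlgebraicClosure ℚ),
      A.LiesOverPrime ℓ → ∀ φ : Γℚ, A.IsFrobeniusAt φ ℓ →
        residue B (r φ).trace = c (rb φ : M2p).trace ∧ residue B (r φ).det = c (rb φ : M2p).det)
    [Finite (ResidueField B)] (σ : Γℚ) : residue B (r σ).trace = c (rb σ : M2p).trace := by
  classical
  let f : Γℚ →* (M2 (ResidueField B))ˣ × GL (Fin 2) (ZMod p) :=
    (((residue B).mapMatrix.toMonoidHom.comp r).toHomUnits).prod rb
  have hf : IsOpen (f.ker : Set Γℚ) := by
    obtain ⟨L, hL, h⟩ := hr 1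
    refine Subgroup.isOpen_mono (H₁ := L.fixingSubgroup ⊓ rb.ker) (fun τ hτ => ?_)
      ((IntermediateField.fixingSubgroup_isOpen L).inter hker)
    rw [MonoidHom.mem_ker]
    refine Prod.ext (Units.ext (Matrix.ext fun i j => ?_)) (MonoidHom.mem_ker.mp hτ.2)
    have h1 := h τ ((IntermediateField.mem_fixingSubgroup_iff L τ).mp hτ.1) i j
    rw [pow_one, ← residue_eq_zero_iff, Matrix.sub_apply, map_sub, sub_eq_zero] at h1
    change residue B (r τ i j) = (1 : M2 (ResidueField B)) i j
    rw [h1, Matrix.one_apply, Matrix.one_apply]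
    split_ifs <;> simp
  -- Chebotarev: `σ` agrees with a power of some Frobenius in both representations
  obtain ⟨ℓ, hℓ, hℓbad, A, hA, -, φ, hφ, j, hj⟩ :=
    Fermat.CFT.exists_frobenius_map_eq_pow f hf σ bad
  rw [← map_pow] at hj
  have e1 : (residue B).mapMatrix (r σ) = (residue B).mapMatrix (r φ) ^ j := by
    rw [← map_pow, ← map_pow r]
    exact congrArg (fun u : (M2 (ResidueField B))ˣ × GL (Fin 2) (ZMod p) =>
      ((u.1 : (M2 (ResidueField B))ˣ) : M2 (ResidueField B))) hj
  have e2 : (rb σ : M2p) = (rb φ : M2p) ^ j := by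
    have h := congrArg (fun u : (M2 (ResidueField B))ˣ × GL (Fin 2) (ZMod p) => (u.2 : M2p)) hj
    rw [← Units.val_pow_eq_pow_val, ← map_pow]
    exact h
  -- the trace of a power is determined by trace and determinant
  obtain ⟨ht, hd⟩ := hfrob ℓ hℓ hℓbad A hA φ hφ
  calc residue B (r σ).trace = ((residue B).mapMatrix (r σ)).trace :=
        AddMonoidHom.map_trace (residue B).toAddMonoidHom _
    _ = powTrace (residue B (r φ).trace) (residue B (r φ).det) j := by
        rw [e1, trace_pow_fin_two, RingHom.map_det]
        congr 1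
    _ = c (powTrace (rb φ : M2p).trace (rb φ : M2p).det j) := by rw [map_powTrace, ht, hd]
    _ = _ := by rw [← trace_pow_fin_two, e2]

end Fermat.GR.RT

end
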