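import Mathlib
import Fermat.Agent.GR.RT.Attach
import Fermat.Agent.GR.RT.Residual
import Fermat.Agent.GR.RT.Sep
import Fermat.Agent.GR.RT.TraceRing
import Fermat.Agent.GR.RT.NonEis
import Fermat.Agent.GR.RT.Points

/-!
# The representation of a congruent eigen system

Cyclotomic determinant, residual traces those of `rb`, and uniqueness up to conjugation.
-/

set_option autoImplicit false

noncomputable section

open MvPolynomial IsLocalRing

namespace Fermat.GR.RT

open Fermat.HM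

local notation "ℚbar" => AlgebraicClosure ℚ
local notation "Γℚ" => (AlgebraicClosure ℚ ≃ₐ[ℚ] AlgebraicClosure ℚ)
local notation "M2" R => Matrix (Fin 2) (Fin 2) R

section Uniqueness

variable {B : Type} [CommRing B] [IsDomain B] [IsDiscreteValuationRing B]
  [IsAdicComplete (maximalIdeal B) B] [Finite (ResidueField B)] {p : ℕ} [Fact p.Prime]
  {rb : Γℚ →* GL (Fin 2) (ZMod p)}

/-- Two representations lifting `rb` with equal traces are conjugate. -/
theorem exists_conj_of_trace_eq_lift (hs : Function.Surjective rb) (h2 : IsUnit (2 : B))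
    (c : ZMod p →+* ResidueField B) {r r' : Γℚ →* M2 B} (hr : MatCont r) (hr' : MatCont r')
    (htr : ∀ σ, (r σ).trace = (r' σ).trace)
    (hres : ∀ σ, residue B (r σ).trace = c (rb σ : Matrix (Fin 2) (Fin 2) (ZMod p)).trace) :
    ∃ P : (M2 B)ˣ, ∀ σ, r' σ = (P : M2 B) * r σ * (↑P⁻¹ : M2 B) := by
  obtain ⟨P, hP⟩ := exists_isRed (O := B) hs c r hres
  obtain ⟨P', hP'⟩ := exists_isRed (O := B) hs c r' fun σ => by rw [← htr]; exact hres σ
  have : IsLocalHom (algebraMap B B) := ⟨fun a ha => by simpa using ha⟩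
  -- both are values of one representation over a trace ring, where they have the same traces
  obtain ⟨T⟩ := nonempty_traceRep (ι := Bool) (B := fun _ => B) (normDataOf hs B) h2
    (exists_isUnit_bar hs) (fun b => if b then conjHom P r else conjHom P' r')
    (fun b => by cases b <;> simp only [Bool.false_eq_true, ↓reduceIte] <;>
      [exact matCont_conjHom hr' P'; exact matCont_conjHom hr P])
    (fun b => by cases b <;> simp only [Bool.false_eq_true, ↓reduceIte] <;> assumption)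
  have heq : ∀ x, T.pr true x = T.pr false x := by
    refine AlgHom.congr_fun (AlgHom.ext_of_adjoin_eq_top T.adjoin_traces ?_)
    rintro _ ⟨σ, rfl⟩
    obtain ⟨Q, hQ⟩ := T.pr_rep true
    obtain ⟨Q', hQ'⟩ := T.pr_rep false
    have e : ∀ b, T.pr b (T.rep σ).trace = ((T.pr b : T.R →+* B).mapMatrix (T.rep σ)).trace :=
      fun b => by simp [Matrix.trace_fin_two]
    rw [e, e, (trace_det_of_conj Q (hQ σ)).1, (trace_det_of_conj Q' (hQ' σ)).1]
    simp only [Bool.false_eq_true, ↓reduceIte, conjHom, MonoidHom.coe_mk, OneHom.coe_mk]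
    rw [Matrix.trace_mul_cycle, P.inv_mul, Matrix.one_mul, Matrix.trace_mul_cycle, P'.inv_mul,
      Matrix.one_mul, htr]
  obtain ⟨Q, hQ⟩ := T.pr_rep true
  obtain ⟨Q', hQ'⟩ := T.pr_rep false
  refine ⟨P'⁻¹ * Q'⁻¹ * Q * P, fun σ => ?_⟩
  have h1 : (T.pr true : T.R →+* B).mapMatrix (T.rep σ) =
      (T.pr false : T.R →+* B).mapMatrix (T.rep σ) := Matrix.ext fun i j => heq _
  have e1 : (T.pr true : T.R →+* B).mapMatrix (T.rep σ) =
      (Q : M2 B) * ((P : M2 B) * r σ * (↑P⁻¹ : M2 B)) * (↑Q⁻¹ : M2 B) := by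
    rw [← mul_one ((T.pr true : T.R →+* B).mapMatrix (T.rep σ)), ← Q.mul_inv, ← mul_assoc, hQ]
    rfl
  have e2 : (T.pr false : T.R →+* B).mapMatrix (T.rep σ) =
      (Q' : M2 B) * ((P' : M2 B) * r' σ * (↑P'⁻¹ : M2 B)) * (↑Q'⁻¹ : M2 B) := by
    rw [← mul_one ((T.pr false : T.R →+* B).mapMatrix (T.rep σ)), ← Q'.mul_inv, ← mul_assoc, hQ']
    rfl
  rw [h1, e2] at e1
  have := congrArg (fun M : M2 B => (↑P'⁻¹ : M2 B) * (↑Q'⁻¹ : M2 B) * M * (Q' : M2 B) *
    (P' : M2 B)) e1
  simp only [mul_assoc, Units.inv_mul_cancel_left, Units.inv_mul, mul_one] at this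
  simp only [_root_.mul_inv_rev, inv_inv, Units.val_mul, mul_assoc]
  exact this

end Uniqueness

variable {p : ℕ} [hp : Fact p.Prime] {rb : Γℚ →* GL (Fin 2) (ZMod p)} {K : ℕ} [NeZero K]
  {H : Subgroup (ZMod K)ˣ} {O : Type} [CommRing O] [IsLocalRing O]

local notation "M2p" => Matrix (Fin 2) (Fin 2) (ZMod p)

/-- A congruent eigen system in a finite extension of the coefficient ring. -/
structure IsResPoint (p : ℕ) [Fact p.Prime] (rb : Γℚ →* GL (Fin 2) (ZMod p)) (B : ℕ)
    {O' : Type} [CommRing O'] [IsLocalRing O'] (c : ZMod p →+* ResidueField O') (e : ℕ)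
    (H : Subgroup (ZMod K)ˣ) (y : MvPolynomial (Nat.Primes ⊕ (ZMod K)ˣ) ℤ →+* O') : Prop where
  /-- `y` is an eigen system. -/
  point : IsPoint K H y
  /-- `p` lies in the maximal ideal. -/
  mem : (p : O') ∈ maximalIdeal O'
  /-- The diamond quotient has exponent dividing `p ^ e`. -/
  pow_mem : ∀ u : (ZMod K)ˣ, u ^ p ^ e ∈ H
  /-- The Hecke values reduce to the residual traces of Frobenius. -/
  trace_eq : ∀ i : GoodIx B, residue O' (tVal y (goodPr B i)) =
    c (rb (frobOf i.1) : Matrix (Fin 2) (Fin 2) (ZMod p)).trace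

/-- Elements killed by an odd power are determined by their squares. -/
theorem eq_of_sq_eq_sq_of_odd_pow {M : Type} [CommMonoid M] {a b : M} {m : ℕ} (hm : Odd m)
    (h : a * a = b * b) (ha : a ^ m = 1) (hb : b ^ m = 1) : a = b := by
  obtain ⟨k, rfl⟩ := hm
  calc a = a * a ^ (2 * k + 1) := by rw [ha, mul_one]
    _ = (a * a) ^ (k + 1) := by rw [← pow_succ', ← sq, ← pow_mul]; ring_nf
    _ = (b * b) ^ (k + 1) := by rw [h]
    _ = b * b ^ (2 * k + 1) := by rw [← pow_succ', ← sq, ← pow_mul]; ring_nf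
    _ = b := by rw [hb, mul_one]

/-- A root of unity of `p`-power order has residue one. -/
theorem residue_eq_one_of_pow {O' : Type} [CommRing O'] [IsLocalRing O']
    (hpO : (p : O') ∈ maximalIdeal O') {a : O'} {e : ℕ} (ha : a ^ p ^ e = 1) :
    residue O' a = 1 := by
  have : CharP (ResidueField O') p := (CharP.charP_iff_prime_eq_zero hp.out).mpr (by
    rw [← map_natCast (residue O'), residue_eq_zero_iff]
    exact hpO)
  have h : (residue O' a - 1) ^ p ^ e = 0 := by
    rw [sub_pow_char_pow, one_pow, ← map_pow, ha, map_one, sub_self]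
  exact sub_eq_zero.mp (pow_eq_zero_iff (pow_ne_zero e hp.out.ne_zero) |>.mp h)

namespace IsResPoint

variable {B : ℕ} {O' : Type} [CommRing O'] [IsLocalRing O'] {c : ZMod p →+* ResidueField O'}
  {e : ℕ} {y : MvPolynomial (Nat.Primes ⊕ (ZMod K)ˣ) ℤ →+* O'} (h : IsResPoint p rb B c e H y)
include h

/-- The diamond values have order dividing `p ^ e`. -/
theorem dia_pow (u : (ZMod K)ˣ) : diaVal h.point u ^ p ^ e = 1 := by
  rw [← map_pow, diaVal_apply, h.point.dia_eq_one (h.pow_mem u)]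

/-- The diamond values have residue one. -/
theorem residue_dia (u : (ZMod K)ˣ) : residue O' (y (X (Sum.inr u))) = 1 :=
  residue_eq_one_of_pow h.mem (by rw [← diaVal_apply h.point]; exact h.dia_pow u)

/-- The twisting character has order dividing `p ^ e`. -/
theorem twistChar_pow (σ : Γℚ) : twistChar h.point (p ^ e) σ ^ p ^ e = 1 := by
  rw [twistChar_apply, ← pow_mul, mul_comm, pow_mul, h.dia_pow, one_pow]

/-- The twisting character has residue one. -/
theorem residue_twistChar (σ : Γℚ) : residue O' (twistChar h.point (p ^ e) σ) = 1 :=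
  residue_eq_one_of_pow h.mem (h.twistChar_pow σ)

/-- The label `trLabel` reduces to the residual trace of Frobenius. -/
theorem residue_trLabel {i : GoodIx B} (hi : (goodPr B i).Coprime K) :
    residue O' (y (trLabel K (p ^ e) (goodPr B i))) = c (rb (frobOf i.1) : M2p).trace := by
  rw [trLabel, dif_pos ⟨i.1.2, hi⟩, map_mul, map_mul, h.residue_dia, mul_one, ← h.trace_eq i, tVal,
    dif_pos i.1.2]

variable [IsDomain O'] [IsDiscreteValuationRing O'] [IsAdicComplete (maximalIdeal O') O']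
  [Finite (ResidueField O')] [CharZero O']

/-- The twisted representation, from open kernel and cyclotomic determinant. -/
theorem exists_rep_of_det (hopen : IsOpen (rb.ker : Set Γℚ))
    (hcyc : ∀ σ, (rb σ : M2p).det = ((Fermat.CFT.cycChar p σ : (ZMod p)ˣ) : ZMod p))
    (hp2 : p ≠ 2) (hA : AttachInput p) (hneg : -1 ∈ H) (hB : B ≠ 0)
    (hunr : ∀ i : GoodIx B, IsResUnramified p rb (goodPr B i)) :
    ∃ (r ρ : Γℚ →* M2 O'), IsAttached p y r ∧ MatCont ρ ∧
      (∀ σ, ρ σ = twistChar h.point (p ^ e) σ • r σ) ∧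
      (∀ σ, (ρ σ).det = cycO h.mem σ) ∧
      (∀ σ, residue O' (r σ).trace = c (rb σ : M2p).trace) ∧
      (∀ σ, residue O' (ρ σ).trace = c (rb σ : M2p).trace) ∧
      ∀ ℓ : ℕ, ℓ.Prime → ¬ ℓ ∣ K * p → ∀ A : ValuationSubring ℚbar, A.LiesOverPrime ℓ →
        (∀ σ ∈ A.inertiaSubgroupIn ℚ, ρ σ = 1) ∧
        ∀ φ : Γℚ, A.IsFrobeniusAt φ ℓ →
          (ρ φ).trace = y (trLabel K (p ^ e) ℓ) ∧ (ρ φ).det = (ℓ : O') := by
  obtain ⟨r, ρ, hr, hρ, hρr, hdet, hloc⟩ := exists_twisted_rep hA hneg h.mem h.point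
    (Odd.pow (hp.out.odd_of_ne_two hp2)) h.pow_mem
  have hres : ∀ σ, residue O' (ρ σ).trace = c (rb σ : M2p).trace := by
    refine residue_trace_eq c hopen hρ (Nat.primeFactors (K * p * B)) fun ℓ hℓ hbad A hA' φ hφ => ?_
    have hℓd : ¬ ℓ ∣ K * p * B := fun hd => hbad (Nat.mem_primeFactors.mpr
      ⟨hℓ, hd, Nat.mul_ne_zero (Nat.mul_ne_zero (NeZero.ne K) hp.out.ne_zero) hB⟩)
    have hℓK : ¬ ℓ ∣ K * p := fun hd => hℓd (hd.mul_right B)
    obtain ⟨ht, hd⟩ := (hloc ℓ hℓ hℓK A hA').2 φ hφ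
    let i : GoodIx B := ⟨⟨ℓ, hℓ⟩, fun hd => hℓd (hd.mul_left _)⟩
    have hcop : (goodPr B i).Coprime K :=
      hℓ.coprime_iff_not_dvd.mpr fun hd => hℓK (hd.mul_right p)
    refine ⟨?_, ?_⟩
    · rw [ht, h.residue_trLabel hcop,
        trace_frobenius_eq hℓ (hunr i) hA' (Fermat.CFT.placeAt_spec i.1) hφ (frobOf_spec i.1)]
    · have := Fact.mk hℓ
      rw [hd, map_natCast, hcyc, Fermat.CFT.cycChar_frobenius hℓ
        (fun e' => hℓK (e' ▸ dvd_mul_left p K)) hA' hφ, map_natCast]
  refine ⟨r, ρ, hr, hρ, hρr, hdet, fun σ => ?_, hres, hloc⟩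
  rw [← hres σ, hρr, Matrix.trace_smul, smul_eq_mul, map_mul, h.residue_twistChar, one_mul]

end IsResPoint

/-- A congruent system in `Ω` is a residual point of a finite extension. -/
theorem isResPoint_of_congruent [IsDomain O] [IsDiscreteValuationRing O]
    [IsAdicComplete (maximalIdeal O) O] [Finite (ResidueField O)] [CharZero O]
    {B : ℕ} (hpO : (p : O) ∈ maximalIdeal O) (c : ZMod p →+* ResidueField O) {e : ℕ}
    (hH : ∀ u : (ZMod K)ˣ, u ^ p ^ e ∈ H) {Ω : Type} [CommRing Ω] [Algebra O Ω]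
    {x : MvPolynomial (Nat.Primes ⊕ (ZMod K)ˣ) ℤ →+* Ω}
    (hc : CongruentTo (goodPr B) (sysIdeal (resSys rb c B)) x) {O' : Type}
    [CommRing O'] [IsDomain O']
    [IsLocalRing O'] [Algebra O O'] [IsLocalHom (algebraMap O O')] [Module.Finite O O']
    {y : MvPolynomial (Nat.Primes ⊕ (ZMod K)ˣ) ℤ →+* O'} (hy : IsPoint K H y)
    (j : O' →ₐ[O] Ω) (hjy : (j : O' →+* Ω).comp y = x) :
    IsResPoint p rb B ((ResidueField.map (algebraMap O O')).comp c) e H y := by
  refine ⟨hy, ?_, hH, fun i => ?_⟩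
  · have := map_nonunit (algebraMap O O') _ hpO
    rwa [map_natCast] at this
  · have hc' : CongruentTo (goodPr B) (sysIdeal (resSys rb c B)) y := fun P hP => hc P (by
      have h := congrArg j hP
      rw [map_zero, ← AlgHom.comp_apply, MvPolynomial.comp_aeval] at h
      rw [← h, ← hjy]
      rfl)
    have h := residue_of_congruentTo hc' i
    rw [tVal, dif_pos i.1.2]
    exact h

end Fermat.GR.RT

end
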