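import Mathlib
import Fermat.Agent.HM.Package
import Fermat.Agent.GR.RT.Attach

/-!
# Eigen systems with trivial character on a subgroup, and descent of non-vanishing

An eigen system whose diamond values are trivial on a larger subgroup is one of the level cut out by
that subgroup; a nonzero module at an auxiliary level forces one at the base level.
-/

set_option autoImplicit false

noncomputable section

open MvPolynomial
open scoped MatrixGroups

namespace Fermat.GR.RT

open Fermat.HM Fermat.MC.Lvl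

section Restrict

variable {K : ℕ} [NeZero K] {H₁ H₂ : Subgroup (ZMod K)ˣ}

omit [NeZero K] in
/-- An inclusion of level subgroups gives a level map. -/
theorem isLevelMap_res_of_le (hle : H₁ ≤ H₂) : IsLevelMap H₂ H₁ 1 1 :=
  isLevelMap_one dvd_rfl (by rintro _ ⟨x, hx, rfl⟩; simpa [ZMod.unitsMap_self] using hle hx)

/-- Pulling back along an inclusion of level subgroups keeps the function. -/
theorem coe_formPull_res (hle : H₁ ≤ H₂) (g : CuspForm (GammaH K H₂) 2) :
    ⇑((isLevelMap_res_of_le hle).formPull g) = ⇑g := by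
  rw [IsLevelMap.coe_formPull, map_one, SlashAction.slash_one]

/-- A form fixed by the diamond operators of a subgroup comes from its level. -/
theorem exists_formPull_res (hle : H₁ ≤ H₂) (f : CuspForm (GammaH K H₁) 2)
    (hf : ∀ u ∈ H₂, formDia K H₁ u f = f) :
    ∃ g : CuspForm (GammaH K H₂) 2, (isLevelMap_res_of_le hle).formPull g = f := by
  refine ⟨
    { toFun := ⇑f
      slash_action_eq' := fun A hA => ?_
      holo' := CuspFormClass.holo f
      zero_at_cusps' := fun {c} hc => CuspFormClass.zero_at_cusps f ?_ },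
    DFunLike.coe_injective (coe_formPull_res hle _)⟩
  · obtain ⟨γ, hγ, rfl⟩ := hA
    obtain ⟨h0, u, hu, hu'⟩ := mem_GammaH_iff_upper.mp hγ
    have h := congrArg (fun F : CuspForm (GammaH K H₁) 2 => ⇑F)
      ((formPull_gamma0 h0 u hu'.symm f).trans (hf u hu))
    simp only [IsLevelMap.coe_formPull, toReal_gq] at h
    exact h
  · rw [Subgroup.IsArithmetic.isCusp_iff_isCusp_SL2Z] at hc ⊢
    exact hc

/-- Pulling back along an inclusion of subgroups commutes with the Hecke action. -/
theorem formAct_formPull_res (hle : H₁ ≤ H₂) (P : MvPolynomial (Nat.Primes ⊕ (ZMod K)ˣ) ℤ)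
    (g : CuspForm (GammaH K H₂) 2) :
    formAct K H₁ P ((isLevelMap_res_of_le hle).formPull g) =
      (isLevelMap_res_of_le hle).formPull (formAct K H₂ P g) := by
  induction P using MvPolynomial.induction_on generalizing g with
  | C a =>
    rw [eq_intCast, map_intCast, map_intCast, Module.End.intCast_apply, Module.End.intCast_apply,
      map_zsmul]
  | add P Q hP hQ =>
    rw [map_add, map_add, LinearMap.add_apply, LinearMap.add_apply, hP, hQ, map_add]
  | mul_X P i hP =>
    rw [map_mul, map_mul, Module.End.mul_apply, Module.End.mul_apply, formAct_X, formAct_X, ← hP]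
    congr 1
    rcases i with ℓ | u
    · have : Fact (ℓ : ℕ).Prime := ⟨ℓ.2⟩
      exact IsLevelMap.formPull_formHecke _ ℓ.2.not_dvd_one Iff.rfl g
    · refine DFunLike.coe_injective ?_
      change ⇑(formDia K H₁ u ((isLevelMap_res_of_le hle).formPull g)) =
        ⇑((isLevelMap_res_of_le hle).formPull (formDia K H₂ u g))
      rw [coe_formPull_res hle (formDia K H₂ u g), formDia, formDia, IsLevelMap.coe_formPull _
        ((isLevelMap_res_of_le hle).formPull g), coe_formPull_res hle g,
        IsLevelMap.coe_formPull _ g]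

/-- **An eigen system trivial on a subgroup is one of its level.** -/
theorem IsPoint.of_trivial {Ω : Type} [CommRing Ω] [IsDomain Ω] [CharZero Ω]
    {x : MvPolynomial (Nat.Primes ⊕ (ZMod K)ˣ) ℤ →+* Ω} (hx : IsPoint K H₁ x) (hle : H₁ ≤ H₂)
    (ht : ∀ u ∈ H₂, x (X (Sum.inr u)) = 1) : IsPoint K H₂ x := by
  classical
  refine ⟨fun P hP => ?_⟩
  let E : MvPolynomial (Nat.Primes ⊕ (ZMod K)ˣ) ℤ := ∑ u : H₂, X (Sum.inr (u : (ZMod K)ˣ))
  have hact : ∀ f, formAct K H₁ E f = ∑ u : H₂, formDia K H₁ (u : (ZMod K)ˣ) f := fun f => by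
    simp only [E, map_sum, LinearMap.sum_apply, formAct_X]
    rfl
  have hE : formAct K H₁ (P * E) = 0 := by
    refine LinearMap.ext fun f => ?_
    obtain ⟨g, hg⟩ := exists_formPull_res hle (formAct K H₁ E f) fun v hv => by
      rw [hact, map_sum]
      let G : H₂ → CuspForm (GammaH K H₁) 2 := fun u => formDia K H₁ (u : (ZMod K)ˣ) f
      have e : ∀ u : H₂, formDia K H₁ v (G u) = G (⟨v, hv⟩ * u) := fun u => formDia_mul v u f
      calc ∑ u : H₂, formDia K H₁ v (G u) = ∑ u : H₂, G (⟨v, hv⟩ * u) :=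
            Finset.sum_congr rfl fun u _ => e u
        _ = ∑ u : H₂, G u := Equiv.sum_comp (Equiv.mulLeft (⟨v, hv⟩ : H₂)) G
    rw [map_mul, Module.End.mul_apply, ← hg, formAct_formPull_res hle, hP, LinearMap.zero_apply,
      map_zero, LinearMap.zero_apply]
  have h := hx.kills _ hE
  rw [map_mul] at h
  refine (mul_eq_zero.mp h).resolve_right ?_
  rw [map_sum, Finset.sum_congr rfl fun u _ => ht _ u.2, Finset.sum_const, nsmul_one]
  exact Nat.cast_ne_zero.mpr (Finset.card_ne_zero.mpr ⟨1, Finset.mem_univ _⟩)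

end Restrict

section Descend

variable {O : Type} [CommRing O] [IsDomain O] [IsDiscreteValuationRing O]
  [IsAdicComplete (IsLocalRing.maximalIdeal O) O] [CharZero O] {pp : ℕ} [Fact pp.Prime]
  {σ : Type} {p : σ → ℕ} [hp : ∀ i, Fact (p i).Prime] {N : ℕ} [NeZero N]
  {H : Subgroup (ZMod N)ˣ} {ΔA : Type} [CommGroup ΔA] [Finite ΔA] (D : DiamondQuot N ⊤ H ΔA)
  {θ α : σ → IsLocalRing.ResidueField O} {L : List σ} {n : Fin L.length → ℕ}

/-- **A nonzero auxiliary module forces a nonzero base module.** -/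
theorem exists_ne_of_aux (hpp : pp ≠ 2) (hpm : (pp : O) ∈ IsLocalRing.maximalIdeal O)
    (hΔA : IsPGroup pp ΔA) (hinj : Function.Injective p) (hne : NonEisenstein p (sysIdeal θ))
    (hne' : NonEisenstein p (sysIdeal (sysUpd θ α L))) (hgood : GoodLevel O (GammaH N ⊤))
    (hnd : L.Nodup) (hL : ∀ i ∈ L, IsTWPrime N p θ α i) [NeZero (levN N p L)]
    [∀ k, NeZero (pp ^ n k)] {χQ : (ZMod (levN N p L))ˣ →* DeltaQ pp n}
    (h : JointSurj (dvd_levN N p L) χQ) [Module.Finite O (Homs O (GammaH N H))]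
    (hx : ∃ x : (auxQuot D h).LocMod p (sysIdeal (sysUpd θ α L)), x ≠ 0) :
    ∃ x : D.LocMod p (sysIdeal θ), x ≠ 0 := by
  classical
  have hneg : -1 ∈ H := neg_one_mem_of_chiTop D hpp hΔA
  -- a power of `pp` kills `(ZMod N)ˣ` modulo `H`
  obtain ⟨e, he⟩ : ∃ e, ∀ u : (ZMod N)ˣ, u ^ pp ^ e ∈ H := by
    have := Fintype.ofFinite ΔA
    choose f hf using hΔA
    refine ⟨∑ a, f a, fun u => (D.chiTop_eq_one _).mp ?_⟩
    obtain ⟨c, hc⟩ := pow_dvd_pow pp (Finset.single_le_sum (f := f) (fun _ _ => Nat.zero_le _)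
      (Finset.mem_univ (D.chiTop u)))
    rw [map_pow, hc, pow_mul, hf, one_pow]
  have hneg₂ : -1 ∈ levH H p L := by
    refine Subgroup.mem_comap.mpr ?_
    convert hneg
    exact Units.ext (by simp [ZMod.unitsMap_def])
  have hp₂ : IsPGroup pp (ΔA × DeltaQ pp n) := isPGroup_prod hΔA (isPGroup_deltaQ pp n)
  have hneg₁ : -1 ∈ auxH D (dvd_levN N p L) χQ :=
    MonoidHom.mem_ker.mpr (map_neg_one_of_isPGroup hpp hp₂ _)
  have hΓ₁ : GoodLevel O (GammaH (levN N p L) (auxH D (dvd_levN N p L) χQ)) :=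
    hgood.gammaH (dvd_levN N p L) le_top hneg₁
  have hΓtop : GoodLevel O (GammaH (levN N p L) ⊤) :=
    hgood.gammaH (dvd_levN N p L) le_top (Subgroup.mem_top _)
  have := hΓ₁.moduleFinite
  have : Module.Finite O (Homs O (GammaH (levN N p L) (levH H p L))) :=
    (hgood.gammaH (dvd_levN N p L) le_top hneg₂).moduleFinite
  -- at the auxiliary level the local module is free over the group ring
  obtain ⟨hfree, hfin⟩ := DiamondQuot.LocMod.free (D := auxQuot D h) hpm hp₂ hΓtop hΓ₁ hne'
  obtain ⟨T, -, -⟩ := exists_descent D h hpm hpp hΔA (isPGroup_deltaQ pp n) hgood hne'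
    (hasLevMap_levN hinj hne hpm hgood hneg he L hnd hL)
  obtain ⟨x, hx0⟩ := hx
  -- a nonzero coordinate gives a nonzero vector downstairs
  obtain ⟨k, hk⟩ : ∃ k, (Module.finBasis (MonoidAlgebra O (ΔA × DeltaQ pp n))
      ((auxQuot D h).LocMod p (sysIdeal (sysUpd θ α L)))).repr x k ≠ 0 := by
    by_contra hall
    push Not at hall
    exact hx0 ((Module.finBasis _ _).repr.map_eq_zero_iff.mp (Finsupp.ext hall))
  exact ⟨_, (T.linearIndependent (Module.finBasis (MonoidAlgebra O (ΔA × DeltaQ pp n))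
    ((auxQuot D h).LocMod p (sysIdeal (sysUpd θ α L))))).ne_zero k⟩

end Descend

end Fermat.GR.RT

end
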