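import Mathlib
import Fermat.Agent.GR.RT.PointRep
import Fermat.Agent.GR.RT.Inertia
import Fermat.Agent.GR.RT.Restrict
import Fermat.Agent.GR.RT.Inputs

/-!
# Inertia at a prime exactly dividing the level

The twisted representation of a congruent system has the trace of a character and its inverse; an
old system gives an unramified representation.
-/

set_option autoImplicit false

noncomputable section

open MvPolynomial IsLocalRing

namespace Fermat.GR.RT

local notation "ℚbar" => AlgebraicClosure ℚ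
local notation "Γℚ" => (AlgebraicClosure ℚ ≃ₐ[ℚ] AlgebraicClosure ℚ)
local notation "M2" R => Matrix (Fin 2) (Fin 2) R

/-- **Frobenius elements determine the traces.** -/
theorem trace_eq_of_frobenius {A : Type} [CommRing A] [IsLocalRing A] [IsNoetherianRing A]
    [Finite (ResidueField A)] [IsHausdorff (maximalIdeal A) A] {r r' : Γℚ →* M2 A} (hr : MatCont r)
    (hr' : MatCont r') (bad : Finset ℕ)
    (hfrob : ∀ ℓ : ℕ, ℓ.Prime → ℓ ∉ bad → ∀ P : ValuationSubring ℚbar, P.LiesOverPrime ℓ →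
      ∀ φ : Γℚ, P.IsFrobeniusAt φ ℓ →
        (r φ).trace = (r' φ).trace ∧ (r φ).det = (r' φ).det) (σ : Γℚ) :
    (r σ).trace = (r' σ).trace := by
  classical
  rw [← sub_eq_zero]
  -- work modulo each `𝔪 ^ n`
  refine IsHausdorff.haus' (I := maximalIdeal A) _ fun n => ?_
  rw [SModEq.zero, smul_eq_mul, Ideal.mul_top]
  have : Finite (A ⧸ maximalIdeal A ^ n) := finite_quotient_maximalIdeal_pow A n
  let mk := (Ideal.Quotient.mk (maximalIdeal A ^ n)).mapMatrix (m := Fin 2)
  let f := ((mk.toMonoidHom.comp r).toHomUnits).prod ((mk.toMonoidHom.comp r').toHomUnits)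
  have hf : IsOpen (f.ker : Set Γℚ) := by
    refine Subgroup.isOpen_mono (H₁ := ((mk.toMonoidHom.comp r).toHomUnits).ker ⊓
      ((mk.toMonoidHom.comp r').toHomUnits).ker) (fun τ hτ => ?_)
      ((isOpen_ker_modPow hr n).inter (isOpen_ker_modPow hr' n))
    rw [MonoidHom.mem_ker]
    exact Prod.ext (MonoidHom.mem_ker.mp hτ.1) (MonoidHom.mem_ker.mp hτ.2)
  -- Chebotarev: `σ` acts as a power of some Frobenius in both
  obtain ⟨ℓ, hℓ, hℓbad, P, hP, -, φ, hφ, j, hj⟩ :=
    Fermat.CFT.exists_frobenius_map_eq_pow f hf σ bad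
  rw [← map_pow] at hj
  have e1 : mk (r σ) = mk (r φ) ^ j := by
    rw [← map_pow, ← map_pow r]
    exact congrArg (fun u : (M2 (A ⧸ maximalIdeal A ^ n))ˣ × _ =>
      (u.1 : M2 (A ⧸ maximalIdeal A ^ n))) hj
  have e2 : mk (r' σ) = mk (r' φ) ^ j := by
    rw [← map_pow, ← map_pow r']
    exact congrArg (fun u : (M2 (A ⧸ maximalIdeal A ^ n))ˣ × (M2 (A ⧸ maximalIdeal A ^ n))ˣ =>
      (u.2 : M2 (A ⧸ maximalIdeal A ^ n))) hj
  obtain ⟨ht, hd⟩ := hfrob ℓ hℓ hℓbad P hP φ hφ
  have key : ∀ M : M2 A, (mk M).trace = Ideal.Quotient.mk (maximalIdeal A ^ n) M.trace := fun M =>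
    (AddMonoidHom.map_trace (Ideal.Quotient.mk (maximalIdeal A ^ n)).toAddMonoidHom M).symm
  -- the trace of a power depends only on trace and determinant
  rw [← Ideal.Quotient.eq, ← key, ← key, e1, e2, ← map_pow mk, ← map_pow mk, key, key,
    trace_pow_fin_two, trace_pow_fin_two, ht, hd]

/-- A matrix over a domain whose difference with `1` squares to zero has trace two and
determinant one. -/
theorem trace_det_of_sq_sub_one_eq_zero {A : Type} [CommRing A] [IsDomain A] {M : M2 A}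
    (hM : (M - 1) * (M - 1) = 0) : M.trace = 2 ∧ M.det = 1 := by
  have e00 := congrFun (congrFun hM 0) 0
  have e01 := congrFun (congrFun hM 0) 1
  have e11 := congrFun (congrFun hM 1) 1
  simp [Matrix.mul_apply, Fin.sum_univ_two] at e00 e01 e11
  have hdz : (M 0 0 - 1) * (M 1 1 - 1) - M 0 1 * M 1 0 = 0 := by
    refine mul_self_eq_zero.mp ?_
    linear_combination ((M 1 1 - 1) ^ 2 + 2 * (M 0 1 * M 1 0)) * e00 - M 0 1 * M 1 0 * e11 -
      2 * (M 0 0 - 1) * M 1 0 * e01
  have htz : M 0 0 + M 1 1 - 2 = 0 := by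
    refine mul_self_eq_zero.mp ?_
    linear_combination e00 + e11 + 2 * hdz
  rw [Matrix.trace_fin_two, Matrix.det_fin_two]
  exact ⟨by linear_combination htz, by linear_combination hdz + htz⟩

variable {p : ℕ} [hp : Fact p.Prime] {rb : Γℚ →* GL (Fin 2) (ZMod p)} {K : ℕ} [NeZero K]
  {H : Subgroup (ZMod K)ˣ} {B : ℕ} {O' : Type} [CommRing O'] [IsDomain O']
  [IsDiscreteValuationRing O'] [IsAdicComplete (maximalIdeal O') O'] [Finite (ResidueField O')]
  [CharZero O'] {c : ZMod p →+* ResidueField O'} {e : ℕ}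
  {y : MvPolynomial (Nat.Primes ⊕ (ZMod K)ˣ) ℤ →+* O'}

local notation "M2p" => Matrix (Fin 2) (Fin 2) (ZMod p)

/-- **The trace on inertia at `q ∥ K`.** At a prime dividing the level exactly once, inertia on the
twisted representation has determinant `1` and trace `t + t⁻¹`, `t` being the twist. -/
theorem IsResPoint.trace_inertia (h : IsResPoint p rb B c e H y) (hN : NewInput p)
    (hC : CharInput p) (hneg : -1 ∈ H) {q K' : ℕ} (hq : q.Prime) (hqp : q ≠ p) (hK : K' * q = K)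
    (hqK' : ¬ q ∣ K') {r ρ : Γℚ →* M2 O'} (hr : IsAttached p y r)
    (hρ : ∀ σ, ρ σ = twistChar h.point (p ^ e) σ • r σ) (hdet : ∀ σ, (ρ σ).det = cycO h.mem σ)
    {A : ValuationSubring ℚbar} (hA : A.LiesOverPrime q) {σ : Γℚ}
    (hσ : σ ∈ A.inertiaSubgroupIn ℚ) :
    (ρ σ).det = 1 ∧
      (ρ σ).trace = twistChar h.point (p ^ e) σ + twistChar h.point (p ^ e) σ⁻¹ := by
  have hd : (ρ σ).det = 1 := by rw [hdet, cycO_inertia h.mem hq hqp hA hσ]
  refine ⟨hd, ?_⟩
  have htr : (r σ).trace = 1 + (r σ).det := by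
    by_cases hnt : ∃ u : (ZMod K)ˣ, ((u : ZMod K).val : ZMod K') = 1 ∧ y (X (Sum.inr u)) ≠ 1
    · exact hC K H hneg q hq hqp K' hK hqK' (fun u _ => ⟨e, h.pow_mem u⟩)
        O' h.mem y h.point hnt r hr
        A hA σ hσ
    push Not at hnt
    -- otherwise the system is one of the subgroup where it is trivial, and inertia is unipotent
    let H₂ : Subgroup (ZMod K)ˣ :=
      { carrier := {u | y (X (Sum.inr u)) = 1}
        one_mem' := h.point.dia_eq_one (one_mem H)
        mul_mem' := fun {a b} (ha : _ = 1) (hb : _ = 1) => by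
          change diaVal h.point (a * b) = 1
          rw [map_mul, diaVal_apply, diaVal_apply, ha, hb, mul_one]
        inv_mem' := fun {a} (ha : _ = 1) => by
          change diaVal h.point a⁻¹ = 1
          have h1 : diaVal h.point a⁻¹ * diaVal h.point a = 1 := by
            rw [← map_mul, inv_mul_cancel, map_one]
          rwa [diaVal_apply h.point a, ha, mul_one] at h1 }
    have hle : H ≤ H₂ := fun u hu => h.point.dia_eq_one hu
    obtain ⟨hu, -⟩ := hN K H₂ (hle hneg) q hq hqp K' hK hqK' (fun u hu => hnt u hu) O' h.mem y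
      (h.point.of_trivial hle fun u hu => hu) r ⟨hr.cont, hr.unramified, hr.frobenius⟩ A hA
    obtain ⟨ht, hd1⟩ := trace_det_of_sq_sub_one_eq_zero (hu σ hσ)
    rw [ht, hd1, one_add_one_eq_two]
  have ht1 : twistChar h.point (p ^ e) σ⁻¹ * twistChar h.point (p ^ e) σ = 1 := by
    rw [← map_mul, inv_mul_cancel, map_one]
  rw [hρ, Matrix.det_smul, Fintype.card_fin] at hd
  rw [hρ, Matrix.trace_smul, smul_eq_mul, htr]
  linear_combination (twistChar h.point (p ^ e) σ⁻¹) * hd -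
    (twistChar h.point (p ^ e) σ * (r σ).det) * ht1

omit [IsAdicComplete (maximalIdeal O') O'] [Finite (ResidueField O')] [CharZero O'] in
/-- A system which is old at `q` has a residual point below. -/
theorem IsResPoint.exists_old (h : IsResPoint p rb B c e H y) {q : ℕ} (hqB : q ∣ B)
    (hold : IsOldAt K H y q) :
    ∃ (K' : ℕ) (_ : NeZero K') (hd : K' ∣ K), K' * q = K ∧
      ∃ y' : MvPolynomial (Nat.Primes ⊕ (ZMod K')ˣ) ℤ →+* O',
        IsResPoint p rb B c e (H.map (ZMod.unitsMap hd)) y' ∧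
        (∀ ℓ : ℕ, ℓ.Prime → ℓ ≠ q → tVal y' ℓ = tVal y ℓ) ∧
        ∀ u : (ZMod K)ˣ, y' (X (Sum.inr (ZMod.unitsMap hd u))) = y (X (Sum.inr u)) := by
  obtain ⟨K', hK'0, hd, hK, y', hy', ht, hu⟩ := hold
  refine ⟨K', hK'0, hd, hK, y', ⟨hy', h.mem, fun u => ?_, fun i => ?_⟩, ht, hu⟩
  · obtain ⟨v, rfl⟩ := ZMod.unitsMap_surjective hd u
    exact ⟨v ^ p ^ e, h.pow_mem v, map_pow _ _ _⟩
  · rw [ht _ i.1.2 fun e' => i.2 (e' ▸ hqB)]
    exact h.trace_eq i

/-- **An old system is unramified at `q`.** -/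
theorem IsResPoint.unramified_of_old (h : IsResPoint p rb B c e H y) (hs : Function.Surjective rb)
    (hp2 : p ≠ 2) (hA : AttachInput p) (hneg : -1 ∈ H) {q : ℕ} (hq : q.Prime) (hqp : q ≠ p)
    (hqB : q ∣ B) (hqK : ∀ K', K' * q = K → ¬ q ∣ K') (hold : IsOldAt K H y q)
    {r : Γℚ →* M2 O'} (hr : IsAttached p y r)
    (hres : ∀ σ, residue O' (r σ).trace = c (rb σ : M2p).trace)
    {A : ValuationSubring ℚbar} (hAq : A.LiesOverPrime q) {σ : Γℚ}
    (hσ : σ ∈ A.inertiaSubgroupIn ℚ) : r σ = 1 := by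
  obtain ⟨K', hK'0, hd, hK, y', h', ht, hu⟩ := h.exists_old hqB hold
  have hneg' : -1 ∈ H.map (ZMod.unitsMap hd) :=
    ⟨-1, hneg, Units.ext (by simp [ZMod.unitsMap_def])⟩
  -- the representation of the system below has the same traces, so is conjugate
  obtain ⟨r', hr'⟩ := hA K' _ hneg' O' h.mem y' h'.point
  have htr : ∀ τ, (r τ).trace = (r' τ).trace := trace_eq_of_frobenius hr.cont hr'.cont
    (Nat.primeFactors (K * p)) fun ℓ hℓ hbad P hP φ hφ => by
      have hℓK : ¬ ℓ ∣ K * p := fun hd' => hbad (Nat.mem_primeFactors.mpr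
        ⟨hℓ, hd', mul_ne_zero (NeZero.ne K) hp.out.ne_zero⟩)
      have hℓK' : ¬ ℓ ∣ K' * p := fun hd' => hℓK (hd'.trans (Nat.mul_dvd_mul_right hd p))
      obtain ⟨t1, d1⟩ := hr.frobenius ℓ hℓ hℓK P hP φ hφ
      obtain ⟨t2, d2⟩ := hr'.frobenius ℓ hℓ hℓK' P hP φ hφ
      have hcK : ℓ.Coprime K := hℓ.coprime_iff_not_dvd.mpr fun hd' => hℓK (hd'.mul_right p)
      have hcK' : ℓ.Coprime K' := hcK.coprime_dvd_right hd
      have hev : eVal y' ℓ = eVal y ℓ := by
        rw [eVal, eVal, dif_pos hcK, dif_pos hcK', ← hu]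
        refine congrArg (fun u => y' (X (Sum.inr u))) (Units.ext ?_)
        rw [ZMod.unitsMap_val, ZMod.coe_unitOfCoprime, ZMod.coe_unitOfCoprime, ZMod.cast_natCast hd]
      have htv : tVal y' ℓ = tVal y ℓ :=
        ht ℓ hℓ fun e' => hℓK (e' ▸ (hK ▸ dvd_mul_left q K').mul_right p)
      rw [t1, d1, t2, d2, hev, htv]
      exact ⟨rfl, rfl⟩
  have h2 : IsUnit (2 : O') := isUnit_two_of_mem hp2 h.mem
  obtain ⟨P, hP⟩ := exists_conj_of_trace_eq_lift hs h2 c hr'.cont hr.cont (fun τ => (htr τ).symm)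
    fun τ => by rw [← htr]; exact hres τ
  have hun := hr'.unramified q hq (fun hd' => ((Nat.Prime.dvd_mul hq).mp hd').elim (hqK K' hK)
    fun e' => hqp ((Nat.prime_dvd_prime_iff_eq hq hp.out).mp e')) A hAq σ hσ
  rw [hP, hun, mul_one, P.mul_inv]

end Fermat.GR.RT

end
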