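import Fermat.Agent.BAD.XC.Transfer
import Fermat.Agent.BAD.XC.Point
import Fermat.Agent.GR.AttachProof.Main
import Fermat.Agent.GR.RT.PointInertia

/-!
# Inertia at a prime exactly dividing the level, nontrivial character

For `q ≠ p` and characters of `p`-power order at `q` (`CharInput`):
`(σ - 1) (σ - χ σ) = 0` in the representation, and `det = χ`, so the trace is `1 + det`.
-/

set_option autoImplicit false
set_option linter.unusedSectionVars false

noncomputable section

open IsLocalRing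

namespace Fermat.GR.RT

open Fermat.MC.Lvl Fermat.JAC.XH

local notation "ℚbar" => AlgebraicClosure ℚ
local notation "Γℚ" => (AlgebraicClosure ℚ ≃ₐ[ℚ] AlgebraicClosure ℚ)
local notation "M2" R => Matrix (Fin 2) (Fin 2) R

variable {p : ℕ} [hp : Fact p.Prime] {K : ℕ} [NeZero K] {H : Subgroup (ZMod K)ˣ}
  {O : Type} [CommRing O] [IsDomain O] [IsDiscreteValuationRing O]
  [IsAdicComplete (maximalIdeal O) O] [Finite (ResidueField O)] [CharZero O]
  {x : MvPolynomial (Nat.Primes ⊕ (ZMod K)ˣ) ℤ →+* O}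

/-- The determinant is the cyclotomic character times the diamond character. -/
theorem IsAttached.det_eq_cyc (hx : IsPoint K H x) (hpO : (p : O) ∈ maximalIdeal O)
    {r : Γℚ →* M2 O} (hr : IsAttached p x r) (σ : Γℚ) :
    (r σ).det = cycO hpO σ * diaVal hx (cycK K σ) := by
  have hinv : ∀ u, diaVal hx u⁻¹ * diaVal hx u = 1 := fun u => by
    rw [← map_mul, inv_mul_cancel, map_one]
  -- `ψ = det * ⟨χ⟩⁻¹` is continuous and cyclotomic at almost all Frobenius elements
  let ψ : Γℚ →* O :=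
    { toFun := fun τ => (r τ).det * diaVal hx (cycK K τ)⁻¹
      map_one' := by rw [map_one, map_one, inv_one, map_one, Matrix.det_one, mul_one]
      map_mul' := fun a b => by
        rw [map_mul, map_mul, mul_inv, map_mul, Matrix.det_mul]; ring }
  let R : Γℚ →* M2 O :=
    { toFun := fun τ => Matrix.diagonal ![ψ τ, 1]
      map_one' := by
        rw [map_one, ← Matrix.diagonal_one]
        congr 1
        funext i
        fin_cases i <;> rfl
      map_mul' := fun a b => by
        rw [Matrix.diagonal_mul_diagonal, map_mul]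
        congr 1
        funext i
        fin_cases i <;> simp }
  have hR : ∀ τ, (R τ).det = ψ τ := fun τ => by
    change (Matrix.diagonal ![ψ τ, 1]).det = ψ τ
    simp
  have hcont : MatCont R := fun n => by
    obtain ⟨L₁, hL₁, h₁⟩ := hr.cont n
    obtain ⟨L₂, hL₂, h₂⟩ := cycK_cont K
    refine ⟨L₁ ⊔ L₂, inferInstance, fun τ hτ i j => ?_⟩
    have e1 : ψ τ - 1 ∈ maximalIdeal O ^ n := by
      change (r τ).det * diaVal hx (cycK K τ)⁻¹ - 1 ∈ _
      rw [h₂ τ fun y hy => hτ y ((le_sup_right : L₂ ≤ L₁ ⊔ L₂) hy), inv_one, map_one, mul_one]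
      have hm := h₁ τ fun y hy => hτ y ((le_sup_left : L₁ ≤ L₁ ⊔ L₂) hy)
      rw [← Ideal.Quotient.eq_zero_iff_mem, map_sub, map_one, sub_eq_zero, RingHom.map_det,
        RingHom.mapMatrix_apply]
      rw [show (r τ).map (Ideal.Quotient.mk (maximalIdeal O ^ n)) = 1 from Matrix.ext fun i j => by
        have h := hm i j
        rw [← Ideal.Quotient.eq_zero_iff_mem, Matrix.sub_apply, map_sub, sub_eq_zero] at h
        rw [Matrix.map_apply, h, Matrix.one_apply, Matrix.one_apply]
        split_ifs <;> simp, Matrix.det_one]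
    change ((Matrix.diagonal ![ψ τ, 1] : M2 O) - 1) i j ∈ _
    fin_cases i <;> fin_cases j <;> simp [e1]
  have : IsLocalHom (algebraMap O O) := ⟨fun a ha => by simpa using ha⟩
  have h := det_eq_cycO (A := O) hpO hcont (Nat.primeFactors (K * p))
    (fun ℓ hℓ hbad P hP φ hφ => by
      have hℓK : ¬ ℓ ∣ K * p := fun hd' => hbad (Nat.mem_primeFactors.mpr
        ⟨hℓ, hd', mul_ne_zero (NeZero.ne K) hp.out.ne_zero⟩)
      have hcK : ℓ.Coprime K := hℓ.coprime_iff_not_dvd.mpr fun hd' => hℓK (hd'.mul_right p)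
      rw [hR]
      change (r φ).det * diaVal hx (cycK K φ)⁻¹ = _
      rw [(hr.frobenius ℓ hℓ hℓK P hP φ hφ).2, eVal, dif_pos hcK, ← diaVal_apply hx,
        cycK_frobenius hℓ hcK hP hφ, mul_assoc, mul_comm (diaVal hx _), hinv, mul_one]) σ
  rw [hR, Algebra.algebraMap_self, RingHom.id_apply] at h
  calc (r σ).det = (r σ).det * (diaVal hx (cycK K σ)⁻¹ * diaVal hx (cycK K σ)) := by
        rw [hinv, mul_one]
    _ = ψ σ * diaVal hx (cycK K σ) := by rw [← mul_assoc]; rfl
    _ = cycO hpO σ * diaVal hx (cycK K σ) := by rw [h]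

/-- On inertia away from `p` the determinant is the diamond character. -/
theorem IsAttached.det_inertia (hx : IsPoint K H x) (hpO : (p : O) ∈ maximalIdeal O)
    {r : Γℚ →* M2 O} (hr : IsAttached p x r) {q : ℕ} (hq : q.Prime) (hqp : q ≠ p)
    {A : ValuationSubring ℚbar} (hA : A.LiesOverPrime q) {σ : Γℚ}
    (hσ : σ ∈ A.inertiaSubgroupIn ℚ) : (r σ).det = diaVal hx (cycK K σ) := by
  rw [hr.det_eq_cyc hx hpO, cycO_inertia hpO hq hqp hA hσ, one_mul]

/-- Two representations attached to one eigen system have equal traces. -/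
theorem trace_eq_of_attached {r r' : Γℚ →* M2 O} (hr : IsAttached p x r) (hr' : IsAttached p x r')
    (σ : Γℚ) : (r σ).trace = (r' σ).trace :=
  trace_eq_of_frobenius hr.cont hr'.cont (Nat.primeFactors (K * p))
    (fun ℓ hℓ hbad P hP φ hφ => by
      have hℓK : ¬ ℓ ∣ K * p := fun hd' => hbad (Nat.mem_primeFactors.mpr
        ⟨hℓ, hd', mul_ne_zero (NeZero.ne K) hp.out.ne_zero⟩)
      obtain ⟨t1, d1⟩ := hr.frobenius ℓ hℓ hℓK P hP φ hφ
      obtain ⟨t2, d2⟩ := hr'.frobenius ℓ hℓ hℓK P hP φ hφ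
      exact ⟨t1.trans t2.symm, d1.trans d2.symm⟩) σ

/-- **`CharInput p`**: bad reduction at `q ∥ K` with a nontrivial character. -/
theorem charInput (p : ℕ) [Fact p.Prime] : CharInput p := by
  intro K _ H hneg q hq hqp K' hK hqK' _ O _ _ _ _ _ _ hpO x hx hnt r hr A hA σ hσ
  obtain ⟨u₁, hu₁, hxu₁⟩ := hnt
  have : NegMem H := ⟨hneg⟩
  -- for `q = 2` the character at `q` would be trivial
  have hq2 : q ≠ 2 := by
    rintro rfl
    obtain ⟨τ, hτ, hτu⟩ := exists_inertia_cycK hq hK hqK' hA u₁ hu₁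
    have hK'0 : NeZero K' := ⟨fun h => NeZero.ne K (by rw [← hK, h, zero_mul])⟩
    subst hK
    refine hxu₁ ?_
    rw [Fermat.BAD.XC.units_ext_of_unitsMap (a := u₁) (b := 1)
      (hq.coprime_iff_not_dvd.mpr hqK').symm ?_ (Subsingleton.elim _ _)]
    · exact hx.dia_eq_one (one_mem H)
    · rw [← hτu, unitsMap_cycK, cycK_inertia hq (hq.coprime_iff_not_dvd.mpr hqK') hA hτ, map_one]
  -- an attached representation satisfying the relation of the torsion
  obtain ⟨f, hf, he, ht⟩ := hx.exists_jacPoint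
  -- `D`: the Eichler–Shimura data of the level (not a divisor)
  let D := Fermat.RED.Full.esData K H p
  obtain ⟨r', hr'c, hr'loc, hrel⟩ := Fermat.BAD.XC.exists_rep_relation D hpO f
  have hfd : ∀ u, f (dOp K H u) = diaVal hx u := fun u => by
    rw [diaVal_apply, hf, RingHom.comp_apply, ringEval_inr]
  have hr' : IsAttached p x r' :=
    ⟨hr'c, fun ℓ hℓ hd P hP => (hr'loc ℓ hℓ hd P hP).1, fun ℓ hℓ hd P hP φ hφ => by
      obtain ⟨h1, h2⟩ := (hr'loc ℓ hℓ hd P hP).2 φ hφ
      exact ⟨h1.trans (ht ℓ), h2.trans (by rw [he])⟩⟩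
  obtain ⟨d, hd, hrel'⟩ :=
    Fermat.BAD.XC.exists_relation (Fact.out : p.Prime) H hq hqp hK hqK' hA hq2 hσ hu₁
  have hR : Fermat.BAD.XC.Relation D σ d (dOp K H u₁ - 1) (dOp K H (cycK K σ)) := fun n P hP => by
    have h := hrel' n P hP
    change d • (heckeGens K H).act (dOp K H u₁ - 1) (σ • (σ • P -
      (heckeGens K H).act (dOp K H (cycK K σ)) P) -
      (σ • P - (heckeGens K H).act (dOp K H (cycK K σ)) P)) = 0
    rw [map_sub (heckeGens K H).act, map_one (heckeGens K H).act, act_dOp_eq]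
    set R₀ := σ • (σ • P - diaBar K H (cycK K σ) • P) - (σ • P - diaBar K H (cycK K σ) • P) with hR₀
    change d • ((heckeGens K H).act (dOp K H u₁) R₀ - R₀) = 0
    rw [act_dOp_eq]
    exact h
  have ht1 : f (dOp K H u₁ - 1) ≠ 0 := by
    rw [map_sub, map_one, hfd, diaVal_apply, sub_ne_zero]
    exact hxu₁
  have hq' := hrel σ d _ _ hd ht1 hR
  rw [hfd] at hq'
  set χ := diaVal hx (cycK K σ) with hχdef
  have hdet := hr.det_inertia hx hpO hq hqp hA hσ
  have hdet' := hr'.det_inertia hx hpO hq hqp hA hσ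
  rw [← hχdef] at hdet hdet'
  rw [trace_eq_of_attached hr hr' σ, hdet]
  -- Cayley–Hamilton with `det = χ` gives `trace = 1 + χ`
  have hc := Fermat.DS.mul_self_eq (r' σ)
  rw [hdet'] at hc
  have key : ((r' σ).trace - (1 + χ)) • r' σ = 0 := by
    rw [sub_mul, one_mul, mul_sub, mul_smul_comm, mul_one, hc] at hq'
    rw [sub_smul, add_smul, one_smul, ← hq']
    abel
  have hχ0 : χ ≠ 0 := fun h0 => one_ne_zero (α := O) (by
    rw [← map_one (diaVal hx), ← mul_inv_cancel (cycK K σ), map_mul, ← hχdef, h0, zero_mul])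
  have h00 := congrArg Matrix.det key
  rw [Matrix.det_smul, hdet', Matrix.det_zero] at h00
  exact sub_eq_zero.mp (pow_eq_zero_iff (n := Fintype.card (Fin 2)) (by simp) |>.mp
    ((mul_eq_zero.mp h00).resolve_right hχ0))

end Fermat.GR.RT

end
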