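import Mathlib
import Fermat.Agent.DS.Lift.Witt
import Fermat.Agent.GR.ES.DVRExt
import Fermat.Agent.GR.RT.Cyclotomic

/-!
# The coefficient ring

A finite extension of `ℤ_p` containing the roots of unity of order `4p`, and an embedding of such
a ring in the complex numbers.
-/

set_option autoImplicit false

noncomputable section

open IsLocalRing Cardinal

namespace Fermat.GR.RT

/-- A discrete valuation ring of characteristic zero with finite residue field embeds in `ℂ`. -/
theorem exists_embedding_complex (O : Type) [CommRing O] [IsDomain O] [IsDiscreteValuationRing O]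
    [Finite (ResidueField O)] [CharZero O] :
    ∃ u : O →+* ℂ, Function.Injective u := by
  classical
  have hO : #O ≤ 𝔠 := by
    have : ∀ n, Finite (O ⧸ maximalIdeal O ^ n) := finite_quotient_maximalIdeal_pow O
    let e : ∀ n, O ⧸ maximalIdeal O ^ n ↪ ℕ := fun n =>
      ((Finite.equivFin (O ⧸ maximalIdeal O ^ n)).toEmbedding.trans Fin.valEmbedding)
    let f : O → ℕ → ℕ := fun x n => e n (Ideal.Quotient.mk _ x)
    have hf : Function.Injective f := by
      intro x y h
      rw [← sub_eq_zero]
      refine IsHausdorff.haus' (I := maximalIdeal O) _ fun n => ?_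
      rw [SModEq.zero, smul_eq_mul, Ideal.mul_top, ← Ideal.Quotient.eq_zero_iff_mem, map_sub,
        sub_eq_zero]
      exact (e n).injective (congrFun h n)
    refine (Cardinal.mk_le_of_injective hf).trans ?_
    simp
  exact DS.exists_embedding_of_mk_le O hO

/-- A coefficient ring with the roots of unity of order `4p`. -/
theorem exists_coeffRing (p : ℕ) [Fact p.Prime] :
    ∃ (O : Type) (_ : CommRing O) (_ : IsDomain O) (_ : IsDiscreteValuationRing O)
      (_ : IsAdicComplete (maximalIdeal O) O) (_ : Finite (ResidueField O)) (_ : CharZero O),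
      (p : O) ∈ maximalIdeal O ∧ ∃ ζ : O, IsPrimitiveRoot ζ (4 * p) := by
  classical
  have : Finite (ResidueField ℤ_[p]) :=
    Finite.of_equiv _ (PadicInt.residueField (p := p)).toEquiv.symm
  let Ω := AlgebraicClosure (FractionRing ℤ_[p])
  have : CharZero Ω :=
    charZero_of_injective_algebraMap
      (algebraMap (FractionRing ℤ_[p]) Ω).injective
  have : NeZero ((4 * p : ℕ) : Ω) :=
    ⟨Nat.cast_ne_zero.mpr (by have := (Fact.out : p.Prime).pos; omega)⟩
  obtain ⟨z, hz⟩ := HasEnoughRootsOfUnity.exists_primitiveRoot Ω (4 * p)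
  let F := Polynomial.cyclotomic (4 * p) ℤ_[p]
  have : Module.Finite ℤ_[p] (AdjoinRoot F) := (Polynomial.cyclotomic.monic _ _).finite_adjoinRoot
  let g : AdjoinRoot F →ₐ[ℤ_[p]] Ω := AdjoinRoot.liftAlgHom F (Algebra.ofId ℤ_[p] Ω) z (by
    change Polynomial.eval₂ (algebraMap ℤ_[p] Ω) z F = 0
    rw [← Polynomial.eval_map, Polynomial.map_cyclotomic]
    exact hz.isRoot_cyclotomic (by have := (Fact.out : p.Prime).pos; omega))
  obtain ⟨@⟨O, i1, i2, i3, i4, i5, i6, i7, i8, i9, _⟩, f, j, hj, hjf⟩ :=
    exists_dvr_of_algHom (AdjoinRoot F) g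
  refine ⟨O, i1, i2, i3, i4, i5, i6, ?_, f (AdjoinRoot.root F), ?_⟩
  · rw [← map_natCast (algebraMap ℤ_[p] O)]
    refine map_nonunit (algebraMap ℤ_[p] O) _ ?_
    rw [PadicInt.maximalIdeal_eq_span_p]
    exact Ideal.mem_span_singleton_self _
  · refine IsPrimitiveRoot.of_map_of_injective (f := j) ?_ hj
    rw [← AlgHom.comp_apply, hjf]
    change IsPrimitiveRoot (g (AdjoinRoot.root F)) (4 * p)
    rwa [AdjoinRoot.liftAlgHom_root]

end Fermat.GR.RT

end
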