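import Mathlib
import Fermat.Agent.GR.RT.Restrict
import Fermat.Agent.HM.TWDelta

/-!
# Characters of a level through chosen prime divisors

The group of diamond operators used at a level is a product of quotients of `(ℤ/q)ˣ` at some prime
divisors `q`, so that it is natural in the level.
-/

set_option autoImplicit false

noncomputable section

namespace Fermat.GR.RT

open Fermat.HM

section Pi

variable {κ : Type} (q : κ → ℕ) {G : κ → Type} [∀ k, CommGroup (G k)]
  (f : ∀ k, (ZMod (q k))ˣ →* G k)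

/-- The product of the components at the chosen divisors. -/
def chiPi (M : ℕ) (h : ∀ k, q k ∣ M) : (ZMod M)ˣ →* ∀ k, G k :=
  MonoidHom.mk' (fun u k => f k (ZMod.unitsMap (h k) u)) fun u v => funext fun k => by
    simp only [map_mul, Pi.mul_apply]

/-- The components of `chiPi`. -/
theorem chiPi_apply {M : ℕ} (h : ∀ k, q k ∣ M) (u : (ZMod M)ˣ) (k : κ) :
    chiPi q f M h u k = f k (ZMod.unitsMap (h k) u) := rfl

/-- The product character `chiPi` commutes with change of level. -/
theorem chiPi_unitsMap {M M' : ℕ} (hMM : M' ∣ M) (h : ∀ k, q k ∣ M) (h' : ∀ k, q k ∣ M')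
    (u : (ZMod M)ˣ) : chiPi q f M' h' (ZMod.unitsMap hMM u) = chiPi q f M h u :=
  funext fun k => by
    rw [chiPi_apply, chiPi_apply]
    exact congrArg (f k) (DFunLike.congr_fun (ZMod.unitsMap_comp (h' k) hMM) u)

/-- The `k`-th component of `chiPi` is trivial on units congruent to `1` modulo `q k`. -/
theorem chiPi_eq_one {M : ℕ} [NeZero M] (h : ∀ k, q k ∣ M) {u : (ZMod M)ˣ} {k : κ}
    (hu : ((u : ZMod M).val : ZMod (q k)) = 1) : chiPi q f M h u k = 1 := by
  rw [chiPi_apply]
  suffices e : ZMod.unitsMap (h k) u = 1 by rw [e, map_one]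
  refine Units.ext ?_
  rw [ZMod.unitsMap_val, Units.val_one, ← hu, ZMod.natCast_val]

/-- The product character of coprime levels is surjective. -/
theorem surjective_chiPi [Fintype κ] (hcop : Pairwise (Function.onFun Nat.Coprime q))
    (hf : ∀ k, Function.Surjective (f k)) {M : ℕ} (h : ∀ k, q k ∣ M) [NeZero M] :
    Function.Surjective (chiPi q f M h) := by
  classical
  intro d
  choose b hb using fun k => hf k (d k)
  have hdvd : ∏ k, q k ∣ M :=
    dvd_prod (Finset.univ : Finset κ)
  let e := ZMod.prodEquivPi q hcop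
  let v : (ZMod (∏ k, q k))ˣ := Units.map e.symm.toMonoidHom (MulEquiv.piUnits.symm b)
  obtain ⟨u, hu⟩ := ZMod.unitsMap_surjective hdvd v
  refine ⟨u, funext fun k => ?_⟩
  rw [chiPi_apply, ← hb k]
  refine congrArg (f k) (Units.ext ?_)
  have hk : q k ∣ ∏ k, q k := Finset.dvd_prod_of_mem q (Finset.mem_univ k)
  rw [← DFunLike.congr_fun (ZMod.unitsMap_comp hk hdvd) u, MonoidHom.comp_apply, hu]
  have he : e (v : ZMod (∏ k, q k)) = fun k => (b k : ZMod (q k)) := e.apply_symm_apply _
  refine Eq.trans ?_ (congrFun he k)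
  rw [ZMod.unitsMap_def, Units.coe_map]
  exact RingHom.congr_fun (Subsingleton.elim (ZMod.castHom hk (ZMod (q k)))
    ((Pi.evalRingHom (fun k => ZMod (q k)) k).comp e.toRingHom)) (v : ZMod (∏ k, q k))
where
  dvd_prod (s : Finset κ) : ∏ k ∈ s, q k ∣ M := by
    classical
    induction s using Finset.induction_on with
    | empty => rw [Finset.prod_empty]; exact one_dvd _
    | insert a s ha ih =>
      rw [Finset.prod_insert ha]
      exact (Nat.Coprime.prod_right fun j hj => hcop fun (e : a = j) =>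
        ha (e ▸ hj)).mul_dvd_of_dvd_of_dvd
        (h a) ih

end Pi

/-- At auxiliary primes prime to the base the characters are jointly surjective with reduction. -/
theorem jointSurj_chiPi {σ : Type} {p : σ → ℕ} [hp : ∀ i, Fact (p i).Prime] {N : ℕ}
    (hinj : Function.Injective p) {L : List σ} (hnd : L.Nodup) (hL : ∀ i ∈ L, ¬ p i ∣ N)
    {G : Fin L.length → Type} [∀ k, CommGroup (G k)]
    (f : ∀ k, (ZMod (p (L.get k)))ˣ →* G k) (hf : ∀ k, Function.Surjective (f k))
    (a : (ZMod N)ˣ) (d : ∀ k, G k) :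
    ∃ x, ZMod.unitsMap (dvd_levN N p L) x = a ∧
      chiPi (fun k => p (L.get k)) f (levN N p L)
        (fun k => dvd_levN_of_mem (L.get_mem k)) x = d := by
  classical
  choose b hb using fun k => hf k (d k)
  let b' : ∀ i, (ZMod (p i))ˣ := fun i =>
    if h : ∃ k, L.get k = i then h.choose_spec ▸ b h.choose else 1
  obtain ⟨x, hx, hxL⟩ := exists_unit_crt hinj L hnd hL a b'
  refine ⟨x, hx, funext fun k => ?_⟩
  rw [chiPi_apply, hxL _ (L.get_mem k), ← hb k]
  congr 1
  have key : ∀ (k₁ k₂ : Fin L.length) (h : L.get k₁ = L.get k₂), k₁ = k₂ → h ▸ b k₁ = b k₂ := by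
    rintro k₁ k₂ h rfl; rfl
  simp only [b']
  rw [dif_pos ⟨k, rfl⟩]
  exact key _ k _ ((List.nodup_iff_injective_get.mp hnd)
    (Exists.choose_spec (⟨k, rfl⟩ : ∃ k', L.get k' = L.get k)))

variable {K : ℕ} [NeZero K] {H₁ H₂ : Subgroup (ZMod K)ˣ}

/-- A system of a larger group is one of a smaller. -/
theorem IsPoint.mono {Ω : Type} [CommRing Ω] {x : MvPolynomial (Nat.Primes ⊕ (ZMod K)ˣ) ℤ →+* Ω}
    (hx : IsPoint K H₂ x) (hle : H₁ ≤ H₂) : IsPoint K H₁ x := by
  refine ⟨fun P hP => hx.kills P (LinearMap.ext fun g => DFunLike.coe_injective ?_)⟩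
  rw [← coe_formPull_res hle, ← formAct_formPull_res hle, hP, LinearMap.zero_apply,
    LinearMap.zero_apply]
  rfl

end Fermat.GR.RT

end
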