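import Mathlib
import Fermat.Agent.GR.RT.ModularPoint
import Fermat.Agent.GR.RT.NonEis
import Fermat.Agent.GR.RT.Levels
import Fermat.Agent.HM.Neat
import Fermat.Agent.HM.Package

/-!
# Level lowering: the base level

`N` is the level, `A` the primes being lowered (all `≡ 1 mod p`), `ΔA` the group of their characters
of order `p`.
-/

set_option autoImplicit false
set_option linter.unusedSectionVars false

noncomputable section

open IsLocalRing

namespace Fermat.GR.RT

open Fermat.HM Fermat.MC.Lvl

local notation "ℚbar" => AlgebraicClosure ℚ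
local notation "Γℚ" => (AlgebraicClosure ℚ ≃ₐ[ℚ] AlgebraicClosure ℚ)

variable (p : ℕ) [hp : Fact p.Prime]

/-- The situation of lowering: `rb` is modular of the squarefree level `N` and of none of the levels
`N / q`, `q ∈ A`, where the primes of `A` are unramified for `rb` and `1` modulo `p` (`unr`, `one`).
Besides: if `p ∣ N` no squarefree level prime to `p` will do (`atp`), `N` is neat if `p = 3`, it
contains the ramified primes other than `p` (`ram`), and at its other unramified primes `q` the
residual Frobenius does not have trace `±(1 + q)` (`aux`). -/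
structure LowerData (rb : Γℚ →* GL (Fin 2) (ZMod p)) (N : ℕ) (A : Finset ℕ) : Prop where
  /-- `rb` is a surjective semistable residual representation. -/
  semi : IsSemistableResidual p rb
  /-- `p` is odd. -/
  two_lt : 2 < p
  /-- The level is squarefree. -/
  squarefree : Squarefree N
  /-- `p` is not lowered. -/
  not_mem : p ∉ A
  /-- If `p ∣ N`, no squarefree level prime to `p` will do. -/
  atp : p ∣ N → ∀ M : ℕ, Squarefree M → ¬ p ∣ M → ¬ ModularOf p rb M
  /-- The level is neat if `p = 3`. -/
  neat : p = 3 → IsNeat N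
  /-- Some prime is lowered. -/
  nonempty : A.Nonempty
  /-- The lowered numbers are prime. -/
  prime : ∀ q ∈ A, q.Prime
  /-- The lowered primes divide the level. -/
  dvd : ∀ q ∈ A, q ∣ N
  /-- `rb` is unramified at the lowered primes. -/
  unr : ∀ q ∈ A, IsResUnramified p rb q
  /-- The lowered primes are `1` modulo `p`. -/
  one : ∀ q ∈ A, (q : ZMod p) = 1
  /-- The ramified primes other than `p` divide the level. -/
  ram : ∀ q : ℕ, q.Prime → q ≠ p → ¬ IsResUnramified p rb q → q ∣ N
  /-- At the other unramified primes `q` of the level the trace of Frobenius is not `±(1 + q)`. -/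
  aux : ∀ q : ℕ, q.Prime → q ≠ p → q ∣ N → q ∉ A → IsResUnramified p rb q →
    ∀ P : ValuationSubring ℚbar, P.LiesOverPrime q → ∀ φ : Γℚ, P.IsFrobeniusAt φ q →
      (rb φ : Matrix (Fin 2) (Fin 2) (ZMod p)).trace ^ 2 ≠ (1 + (q : ZMod p)) ^ 2
  /-- `rb` is modular of level `N`. -/
  modular : ModularOf p rb N
  /-- `rb` is not modular of any level `N / q` with `q` lowered. -/
  minimal : ∀ q ∈ A, ¬ ModularOf p rb (N / q)

/-- A coefficient ring: `p` is in the maximal ideal and `ζ` is a primitive `4p`-th root of unity. -/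
structure CoeffData (O : Type) [CommRing O] [IsLocalRing O] (ζ : O) : Prop where
  /-- `p` lies in the maximal ideal. -/
  mem : (p : O) ∈ maximalIdeal O
  /-- `ζ` is a primitive `4p`-th root of unity. -/
  root : IsPrimitiveRoot ζ (4 * p)

variable {p} {rb : Γℚ →* GL (Fin 2) (ZMod p)} {N : ℕ} {A : Finset ℕ}

namespace LowerData

variable (D : LowerData p rb N A)
include D

/-- The level is nonzero. -/
theorem ne_zero : N ≠ 0 := D.squarefree.ne_zero

/-- `N * p` is nonzero. -/
theorem bad_ne_zero : N * p ≠ 0 := mul_ne_zero D.ne_zero hp.out.ne_zero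

/-- `p` is odd. -/
theorem p_ne_two : p ≠ 2 := by have := D.two_lt; omega

/-- The primes being lowered are not `p`. -/
theorem ne_p {q : ℕ} (hq : q ∈ A) : q ≠ p := fun e => D.not_mem (e ▸ hq)

/-- `rb` is unramified at the primes prime to `N * p`. -/
theorem resUnr (i : GoodIx (N * p)) : IsResUnramified p rb (goodPr (N * p) i) := by
  by_contra h
  exact i.2 ((D.ram _ i.1.2 (fun e : ((i.1 : Nat.Primes) : ℕ) = p =>
    i.2 (by rw [e]; exact dvd_mul_left p N)) h).mul_right p)

/-- The primes being lowered are `1` modulo `p`. -/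
theorem dvd_sub_one {q : ℕ} (hq : q ∈ A) : p ^ 1 ∣ q - 1 := by
  rw [pow_one, ← ZMod.natCast_eq_zero_iff, Nat.cast_sub (D.prime q hq).one_le, D.one q hq,
    Nat.cast_one, sub_self]

/-- The primes being lowered are pairwise coprime. -/
theorem coprime_A : Pairwise (Function.onFun Nat.Coprime fun q : A => (q : ℕ)) :=
  fun a b hab => (Nat.coprime_primes (D.prime _ a.2) (D.prime _ b.2)).mpr fun e =>
    hab (Subtype.ext e)

/-- The chosen quotient of order `p` at a prime of `A`. -/
def fA (q : A) : (ZMod (q : ℕ))ˣ →* Multiplicative (ZMod (p ^ 1)) :=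
  haveI := Fact.mk (D.prime _ q.2)
  (exists_units_surj (D.dvd_sub_one q.2)).choose

/-- The chosen quotient is surjective. -/
theorem fA_surjective (q : A) : Function.Surjective (D.fA q) :=
  haveI := Fact.mk (D.prime _ q.2)
  (exists_units_surj (D.dvd_sub_one q.2)).choose_spec

end LowerData

/-- The group of the characters at `A`. -/
abbrev DeltaA (p : ℕ) (A : Finset ℕ) : Type := A → Multiplicative (ZMod (p ^ 1))

/-- The group of the characters at `A` is finite. -/
instance finite_deltaA (A : Finset ℕ) : Finite (DeltaA p A) :=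
  haveI : NeZero (p ^ 1) := ⟨pow_ne_zero _ hp.out.ne_zero⟩
  Pi.finite

/-- The group of the characters at `A` is a `p`-group. -/
theorem isPGroup_deltaA (A : Finset ℕ) : IsPGroup p (DeltaA p A) := fun d =>
  ⟨1, funext fun q => Multiplicative.toAdd.injective <| by
    rw [Pi.pow_apply, toAdd_pow, nsmul_eq_mul, ZMod.natCast_self, zero_mul]
    rfl⟩

namespace LowerData

variable (D : LowerData p rb N A)

/-- The character of the diamond operators at `A`. -/
def chiA (M : ℕ) (h : ∀ q : A, (q : ℕ) ∣ M) : (ZMod M)ˣ →* DeltaA p A :=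
  chiPi (fun q : A => (q : ℕ)) D.fA M h

/-- The level structure at `A`. -/
def HA : Subgroup (ZMod N)ˣ := (D.chiA N fun q => D.dvd _ q.2).ker

/-- The diamond quotient at `A`. -/
def quot : DiamondQuot N ⊤ D.HA (DeltaA p A) where
  le := le_top
  chi := (D.chiA N fun q => D.dvd _ q.2).comp (Subgroup.subtype ⊤)
  surj := fun d => by
    have : NeZero N := ⟨D.ne_zero⟩
    obtain ⟨u, hu⟩ := surjective_chiPi (fun q : A => (q : ℕ)) D.fA D.coprime_A D.fA_surjective
      (M := N) (fun q => D.dvd _ q.2) d
    exact ⟨⟨u, Subgroup.mem_top u⟩, hu⟩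
  ker_iff _ := Iff.rfl

variable {O : Type} [CommRing O] [IsLocalRing O]

/-- Two is a unit of the coefficients. -/
theorem isUnit_two (hD : LowerData p rb N A) (hO : (p : O) ∈ maximalIdeal O) : IsUnit (2 : O) :=
  isUnit_two_of_mem hD.p_ne_two hO

/-- `Γ₀(N)` is a good level: `p ≠ 3`, or `N` is neat. -/
theorem good [NeZero N] (hD : LowerData p rb N A) (hO : (p : O) ∈ maximalIdeal O) :
    GoodLevel O (GammaH N ⊤) := by
  by_cases h3 : p = 3
  · exact GoodLevel.of_neat (hD.isUnit_two hO) (Subgroup.mem_top _) (hD.neat h3)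
  refine ⟨neg_one_mem_GammaH (Subgroup.mem_top _), Subgroup.finite_quotient_of_finiteIndex,
    hD.isUnit_two hO, Or.inl ?_⟩
  exact_mod_cast isUnit_natCast_of_prime_ne hO Nat.prime_three (Ne.symm h3)

end LowerData

/-- The map of `𝔽_p` to the residue field. -/
def resCast {O : Type} [CommRing O] [IsLocalRing O] (hO : (p : O) ∈ maximalIdeal O) :
    ZMod p →+* ResidueField O :=
  haveI : CharP (ResidueField O) p := (CharP.charP_iff_prime_eq_zero hp.out).mpr (by
    rw [← map_natCast (residue O), residue_eq_zero_iff]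
    exact hO)
  ZMod.castHom (dvd_refl p) _

/-- The residual system. -/
abbrev theta {O : Type} [CommRing O] [IsLocalRing O] (rb : Γℚ →* GL (Fin 2) (ZMod p))
    (hO : (p : O) ∈ maximalIdeal O) (B : ℕ) : GoodIx B → ResidueField O :=
  resSys rb (resCast hO) B

namespace LowerData

variable (D : LowerData p rb N A) {O : Type} [CommRing O] [IsDomain O]
  [IsDiscreteValuationRing O] [IsAdicComplete (maximalIdeal O) O] [Finite (ResidueField O)]
  [CharZero O] (hO : (p : O) ∈ maximalIdeal O)

/-- The residual system is not Eisenstein. -/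
theorem nonEis (hD : LowerData p rb N A) :
    NonEisenstein (goodPr (N * p)) (sysIdeal (theta rb hO (N * p))) :=
  nonEisenstein_resSys hD.semi hD.two_lt _ hD.bad_ne_zero hD.resUnr

/-- A congruent system of level `N`. -/
theorem exists_congruent [NeZero N] (hD : LowerData p rb N A) :
    ∃ x : MvPolynomial (Nat.Primes ⊕ (ZMod N)ˣ) ℤ →+* AlgebraicClosure (FractionRing O),
      IsPoint N ⊤ x ∧ CongruentTo (goodPr (N * p)) (sysIdeal (theta rb hO (N * p))) x :=
  exists_congruent_of_modularOf (σ := GoodIx (N * p)) (pr := goodPr (N * p)) hO hD.modular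
    (fun i => ⟨fun h => i.2 (h.mul_right p),
      fun e : ((i.1 : Nat.Primes) : ℕ) = p => i.2 (by rw [e]; exact dvd_mul_left p N),
      hD.resUnr i⟩) (theta rb hO (N * p)) (resCast hO)
    (fun i P hP φ hφ => resSys_eq (resCast hO) i (hD.resUnr i) P hP φ hφ)
    fun i => ⟨_, Fermat.CFT.placeAt_spec i.1, frobOf i.1, frobOf_spec i.1⟩

/-- The data of the base level with its quotient `DeltaA`, for the descent from the auxiliary
levels. -/
theorem baseData [NeZero N] :
    BaseData O p (goodPr (N * p)) D.quot (theta rb hO (N * p)) := by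
  have hneg : -1 ∈ D.HA := neg_one_mem_of_chiTop D.quot D.p_ne_two (isPGroup_deltaA A)
  have := ((D.good hO).gammaH dvd_rfl le_top hneg).moduleFinite
  refine ⟨D.p_ne_two, hO, isPGroup_deltaA A, goodPr_injective _, D.nonEis hO, D.good hO, ?_⟩
  obtain ⟨x, hx, hc⟩ := D.exists_congruent hO
  have hinj := algClosure_algebraMap_injective O
  obtain ⟨φ, hφ, h0⟩ := exists_mem_locPart_ne_zero (hx.mono le_top) hinj hc (H := D.HA)
  exact ⟨⟨⟨φ, hφ⟩⟩, fun e => h0 (congrArg (fun z : D.quot.LocMod (goodPr (N * p))
    (sysIdeal (theta rb hO (N * p))) => (z.val : Homs O (GammaH N D.HA))) e)⟩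

end LowerData

end Fermat.GR.RT

end
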