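import Fermat.Agent.GR.RT.ResModular
import Fermat.Agent.GR.RT.LowerBase
import Fermat.Agent.GR.AttachProof.Main

/-!
# Residual modularity from almost all congruences

For odd `p` and `rb` with open kernel and cyclotomic determinant: a normalised eigenform congruent
to `rb` at almost all Frobenius elements is congruent at every good one: the congruent eigen system
gives a representation with the residual traces of `rb`.
-/

set_option autoImplicit false

noncomputable section

open MvPolynomial IsLocalRing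

namespace Fermat.GR.RT

open Fermat.HM

local notation "ℚbar" => AlgebraicClosure ℚ
local notation "Γℚ" => (AlgebraicClosure ℚ ≃ₐ[ℚ] AlgebraicClosure ℚ)
local notation "M2p" p => Matrix (Fin 2) (Fin 2) (ZMod p)

variable {p : ℕ} [hp : Fact p.Prime] {rb : Γℚ →* GL (Fin 2) (ZMod p)} {N : ℕ} [NeZero N]

/-- **Congruences at almost all primes give residual modularity**, for every odd `p`, from open
kernel and cyclotomic determinant. -/
theorem modularOf_of_cofinite (hopen : IsOpen (rb.ker : Set Γℚ))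
    (hcyc : ∀ σ, (rb σ : M2p p).det = ((Fermat.CFT.cycChar p σ : (ZMod p)ˣ) : ZMod p)) (h2 : 2 < p)
    {f : CuspForm (CongruenceSubgroup.Gamma0 N) 2} {𝔪 : Ideal (integralClosure ℤ ℂ)}
    (hf : f.IsNormalizedEigenform) (hmax : 𝔪.IsMaximal) (hpm : (p : integralClosure ℤ ℂ) ∈ 𝔪)
    (S : Finset ℕ)
    (hcong : ∀ ℓ : ℕ, ℓ.Prime → ¬ ℓ ∣ N → ℓ ≠ p → ℓ ∉ S → IsResUnramified p rb ℓ →
      ∀ A : ValuationSubring ℚbar, A.LiesOverPrime ℓ → ∀ φ : Γℚ, A.IsFrobeniusAt φ ℓ →
        ∀ n : ℤ, (n : ZMod p) = (rb φ : M2p p).trace →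
          ∃ a : integralClosure ℤ ℂ, (a : ℂ) = ModularFormClass.qCoeff f ℓ ∧
            a - (n : integralClosure ℤ ℂ) ∈ 𝔪) :
    ModularOf p rb N := by
  classical
  -- outside `B` the representation is unramified and the congruences hold
  obtain ⟨U, hU⟩ := Fermat.CFT.exists_finset_map_inertia_eq_one rb hopen
  set F : Finset ℕ := (U ∪ S).filter Nat.Prime
  set B : ℕ := N * p * ∏ ℓ ∈ F, ℓ
  have hB : B ≠ 0 := mul_ne_zero (mul_ne_zero (NeZero.ne N) hp.out.ne_zero)
    (Finset.prod_ne_zero_iff.mpr fun ℓ hℓ => (Finset.mem_filter.mp hℓ).2.ne_zero)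
  have hout : ∀ i : GoodIx B, ¬ goodPr B i ∣ N ∧ goodPr B i ≠ p ∧ goodPr B i ∉ U ∧
      goodPr B i ∉ S := fun i =>
    ⟨fun h => i.2 ((h.mul_right p).mul_right _),
      fun e => i.2 (by
        rw [show ((i.1 : Nat.Primes) : ℕ) = p from e]; exact (dvd_mul_left p N).mul_right _),
      fun h => i.2 ((Finset.dvd_prod_of_mem (fun x => x)
        (Finset.mem_filter.mpr ⟨Finset.mem_union_left _ h, i.1.2⟩)).mul_left _),
      fun h => i.2 ((Finset.dvd_prod_of_mem (fun x => x)
        (Finset.mem_filter.mpr ⟨Finset.mem_union_right _ h, i.1.2⟩)).mul_left _)⟩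
  have hunr : ∀ i : GoodIx B, IsResUnramified p rb (goodPr B i) := fun i P hP σ hσ =>
    hU _ i.1.2 (hout i).2.2.1 P hP σ hσ
  -- a congruent eigen system, and its representation with the residual traces of `rb`
  obtain ⟨O, i1, i2, i3, i4, i5, i6, hpO, -, -⟩ := exists_coeffRing p
  obtain ⟨x, hx, hxc⟩ := exists_congruent_of_form (σ := GoodIx B) (pr := goodPr B) hpO hf hmax hpm
    (fun i => (rb (frobOf i.1) : M2p p).trace) (resCast hpO) fun i => by
      obtain ⟨a, ha, han⟩ := hcong _ i.1.2 (hout i).1 (hout i).2.1 (hout i).2.2.2 (hunr i) _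
        (Fermat.CFT.placeAt_spec i.1) (frobOf i.1) (frobOf_spec i.1)
        ((rb (frobOf i.1) : M2p p).trace.val : ℤ)
        (by rw [Int.cast_natCast, ZMod.natCast_zmod_val])
      rw [Int.cast_natCast] at han
      exact ⟨a, ha, han⟩
  obtain ⟨⟨O', _⟩, y, hy, j, -, hjy⟩ :=
    exists_dvr_point N ⊤ O hx
  have hres := isResPoint_of_congruent hpO (resCast hpO) (e := 0)
    (fun u => Subgroup.mem_top _) hxc hy j hjy
  obtain ⟨r, -, hr, -, -, -, htr, -, -⟩ :=
    hres.exists_rep_of_det hopen hcyc (by omega) (attachInput p) (Subgroup.mem_top _) hB hunr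
  refine modularOf_of_point hy hres.mem ((ResidueField.map (algebraMap O O')).comp (resCast hpO))
    fun ℓ hℓ hℓN hℓp _ P hP φ hφ => ?_
  have hℓK : ¬ ℓ ∣ N * p := fun hd => (hℓ.dvd_mul.mp hd).elim hℓN fun e =>
    hℓp ((Nat.prime_dvd_prime_iff_eq hℓ hp.out).mp e)
  have hev : eVal y ℓ = 1 := by
    rw [eVal, dif_pos (hℓ.coprime_iff_not_dvd.mpr hℓN), hy.dia_eq_one (Subgroup.mem_top _)]
  rw [← htr φ, (hr.frobenius ℓ hℓ hℓK P hP φ hφ).1, hev, mul_one]

end Fermat.GR.RT

end
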