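import Fermat.Agent.SW.TorsionRep

/-!
# Modularity of semistable curves: what lifting and the base at three prove

* `ModSf`: modularity at a squarefree level containing the bad primes.
* `LiftingSfStatement`: lifting at `p` (proved in `GR/RT/Lift/Assembly`).
* `SupersingularBase`: residual modularity at three for supersingular reduction (proved in
  `RM/Main`).

`Top/Modularity` deduces modularity of all semistable curves from the last two.
-/

set_option autoImplicit false

noncomputable section

open Fermat.SW

namespace Fermat.GR.RT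

local notation "ℚbar" => AlgebraicClosure ℚ
local notation "Γℚ" => (AlgebraicClosure ℚ ≃ₐ[ℚ] AlgebraicClosure ℚ)

/-- Modular at a squarefree level containing every bad prime, which contains `3` only if it is
bad. -/
def ModSf (W : WeierstrassCurve ℤ) : Prop :=
  ∃ N : ℕ, Squarefree N ∧ (∀ q : ℕ, q.Prime → (q : ℤ) ∣ W.Δ → q ∣ N) ∧
    (3 ∣ N → (3 : ℤ) ∣ W.Δ) ∧ W.IsModularModelOfLevel N

/-- `ModSf` forgets to modularity of the model. -/
theorem ModSf.isModularModel {W : WeierstrassCurve ℤ} (h : ModSf W) : W.IsModularModel := by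
  obtain ⟨N, hN, -, -, hmod⟩ := h
  exact ⟨N, Nat.pos_of_ne_zero hN.ne_zero, hmod⟩

/-- Modularity lifting at odd `p` for squarefree levels: a semistable curve whose `p`-torsion is
surjective, semistable and modular of a squarefree level is modular; at `p = 3` that level contains
`3` only if the curve is bad there. -/
def LiftingSfStatement (p : ℕ) [Fact p.Prime] : Prop :=
  2 < p → ∀ (W : WeierstrassCurve ℤ) (rb : Γℚ →* GL (Fin 2) (ZMod p)), W.Δ ≠ 0 →
    W.IsSemistableModel → IsSemistableResidual p rb → IsTorsionOf p W rb →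
      ∀ M : ℕ, Squarefree M → (p = 3 → 3 ∣ M → (3 : ℤ) ∣ W.Δ) → ModularOf p rb M → ModSf W

/-- Residual modularity at three for supersingular reduction. -/
def SupersingularBase [Fact (Nat.Prime 3)] : Prop :=
  ∀ (W : WeierstrassCurve ℤ) (hW : W.Δ ≠ 0), W.IsSemistableModel → ¬ (3 : ℤ) ∣ W.Δ →
    (3 : ℤ) ∣ W.b₂ → ∃ M : ℕ, Squarefree M ∧ ¬ 3 ∣ M ∧ ModularOf 3 (Tors.tRep (p := 3) W hW) M

end Fermat.GR.RT

end
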