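import Mathlib
import Fermat.Agent.GR.RT.Adjoint
import Fermat.Agent.GR.RT.Inputs
import Fermat.Agent.FLAT.SS.Cocycle

/-!
# The local condition at `p`

Statements: the flat classes lie in a subspace of the expected size, and the tangent vectors of the
trace ring of representations which are flat at `p` give flat classes.
-/

set_option autoImplicit false

noncomputable section

namespace Fermat.GR.RT

open IsLocalRing Fermat.CFT

local notation "ℚbar" => AlgebraicClosure ℚ
local notation "Γℚ" => (AlgebraicClosure ℚ ≃ₐ[ℚ] AlgebraicClosure ℚ)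
local notation "M2" R => Matrix (Fin 2) (Fin 2) R

variable (p : ℕ) [Fact p.Prime]

/-- **The flat classes lie in a subspace of size at most `|H⁰| |k|`.**
Proved by `flatBoundStatement`. -/
def FlatBoundStatement : Prop :=
  2 < p → ∀ (k : Type) [Field k] [Finite k] [Algebra (ZMod p) k] (r : Γℚ →* M2 k),
    IsOpen {σ : Γℚ | r σ = 1} → ∀ A : ValuationSubring ℚbar, A.LiesOverPrime p →
      (∀ σ ∈ A.inertiaSubgroupIn ℚ,
        (r σ).det = algebraMap (ZMod p) k ((Fermat.CFT.cycChar p σ : (ZMod p)ˣ) : ZMod p)) →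
      ∃ S : Submodule (ZMod p) (locH1 p r A), Finite S ∧
        Nat.card S ≤ Nat.card (Coh.H0 (locRep p r A)) * Nat.card k ∧
        ∀ (c : Γℚ → M2 k) (z : Coh.Z1 (Fermat.CFT.glev (A.decompositionSubgroup ℚ).subtype)
            (locRep p r A)),
          (∀ δ, ((z.1 δ : adZero p k) : M2 k) = c δ.1) →
            (haveI : CharP k p := charP_of_injective_algebraMap (algebraMap (ZMod p) k).injective p
            Fermat.FLAT.IsFlatCocycle A r c) →
            Coh.cl₁ (Fermat.CFT.glev (A.decompositionSubgroup ℚ).subtype) (locRep p r A) z ∈ S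

/-- **The tangent vectors of a ring of flat representations give flat classes.**
Proved by `flatCocycleStatement`. -/
def FlatCocycleStatement : Prop :=
  2 < p → ∀ (𝒪 : Type) [CommRing 𝒪] [IsDomain 𝒪] [IsDiscreteValuationRing 𝒪] [CharZero 𝒪]
    [IsAdicComplete (maximalIdeal 𝒪) 𝒪] [Finite (ResidueField 𝒪)],
    (p : 𝒪) ∈ maximalIdeal 𝒪 →
    ∀ (ι : Type) [Finite ι] (B : ι → Type) [∀ i, CommRing (B i)] [∀ i, IsDomain (B i)]
      [∀ i, IsDiscreteValuationRing (B i)] [∀ i, Algebra 𝒪 (B i)] [∀ i, Module.Finite 𝒪 (B i)]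
      [∀ i, IsLocalHom (algebraMap 𝒪 (B i))]
      (R : Type) [CommRing R] [IsLocalRing R] [Algebra 𝒪 R] [Module.Finite 𝒪 R]
      (pr : ∀ i, R →ₐ[𝒪] B i), (∀ a, (∀ i, pr i a = 0) → a = 0) →
    ∀ (rep : Γℚ →* M2 R), MatCont rep →
    ∀ (r : ∀ i, Γℚ →* M2 (B i)) (hr : ∀ i, MatCont (r i)),
      (∀ i, (repOf (r i) (hr i)).IsFlatAt p) →
    ∀ (A : ValuationSubring ℚbar), A.LiesOverPrime p →
    ∀ (t : ∀ i, Γℚ →* B i), (∀ i σ, ∃ n : ℕ, t i σ ^ p ^ n = 1) →
      (∀ i, ∀ σ ∈ A.inertiaSubgroupIn ℚ, t i σ = 1) →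
      (∀ i, ∃ P : (M2 (B i))ˣ, ∀ σ,
        (rep σ).map (pr i) = (P : M2 (B i)) * (t i σ • r i σ) * (↑P⁻¹ : M2 (B i))) →
    ∀ (k : Type) [Field k] [Finite k] [Algebra (ZMod p) k] (π : R →+* k) (d : R → k),
      (∀ a ∈ maximalIdeal R, π a = 0) → IsDeriv π d → (∀ o, d (algebraMap 𝒪 R o) = 0) →
      (∀ σ, d (rep σ).det = 0) →
        haveI : CharP k p := charP_of_injective_algebraMap (algebraMap (ZMod p) k).injective p
        Fermat.FLAT.IsFlatCocycle A (resHom π rep) (tcoc π rep d)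

end Fermat.GR.RT

end
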