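import Fermat.Agent.FLAT.Tangent
import Fermat.Agent.CFT.Density.Places
import Fermat.Agent.FLAT.Gens
import Fermat.Agent.GR.RT.FlatStatement

/-!
# The flat classes lie in a small subspace

The Baer sum of two flat dual number deformations is flat, so the classes of the flat cocycles form
a subgroup, whose size is bounded by the flat tangent bound.
-/

set_option autoImplicit false

noncomputable section

open Fermat.EC.Val Matrix

namespace Fermat.FLAT

local notation "ℚbar" => AlgebraicClosure ℚ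
local notation "Γℚ" => (AlgebraicClosure ℚ ≃ₐ[ℚ] AlgebraicClosure ℚ)

variable {p : ℕ} [hp : Fact p.Prime] {A : ValuationSubring ℚbar}
  {k : Type*} [Field k] [CharP k p] [Finite k] {r : Γℚ →* Matrix (Fin 2) (Fin 2) k}
  {c c' : Γℚ → Matrix (Fin 2) (Fin 2) k}

/-- Flatness only depends on the restriction to the decomposition group. -/
lemma IsFlatCocycle.congr_dec (hc : IsFlatCocycle A r c)
    (he : ∀ σ ∈ A.decompositionSubgroup ℚ, c' σ = c σ) : IsFlatCocycle A r c' := by
  obtain ⟨L, h₁, h₂, h₃⟩ := hc.1.level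
  refine ⟨⟨fun σ hσ => by rw [he σ hσ, hc.1.trace_eq σ hσ], fun σ hσ τ hτ => by
    rw [he _ (mul_mem hσ hτ), he σ hσ, he τ hτ, hc.1.map_mul σ hσ τ hτ],
    ⟨L, h₁, h₂, fun τ hτ hτL => by rw [he τ hτ, h₃ τ hτ hτL]⟩⟩, ?_⟩
  obtain ⟨G⟩ := hc.2
  refine ⟨G.restrict (AddMonoidHom.id _) Function.injective_id fun σ hσ x => ?_⟩
  obtain ⟨v, w⟩ := x
  change dualAct r c' σ (v, w) = dualAct r c σ (v, w)
  rw [dualAct_apply, dualAct_apply, he σ hσ]

/-- The negative of a flat cocycle is flat. -/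
lemma IsFlatCocycle.neg (hc : IsFlatCocycle A r c) : IsFlatCocycle A r (-c) := by
  obtain ⟨L, h₁, h₂, h₃⟩ := hc.1.level
  refine ⟨⟨fun σ hσ => by rw [Pi.neg_apply, trace_neg, hc.1.trace_eq σ hσ, neg_zero],
    fun σ hσ τ hτ => by
      simp only [Pi.neg_apply, hc.1.map_mul σ hσ τ hτ, mul_neg, neg_mul, neg_add_rev]
      abel,
    ⟨L, h₁, h₂, fun τ hτ hτL => by rw [Pi.neg_apply, h₃ τ hτ hτL, neg_zero]⟩⟩, ?_⟩
  obtain ⟨G⟩ := hc.2
  let ι : (Fin 2 → k) × (Fin 2 → k) →+ (Fin 2 → k) × (Fin 2 → k) :=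
    AddMonoidHom.mk' (fun x => (-x.1, x.2)) fun x y => by
      simp only [Prod.fst_add, Prod.snd_add, neg_add, Prod.mk_add_mk]
  refine ⟨G.restrict ι (fun a b hab => Prod.ext (neg_injective (congrArg Prod.fst hab :))
    (congrArg Prod.snd hab :)) fun σ _ x => ?_⟩
  obtain ⟨v, w⟩ := x
  refine Prod.ext ?_ rfl
  change -(r σ *ᵥ v + (-c) σ *ᵥ (r σ *ᵥ w)) = r σ *ᵥ (-v) + c σ *ᵥ (r σ *ᵥ w)
  rw [Pi.neg_apply, neg_mulVec, mulVec_neg, neg_add, neg_neg]

/-- The action on the fibre product of two dual number deformations over the residual one. -/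
def fibAct (r : Γℚ →* Matrix (Fin 2) (Fin 2) k) (c c' : Γℚ → Matrix (Fin 2) (Fin 2) k) (σ : Γℚ) :
    AddMonoid.End (((Fin 2 → k) × (Fin 2 → k)) × (Fin 2 → k)) :=
  AddMonoidHom.mk'
    (fun x => ((r σ *ᵥ x.1.1 + c σ *ᵥ (r σ *ᵥ x.2), r σ *ᵥ x.1.2 + c' σ *ᵥ (r σ *ᵥ x.2)),
      r σ *ᵥ x.2))
    fun x y => by
      simp only [Prod.fst_add, Prod.snd_add, mulVec_add, Prod.mk_add_mk]
      rw [add_add_add_comm, add_add_add_comm (r σ *ᵥ x.1.2)]

omit [CharP k p] in
/-- **The Baer sum of flat deformations is flat.** -/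
theorem IsFlatCocycle.add (h : IsPlace A p) (hc : IsFlatCocycle A r c)
    (hc' : IsFlatCocycle A r c') : IsFlatCocycle A r (c + c') := by
  refine ⟨?_, ?_⟩
  · have := hc.1.sub hc'.neg.1
    rwa [sub_neg_eq_add] at this
  obtain ⟨G⟩ := hc.2
  obtain ⟨G'⟩ := hc'.2
  let q : Bool → (((Fin 2 → k) × (Fin 2 → k)) × (Fin 2 → k)) →+
      (Fin 2 → k) × (Fin 2 → k) := fun b =>
    if b then ((AddMonoidHom.fst _ _).comp (AddMonoidHom.fst _ _)).prod (AddMonoidHom.snd _ _)
    else ((AddMonoidHom.snd _ _).comp (AddMonoidHom.fst _ _)).prod (AddMonoidHom.snd _ _)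
  let gN : Bool → Γℚ → AddMonoid.End ((Fin 2 → k) × (Fin 2 → k)) := fun b =>
    if b then dualAct r c else dualAct r c'
  let GN : ∀ b, Model A (A.decompositionSubgroup ℚ) (gN b)
    | true => G
    | false => G'
  obtain ⟨F⟩ := Model.nonempty_of_family h G.inertia_le GN q
    (g := fibAct r c c') (fun x y hxy => by
      have h1 := hxy true
      have h2 := hxy false
      simp only [q] at h1 h2
      exact Prod.ext (Prod.ext (congrArg Prod.fst h1 :) (congrArg Prod.fst h2 :))
        (congrArg Prod.snd h1 :))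
    (fun b σ _ x => by cases b <;> rfl)
  let π : ((Fin 2 → k) × (Fin 2 → k)) × (Fin 2 → k) →+ (Fin 2 → k) × (Fin 2 → k) :=
    AddMonoidHom.mk' (fun x => (x.1.1 + x.1.2, x.2)) fun x y => by
      simp only [Prod.fst_add, Prod.snd_add, Prod.mk_add_mk]
      rw [add_add_add_comm]
  refine ⟨F.quot h π (fun y => ⟨((y.1, 0), y.2), Prod.ext (add_zero _) rfl⟩) fun σ _ x => ?_⟩
  refine Prod.ext ?_ rfl
  change (r σ *ᵥ x.1.1 + c σ *ᵥ (r σ *ᵥ x.2)) + (r σ *ᵥ x.1.2 + c' σ *ᵥ (r σ *ᵥ x.2)) =
    r σ *ᵥ (x.1.1 + x.1.2) + (c + c') σ *ᵥ (r σ *ᵥ x.2)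
  rw [Pi.add_apply, mulVec_add, add_mulVec, add_add_add_comm]

end Fermat.FLAT

namespace Fermat.GR.RT

open Fermat.CFT

local notation "ℚbar" => AlgebraicClosure ℚ
local notation "Γℚ" => (AlgebraicClosure ℚ ≃ₐ[ℚ] AlgebraicClosure ℚ)
local notation "M2" R => Matrix (Fin 2) (Fin 2) R

variable {p : ℕ} [Fact p.Prime]

open Classical in
/-- A cocycle on the decomposition group, extended by zero. -/
def decExt {k : Type} [Field k] [Algebra (ZMod p) k] {A : ValuationSubring ℚbar}
    (z : A.decompositionSubgroup ℚ → adZero p k) (σ : Γℚ) : M2 k :=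
  if hσ : σ ∈ A.decompositionSubgroup ℚ then ((z ⟨σ, hσ⟩ : adZero p k) : M2 k) else 0

variable {k : Type} [Field k] [Algebra (ZMod p) k] {A : ValuationSubring ℚbar}

/-- The extension agrees with the cocycle on the decomposition group. -/
theorem decExt_apply (z : A.decompositionSubgroup ℚ → adZero p k) {σ : Γℚ}
    (hσ : σ ∈ A.decompositionSubgroup ℚ) :
    decExt z σ = ((z ⟨σ, hσ⟩ : adZero p k) : M2 k) := by
  rw [decExt, dif_pos hσ]

/-- The extension is additive. -/
theorem decExt_add (z z' : A.decompositionSubgroup ℚ → adZero p k) :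
    decExt (z + z') = decExt z + decExt z' := by
  funext σ
  by_cases hσ : σ ∈ A.decompositionSubgroup ℚ <;> simp [decExt, hσ]

/-- The extension commutes with negation. -/
theorem decExt_neg (z : A.decompositionSubgroup ℚ → adZero p k) : decExt (-z) = -decExt z := by
  funext σ
  by_cases hσ : σ ∈ A.decompositionSubgroup ℚ <;> simp [decExt, hσ]

/-- As soon as some class is flat, so is the zero class. -/
theorem isFlatCocycle_decExt_zero [CharP k p] [Finite k] {r : Γℚ →* M2 k} (h : IsPlace A p)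
    {z : A.decompositionSubgroup ℚ → adZero p k}
    (hz : Fermat.FLAT.IsFlatCocycle A r (decExt z)) :
    Fermat.FLAT.IsFlatCocycle A r (decExt (0 : A.decompositionSubgroup ℚ → adZero p k)) := by
  have := hz.add h hz.neg
  rwa [← decExt_neg, ← decExt_add, add_neg_cancel] at this

/-- The invariants of the local adjoint representation are the invariant trace zero matrices. -/
theorem natCard_H0_locRep (r : Γℚ →* M2 k) :
    Nat.card (Coh.H0 (locRep p r A)) = Nat.card (Fermat.FLAT.adInvariants A r) := by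
  refine Nat.card_congr
    { toFun := fun m => ⟨(m.1 : M2 k), m.1.2, fun σ hσ => ?_⟩
      invFun := fun X => ⟨⟨X.1, X.2.1⟩, LinearMap.mem_ker.mpr (funext fun g => ?_)⟩
      left_inv := fun m => rfl
      right_inv := fun X => rfl }
  · have h1 := sub_eq_zero.mp (congrFun (LinearMap.mem_ker.mp m.2) ⟨σ, hσ⟩)
    have h2 : r σ * (m.1 : M2 k) * r σ⁻¹ = m.1 := congrArg Subtype.val h1
    calc r σ * (m.1 : M2 k) = r σ * (m.1 : M2 k) * (r σ⁻¹ * r σ) := by
          rw [hom_inv_mul, mul_one]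
      _ = (m.1 : M2 k) * r σ := by rw [← mul_assoc, h2]
  · refine sub_eq_zero.mpr (Subtype.ext ?_)
    change r g.1 * X.1 * r g.1⁻¹ = X.1
    rw [X.2.2 g.1 g.2, mul_assoc, hom_mul_inv, mul_one]

omit [Algebra (ZMod p) k] in
/-- An open kernel contains the fixing group of a finite normal extension. -/
theorem exists_normal_field_trivial {r : Γℚ →* M2 k} (hr : IsOpen {σ : Γℚ | r σ = 1}) :
    ∃ (L : IntermediateField ℚ ℚbar) (_ : FiniteDimensional ℚ L) (_ : Normal ℚ L),
      ∀ σ ∈ L.fixingSubgroup, r σ = 1 := by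
  have hker : {σ : Γℚ | r σ = 1} = (r.toHomUnits.ker : Set Γℚ) := by
    ext σ
    simp [MonoidHom.mem_ker]
  rw [hker] at hr
  obtain ⟨L, h₁, h₂, h₃⟩ := Fermat.CFT.exists_normal_fixingSubgroup_le hr
  exact ⟨L, h₁, h₂, fun σ hσ => congrArg Units.val (MonoidHom.mem_ker.mp (h₃ hσ))⟩

/-- **The flat classes lie in a subspace of size at most `|H⁰| |k|`.** -/
theorem flatBoundStatement : FlatBoundStatement p := by
  intro hp2 k _ _ _ r hr A hA hdet
  classical
  have : CharP k p := charP_of_injective_algebraMap (algebraMap (ZMod p) k).injective p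
  have : NeZero p := ⟨(Fact.out : p.Prime).ne_zero⟩
  have h : IsPlace A p := ⟨Fact.out, hA⟩
  obtain ⟨L, _, _, hL⟩ := exists_normal_field_trivial hr
  -- the tangent invariant separates flat classes
  obtain ⟨n, hn, Θ, hΘ⟩ := Fermat.FLAT.exists_flat_tangent_invariant r L hL h
    hp2.ne' fun σ hσ => by
      rw [hdet σ hσ, ← map_natCast (algebraMap (ZMod p) k), ZMod.natCast_zmod_val]
  set lv := glev (A.decompositionSubgroup ℚ).subtype
  -- the flat cocycles, with zero, form a subgroup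
  let W₀ : AddSubgroup (Coh.Z1 lv (locRep p r A)) :=
    { carrier := {z | z = 0 ∨ Fermat.FLAT.IsFlatCocycle A r (decExt z.1)}
      zero_mem' := Or.inl rfl
      add_mem' := by
        rintro a b (rfl | ha) (rfl | hb)
        · simp
        · simpa using Or.inr hb
        · simpa using Or.inr ha
        · exact Or.inr (by rw [Submodule.coe_add, decExt_add]; exact ha.add h hb)
      neg_mem' := by
        rintro a (rfl | ha)
        · simp
        · exact Or.inr (by rw [Submodule.coe_neg, decExt_neg]; exact ha.neg) }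
  set W : Submodule (ZMod p) (Coh.Z1 lv (locRep p r A)) := AddSubgroup.toZModSubmodule p W₀
  set S := W.map (Coh.cl₁ lv (locRep p r A))
  have hH0 := natCard_H0_locRep (p := p) (A := A) r
  have hpos : 0 < Nat.card (Coh.H0 (locRep p r A)) * Nat.card k := by
    rw [hH0]
    refine Nat.mul_pos ?_ Nat.card_pos
    have : Nonempty (Fermat.FLAT.adInvariants A r) :=
      ⟨⟨0, by simp [Fermat.FLAT.adInvariants]⟩⟩
    exact Nat.card_pos
  -- its image in cohomology injects into the values of the invariant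
  have hS : Finite S ∧ Nat.card S ≤ Nat.card (Coh.H0 (locRep p r A)) * Nat.card k := by
    by_cases hex : ∃ z : Coh.Z1 lv (locRep p r A), Fermat.FLAT.IsFlatCocycle A r (decExt z.1)
    · obtain ⟨z₀, hz₀⟩ := hex
      have hflat : ∀ z ∈ W, Fermat.FLAT.IsFlatCocycle A r (decExt z.1) := by
        rintro z (rfl | hz)
        · exact isFlatCocycle_decExt_zero h hz₀
        · exact hz
      have hpre : ∀ x : S, ∃ z ∈ W, Coh.cl₁ lv (locRep p r A) z = x.1 := fun x => x.2
      choose zf hzW hzf using hpre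
      have hinj : Function.Injective fun x : S => Θ (decExt (zf x).1) := fun x y hxy => by
        obtain ⟨X, hX, hXe⟩ := hΘ _ _ (hflat _ (hzW x)) (hflat _ (hzW y)) hxy
        refine Subtype.ext ?_
        rw [← hzf x, ← hzf y, Coh.cl₁_eq_iff]
        refine ⟨⟨X, hX⟩, funext fun g => Subtype.ext ?_⟩
        have h1 := hXe g.1 g.2
        rw [Pi.sub_apply, decExt_apply _ g.2, decExt_apply _ g.2] at h1
        exact h1.symm
      have := Finite.of_injective _ hinj
      refine ⟨inferInstance, (Nat.card_le_card_of_injective _ hinj).trans ?_⟩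
      rw [Nat.card_fin, hH0]
      exact hn
    · have hbot : S = ⊥ := by
        rw [eq_bot_iff]
        rintro _ ⟨z, (rfl | hz), rfl⟩
        · simp
        · exact absurd ⟨z, hz⟩ hex
      rw [hbot]
      exact ⟨inferInstance, (le_of_eq (Nat.card_unique)).trans hpos⟩
  exact ⟨S, hS.1, hS.2, fun c z hzc hc => ⟨z, Or.inr (hc.congr_dec fun σ hσ => by
    rw [decExt_apply z.1 hσ, hzc]), rfl⟩⟩

end Fermat.GR.RT

end
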