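import Fermat.Agent.FLAT.FromFlat
import Fermat.Agent.FLAT.LocalGroup
import Fermat.Agent.CFT.Density.Places
import Fermat.Agent.FLAT.Twist
import Fermat.Agent.GR.RT.FlatStatement

/-!
# Tangent vectors of flat rings give flat classes

The representations into the discrete valuation rings are flat up to an unramified twist; the image
of the trace ring embeds in their product, so its reductions have models, and the dual number
deformation is a quotient of a power of one of these reductions.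
-/

set_option autoImplicit false
set_option linter.unusedSectionVars false

noncomputable section

open IsLocalRing Fermat.EC.Val Matrix

namespace Fermat.GR.RT

open Fermat.FLAT

local notation "ℚbar" => AlgebraicClosure ℚ
local notation "Γℚ" => (AlgebraicClosure ℚ ≃ₐ[ℚ] AlgebraicClosure ℚ)
local notation "M2" R => Matrix (Fin 2) (Fin 2) R

/-- Matrices as endomorphisms of the column vectors. -/
def mvHom {S : Type} [CommRing S] : (M2 S) →* AddMonoid.End (Fin 2 → S) where
  toFun X := AddMonoidHom.mk' (X *ᵥ ·) (mulVec_add X)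
  map_one' := AddMonoidHom.ext fun v => one_mulVec v
  map_mul' X Y := AddMonoidHom.ext fun v => (mulVec_mulVec v X Y).symm

/-- `mvHom` is multiplication of column vectors by the matrix. -/
@[simp] theorem mvHom_apply {S : Type} [CommRing S] (X : M2 S) (v : Fin 2 → S) :
    mvHom X v = X *ᵥ v := rfl

/-- Multiplication of vectors by matrices commutes with ring homomorphisms. -/
theorem map_mulVec_apply {R S : Type} [CommRing R] [CommRing S] (f : R →+* S) (X : M2 R)
    (v : Fin 2 → R) : (fun j => f ((X *ᵥ v) j)) = X.map f *ᵥ fun j => f (v j) :=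
  funext fun j => RingHom.map_mulVec f X v j

variable {p : ℕ} [Fact p.Prime]

/-- A decomposition element agrees with a power of Frobenius up to inertia and a given level. -/
theorem exists_frob_pow_level {A : ValuationSubring ℚbar} (h : IsPlace A p) {φ σ : Γℚ}
    (hφ : A.IsFrobeniusAt φ p) (hσ : σ ∈ A.decompositionSubgroup ℚ)
    (L : IntermediateField ℚ ℚbar) [FiniteDimensional ℚ L] [Normal ℚ L] :
    ∃ n : ℕ, ∃ τ ∈ A.inertiaSubgroupIn ℚ, ∃ s ∈ L.fixingSubgroup, σ = φ ^ n * τ * s := by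
  obtain ⟨n, τ, hτ, e⟩ := exists_frob_pow_mul (ρ := AlgEquiv.restrictNormalHom L) h
    (fun x hx => (Fermat.CFT.restrict_eq_one_iff L x).mpr hx) hφ hσ
  refine ⟨n, τ, hτ, (φ ^ n * τ)⁻¹ * σ, ?_, (mul_inv_cancel_left _ _).symm⟩
  rw [← Fermat.CFT.restrict_eq_one_iff L, map_mul, map_inv, map_mul, map_pow, e, inv_mul_cancel]

/-- A finite level lies in a finite normal level. -/
theorem exists_normal_level (L : IntermediateField ℚ ℚbar) [FiniteDimensional ℚ L] :
    ∃ L' : IntermediateField ℚ ℚbar, FiniteDimensional ℚ L' ∧ Normal ℚ L' ∧ L ≤ L' :=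
  ⟨IntermediateField.normalClosure ℚ L ℚbar, inferInstance, normalClosure.normal ℚ L ℚbar,
    L.le_normalClosure⟩

section PerFactor

variable {B : Type} [CommRing B] [IsLocalRing B] {A : ValuationSubring ℚbar}

/-- The model of the reduction of a flat matrix representation. -/
theorem nonempty_model_reduction (r : Γℚ →* M2 B) (hr : MatCont r) (hflat : (repOf r hr).IsFlatAt p)
    (J : Ideal B) [Finite (B ⧸ J)] (h : IsPlace A p) :
    Nonempty (Model A (A.decompositionSubgroup ℚ)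
      (fun σ => mvHom ((r σ).map (Ideal.Quotient.mk J)))) := by
  classical
  set V := (repOf r hr).V ⧸ (J • (⊤ : Submodule B (repOf r hr).V))
  have hJ : ∀ v : Fin 2 → B, (∀ j, v j ∈ J) → v ∈ J • (⊤ : Submodule B (Fin 2 → B)) :=
    fun v hv => by
      rw [pi_eq_sum_univ v]
      exact sum_mem fun i _ => Submodule.smul_mem_smul (hv i) Submodule.mem_top
  have : Finite V := Finite.of_surjective (fun x : Fin 2 → B ⧸ J =>
      (Submodule.Quotient.mk (fun j => Quotient.out (x j)) : V)) fun v => by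
    obtain ⟨v, rfl⟩ := Submodule.Quotient.mk_surjective _ v
    refine ⟨fun j => Ideal.Quotient.mk J (v j), (Submodule.Quotient.eq _).mpr (hJ _ fun j => ?_)⟩
    exact Ideal.Quotient.eq.mp (Ideal.Quotient.mk_out (Ideal.Quotient.mk J (v j)))
  obtain ⟨G⟩ := nonempty_model_of_isFlatAt (repOf r hr) hflat J h
    (Fermat.FLAT.inertia_le_decomposition A)
  have hker : ∀ v ∈ J • (⊤ : Submodule B (Fin 2 → B)), ∀ j, v j ∈ J := fun v hv => by
    induction hv using Submodule.smul_induction_on' with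
    | smul a ha x _ => exact fun j => Ideal.mul_mem_right _ _ ha
    | add x _ y _ hx hy => exact fun j => add_mem (hx j) (hy j)
  let π₀ : (repOf r hr).V →ₗ[B] (Fin 2 → B ⧸ J) :=
    LinearMap.pi fun j => (Ideal.Quotient.mkₐ B J).toLinearMap.comp
      (LinearMap.proj (R := B) (φ := fun _ : Fin 2 => B) j)
  let π : V →+ (Fin 2 → B ⧸ J) := ((J • (⊤ : Submodule B (repOf r hr).V)).liftQ π₀ fun v hv =>
    funext fun j => Ideal.Quotient.eq_zero_iff_mem.mpr (hker v hv j)).toAddMonoidHom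
  refine ⟨G.quot h π (fun x => ?_) fun σ _ x => ?_⟩
  · exact ⟨Submodule.Quotient.mk (fun j => Quotient.out (x j)),
      funext fun j => Ideal.Quotient.mk_out (x j)⟩
  · obtain ⟨v, rfl⟩ := Submodule.Quotient.mk_surjective _ x
    exact map_mulVec_apply (Ideal.Quotient.mk J) (r σ) v

/-- If `r` and its conjugate twisted by `t` are both `1` modulo `J`, then so is `t`. -/
theorem mk_twist_eq_one (J : Ideal B) {r S : M2 B} {t : B} {P : (M2 B)ˣ}
    (hS : S = (P : M2 B) * (t • r) * (↑P⁻¹ : M2 B)) (hS1 : ∀ i j, (S - 1) i j ∈ J)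
    (hr1 : ∀ i j, (r - 1) i j ∈ J) : Ideal.Quotient.mk J t = 1 := by
  set mk := Ideal.Quotient.mk J
  have key : ∀ M : M2 B, (∀ i j, (M - 1) i j ∈ J) → M.map mk = 1 := fun M hM =>
    Matrix.ext fun i j => by
      have := Ideal.Quotient.eq_zero_iff_mem.mpr (hM i j)
      rw [Matrix.sub_apply, map_sub, sub_eq_zero] at this
      rw [Matrix.map_apply, this, Matrix.one_apply, Matrix.one_apply]
      split_ifs <;> simp
  have e : t • r = (↑P⁻¹ : M2 B) * S * (P : M2 B) := by
    rw [hS]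
    simp only [← mul_assoc, Units.inv_mul, one_mul]
    rw [mul_assoc, Units.inv_mul, mul_one]
  have e2 := congrArg (mk.mapMatrix (m := Fin 2)) e
  rw [map_mul, map_mul, RingHom.mapMatrix_apply, RingHom.mapMatrix_apply,
    RingHom.mapMatrix_apply, RingHom.mapMatrix_apply, key S hS1, mul_one, ← Matrix.map_mul,
    Units.inv_mul, Matrix.map_one _ (map_zero _) (map_one _), Matrix.map_smul' _ _ _ (map_mul _),
    key r hr1] at e2
  simpa using congrFun (congrFun e2 0) 0

/-- On the decomposition group a character of finite level trivial on inertia is a power of its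
Frobenius value, with the exponent by which roots of unity of order prime to `p` are moved. -/
theorem exists_pow_frob_value {C : Type} [Monoid C] (h : IsPlace A p) (t : Γℚ →* C)
    (hti : ∀ σ ∈ A.inertiaSubgroupIn ℚ, t σ = 1) (L : IntermediateField ℚ ℚbar)
    [FiniteDimensional ℚ L] (hL : ∀ σ : Γℚ, (∀ x ∈ L, σ x = x) → t σ = 1) {φ : Γℚ}
    (hφ : A.IsFrobeniusAt φ p) {N : ℕ} (hNd : ¬ p ∣ N) {ζ : ℚbar}
    (hζ : IsPrimitiveRoot ζ N) :
    ∀ σ ∈ A.decompositionSubgroup ℚ, ∃ n : ℕ, t σ = t φ ^ n ∧ σ ζ = ζ ^ p ^ n := by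
  have : FiniteDimensional ℚ (IntermediateField.adjoin ℚ ({ζ} : Set ℚbar)) :=
    IntermediateField.adjoin.finiteDimensional (Algebra.IsAlgebraic.isAlgebraic ζ).isIntegral
  obtain ⟨L', _, _, hL'⟩ :=
    exists_normal_level (L ⊔ IntermediateField.adjoin ℚ ({ζ} : Set ℚbar))
  intro σ hσ
  obtain ⟨n, τ, hτ, s, hs, rfl⟩ := exists_frob_pow_level h hφ hσ L'
  have hfix : ∀ x ∈ L', s x = x := (IntermediateField.mem_fixingSubgroup_iff L' s).mp hs
  refine ⟨n, ?_, ?_⟩
  · rw [map_mul t, map_mul t, hti τ hτ, mul_one, map_pow t,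
      hL s fun x hx => hfix x (hL' (le_sup_left (b := IntermediateField.adjoin ℚ _) hx)), mul_one]
  · have h1 : s ζ = ζ := hfix ζ (hL' (le_sup_right (a := L)
      (IntermediateField.mem_adjoin_simple_self ℚ ζ)))
    rw [AlgEquiv.mul_apply, AlgEquiv.mul_apply, h1,
      apply_root_eq h hNd hζ.pow_eq_one (isInert_of_mem_inertia hτ)]
    clear hσ hs hfix
    induction n with
    | zero => simp
    | succ n ih =>
      rw [pow_succ' φ, AlgEquiv.mul_apply, ih, _root_.map_pow,
        frob_apply_root h hφ hNd hζ.pow_eq_one,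
        ← pow_mul, ← pow_succ']

/-- The model of a twisted conjugate of the reduction of a flat representation. -/
theorem nonempty_model_twisted (hp2 : p ≠ 2) (r : Γℚ →* M2 B) (hr : MatCont r)
    (hflat : (repOf r hr).IsFlatAt p) (J : Ideal B) [Finite (B ⧸ J)] (h : IsPlace A p)
    (t : Γℚ →* B) (htp : ∀ σ, ∃ n : ℕ, t σ ^ p ^ n = 1)
    (hti : ∀ σ ∈ A.inertiaSubgroupIn ℚ, t σ = 1) (S : Γℚ →* M2 B) (P : (M2 B)ˣ)
    (hP : ∀ σ, S σ = (P : M2 B) * (t σ • r σ) * (↑P⁻¹ : M2 B))
    (L₀ : IntermediateField ℚ ℚbar) [FiniteDimensional ℚ L₀]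
    (hL₀ : ∀ σ : Γℚ, (∀ x ∈ L₀, σ x = x) → ∀ i j, (S σ - 1) i j ∈ J) :
    Nonempty (Model A (A.decompositionSubgroup ℚ)
      (fun σ => mvHom ((S σ).map (Ideal.Quotient.mk J)))) := by
  classical
  set mk := Ideal.Quotient.mk J
  obtain ⟨eJ, heJ⟩ := exists_maximalIdeal_pow_le_of_isArtinianRing_quotient J
  obtain ⟨L₁, _, hL₁⟩ := hr eJ
  obtain ⟨φ, hφ⟩ := Fermat.CFT.exists_isFrobeniusAt h.1 h.2
  -- on the decomposition group the twist is a power of its value at Frobenius
  obtain ⟨a, ha⟩ := htp φ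
  set m := p ^ a with hm
  have hm0 : m ≠ 0 := pow_ne_zero _ h.1.ne_zero
  have hpm : 1 < p ^ m := Nat.one_lt_pow hm0 h.1.one_lt
  have : NeZero (p ^ m - 1) := ⟨by omega⟩
  have : NeZero ((p ^ m - 1 : ℕ) : ℚbar) := ⟨Nat.cast_ne_zero.mpr (NeZero.ne _)⟩
  have hNd : ¬ p ∣ p ^ m - 1 := fun hd => by
    have h3 := Nat.dvd_sub (dvd_pow_self p hm0) hd
    rw [Nat.sub_sub_self hpm.le] at h3
    exact h.1.not_dvd_one h3
  obtain ⟨ζ, hζ⟩ := HasEnoughRootsOfUnity.exists_primitiveRoot ℚbar (p ^ m - 1)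
  have hdec : ∀ σ ∈ A.decompositionSubgroup ℚ,
      ∃ n : ℕ, mk (t σ) = mk (t φ) ^ n ∧ σ ζ = ζ ^ p ^ n :=
    exists_pow_frob_value h (mk.toMonoidHom.comp t)
    (fun σ hσ => (congrArg mk (hti σ hσ)).trans (map_one mk)) (L₀ ⊔ L₁)
    (fun σ hσ => mk_twist_eq_one J (hP σ) (hL₀ σ fun x hx => hσ x (le_sup_left (b := L₁) hx))
      fun i j => heJ (hL₁ σ (fun x hx => hσ x (le_sup_right (a := L₀) hx)) i j)) hφ hNd hζ
  -- twist the model of `r`
  obtain ⟨G⟩ := nonempty_model_reduction r hr hflat J h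
  have hs : ∀ c : B ⧸ J, ∀ X : M2 (B ⧸ J), (c • (1 : M2 (B ⧸ J))) * X = c • X := fun c X => by
    rw [Matrix.smul_mul, one_mul]
  have hgt : ∀ σ, mvHom (mk (t σ) • (r σ).map mk) =
      mvHom ((r σ).map mk) * mvHom (mk (t σ) • (1 : M2 (B ⧸ J))) := fun σ => by
    rw [← map_mul, Matrix.mul_smul, mul_one]
  obtain ⟨G'⟩ := G.nonempty_twist (g' := fun σ => mvHom (mk (t σ) • (r σ).map mk)) h hp2
    (mvHom (mk (t φ) • (1 : M2 (B ⧸ J)))) hm0 (by
      rw [← map_pow, smul_pow, one_pow, ← map_pow mk, hm, ha, map_one, one_smul, map_one])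
    (fun σ _ x => by
      change (mk (t φ) • (1 : M2 (B ⧸ J))) *ᵥ ((r σ).map mk *ᵥ x) =
        (r σ).map mk *ᵥ ((mk (t φ) • (1 : M2 (B ⧸ J))) *ᵥ x)
      rw [Matrix.mulVec_mulVec, Matrix.mulVec_mulVec, hs, Matrix.mul_smul, mul_one])
    (by rw [map_one t, map_one, one_smul, map_one r, Matrix.map_one _ (map_zero _)
          (map_one _), map_one])
    (fun σ _ τ _ => by
      rw [← map_mul, Matrix.smul_mul, Matrix.mul_smul, smul_smul, ← map_mul mk, ← map_mul t,
        ← Matrix.map_mul, ← map_mul r])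
    hζ (fun σ hσ => by
      obtain ⟨n, hn, hn'⟩ := hdec σ hσ
      refine ⟨n, fun x => ?_, hn'⟩
      rw [hgt, ← map_pow, smul_pow, one_pow, hn]
      rfl)
  -- and move it to the basis of `S`
  let ι : (Fin 2 → B ⧸ J) →+ (Fin 2 → B ⧸ J) := mvHom ((↑P⁻¹ : M2 B).map mk)
  refine ⟨G'.restrict ι (fun x y hxy => ?_) fun σ _ x => ?_⟩
  · have h2 := congrArg ((P : M2 B).map mk *ᵥ ·) hxy
    change (P : M2 B).map mk *ᵥ ((↑P⁻¹ : M2 B).map mk *ᵥ x) =
      (P : M2 B).map mk *ᵥ ((↑P⁻¹ : M2 B).map mk *ᵥ y) at h2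
    rw [Matrix.mulVec_mulVec, Matrix.mulVec_mulVec, ← Matrix.map_mul, Units.mul_inv,
      Matrix.map_one _ (map_zero mk) (map_one mk), Matrix.one_mulVec, Matrix.one_mulVec] at h2
    exact h2
  · change (↑P⁻¹ : M2 B).map mk *ᵥ ((S σ).map mk *ᵥ x) =
      (mk (t σ) • (r σ).map mk) *ᵥ ((↑P⁻¹ : M2 B).map mk *ᵥ x)
    rw [Matrix.mulVec_mulVec, Matrix.mulVec_mulVec, ← Matrix.map_smul' _ _ _ (map_mul _),
      ← Matrix.map_mul, ← Matrix.map_mul, hP]
    simp only [← mul_assoc, Units.inv_mul, one_mul]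

end PerFactor

/-- The map `(f, g) ↦ e (f + g ε)` on a factor of the power, in the dual numbers. -/
def dualPart {R k : Type} [CommRing R] [Field k] (πb dd : R →+ k) (e : k × k) :
    (Fin 2 → R) →+ (Fin 2 → k) × (Fin 2 → k) :=
  AddMonoidHom.mk' (fun y => (e.1 • (fun j => dd (y j)) + e.2 • (fun j => πb (y j)),
      e.1 • fun j => πb (y j))) fun x y => by
    refine Prod.ext (funext fun j => ?_) (funext fun j => ?_) <;>
      simp only [Prod.fst_add, Prod.snd_add, Pi.add_apply, Pi.smul_apply, map_add, smul_eq_mul] <;>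
      ring

/-- On a quotient, the parts in the dual numbers commute with a representation and its first order
deformation. -/
theorem dualPart_mulVec {R k : Type} [CommRing R] [Field k] {I : Ideal R} {π : R →+* k}
    {d : R → k} (hd : IsDeriv π d) (πb : R ⧸ I →+* k) (dd : R ⧸ I →+ k)
    (hπb : ∀ a, πb (Ideal.Quotient.mk I a) = π a) (hdd : ∀ a, dd (Ideal.Quotient.mk I a) = d a)
    (rep : Γℚ →* M2 R) (σ : Γℚ) (e : k × k) (y : Fin 2 → R ⧸ I) :
    dualPart πb.toAddMonoidHom dd e ((rep σ).map (Ideal.Quotient.mk I) *ᵥ y) =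
      dualAct (resHom π rep) (tcoc π rep d) σ (dualPart πb.toAddMonoidHom dd e y) := by
  have hπy : (fun j => πb (((rep σ).map (Ideal.Quotient.mk I) *ᵥ y) j)) =
      resHom π rep σ *ᵥ fun j => πb (y j) := by
    rw [map_mulVec_apply, Matrix.map_map]
    exact congrArg (· *ᵥ _) (Matrix.ext fun a b => hπb _)
  have hdy : (fun j => dd (((rep σ).map (Ideal.Quotient.mk I) *ᵥ y) j)) =
      resHom π rep σ *ᵥ (fun j => dd (y j)) + (rep σ).map d *ᵥ fun j => πb (y j) := by
    funext j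
    choose b hb using fun l => Ideal.Quotient.mk_surjective (I := I) (y l)
    have e1 : ((rep σ).map (Ideal.Quotient.mk I) *ᵥ y) j =
        Ideal.Quotient.mk I ((rep σ *ᵥ b) j) := by
      rw [show y = fun l => Ideal.Quotient.mk I (b l) from funext fun l => (hb l).symm]
      exact (RingHom.map_mulVec (Ideal.Quotient.mk I) (rep σ) b j).symm
    rw [e1, hdd]
    simp only [Pi.add_apply, Matrix.mulVec, dotProduct, Fin.sum_univ_two, hd.add, hd.mul,
      resHom_apply, Matrix.map_apply, ← hb, hdd, hπb]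
    ring
  simp only [dualPart, AddMonoidHom.mk'_apply, RingHom.toAddMonoidHom_eq_coe,
    AddMonoidHom.coe_coe, dualAct_apply]
  rw [hπy, hdy, Matrix.mulVec_add]
  simp only [Matrix.mulVec_smul]
  rw [Matrix.mulVec_mulVec _ (tcoc π rep d σ), ← map_eq_tcoc_mul σ, smul_add]
  exact Prod.ext (by simp only; abel) rfl

/-- A deep ideal of a finite product of discrete valuation rings pulls back into the kernel of a
derivation. -/
theorem exists_deep_level {𝒪 : Type} [CommRing 𝒪] [IsDomain 𝒪] [IsDiscreteValuationRing 𝒪]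
    {ι : Type} [Finite ι] {B : ι → Type} [∀ i, CommRing (B i)] [∀ i, IsDomain (B i)]
    [∀ i, IsDiscreteValuationRing (B i)] [∀ i, Algebra 𝒪 (B i)] [∀ i, Module.Finite 𝒪 (B i)]
    [∀ i, IsLocalHom (algebraMap 𝒪 (B i))] [Finite (ResidueField 𝒪)]
    {R : Type} [CommRing R] [IsLocalRing R] [Algebra 𝒪 R]
    (pr : ∀ i, R →ₐ[𝒪] B i) (hinj : ∀ a, (∀ i, pr i a = 0) → a = 0)
    {k : Type} [Field k] {π : R →+* k} {d : R → k} (hπ : ∀ a ∈ maximalIdeal R, π a = 0)
    (hd : IsDeriv π d) :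
    ∃ J : ∀ i, Ideal (B i), (∀ i, Finite (B i ⧸ J i)) ∧
      ∀ a, (∀ i, pr i a ∈ J i) → π a = 0 ∧ d a = 0 := by
  classical
  obtain ⟨ϖ, hϖ⟩ := IsDiscreteValuationRing.exists_irreducible 𝒪
  have hϖmax := hϖ.maximalIdeal_eq
  -- the uniformiser is not zero in any `B i`
  have hϖB : ∀ i, algebraMap 𝒪 (B i) ϖ ≠ 0 := fun i h0 => by
    obtain ⟨n, g, hg⟩ := Module.Finite.exists_fin (R := 𝒪) (M := B i)
    have hz : ∀ c ∈ maximalIdeal 𝒪, ∀ b : B i, c • b = 0 := fun c hc b => by
      rw [hϖmax, Ideal.mem_span_singleton'] at hc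
      obtain ⟨c', rfl⟩ := hc
      rw [Algebra.smul_def, _root_.map_mul, h0, mul_zero, zero_mul]
    have : Finite (B i) := Finite.of_surjective
      (fun v : Fin n → ResidueField 𝒪 => ∑ j, Function.surjInv residue_surjective (v j) • g j)
      fun b => by
        obtain ⟨c, rfl⟩ := (Submodule.mem_span_range_iff_exists_fun 𝒪).mp
          (show b ∈ Submodule.span 𝒪 (Set.range g) from hg ▸ Submodule.mem_top)
        refine ⟨fun j => residue 𝒪 (c j), Finset.sum_congr rfl fun j _ => ?_⟩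
        rw [← sub_eq_zero, ← sub_smul]
        refine hz _ ?_ _
        rw [← residue_eq_zero_iff, _root_.map_sub, Function.surjInv_eq residue_surjective, sub_self]
    exact IsDiscreteValuationRing.not_isField (B i) (Finite.isField_of_domain (B i))
  let φ : R →ₗ[𝒪] ∀ i, B i := LinearMap.pi fun i => (pr i).toLinearMap
  -- Artin-Rees: a point deep in every `B i` is divisible by `ϖ²` in `R`
  obtain ⟨c, hc⟩ := Ideal.exists_pow_inf_eq_pow_smul (maximalIdeal 𝒪) (LinearMap.range φ)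
  refine ⟨fun i => Ideal.span {algebraMap 𝒪 (B i) ϖ ^ (c + 2)}, fun i => ?_, fun a ha => ?_⟩
  · obtain ⟨u, hu⟩ := IsDiscreteValuationRing.exists_irreducible (B i)
    obtain ⟨e, he⟩ := IsDiscreteValuationRing.ideal_eq_span_pow_irreducible
      (s := Ideal.span {algebraMap 𝒪 (B i) ϖ ^ (c + 2)})
      (by rw [Ne, Ideal.span_singleton_eq_bot]; exact pow_ne_zero _ (hϖB i)) hu
    change Finite (B i ⧸ Ideal.span {algebraMap 𝒪 (B i) ϖ ^ (c + 2)})
    rw [he, ← Ideal.span_singleton_pow, ← hu.maximalIdeal_eq]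
    have : Finite (B i ⧸ maximalIdeal (B i)) :=
      (Module.finite_of_finite (ResidueField 𝒪) : Finite (ResidueField (B i)))
    exact Ideal.finite_quotient_pow (IsNoetherian.noetherian _) e
  rcases isEmpty_or_nonempty ι with hι | ⟨⟨i₀⟩⟩
  · rw [hinj a fun i => isEmptyElim i]
    exact ⟨map_zero π, hd.zero⟩
  have hm : algebraMap 𝒪 R ϖ ∈ maximalIdeal R := by
    rw [mem_maximalIdeal, mem_nonunits_iff]
    intro hu
    have h1 := hu.map (pr i₀)
    rw [AlgHom.commutes] at h1
    exact hϖ.not_isUnit (IsUnit.of_map (algebraMap 𝒪 (B i₀)) ϖ h1)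
  choose y hy using fun i => Ideal.mem_span_singleton'.mp (ha i)
  have hin : φ a ∈ maximalIdeal 𝒪 ^ (c + 2) • (⊤ : Submodule 𝒪 (∀ i, B i)) ⊓ LinearMap.range φ := by
    refine ⟨?_, ⟨a, rfl⟩⟩
    have : φ a = ϖ ^ (c + 2) • y := funext fun i => by
      change pr i a = _
      rw [Pi.smul_apply, Algebra.smul_def, map_pow, mul_comm, hy i]
    rw [this, hϖmax, Ideal.span_singleton_pow]
    exact Submodule.smul_mem_smul (Ideal.mem_span_singleton_self _) Submodule.mem_top
  rw [hc (c + 2) (by omega), Nat.add_sub_cancel_left] at hin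
  have h2 : φ a ∈ maximalIdeal 𝒪 ^ 2 • LinearMap.range φ :=
    Submodule.smul_mono le_rfl inf_le_right hin
  rw [hϖmax, Ideal.span_singleton_pow, Submodule.ideal_span_singleton_smul] at h2
  obtain ⟨_, ⟨b, rfl⟩, hb⟩ := h2
  have hab : a = algebraMap 𝒪 R (ϖ ^ 2) * b := sub_eq_zero.mp (hinj _ fun i => by
    have h3 : φ a i = (ϖ ^ 2 • φ b) i := congrFun hb.symm i
    rw [Pi.smul_apply, Algebra.smul_def] at h3
    rw [_root_.map_sub, _root_.map_mul, AlgHom.commutes]
    exact sub_eq_zero.mpr h3)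
  -- so it lies in the square of the maximal ideal, where `π` and `d` vanish
  have h4 : a ∈ maximalIdeal R ^ 2 := by
    rw [hab, map_pow]
    exact Ideal.mul_mem_right _ _ (Ideal.pow_mem_pow hm 2)
  refine ⟨hπ a (Ideal.pow_le_self two_ne_zero h4), ?_⟩
  rw [hd.eq_of_sub_mem_sq hπ (b := 0) (by rwa [sub_zero]), hd.zero]

/-- **The tangent vectors of a ring of flat representations give flat classes.** -/
theorem flatCocycleStatement : FlatCocycleStatement p := by
  intro hp2 𝒪 _ _ _ _ _ _ hp𝒪 ι _ B _ _ _ _ _ _ R _ _ _ _ pr hinj rep hrep r hr hflat A hA t htp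
    hti hconj k _ _ _ π d hπ hd hd𝒪 hdet
  classical
  have : CharP k p := charP_of_injective_algebraMap (algebraMap (ZMod p) k).injective p
  have h : IsPlace A p := ⟨Fact.out, hA⟩
  have hD := Fermat.FLAT.inertia_le_decomposition A
  refine ⟨⟨fun σ _ => trace_tcoc hd hdet σ, fun σ _ τ _ => ?_, ?_⟩, ?_⟩
  · rw [tcoc_mul hd, add_comm]
  · obtain ⟨L, _, hL⟩ := hrep 2
    obtain ⟨L', _, _, hLL'⟩ := exists_normal_level L
    refine ⟨L', inferInstance, inferInstance, fun τ _ hτ => ?_⟩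
    have h1 := tcoc_congr hd hπ (σ := τ) (τ := 1) fun i j => by
      rw [map_one, ← Matrix.sub_apply]
      exact hL τ (fun x hx => (IntermediateField.mem_fixingSubgroup_iff L' τ).mp hτ x (hLL' hx)) i j
    rw [h1, tcoc, map_one, hd.map_one, zero_mul]
  obtain ⟨J, hJfin, hJ⟩ := exists_deep_level pr hinj hπ hd
  have := hJfin
  choose P hP using hconj
  let q : R →+* ∀ i, B i ⧸ J i :=
    RingHom.pi fun i => (Ideal.Quotient.mk (J i)).comp (pr i).toRingHom
  set I := RingHom.ker q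
  have hI : ∀ a, a ∈ I ↔ ∀ i, pr i a ∈ J i := fun a => by
    rw [RingHom.mem_ker, funext_iff]
    exact forall_congr' fun i => Ideal.Quotient.eq_zero_iff_mem
  have : Finite (R ⧸ I) := Finite.of_injective _ (RingHom.kerLift_injective q)
  obtain ⟨eI, heI⟩ := exists_maximalIdeal_pow_le_of_isArtinianRing_quotient I
  obtain ⟨L₀, _, hL₀⟩ := hrep eI
  let S : ∀ i, Γℚ →* M2 (B i) := fun i => ((pr i).toRingHom.mapMatrix).toMonoidHom.comp rep
  have hSL : ∀ i σ, (∀ x ∈ L₀, σ x = x) → ∀ u v, (S i σ - 1) u v ∈ J i := by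
    intro i σ hσ u v
    have h1 := (hI _).mp (heI (hL₀ σ hσ u v)) i
    have e : (S i σ - 1) u v = pr i ((rep σ - 1) u v) := by
      change pr i (rep σ u v) - (1 : M2 (B i)) u v = _
      rw [Matrix.sub_apply, _root_.map_sub, Matrix.one_apply, Matrix.one_apply]
      split_ifs <;> simp
    rwa [e]
  have G₁ : ∀ i, Model A (A.decompositionSubgroup ℚ)
      (fun σ => mvHom ((S i σ).map (Ideal.Quotient.mk (J i)))) := fun i =>
    (nonempty_model_twisted hp2.ne' (r i) (hr i) (hflat i) (J i) h (t i) (htp i) (hti i) (S i)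
      (P i) (hP i) L₀ (hSL i)).some
  -- the reduction of the trace ring
  let κ : ∀ i, R ⧸ I →+* B i ⧸ J i := fun i =>
    Ideal.Quotient.lift I ((Ideal.Quotient.mk (J i)).comp (pr i).toRingHom) fun a ha =>
      Ideal.Quotient.eq_zero_iff_mem.mpr ((hI a).mp ha i)
  let mkI : R →+* R ⧸ I := Ideal.Quotient.mk I
  let qR : ∀ i, (Fin 2 → R ⧸ I) →+ (Fin 2 → B i ⧸ J i) := fun i =>
    AddMonoidHom.mk' (fun x j => κ i (x j)) fun x y => funext fun j => map_add (κ i) _ _
  obtain ⟨G₂⟩ := Model.nonempty_of_family h hD G₁ qR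
    (g := fun σ => mvHom ((rep σ).map mkI)) (fun x y hxy => funext fun j => by
      obtain ⟨a, ha⟩ := Ideal.Quotient.mk_surjective (I := I) (x j)
      obtain ⟨b, hb⟩ := Ideal.Quotient.mk_surjective (I := I) (y j)
      rw [← ha, ← hb, Ideal.Quotient.eq, hI]
      intro i
      have h1 : κ i (x j) = κ i (y j) := congrFun (hxy i) j
      rw [← ha, ← hb, Ideal.Quotient.lift_mk, Ideal.Quotient.lift_mk] at h1
      rw [_root_.map_sub]
      exact Ideal.Quotient.eq.mp h1)
    (fun i σ _ x => by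
      change (fun j => κ i (((rep σ).map mkI *ᵥ x) j)) = _
      rw [map_mulVec_apply, Matrix.map_map]
      rfl)
  obtain ⟨G₃⟩ := Model.nonempty_of_family (T := k × k) (N := fun _ => Fin 2 → R ⧸ I) h hD
    (fun _ => G₂) (fun e => Pi.evalAddMonoidHom (fun _ : k × k => Fin 2 → R ⧸ I) e)
    (g := fun σ => AddMonoidHom.mk' (fun x e => (rep σ).map mkI *ᵥ x e)
      fun x y => funext fun e => mulVec_add _ _ _)
    (fun x y hxy => funext hxy) (fun e σ _ x => rfl)
  -- the dual numbers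
  have hker : ∀ a ∈ I, π a = 0 ∧ d a = 0 := fun a ha => hJ a ((hI a).mp ha)
  let πb : R ⧸ I →+* k := Ideal.Quotient.lift I π fun a ha => (hker a ha).1
  let dR : R →+ k := AddMonoidHom.mk' d hd.add
  let dd : R ⧸ I →+ k :=
    QuotientAddGroup.lift I.toAddSubgroup dR fun a ha => (hker a ha).2
  have hdd : ∀ a, dd (mkI a) = d a := fun a => rfl
  have := Fintype.ofFinite k
  let F : ((k × k) → Fin 2 → R ⧸ I) →+ (Fin 2 → k) × (Fin 2 → k) :=
    AddMonoidHom.mk' (fun x => ∑ e, dualPart πb.toAddMonoidHom dd e (x e)) fun x y => by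
      simp only [Pi.add_apply, map_add, Finset.sum_add_distrib]
  refine ⟨G₃.quot h F (fun z => ?_) fun σ _ x => ?_⟩
  · refine ⟨fun e => ∑ j : Fin 2, if (z.2 j, z.1 j) = e then Pi.single j 1 else 0, ?_⟩
    change ∑ e, dualPart _ dd e (∑ j : Fin 2, _) = z
    simp only [map_sum, apply_ite (dualPart _ dd _), map_zero]
    rw [Finset.sum_comm]
    simp only [Finset.sum_ite_eq, Finset.mem_univ, if_true]
    have e0 : dd 1 = 0 := (hdd 1).trans hd.one
    refine Prod.ext (funext fun l => ?_) (funext fun l => ?_) <;>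
      simp only [dualPart, AddMonoidHom.mk'_apply, Fin.sum_univ_two, RingHom.toAddMonoidHom_eq_coe,
        AddMonoidHom.coe_coe] <;>
      fin_cases l <;> simp [e0]
  · change F (fun e => (rep σ).map mkI *ᵥ x e) =
      dualAct (resHom π rep) (tcoc π rep d) σ (F x)
    simp only [F, AddMonoidHom.mk'_apply, map_sum]
    exact Finset.sum_congr rfl fun e _ =>
      dualPart_mulVec hd πb dd (fun a => rfl) hdd rep σ e (x e)

end Fermat.GR.RT

end
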