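import Mathlib
import Fermat.Agent.GR.Patch.Push
import Fermat.Agent.HM.Raise.Package

/-!
# Matrices of a chain of free modules over the auxiliary group ring

Bases turn equivariant surjections into matrices with a right inverse, and a descent to the base
identifies the reduction of the matrices with the action at the base.
-/

set_option autoImplicit false

noncomputable section

namespace Fermat.GR.RT

open Matrix Fermat.HM

variable {O : Type} [CommRing O] {A : Type} [CommRing A] [Algebra O A] {R : Type} [CommRing R]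
  [Algebra O R] (φ : A →ₐ[O] R)
  {H : Type} [CommRing H] [Algebra O H]
  {X Y : Type} [AddCommGroup X] [Module A X] [Module O X] [IsScalarTower O A X] [AddCommGroup Y]
  [Module A Y] [Module O Y] [IsScalarTower O A Y]
  {a b : Type} [Fintype a] [DecidableEq a] [Fintype b] [DecidableEq b]
  (bX : Module.Basis a A X) (bY : Module.Basis b A Y)

/-- The matrices of an action. -/
def matAct (act : H →ₐ[O] Module.End A X) : H →ₐ[O] Matrix a a R :=
  φ.mapMatrix.comp (((LinearMap.toMatrixAlgEquiv bX).toAlgHom.restrictScalars O).comp act)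

/-- `matAct` is the matrix of the action with `φ` applied to the entries. -/
theorem matAct_apply (act : H →ₐ[O] Module.End A X) (h : H) :
    matAct φ bX act h = (LinearMap.toMatrix bX bX (act h)).map φ := rfl

/-- A surjection intertwining two actions, as a matrix with a right inverse. -/
theorem exists_proj_matrices (actX : H →ₐ[O] Module.End A X) (actY : H →ₐ[O] Module.End A Y)
    (f : X →ₗ[A] Y) (hf : Function.Surjective f) (hc : ∀ h x, f (actX h x) = actY h (f x)) :
    ∃ (P : Matrix b a R) (Q : Matrix a b R), P * Q = 1 ∧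
      ∀ h, P * matAct φ bX actX h = matAct φ bY actY h * P := by
  have : Module.Free A Y := Module.Free.of_basis bY
  obtain ⟨g, hg⟩ := Module.projective_lifting_property f LinearMap.id hf
  refine ⟨(LinearMap.toMatrix bX bY f).map φ, (LinearMap.toMatrix bY bX g).map φ, ?_, fun h => ?_⟩
  · rw [← Matrix.map_mul, ← LinearMap.toMatrix_comp, hg, LinearMap.toMatrix_id,
      Matrix.map_one _ (map_zero φ) (map_one φ)]
  · rw [matAct_apply, matAct_apply, ← Matrix.map_mul, ← Matrix.map_mul, ← LinearMap.toMatrix_comp,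
      ← LinearMap.toMatrix_comp]
    exact congrArg (fun u => (LinearMap.toMatrix bX bY u).map φ) (LinearMap.ext (hc h))

/-- A map which is surjective and equivariant modulo the image of an operator `t`. -/
theorem exists_desc_matrices (actX : H →ₐ[O] Module.End A X) (actY : H →ₐ[O] Module.End A Y)
    (t : H) (F : X →ₗ[A] Y) (hF : ∀ y, ∃ x z, y = F x + actY t z)
    (hc : ∀ h x, ∃ z, F (actX h x) - actY h (F x) = actY t z) :
    ∃ (P : Matrix b a R) (Q : Matrix a b R),
      (∃ Z : Matrix b b R, P * Q - 1 = matAct φ bY actY t * Z) ∧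
      ∀ h, ∃ Z : Matrix b a R,
        P * matAct φ bX actX h - matAct φ bY actY h * P = matAct φ bY actY t * Z := by
  choose x z hxz using fun j => hF (bY j)
  have hG : F ∘ₗ bY.constr A x + actY t ∘ₗ bY.constr A z = LinearMap.id :=
    bY.ext fun j => by simp [← hxz]
  refine ⟨(LinearMap.toMatrix bX bY F).map φ, (LinearMap.toMatrix bY bX (bY.constr A x)).map φ,
    ⟨-(LinearMap.toMatrix bY bY (bY.constr A z)).map φ, ?_⟩, fun h => ?_⟩
  · have e := congrArg (fun u => (LinearMap.toMatrix bY bY u).map φ) hG
    simp only [map_add, LinearMap.toMatrix_id, LinearMap.toMatrix_comp bY bX bY,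
      LinearMap.toMatrix_comp bY bY bY] at e
    rw [Matrix.map_add _ (map_add φ), Matrix.map_mul, Matrix.map_mul,
      Matrix.map_one _ (map_zero φ) (map_one φ)] at e
    rw [Matrix.mul_neg, matAct_apply, ← e]
    abel
  · choose w hw using fun i => hc h (bX i)
    have e : F ∘ₗ actX h - actY h ∘ₗ F = actY t ∘ₗ bX.constr A w :=
      bX.ext fun i => by simp [← hw]
    refine ⟨(LinearMap.toMatrix bX bY (bX.constr A w)).map φ, ?_⟩
    have e' := congrArg (fun u => (LinearMap.toMatrix bX bY u).map φ) e
    simp only [map_sub, LinearMap.toMatrix_comp bX bX bY, LinearMap.toMatrix_comp bX bY bY] at e'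
    rw [Matrix.map_sub _ (map_sub φ), Matrix.map_mul, Matrix.map_mul, Matrix.map_mul] at e'
    simpa only [matAct_apply] using e'

/-- An element acting by a scalar has a scalar matrix. -/
theorem matAct_scalar (act : H →ₐ[O] Module.End A X) {h : H} {c : A}
    (hh : ∀ x, act h x = c • x) : matAct φ bX act h = algebraMap R (Matrix a a R) (φ c) := by
  have e : LinearMap.toMatrixAlgEquiv bX (act h) = algebraMap A (Matrix a a A) c := by
    rw [show act h = algebraMap A (Module.End A X) c from LinearMap.ext hh, AlgEquiv.commutes]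
  change (LinearMap.toMatrixAlgEquiv bX (act h)).map φ = _
  rw [e]
  ext i j
  rw [Matrix.map_apply, Matrix.algebraMap_matrix_apply, Matrix.algebraMap_matrix_apply]
  split_ifs <;> simp

section Base

variable {A₀ : Type} [CommRing A₀] [Algebra O A₀] {s : A →ₐ[O] A₀} {X₀ : Type} [AddCommGroup X₀]
  [Module A₀ X₀] [Module O X₀] [IsScalarTower O A₀ X₀] (D : Twist.Descent s X X₀)

include D

omit [Module O X] [IsScalarTower O A X] [Module O X₀] [IsScalarTower O A₀ X₀] in
/-- The rank at an auxiliary level is the rank at the base. -/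
theorem finrank_descent [Nontrivial A] [Nontrivial A₀] [Module.Free A X] [Module.Finite A X] :
    Module.finrank A₀ X₀ = Module.finrank A X := by
  classical
  rw [Module.finrank_eq_card_basis (Twist.Descent.basis (O := O) D (Module.finBasis A X)),
    Fintype.card_fin]

/-- Matrices of an operator that vanishes at the base reduce to zero. -/
theorem map_matAct_eq_zero {a₀ : Type} [Fintype a₀] [DecidableEq a₀]
    (b₀ : Module.Basis a₀ A₀ X₀) (act : H →ₐ[O] Module.End A X)
    {H₀ : Type} [CommRing H₀] [Algebra O H₀] (act₀ : H₀ →ₐ[O] Module.End A₀ X₀) {h : H} {h₀ : H₀}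
    (hD : ∀ x, D.t (act h x) = act₀ h₀ (D.t x)) (h0 : act₀ h₀ = 0) :
    (LinearMap.toMatrix bX bX (act h)).map s = 0 := by
  have e := D.mat_mul_act bX b₀ hD
  rw [h0, map_zero, Matrix.zero_mul] at e
  have e' := congrArg ((D.basis bX).toMatrix b₀ * ·) e
  simp only [← Matrix.mul_assoc, Twist.Descent.mat, Module.Basis.toMatrix_mul_toMatrix_flip,
    Matrix.one_mul, Matrix.mul_zero] at e'
  exact e'

end Base

section Push

open IsLocalRing Fermat.GR.Patch

variable {𝒪 : Type} [CommRing 𝒪] [IsDomain 𝒪] [IsDiscreteValuationRing 𝒪]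
  [IsAdicComplete (maximalIdeal 𝒪) 𝒪] [Finite (ResidueField 𝒪)] [CharZero 𝒪] {d : ℕ}
  {A : Type} [CommRing A] [Algebra 𝒪 A] {A₀ : Type} [CommRing A₀] [Algebra 𝒪 A₀]

local notation "S" => MvPowerSeries (Fin d) 𝒪

/-- The entries of an operator vanishing at the base have constant terms divisible by `ϖ ^ n`. -/
theorem constantCoeff_mem_of_map {ϖ : 𝒪} (hϖ : Irreducible ϖ) {n : ℕ}
    (φ : A →ₐ[𝒪] S ⧸ maximalIdeal (MvPowerSeries (Fin d) 𝒪) ^ n) (s : A →ₐ[𝒪] A₀)
    (ε : A₀ →ₐ[𝒪] 𝒪) (hφ : ∀ l, constRed d hϖ n (φ l) = Ideal.Quotient.mk _ (ε (s l)))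
    {m : ℕ} (M : Matrix (Fin m) (Fin m) A) (hM : M.map s = 0) (i j : Fin m) (x : S)
    (hx : Ideal.Quotient.mk _ x = M.map φ i j) :
    MvPowerSeries.constantCoeff x ∈ Ideal.span {ϖ ^ n} := by
  rw [← Ideal.Quotient.eq_zero_iff_mem, ← constRed_mk hϖ n x, hx, Matrix.map_apply, hφ,
    show s (M i j) = 0 from congrFun (congrFun hM i) j, map_zero, map_zero]

end Push

end Fermat.GR.RT

end
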