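import Mathlib
import Fermat.Agent.GR.RT.ModMatrices
import Fermat.Agent.GR.RT.TraceFrob

/-!
# Matrices of the trace ring in given residual bases

Values at the points of the conjugated matrices, their reductions, and the way an operator which
separates a subset of the points cuts down an action.
-/

set_option autoImplicit false
set_option linter.unusedSectionVars false

noncomputable section

namespace Fermat.GR.RT

open IsLocalRing Fermat.HM

local notation "Γℚ" => (AlgebraicClosure ℚ ≃ₐ[ℚ] AlgebraicClosure ℚ)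
local notation "M2" R => Matrix (Fin 2) (Fin 2) R

section Frame

variable {𝒪 : Type} [CommRing 𝒪] [IsDomain 𝒪] [IsDiscreteValuationRing 𝒪]
  [IsAdicComplete (maximalIdeal 𝒪) 𝒪] [Finite (ResidueField 𝒪)]
  {ι : Type} [Fintype ι] [Nonempty ι] {B : ι → Type} [∀ i, CommRing (B i)] [∀ i, IsLocalRing (B i)]
  [∀ i, Algebra 𝒪 (B i)] [∀ i, Module.Finite 𝒪 (B i)] [∀ i, IsLocalHom (algebraMap 𝒪 (B i))]
  {nd : NormData 𝒪} {ρ : ∀ i, Γℚ →* M2 (B i)} (T : TraceRep nd B ρ) {A : Type}
  (Pq : A → (M2 𝒪)ˣ)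

/-- The value of the representation over the trace ring, in the basis chosen at `q`. -/
def frameAt (e : A → Γℚ) (q : A) : M2 T.R :=
  (Pq q : M2 𝒪).map (algebraMap 𝒪 T.R) * T.rep (e q) *
    (↑(Pq q)⁻¹ : M2 𝒪).map (algebraMap 𝒪 T.R)

/-- At a point the framed matrices are the values of the representation, up to conjugation. -/
theorem exists_conj_frameAt (i : ι) (q : A) : ∃ U V : M2 (B i), U * V = 1 ∧
    ∀ e : A → Γℚ, (frameAt T Pq e q).map (T.pr i) = U * ρ i (e q) * V := by
  obtain ⟨P, hP⟩ := T.pr_rep i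
  refine ⟨((Pq q : M2 𝒪).map (algebraMap 𝒪 (B i))) * (P : M2 (B i)),
    (↑P⁻¹ : M2 (B i)) * (↑(Pq q)⁻¹ : M2 𝒪).map (algebraMap 𝒪 (B i)), ?_, fun e => ?_⟩
  · rw [Matrix.mul_assoc, ← Matrix.mul_assoc (P : M2 (B i)), P.mul_inv, Matrix.one_mul,
      ← Matrix.map_mul, Units.mul_inv, Matrix.map_one _ (map_zero _) (map_one _)]
  · have e2 : (T.rep (e q)).map (T.pr i) = (P : M2 (B i)) * ρ i (e q) * (↑P⁻¹ : M2 (B i)) := by
      rw [← hP, mul_assoc, P.mul_inv, mul_one]
      rfl
    have hcomm : ∀ M : M2 𝒪, (M.map (algebraMap 𝒪 T.R)).map (T.pr i) =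
        M.map (algebraMap 𝒪 (B i)) := fun M => Matrix.ext fun a b => (T.pr i).commutes _
    rw [frameAt, Matrix.map_mul, Matrix.map_mul, e2, hcomm, hcomm]
    simp only [Matrix.mul_assoc]

/-- A framed matrix has the trace of the representation at each point. -/
theorem pr_trace_frameAt (e : A → Γℚ) (i : ι) (q : A) :
    T.pr i (frameAt T Pq e q).trace = (ρ i (e q)).trace := by
  obtain ⟨U, V, hUV, hM⟩ := exists_conj_frameAt T Pq i q
  calc T.pr i (frameAt T Pq e q).trace = ((frameAt T Pq e q).map (T.pr i)).trace := by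
        simp [Matrix.trace_fin_two]
    _ = _ := by
        rw [hM, Matrix.trace_mul_cycle, mul_eq_one_comm.mp hUV, Matrix.one_mul]

/-- A framed matrix has the determinant of the representation at each point. -/
theorem pr_det_frameAt (e : A → Γℚ) (i : ι) (q : A) :
    T.pr i (frameAt T Pq e q).det = (ρ i (e q)).det := by
  obtain ⟨U, V, hUV, hM⟩ := exists_conj_frameAt T Pq i q
  rw [AlgHom.map_det, AlgHom.mapMatrix_apply, hM, Matrix.det_mul, Matrix.det_mul, mul_comm U.det,
    mul_assoc, ← Matrix.det_mul, hUV, Matrix.det_one, mul_one]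

/-- The representation over the trace ring has the trace of `ρ i` at the point `i`. -/
theorem pr_trace_rep (σ : Γℚ) (i : ι) : T.pr i (T.rep σ).trace = (ρ i σ).trace := by
  obtain ⟨P, hP⟩ := T.pr_rep i
  rw [← (trace_det_of_conj P (hP σ)).1]
  simp [Matrix.trace_fin_two]

/-- The framed matrices reduce to the normalised ones. -/
theorem frameAt_red (e : A → Γℚ) (M₀ : A → M2 𝒪) (h : ∀ q i j,
    ((Pq q : M2 𝒪) * nd.bar (e q) * (↑(Pq q)⁻¹ : M2 𝒪) - M₀ q) i j ∈ maximalIdeal 𝒪)
    (q : A) (i j : Fin 2) :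
    frameAt T Pq e q i j - algebraMap 𝒪 T.R (M₀ q i j) ∈ maximalIdeal T.R := by
  have h1 : (residue T.R).mapMatrix (T.rep (e q)) =
      (residue T.R).mapMatrix ((nd.bar (e q)).map (algebraMap 𝒪 T.R)) :=
    Matrix.ext fun a b => Ideal.Quotient.eq.mpr (T.normal.red (e q) a b)
  have h2 : (residue T.R).mapMatrix (frameAt T Pq e q) = (residue T.R).mapMatrix
      (((Pq q : M2 𝒪) * nd.bar (e q) * (↑(Pq q)⁻¹ : M2 𝒪)).map (algebraMap 𝒪 T.R)) := by
    rw [frameAt, Matrix.map_mul, Matrix.map_mul, map_mul, map_mul, map_mul, map_mul, h1]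
  have h3 : frameAt T Pq e q i j - algebraMap 𝒪 T.R
      (((Pq q : M2 𝒪) * nd.bar (e q) * (↑(Pq q)⁻¹ : M2 𝒪)) i j) ∈ maximalIdeal T.R :=
    Ideal.Quotient.eq.mp (congrFun (congrFun h2 i) j)
  have h4 := map_nonunit (algebraMap 𝒪 T.R) _ (h q i j)
  rw [Matrix.sub_apply, map_sub] at h4
  have := add_mem h3 h4
  rwa [sub_add_sub_cancel] at this

/-- Framed matrices reduce to the identity when the normalised ones do. -/
theorem frameAt_red_one (e : A → Γℚ) (h : ∀ q i j,
    ((Pq q : M2 𝒪) * nd.bar (e q) * (↑(Pq q)⁻¹ : M2 𝒪) - 1) i j ∈ maximalIdeal 𝒪)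
    (q : A) (i j : Fin 2) :
    frameAt T Pq e q i j - (1 : M2 T.R) i j ∈ maximalIdeal T.R := by
  have h' := frameAt_red T Pq e (fun _ => 1) h q i j
  rwa [show algebraMap 𝒪 T.R ((1 : M2 𝒪) i j) = (1 : M2 T.R) i j by
    rw [Matrix.one_apply, Matrix.one_apply]; split_ifs <;> simp] at h'

end Frame

section Cut

variable {O : Type} [CommRing O] {A : Type} [CommRing A] [Algebra O A] {R : Type} [CommRing R]
  [Algebra O R] (φ : A →ₐ[O] R) {H : Type} [CommRing H] [Algebra O H]
  {X : Type} [AddCommGroup X] [Module A X] [Module O X] [IsScalarTower O A X]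
  {a : Type} [Fintype a] [DecidableEq a] (bX : Module.Basis a A X)
  {ι : Type} {B : ι → Type} [∀ i, CommRing (B i)] [∀ i, Algebra O (B i)]

/-- An operator which vanishes at a set of points acts as zero after a specialisation of the group
ring, if some scalar `e` vanishes at all other points and only the kernel of the specialisation is
killed by `e`. -/
theorem matAct_eq_zero_of_cut (act : H →ₐ[O] Module.End A X) (pt : ∀ i, H →ₐ[O] B i)
    (hsep : ∀ h, (∀ i, pt i h = 0) → act h = 0) {e : A} {he : H} (hact : ∀ x, act he x = e • x)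
    (hnil : ∀ f, e * f = 0 → φ f = 0) {s : Set ι} (hout : ∀ i ∉ s, pt i he = 0) {h : H}
    (hh : ∀ i ∈ s, pt i h = 0) : matAct φ bX act h = 0 := by
  have h0 : act (he * h) = 0 := hsep _ fun i => by
    rw [map_mul]
    by_cases hi : i ∈ s
    · rw [hh i hi, mul_zero]
    · rw [hout i hi, zero_mul]
  rw [matAct_apply]
  ext i j
  rw [Matrix.map_apply, Matrix.zero_apply, LinearMap.toMatrix_apply]
  refine hnil _ ?_
  have h1 : e • act h (bX j) = 0 := by
    rw [← hact, ← Module.End.mul_apply, ← map_mul, h0, LinearMap.zero_apply]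
  have h2 := congrArg (fun x => bX.repr x i) h1
  simpa using h2

end Cut

section GroupRing

variable {O : Type} [CommRing O] {ΔA Δ : Type} [CommGroup ΔA] [CommGroup Δ] [Fintype ΔA]

/-- The element cutting out the eigen character `χ`. -/
def cutElt (Δ : Type) [CommGroup Δ] (χ : ΔA →* O) : MonoidAlgebra O (ΔA × Δ) :=
  ∑ a : ΔA, MonoidAlgebra.single (a, (1 : Δ)) (χ a⁻¹)

/-- The cutting element specialises to the order of the group at its own character. -/
theorem chiAlgProd_cutElt (χ : ΔA →* O) :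
    chiAlgProd Δ χ (cutElt Δ χ) = (Fintype.card ΔA : MonoidAlgebra O Δ) := by
  have h : ∀ a : ΔA, chiAlgProd Δ χ (MonoidAlgebra.single (a, (1 : Δ)) (χ a⁻¹)) = 1 := fun a => by
    simp [chiAlgProd, MonoidAlgebra.coe_algebraMap, MonoidAlgebra.one_def, ← map_mul]
  simp [cutElt, map_sum, h]

/-- What the cutting element kills specialises to zero at its character. -/
theorem chiAlgProd_eq_zero [IsDomain O] [CharZero O] (χ : ΔA →* O)
    (f : MonoidAlgebra O (ΔA × Δ)) (hf : cutElt Δ χ * f = 0) : chiAlgProd Δ χ f = 0 := by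
  have h := congrArg (chiAlgProd Δ χ) hf
  rw [map_mul, chiAlgProd_cutElt, map_zero, ← map_natCast (algebraMap O (MonoidAlgebra O Δ)),
    ← Algebra.smul_def] at h
  refine MonoidAlgebra.ext (Finsupp.ext fun δ => ?_)
  have h' := congrArg (fun g : MonoidAlgebra O Δ => g.coeff δ) h
  simpa [MonoidAlgebra.coeff_smul, Fintype.card_ne_zero] using h'

/-- The cutting element vanishes at the other characters. -/
theorem lift_cutElt_eq_zero {B : Type} [CommRing B] [IsDomain B] [Algebra O B]
    (χ : ΔA →* O) (ψ : ΔA × Δ →* B) (h : ∃ a, ψ (a, 1) ≠ algebraMap O B (χ a)) :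
    MonoidAlgebra.lift O B (ΔA × Δ) ψ (cutElt Δ χ) = 0 := by
  let f : ΔA →* B :=
    { toFun := fun a => algebraMap O B (χ a⁻¹) * ψ (a, 1)
      map_one' := by simp [show ((1 : ΔA), (1 : Δ)) = 1 from rfl]
      map_mul' := fun a b => by
        rw [mul_inv, map_mul, map_mul, show ((a * b, 1) : ΔA × Δ) = (a, 1) * (b, 1) by simp,
          map_mul]
        ring }
  have hf : f ≠ 1 := fun hf => by
    obtain ⟨a, ha⟩ := h
    refine ha ?_
    have h1 : algebraMap O B (χ a⁻¹) * ψ (a, 1) = 1 := DFunLike.congr_fun hf a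
    calc ψ (a, 1) = algebraMap O B (χ a) * (algebraMap O B (χ a⁻¹) * ψ (a, 1)) := by
          rw [← mul_assoc, ← map_mul, ← map_mul, mul_inv_cancel, map_one, map_one, one_mul]
      _ = _ := by rw [h1, mul_one]
  simp only [cutElt, map_sum, MonoidAlgebra.lift_single, Algebra.smul_def]
  exact sum_hom_units_eq_zero f hf

end GroupRing

end Fermat.GR.RT

end
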