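import Mathlib
import Fermat.Agent.GR.RT.Gamma0Bridge
import Fermat.Agent.GR.ES.DVRExt
import Fermat.Agent.GR.Lifting.EigenformLift
import Fermat.Agent.MC.IntStructure
import Fermat.Agent.MF.Petersson.Hecke

/-!
# Coefficient rings generated by operators prime to the level are reduced

Operators prime to the level are diagonalisable, so a finite free coefficient ring generated by
their images embeds in the product of its points in characteristic zero.
-/

set_option autoImplicit false

noncomputable section

open CongruenceSubgroup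
open scoped TensorProduct

namespace Fermat.GR.RT

open Fermat.HM Fermat.MC.Lvl

variable {N : ℕ} [NeZero N] {S : Finset ℕ}

/-- The operators of the anemic algebra have a common spanning set of eigenforms. -/
theorem exists_span_eigen_anemic (hNS : ∀ q : ℕ, q.Prime → q ∣ N → q ∈ S) :
    ∃ B : Set (CuspForm (Gamma0 N) 2), Submodule.span ℂ B = ⊤ ∧
      ∀ t : CuspForm.heckeAlgebra N 2 (↑S : Set ℕ), ∀ v ∈ B, ∃ c : ℂ, t.1 v = c • v := by
  have : FiniteDimensional ℂ (CuspForm (Gamma0 N) 2) :=
    Fermat.GR.Lifting.finiteDimensional (Fermat.MC.hasIntegralBasis N)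
  have : FiniteDimensional ℂ (CuspForm (GammaH N ⊤) 2) := Module.Finite.equiv (toTop N)
  refine ⟨(toTop N).symm.toLinearMap '' {f : CuspForm (GammaH N ⊤) 2 |
      ∀ a : {a // Fermat.MF.Petersson.IsAnemic N a}, ∃ c : ℂ, formOp N ⊤ a.1 f = c • f}, ?_, ?_⟩
  · rw [Submodule.span_image, Fermat.MF.Petersson.span_anemic_eigen, Submodule.map_top]
    exact LinearEquiv.range _
  rintro ⟨t, ht⟩ _ ⟨f, hf, rfl⟩
  induction ht using Algebra.adjoin_induction with
  | mem x hx =>
    rcases hx with ⟨ℓ, hℓ, hℓN, -, rfl⟩ | ⟨q, hqN, hq, hqS, rfl⟩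
    · obtain ⟨c, hc⟩ := hf ⟨Sum.inl ⟨ℓ, hℓ⟩, hℓN⟩
      have : Fact ℓ.Prime := ⟨hℓ⟩
      refine ⟨c, (toTop N).injective ?_⟩
      refine (coe_formHecke_top_of_not_dvd N hℓN _).symm.trans ?_
      simp only [LinearEquiv.coe_coe, LinearEquiv.apply_symm_apply, map_smul]
      exact hc
    · exact absurd (hNS q hq hqN) (by simpa using hqS)
  | algebraMap n => exact ⟨(n : ℂ), by simp [Int.cast_smul_eq_zsmul]⟩
  | add x y _ _ ex ey =>
    obtain ⟨a, ha⟩ := ex
    obtain ⟨b, hb⟩ := ey
    exact ⟨a + b, by change (x + y) _ = _; rw [LinearMap.add_apply, ha, hb, add_smul]⟩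
  | mul x y _ _ ex ey =>
    obtain ⟨a, ha⟩ := ex
    obtain ⟨b, hb⟩ := ey
    exact ⟨b * a, by change (x * y) _ = _; rw [Module.End.mul_apply, hb, map_smul, ha, smul_smul]⟩

/-- An operator prime to the level is killed by a separable polynomial. -/
theorem exists_separable_kill (hNS : ∀ q : ℕ, q.Prime → q ∣ N → q ∈ S)
    (t : CuspForm.heckeAlgebra N 2 (↑S : Set ℕ)) :
    ∃ F : Polynomial ℤ, (F.map (Int.castRingHom ℚ)).Separable ∧ Polynomial.aeval t F = 0 := by
  classical
  have : Module.Finite ℤ (CuspForm.heckeAlgebra N 2 (∅ : Set ℕ)) :=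
    Fermat.GR.Lifting.moduleFinite_hecke (Fermat.MC.hasIntegralBasis N)
  obtain ⟨B, hB, hev⟩ := exists_span_eigen_anemic hNS
  let i := Subalgebra.inclusion (CuspForm.heckeAlgebra_mono (N := N) (k := 2)
    (Set.empty_subset (↑S : Set ℕ)))
  obtain ⟨g, hgm, hg⟩ : ∃ g : Polynomial ℤ, g.Monic ∧ Polynomial.aeval t g = 0 := by
    obtain ⟨g, hgm, hg⟩ := Algebra.IsIntegral.isIntegral (R := ℤ) (i t)
    exact ⟨g, hgm, Subalgebra.inclusion_injective _ (by
      change i (Polynomial.aeval t g) = i 0
      rw [← Polynomial.aeval_algHom_apply, map_zero]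
      exact hg)⟩
  -- `f` is the product of the distinct minimal polynomials of the possible eigenvalues
  set R : Finset ℂ := (g.map (algebraMap ℤ ℂ)).roots.toFinset with hR
  set f : Polynomial ℚ := ∏ m ∈ R.image (minpoly ℚ), m with hf
  have hint : ∀ c ∈ R, IsIntegral ℚ c := fun c hc => by
    rw [hR, Multiset.mem_toFinset, Polynomial.mem_roots (hgm.map _).ne_zero, Polynomial.IsRoot,
      Polynomial.eval_map] at hc
    exact IsIntegral.tower_top (R := ℤ) ⟨g, hgm, hc⟩
  have hsq : Squarefree f := by
    refine Finset.squarefree_prod_of_pairwise_isCoprime (fun m hm m' hm' hne => ?_) fun m hm => ?_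
    · obtain ⟨c, hc, rfl⟩ := Finset.mem_image.mp hm
      obtain ⟨c', hc', rfl⟩ := Finset.mem_image.mp hm'
      exact ((minpoly.irreducible (hint c hc)).isRelPrime_iff_not_dvd.mpr fun h => hne
        (Polynomial.eq_of_monic_of_associated (minpoly.monic (hint c hc))
          (minpoly.monic (hint c' hc'))
          ((minpoly.irreducible (hint c hc)).associated_of_dvd
            (minpoly.irreducible (hint c' hc')) h)))
    · obtain ⟨c, hc, rfl⟩ := Finset.mem_image.mp hm
      exact (minpoly.irreducible (hint c hc)).squarefree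
  -- clear denominators
  obtain ⟨b, hb0, hb⟩ := IsLocalization.integerNormalization_spec (nonZeroDivisors ℤ) f
  set F := IsLocalization.integerNormalization (nonZeroDivisors ℤ) f
  rw [show algebraMap ℤ ℚ = Int.castRingHom ℚ from RingHom.ext_int _ _,
    zsmul_eq_mul] at hb
  have hbq : IsUnit ((b : ℤ) : Polynomial ℚ) := by
    rw [← map_intCast (Polynomial.C : ℚ →+* Polynomial ℚ), Polynomial.isUnit_C, isUnit_iff_ne_zero]
    exact Int.cast_ne_zero.mpr (nonZeroDivisors.ne_zero hb0)
  refine ⟨F, ?_, ?_⟩
  · rw [hb, PerfectField.separable_iff_squarefree]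
    exact hsq.squarefree_of_dvd (hbq.mul_left_dvd.mpr dvd_rfl)
  -- it kills every eigenvector, and these span
  have hroot : ∀ c ∈ R, Polynomial.aeval c F = 0 := fun c hc => by
    rw [← Polynomial.aeval_map_algebraMap ℚ, show algebraMap ℤ ℚ = Int.castRingHom ℚ from
      RingHom.ext_int _ _, hb, map_mul, hf, map_prod,
      Finset.prod_eq_zero (Finset.mem_image_of_mem _ hc) (minpoly.aeval ℚ c), mul_zero]
  refine Subtype.ext ?_
  have hval : ∀ P : Polynomial ℤ, Polynomial.aeval t.1 P = (Polynomial.aeval t P).1 := fun P =>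
    Polynomial.aeval_algHom_apply (Subalgebra.val _) t P
  rw [← hval, ZeroMemClass.coe_zero]
  refine LinearMap.ext_on hB fun v hv => ?_
  rcases eq_or_ne v 0 with rfl | hv0
  · simp
  obtain ⟨c, hc⟩ := hev t v hv
  have hevec : Module.End.HasEigenvector t.1 c v := ⟨Module.End.mem_eigenspace_iff.mpr hc, hv0⟩
  have happly : ∀ P : Polynomial ℤ, Polynomial.aeval t.1 P v =
      Polynomial.aeval c P • v := fun P => by
    rw [← Polynomial.aeval_map_algebraMap ℂ, Module.End.aeval_apply_of_hasEigenvector hevec,
      Polynomial.eval_map_algebraMap]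
  rw [happly, LinearMap.zero_apply]
  have hcR : c ∈ R := by
    rw [hR, Multiset.mem_toFinset, Polynomial.mem_roots (hgm.map _).ne_zero, Polynomial.IsRoot,
      Polynomial.eval_map_algebraMap]
    have h := happly g
    rw [hval, hg, ZeroMemClass.coe_zero, LinearMap.zero_apply] at h
    exact (smul_eq_zero.mp h.symm).resolve_right hv0
  rw [hroot c hcR, zero_smul]

variable {O : Type} [CommRing O] [IsDomain O] [CharZero O] {T : Type} [CommRing T] [Algebra O T]
  [Module.Finite O T] [Module.Free O T]

/-- A finite free algebra generated by images of operators prime to the level is reduced. -/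
theorem isReduced_of_adjoin_anemic (hNS : ∀ q : ℕ, q.Prime → q ∣ N → q ∈ S)
    (π : CuspForm.heckeAlgebra N 2 (↑S : Set ℕ) →+* T)
    (hgen : Algebra.adjoin O (Set.range π) = ⊤) : IsReduced T := by
  -- embed `T` in `K ⊗ T`, acting on itself by multiplication
  let K := FractionRing O
  let ι : T →ₐ[O] K ⊗[O] T := Algebra.TensorProduct.includeRight
  have hι : Function.Injective ι :=
    Algebra.TensorProduct.includeRight_injective (IsFractionRing.injective O K)
  let L : K ⊗[O] T →ₐ[K] Module.End K (K ⊗[O] T) := Algebra.lmul K (K ⊗[O] T)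
  have hcomm : ∀ a b, Commute (L a) (L b) := fun a b => by
    rw [Commute, SemiconjBy, ← map_mul, ← map_mul, mul_comm]
  -- every element acts semisimply: the generators are killed by separable polynomials
  have key : ∀ z ∈ Algebra.adjoin O (Set.range π), (L (ι z)).IsSemisimple := by
    intro z hz
    induction hz using Algebra.adjoin_induction with
    | mem x hx =>
      obtain ⟨t, rfl⟩ := hx
      obtain ⟨F, hF, hFt⟩ := exists_separable_kill hNS t
      refine Module.End.isSemisimple_of_squarefree_aeval_eq_zero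
        (p := F.map (algebraMap ℤ K)) ?_ ?_
      · rw [show algebraMap ℤ K = (algebraMap ℚ K).comp (Int.castRingHom ℚ) from
          RingHom.ext_int _ _, ← Polynomial.map_map]
        exact hF.map.squarefree
      · rw [Polynomial.aeval_def, Polynomial.eval₂_map,
          show ((algebraMap K (Module.End K (K ⊗[O] T))).comp (algebraMap ℤ K)) =
            algebraMap ℤ (Module.End K (K ⊗[O] T)) from RingHom.ext_int _ _, ← Polynomial.aeval_def]
        let φ : CuspForm.heckeAlgebra N 2 (↑S : Set ℕ) →+* Module.End K (K ⊗[O] T) :=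
          L.toRingHom.comp (ι.toRingHom.comp π)
        have h := congrArg φ hFt
        rw [Polynomial.aeval_def, Polynomial.hom_eval₂, map_zero,
          show φ.comp (algebraMap ℤ _) = algebraMap ℤ _ from RingHom.ext_int _ _,
          ← Polynomial.aeval_def] at h
        exact h
    | algebraMap o =>
      rw [AlgHom.commutes, IsScalarTower.algebraMap_apply O K, AlgHom.commutes]
      refine Module.End.isSemisimple_of_squarefree_aeval_eq_zero
        (p := Polynomial.X - Polynomial.C (algebraMap O K o))
          (Polynomial.irreducible_X_sub_C _).squarefree ?_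
      simp
    | add x y _ _ ex ey =>
      rw [map_add, map_add]
      exact Module.End.IsSemisimple.add_of_commute (hcomm _ _) ex ey
    | mul x y _ _ ex ey =>
      rw [map_mul, map_mul]
      exact Module.End.IsSemisimple.mul_of_commute (hcomm _ _) ex ey
  -- a nilpotent element then acts as zero
  refine ⟨fun z hz => hι ?_⟩
  have h0 := Module.End.eq_zero_of_isNilpotent_isSemisimple ((hz.map ι).map L)
    (key z (hgen ▸ Algebra.mem_top))
  rw [map_zero]
  have h1 := LinearMap.congr_fun h0 1
  simpa [L] using h1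

/-- A reduced finite free algebra over a domain embeds in the product of its points. -/
theorem exists_point_ne_zero [IsReduced T] (Ω : Type) [Field Ω] [IsAlgClosed Ω] [Algebra O Ω]
    (hΩ : Function.Injective (algebraMap O Ω)) {z : T} (hz : z ≠ 0) :
    ∃ ψ : T →ₐ[O] Ω, ψ z ≠ 0 := by
  classical
  obtain ⟨P, hP, hzP⟩ : ∃ P : Ideal T, P.IsPrime ∧ z ∉ P := by
    by_contra h
    push Not at h
    exact hz ((nilpotent_iff_mem_prime.mpr h).eq_zero)
  have := hP
  -- a minimal prime avoiding `z`
  obtain ⟨Q, hQ, hQle⟩ := Ideal.exists_minimalPrimes_le (I := (⊥ : Ideal T)) (J := P) bot_le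
  have : Q.IsPrime := hQ.1.1
  let b := Module.Free.chooseBasis O T
  -- nonzero constants are regular, hence outside it
  have hnzd : ∀ a : O, a ≠ 0 → algebraMap O T a ∈ nonZeroDivisors T := by
    intro a ha
    rw [mem_nonZeroDivisors_iff_right]
    intro w hw
    rw [mul_comm, ← Algebra.smul_def] at hw
    refine b.repr.injective (Finsupp.ext fun i => ?_)
    have h := DFunLike.congr_fun (congrArg b.repr hw) i
    rw [map_smul, map_zero, Finsupp.smul_apply, Finsupp.coe_zero, Pi.zero_apply, smul_eq_mul] at h
    rw [map_zero, Finsupp.coe_zero, Pi.zero_apply]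
    exact (mul_eq_zero.mp h).resolve_left ha
  have hQO : Function.Injective (algebraMap O (T ⧸ Q)) := by
    rw [injective_iff_map_eq_zero]
    intro a ha
    rw [IsScalarTower.algebraMap_apply O T, Ideal.Quotient.algebraMap_eq,
      Ideal.Quotient.eq_zero_iff_mem] at ha
    by_contra h0
    exact Set.disjoint_left.mp (Ideal.disjoint_nonZeroDivisors_of_mem_minimalPrimes hQ) ha
      (hnzd a h0)
  -- so `T ⧸ Q` is integral over `O` and embeds into `Ω`
  have : Algebra.IsIntegral O (T ⧸ Q) := Algebra.IsIntegral.of_finite O _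
  obtain ⟨g, hg⟩ := Fermat.GR.exists_extend_algClosed (algebraMap O (T ⧸ Q)) hQO
    (algebraMap_isIntegral_iff.mpr ‹_›) (algebraMap O Ω)
  have hginj : Function.Injective g := by
    rw [RingHom.injective_iff_ker_eq_bot]
    have := RingHom.ker_isPrime g
    refine Ideal.eq_bot_of_comap_eq_bot (R := O) ?_
    rw [RingHom.comap_ker, hg]
    exact (RingHom.injective_iff_ker_eq_bot _).mp hΩ
  refine ⟨{ g.comp (Ideal.Quotient.mk Q) with commutes' := fun a => RingHom.congr_fun hg a },
    fun h => hzP (hQle ?_)⟩
  rw [← Ideal.Quotient.eq_zero_iff_mem]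
  exact hginj (h.trans (map_zero g).symm)

end Fermat.GR.RT

end
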