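import Mathlib
import Fermat.Agent.GR.RT.Framing
import Fermat.Agent.GR.Patch.MultiFrames

/-!
# One level of the chain, from eigen systems and modules

The trace ring of finitely many congruent representations acts on every module whose operators are
separated by those representations; local relations at the points give the relations of the types.
-/

set_option autoImplicit false
set_option linter.unusedSectionVars false

noncomputable section

namespace Fermat.GR.RT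

open IsLocalRing Fermat.GR.Patch Fermat.HM

local notation "Γℚ" => (AlgebraicClosure ℚ ≃ₐ[ℚ] AlgebraicClosure ℚ)
local notation "M2" R => Matrix (Fin 2) (Fin 2) R

variable {𝒪 : Type} [CommRing 𝒪] [IsDomain 𝒪] [IsDiscreteValuationRing 𝒪]
  [IsAdicComplete (maximalIdeal 𝒪) 𝒪] [Finite (ResidueField 𝒪)] [CharZero 𝒪]

section Quot

variable {R : Type} [CommRing R] [Algebra 𝒪 R] {ι : Type} {B : ι → Type} [∀ i, CommRing (B i)]
  [∀ i, Algebra 𝒪 (B i)]

/-- The ideal of the elements vanishing at a subset of the points. -/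
abbrev ptsIdeal (pr : ∀ i, R →ₐ[𝒪] B i) (s : Set ι) : Ideal R :=
  ⨅ i : s, RingHom.ker (pr i : R →+* B i)

/-- An element is in `ptsIdeal pr s` iff it vanishes at every point of `s`. -/
theorem mem_ptsIdeal {pr : ∀ i, R →ₐ[𝒪] B i} {s : Set ι} {x : R} :
    x ∈ ptsIdeal pr s ↔ ∀ i ∈ s, pr i x = 0 := by
  simp [ptsIdeal, Submodule.mem_iInf, RingHom.mem_ker]

variable {A : Type} (D : SingleData 𝒪 A) {E : Type} [Ring E] [Algebra 𝒪 E] (α : R →ₐ[𝒪] E)
  (pr : ∀ i, R →ₐ[𝒪] B i) (s : Set ι) (hα : ∀ x, (∀ i ∈ s, pr i x = 0) → α x = 0)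

include hα in
/-- Chain relations at all points of a subset pass to the quotient acting. -/
theorem chainRel_of_points (q₁ : A) (J : A → Bool) (q : A) (P Sg : M2 R)
    (h : ∀ i ∈ s, D.ChainRel q₁ J q (algebraMap 𝒪 (B i) (D.u q)) (P.map (pr i))
      (Sg.map (pr i))) :
    D.ChainRel q₁ J q (Ideal.Quotient.mk (RingHom.ker α) (algebraMap 𝒪 R (D.u q)))
      (P.map (Ideal.Quotient.mk (RingHom.ker α))) (Sg.map (Ideal.Quotient.mk (RingHom.ker α))) := by
  have hle : ptsIdeal pr s ≤ RingHom.ker α := fun x hx =>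
    (RingHom.mem_ker).mpr (hα x (mem_ptsIdeal.mp hx))
  let mk := Ideal.Quotient.mk (ptsIdeal pr s)
  let g : ∀ i : s, R ⧸ ptsIdeal pr s →+* B i := fun i =>
    Ideal.Quotient.lift _ (pr i : R →+* B i) fun x hx => mem_ptsIdeal.mp hx i i.2
  have h0 : D.ChainRel q₁ J q (mk (algebraMap 𝒪 R (D.u q))) (P.map mk) (Sg.map mk) := by
    refine SingleData.ChainRel.of_jointly D g (fun b hb => ?_) fun i => ?_
    · obtain ⟨x, rfl⟩ := Ideal.Quotient.mk_surjective b
      exact Ideal.Quotient.eq_zero_iff_mem.mpr (mem_ptsIdeal.mpr fun i hi => hb ⟨i, hi⟩)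
    · have e := h i i.2
      rw [← (pr i).commutes (D.u q)] at e
      rw [Matrix.map_map, Matrix.map_map]
      exact e
  have := SingleData.ChainRel.map D h0 (Ideal.Quotient.factor hle)
  rw [Matrix.map_map, Matrix.map_map] at this
  exact this

include hα in
/-- Unramified points give the bottom type. -/
theorem typeRel_unr_of_points (q : A) (P Sg : M2 R)
    (h : ∀ i ∈ s, (P.map (pr i)).det = (D.N q : B i) ∧ Sg.map (pr i) = 1) :
    (D.withSt fun _ => false).TypeRel q (Ideal.Quotient.mk (RingHom.ker α) (algebraMap 𝒪 R (D.u q)))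
      (P.map (Ideal.Quotient.mk (RingHom.ker α))) (Sg.map (Ideal.Quotient.mk (RingHom.ker α))) := by
  -- an element vanishing at the points vanishes modulo the kernel
  have key : ∀ x : R, (∀ i ∈ s, pr i x = 0) → Ideal.Quotient.mk (RingHom.ker α) x = 0 := fun x hx =>
    Ideal.Quotient.eq_zero_iff_mem.mpr ((RingHom.mem_ker).mpr (hα x hx))
  refine ⟨?_, fun _ => Matrix.ext fun a b => ?_, fun hq => ?_⟩
  · rw [← RingHom.mapMatrix_apply, ← RingHom.map_det, ← sub_eq_zero,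
      show ((D.withSt fun _ => false).N q) = D.N q from rfl,
      ← map_natCast (Ideal.Quotient.mk (RingHom.ker α)), ← map_sub]
    refine key _ fun i hi => ?_
    rw [map_sub, map_natCast, AlgHom.map_det, AlgHom.mapMatrix_apply, (h i hi).1, sub_self]
  · have e : (1 : M2 (R ⧸ RingHom.ker α)) a b = Ideal.Quotient.mk _ ((1 : M2 R) a b) := by
      rw [Matrix.one_apply, Matrix.one_apply]; split_ifs <;> simp
    rw [Matrix.map_apply, e, ← sub_eq_zero, ← map_sub]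
    refine key _ fun i hi => ?_
    rw [map_sub, sub_eq_zero]
    refine (congrFun (congrFun (h i hi).2 a) b).trans ?_
    rw [Matrix.one_apply, Matrix.one_apply]; split_ifs <;> simp
  · exact absurd hq (by simp [SingleData.withSt])

end Quot

variable {A : Type} [Fintype A] [DecidableEq A] {d g r : ℕ}
  {O' : Type} [CommRing O'] [IsDomain O'] [IsDiscreteValuationRing O']
  [IsAdicComplete (maximalIdeal O') O'] [Finite (ResidueField O')] [CharZero O'] [Algebra 𝒪 O']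
  [IsLocalHom (algebraMap 𝒪 O')]

local notation "S" => MvPowerSeries (Fin d) 𝒪

/-- The automorphic and Galois input of one level. -/
structure LevelSetup (D : SingleData 𝒪 A) (N : NormData 𝒪) {ι : Type} (B : ι → Type)
    [∀ i, CommRing (B i)] [∀ i, Algebra 𝒪 (B i)] (ρ : ∀ i, Γℚ →* M2 (B i)) (i₀ : ι)
    {Δ : Type} [CommGroup Δ] (n : ℕ) (χ : Δ →* (S ⧸ maximalIdeal (MvPowerSeries (Fin d) 𝒪) ^ n))
    {κ : Type} (X : κ → GMod 𝒪 (MonoidAlgebra 𝒪 Δ)) (H : Type) [CommRing H] [Algebra 𝒪 H] :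
    Type 1 where
  /-- A Frobenius element at each framed prime. -/
  fr : A → Γℚ
  /-- A tame element at each framed prime. -/
  tm : A → Γℚ
  /-- The frame at each framed prime. -/
  Pq : A → (M2 𝒪)ˣ
  /-- In its frame the residual Frobenius is `phi0`. -/
  fr_red : ∀ q i j, ((Pq q : M2 𝒪) * N.bar (fr q) * (↑(Pq q)⁻¹ : M2 𝒪) - D.phi0 q) i j ∈
    maximalIdeal 𝒪
  /-- In its frame the residual tame element is `1`. -/
  tm_red : ∀ q i j, ((Pq q : M2 𝒪) * N.bar (tm q) * (↑(Pq q)⁻¹ : M2 𝒪) - 1) i j ∈ maximalIdeal 𝒪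
  /-- The points of the operator ring. -/
  pt : ∀ i, H →ₐ[𝒪] B i
  /-- The operators on each module. -/
  act : ∀ j, H →ₐ[𝒪] Module.End (MonoidAlgebra 𝒪 Δ) (X j).X
  /-- The points belonging to each module. -/
  pts : κ → Set ι
  /-- An operator vanishing at the points of a module kills it. -/
  separated : ∀ j h, (∀ i ∈ pts j, pt i h = 0) → act j h = 0
  /-- The operator giving the trace of Frobenius at `ℓ`. -/
  tl : ℕ → H
  /-- The operator giving the determinant of Frobenius at `ℓ`. -/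
  dl : ℕ → H
  /-- The excluded primes. -/
  bad : Finset ℕ
  /-- Trace and determinant of Frobenius at the points are the values of `tl` and `dl`. -/
  frob : ∀ ℓ : ℕ, ℓ.Prime → ℓ ∉ bad → ∀ P : ValuationSubring (AlgebraicClosure ℚ),
    P.LiesOverPrime ℓ → ∀ φ : Γℚ, P.IsFrobeniusAt φ ℓ →
      ∀ i, (ρ i φ).trace = pt i (tl ℓ) ∧ (ρ i φ).det = pt i (dl ℓ)

variable {D : SingleData 𝒪 A} {ϖ : 𝒪} {q₀ : A}
  {ψ : MvPowerSeries (Fin d) 𝒪 →ₐ[𝒪] MvPowerSeries (Fin d) 𝒪}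
  {emb : Fin r ⊕ FrameVar A q₀ ≃ Fin d} {c : O'} {N : ℕ} {qs : Fin N → A}
  {mk : Fin (N + 1) ⊕ Fin N → ℕ} {n : ℕ}
  {nd : NormData 𝒪} {ι : Type} [Fintype ι] [Nonempty ι] {B : ι → Type} [∀ i, CommRing (B i)]
  [∀ i, IsLocalRing (B i)] [∀ i, Algebra 𝒪 (B i)] [∀ i, Module.Finite 𝒪 (B i)]
  [∀ i, IsLocalHom (algebraMap 𝒪 (B i))] {ρ : ∀ i, Γℚ →* M2 (B i)} {i₀ : ι}
  {Δ : Type} [CommGroup Δ] [Finite Δ]

variable {H : Type} [CommRing H] [Algebra 𝒪 H]

section Lifted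

variable {κ : Type} {mk : κ → ℕ} {X : κ → GMod 𝒪 (MonoidAlgebra 𝒪 Δ)}

/-- The matrix actions of the trace ring on the free modules. -/
theorem exists_level_actions
    {χ : Δ →* (S ⧸ maximalIdeal (MvPowerSeries (Fin d) 𝒪) ^ n)}
    (L : LevelSetup D nd B ρ i₀ n χ X H) (T : TraceRep nd B ρ)
    (b : ∀ j, Module.Basis (Fin (mk j)) (MonoidAlgebra 𝒪 Δ) (X j).X) :
    ∃ (hecke : T.R → H)
      (α : ∀ j, T.R →ₐ[𝒪]
        Matrix (Fin (mk j)) (Fin (mk j)) (S ⧸ maximalIdeal (MvPowerSeries (Fin d) 𝒪) ^ n)),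
      (∀ y i, T.pr i y = L.pt i (hecke y)) ∧
      (∀ j y h, (∀ i, T.pr i y = L.pt i h) →
        α j y = matAct (MonoidAlgebra.lift 𝒪 _ Δ χ) (b j) (L.act j) h) ∧
      ∀ j y, (∀ i ∈ L.pts j, T.pr i y = 0) → α j y = 0 := by
  set φ : MonoidAlgebra 𝒪 Δ →ₐ[𝒪] _ := MonoidAlgebra.lift 𝒪 _ Δ χ
  have hker : ∀ j h, (∀ i, L.pt i h = 0) → matAct φ (b j) (L.act j) h = 0 := fun j h hh => by
    rw [matAct_apply, L.separated j h fun i _ => hh i, map_zero, Matrix.map_zero _ (map_zero φ)]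
  choose α hα using fun j => T.exists_action L.pt (matAct φ (b j) (L.act j)) (hker j) L.tl L.dl
    L.bad L.frob
  choose hecke hhecke using T.exists_hecke L.pt L.tl L.dl L.bad L.frob
  refine ⟨hecke, α, hhecke, hα, fun j x hx => ?_⟩
  rw [hα j x _ (hhecke x), matAct_apply,
    L.separated j _ fun i hi => by rw [← hhecke, hx i hi], map_zero,
    Matrix.map_zero _ (map_zero φ)]

/-- Unramified points give the bottom type to the framed matrices. -/
theorem typeRel_unr_frameAt {E : Type} [Ring E] [Algebra 𝒪 E] (T : TraceRep nd B ρ)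
    (Pq : A → (M2 𝒪)ˣ) (fr tm : A → Γℚ) {s : Set ι} (α : T.R →ₐ[𝒪] E)
    (hα : ∀ y, (∀ i ∈ s, T.pr i y = 0) → α y = 0) (q : A)
    (h : ∀ i ∈ s, (ρ i (fr q)).det = (D.N q : B i) ∧ ρ i (tm q) = 1) :
    (D.withSt fun _ => false).TypeRel q
      (Ideal.Quotient.mk (RingHom.ker α) (algebraMap 𝒪 T.R (D.u q)))
      ((frameAt T Pq fr q).map (Ideal.Quotient.mk (RingHom.ker α)))
      ((frameAt T Pq tm q).map (Ideal.Quotient.mk (RingHom.ker α))) := by
  refine typeRel_unr_of_points D α T.pr s hα q _ _ fun i hi => ?_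
  obtain ⟨U, V, hUV, hM⟩ := exists_conj_frameAt T Pq i q
  rw [hM, hM, (h i hi).2, Matrix.mul_one, hUV, Matrix.det_mul, Matrix.det_mul,
    mul_comm U.det, mul_assoc, ← Matrix.det_mul, hUV, Matrix.det_one, mul_one]
  exact ⟨(h i hi).1, rfl⟩

/-- Chain relations at the points give those of the framed matrices. -/
theorem chainRel_frameAt {E : Type} [Ring E] [Algebra 𝒪 E] (T : TraceRep nd B ρ)
    (Pq : A → (M2 𝒪)ˣ) (fr tm : A → Γℚ) {s : Set ι} (α : T.R →ₐ[𝒪] E)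
    (hα : ∀ y, (∀ i ∈ s, T.pr i y = 0) → α y = 0) (q₁ : A) (J : A → Bool) (q : A)
    (h : ∀ i ∈ s, D.ChainRel q₁ J q (algebraMap 𝒪 (B i) (D.u q)) (ρ i (fr q)) (ρ i (tm q))) :
    D.ChainRel q₁ J q (Ideal.Quotient.mk (RingHom.ker α) (algebraMap 𝒪 T.R (D.u q)))
      ((frameAt T Pq fr q).map (Ideal.Quotient.mk (RingHom.ker α)))
      ((frameAt T Pq tm q).map (Ideal.Quotient.mk (RingHom.ker α))) := by
  refine chainRel_of_points D α T.pr s hα q₁ J q _ _ fun i hi => ?_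
  obtain ⟨U, V, hUV, hM⟩ := exists_conj_frameAt T Pq i q
  rw [hM, hM]
  exact SingleData.ChainRel.conj D (h i hi) U V hUV

/-- The element cutting at a framed prime has the values of its operator. -/
theorem pr_cutTerm_frameAt (T : TraceRep nd B ρ) (Pq : A → (M2 𝒪)ˣ) (fr : A → Γℚ) (q : A)
    (i : ι) :
    T.pr i ((frameAt T Pq fr q).trace - algebraMap 𝒪 T.R (D.u q) * ((D.N q : T.R) + 1)) =
      (ρ i (fr q)).trace - algebraMap 𝒪 (B i) (D.u q) * ((D.N q : B i) + 1) := by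
  rw [map_sub, pr_trace_frameAt T Pq fr i, map_mul, AlgHom.commutes, map_add, map_natCast, map_one]

omit [IsAdicComplete (maximalIdeal 𝒪) 𝒪] [Finite (ResidueField 𝒪)] [CharZero 𝒪] in
/-- Projection matrices for actions lifted to another algebra. -/
theorem exists_proj_lifted {M R T : Type} [CommRing M] [Algebra 𝒪 M] [CommRing R]
    [Algebra 𝒪 R] [CommRing T] [Algebra 𝒪 T] (φ : M →ₐ[𝒪] R) {Y Z : Type} [AddCommGroup Y]
    [Module M Y] [Module 𝒪 Y] [IsScalarTower 𝒪 M Y] [AddCommGroup Z] [Module M Z] [Module 𝒪 Z]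
    [IsScalarTower 𝒪 M Z] {a b : Type} [Fintype a] [DecidableEq a] [Fintype b] [DecidableEq b]
    (bY : Module.Basis a M Y) (bZ : Module.Basis b M Z) (actY : H →ₐ[𝒪] Module.End M Y)
    (actZ : H →ₐ[𝒪] Module.End M Z) (hecke : T → H) {αY : T →ₐ[𝒪] Matrix a a R}
    {αZ : T →ₐ[𝒪] Matrix b b R} (hY : ∀ y, αY y = matAct φ bY actY (hecke y))
    (hZ : ∀ y, αZ y = matAct φ bZ actZ (hecke y)) (f : Y →ₗ[M] Z) (hf : Function.Surjective f)
    (hc : ∀ h x, f (actY h x) = actZ h (f x)) :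
    ∃ (P : Matrix b a R) (Q : Matrix a b R), P * Q = 1 ∧ ∀ y, P * αY y = αZ y * P := by
  obtain ⟨P, Q, hPQ, hP⟩ := exists_proj_matrices φ bY bZ actY actZ f hf hc
  exact ⟨P, Q, hPQ, fun y => by rw [hY, hZ]; exact hP _⟩

omit [IsAdicComplete (maximalIdeal 𝒪) 𝒪] [Finite (ResidueField 𝒪)] [CharZero 𝒪] in
/-- Descent matrices for actions lifted to another algebra. -/
theorem exists_desc_lifted {M R T : Type} [CommRing M] [Algebra 𝒪 M] [CommRing R]
    [Algebra 𝒪 R] [CommRing T] [Algebra 𝒪 T] (φ : M →ₐ[𝒪] R) {Y Z : Type} [AddCommGroup Y]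
    [Module M Y] [Module 𝒪 Y] [IsScalarTower 𝒪 M Y] [AddCommGroup Z] [Module M Z] [Module 𝒪 Z]
    [IsScalarTower 𝒪 M Z] {a b : Type} [Fintype a] [DecidableEq a] [Fintype b] [DecidableEq b]
    (bY : Module.Basis a M Y) (bZ : Module.Basis b M Z) (actY : H →ₐ[𝒪] Module.End M Y)
    (actZ : H →ₐ[𝒪] Module.End M Z) (hecke : T → H) {αY : T →ₐ[𝒪] Matrix a a R}
    {αZ : T →ₐ[𝒪] Matrix b b R} (hY : ∀ y, αY y = matAct φ bY actY (hecke y))
    (hZ : ∀ y, αZ y = matAct φ bZ actZ (hecke y)) {te : T} {t : H}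
    (ht : αZ te = matAct φ bZ actZ t) (F : Y →ₗ[M] Z) (hF : ∀ z, ∃ x w, z = F x + actZ t w)
    (hc : ∀ h x, ∃ w, F (actY h x) - actZ h (F x) = actZ t w) :
    ∃ (P : Matrix b a R) (Q : Matrix a b R), (∃ W, P * Q - 1 = αZ te * W) ∧
      ∀ y, ∃ W, P * αY y - αZ y * P = αZ te * W := by
  obtain ⟨P, Q, hPQ, hP⟩ := exists_desc_matrices φ bY bZ actY actZ t F hF hc
  refine ⟨P, Q, by rwa [ht], fun y => ?_⟩
  rw [hY, hZ, ht]
  exact hP _

/-- Parameters act by scalars and vanish at the point. -/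
theorem exists_par_lifted
    {χ : Δ →* (S ⧸ maximalIdeal (MvPowerSeries (Fin d) 𝒪) ^ n)}
    (L : LevelSetup D nd B ρ i₀ n χ X H) (T : TraceRep nd B ρ) (xB : B i₀ →ₐ[𝒪] O')
    (b : ∀ j, Module.Basis (Fin (mk j)) (MonoidAlgebra 𝒪 Δ) (X j).X)
    {α : ∀ j, T.R →ₐ[𝒪]
      Matrix (Fin (mk j)) (Fin (mk j)) (S ⧸ maximalIdeal (MvPowerSeries (Fin d) 𝒪) ^ n)}
    (hα : ∀ j y h, (∀ i, T.pr i y = L.pt i h) →
      α j y = matAct (MonoidAlgebra.lift 𝒪 _ Δ χ) (b j) (L.act j) h)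
    {v : S ⧸ maximalIdeal (MvPowerSeries (Fin d) 𝒪) ^ n}
    (hpar : ∃ (σ : Γℚ) (h : H) (a : MonoidAlgebra 𝒪 Δ),
      (∀ i, L.pt i h = (ρ i σ).trace - 2) ∧ (∀ j x, L.act j h x = a • x) ∧
      MonoidAlgebra.lift 𝒪 _ Δ χ a = v ∧ xB ((ρ i₀ σ).trace) = 2) :
    ∃ y, (∀ j, α j y = algebraMap _ _ v) ∧ xB (T.pr i₀ y) = 0 := by
  obtain ⟨σ, h, a₀, hh, hsc, ha, hx2⟩ := hpar
  have htrσ : ∀ i, T.pr i (T.rep σ).trace = (ρ i σ).trace := pr_trace_rep T σ
  refine ⟨(T.rep σ).trace - 2, fun j => ?_, ?_⟩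
  · rw [hα _ _ h (fun i => by rw [map_sub, htrσ, map_ofNat, hh]), ← ha]
    exact matAct_scalar _ (b j) (L.act _) (hsc _)
  · rw [map_sub, htrσ, map_ofNat, map_sub, hx2, map_ofNat, sub_self]

/-- The type relation at the point, transported to the framed matrices. -/
theorem typeRel_frameAt_point
    {χ : Δ →* (S ⧸ maximalIdeal (MvPowerSeries (Fin d) 𝒪) ^ n)}
    (L : LevelSetup D nd B ρ i₀ n χ X H) (T : TraceRep nd B ρ) (xB : B i₀ →ₐ[𝒪] O') (q : A)
    (hpoint : D.TypeRel q (algebraMap 𝒪 O' (D.u q)) ((ρ i₀ (L.fr q)).map xB)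
      ((ρ i₀ (L.tm q)).map xB)) :
    D.TypeRel q (algebraMap 𝒪 O' (D.u q)) ((frameAt T L.Pq L.fr q).map (xB.comp (T.pr i₀)))
      ((frameAt T L.Pq L.tm q).map (xB.comp (T.pr i₀))) := by
  obtain ⟨U, V, hUV, hM⟩ := exists_conj_frameAt T L.Pq i₀ q
  have e : ∀ e' : A → Γℚ, (frameAt T L.Pq e' q).map (xB.comp (T.pr i₀)) =
      (U.map xB) * (ρ i₀ (e' q)).map xB * (V.map xB) := fun e' => by
    change (frameAt T L.Pq e' q).map (xB ∘ T.pr i₀) = _
    rw [← Matrix.map_map, hM, Matrix.map_mul, Matrix.map_mul]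
  rw [e, e]
  exact SingleData.TypeRel.conj D hpoint _ _
    (by rw [← Matrix.map_mul, hUV, Matrix.map_one _ (map_zero _) (map_one _)])

end Lifted

variable {X : Fin (N + 1) ⊕ Fin N → GMod 𝒪 (MonoidAlgebra 𝒪 Δ)}

/-- **A level of the chain.** A level setup with a trace ring, the tangent bound, the local
relations and the maps between the modules gives a `ChainLevel`. -/
theorem nonempty_chainLevel {χ : Δ →* (S ⧸ maximalIdeal (MvPowerSeries (Fin d) 𝒪) ^ n)}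
    (L : LevelSetup D nd B ρ i₀ n χ X H) (T : TraceRep nd B ρ)
    (hϖ : Irreducible ϖ) (xB : B i₀ →ₐ[𝒪] O')
    (hxB : ∀ y ∈ maximalIdeal (B i₀), xB y ∈ maximalIdeal O')
    (b : ∀ j, Module.Basis (Fin (mk j)) (MonoidAlgebra 𝒪 Δ) (X j).X)
    (tangent : ∀ K : Submodule (ResidueField (MvPowerSeries (FrameVar A q₀) T.R))
        (MvPowerSeries (FrameVar A q₀) T.R → ResidueField (MvPowerSeries (FrameVar A q₀) T.R)),
      (∀ l ∈ K, l ∈ tangentSpace 𝒪 (MvPowerSeries (FrameVar A q₀) T.R) ∧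
        (∀ q i j, l (framed q₀ q (frameAt T L.Pq L.fr q) i j) = 0) ∧
          ∀ q i j, l (framed q₀ q (frameAt T L.Pq L.tm q) i j) = 0) →
      Finite K ∧
        Nat.card K ≤ Nat.card (ResidueField (MvPowerSeries (FrameVar A q₀) T.R)) ^ g)
    (hunr : ∀ i ∈ L.pts (Sum.inl 0), ∀ q, (ρ i (L.fr q)).det = (D.N q : B i) ∧ ρ i (L.tm q) = 1)
    (hstep : ∀ j : Fin N, ∀ i ∈ L.pts (Sum.inr j), ∀ q, D.ChainRel (qs j) (chainSt qs j) q
      (algebraMap 𝒪 (B i) (D.u q)) (ρ i (L.fr q)) (ρ i (L.tm q)))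
    (hpoint : ∀ q, D.TypeRel q (algebraMap 𝒪 O' (D.u q)) ((ρ i₀ (L.fr q)).map xB)
      ((ρ i₀ (L.tm q)).map xB))
    (tt : Fin N → H) (htt : ∀ j i, L.pt i (tt j) =
      (ρ i (L.fr (qs j))).trace - algebraMap 𝒪 (B i) (D.u (qs j)) * ((D.N (qs j) : B i) + 1))
    (hproj : ∀ j : Fin N, ∃ f : (X (Sum.inl j.succ)).X →ₗ[MonoidAlgebra 𝒪 Δ] (X (Sum.inr j)).X,
      Function.Surjective f ∧ ∀ h x, f (L.act _ h x) = L.act _ h (f x))
    (hdesc : ∀ j : Fin N, ∃ F : (X (Sum.inr j)).X →ₗ[MonoidAlgebra 𝒪 Δ] (X (Sum.inl j.castSucc)).X,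
      (∀ y, ∃ x z, y = F x + L.act _ (tt j) z) ∧
      ∀ h x, ∃ z, F (L.act _ h x) - L.act _ h (F x) = L.act _ (tt j) z)
    (hpar : ∀ k : Fin r, ∃ (σ : Γℚ) (h : H) (a : MonoidAlgebra 𝒪 Δ),
      (∀ i, L.pt i h = (ρ i σ).trace - 2) ∧ (∀ j x, L.act j h x = a • x) ∧
      MonoidAlgebra.lift 𝒪 _ Δ χ a =
        Ideal.Quotient.mk (maximalIdeal (MvPowerSeries (Fin d) 𝒪) ^ n)
          (ψ (MvPowerSeries.X (emb (Sum.inl k)))) ∧
      xB ((ρ i₀ σ).trace) = 2)
    (z : T.R) (hz : H) (hzpt : ∀ i, T.pr i z = L.pt i hz) (hzc : xB (T.pr i₀ z) = c)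
    {A₀ : Type} [CommRing A₀] [Algebra 𝒪 A₀] (s : MonoidAlgebra 𝒪 Δ →ₐ[𝒪] A₀) (ε : A₀ →ₐ[𝒪] 𝒪)
    (hs : ∀ a, constRed d hϖ n (MonoidAlgebra.lift 𝒪 _ Δ χ a) = Ideal.Quotient.mk _ (ε (s a)))
    (hbase : (LinearMap.toMatrix (b (Sum.inl (Fin.last N))) (b (Sum.inl (Fin.last N)))
      (L.act _ hz)).map s = 0) :
    Nonempty (ChainLevel D ϖ q₀ g ψ emb c qs mk n) := by
  -- the data on the trace ring; the fields left are checked one by one
  obtain ⟨hecke, α, hhecke, hα, hαpts⟩ := exists_level_actions L T b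
  refine ⟨{ R := T.R, hres := T.hres, Phi := frameAt T L.Pq L.fr, Sig := frameAt T L.Pq L.tm,
            Phi_red := frameAt_red T L.Pq L.fr D.phi0 L.fr_red,
            Sig_red := frameAt_red_one T L.Pq L.tm L.tm_red, tangent := tangent, α := α,
            x := xB.comp (T.pr i₀), x_mem := ?_,
            type_zero := fun q => typeRel_unr_frameAt T L.Pq L.fr L.tm _ (hαpts _) q
              fun i hi => hunr i hi q,
            type_step := fun j q => chainRel_frameAt T L.Pq L.fr L.tm _ (hαpts _) _ _ q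
              fun i hi => hstep j i hi q,
            type_x := fun q => typeRel_frameAt_point L T xB q (hpoint q),
            proj := ?_, desc := ?_, par := ?_, z := z, z_base := ?_, z_point := hzc }⟩
  · intro y hy
    rw [← T.pr_local i₀] at hy
    exact hxB _ (Ideal.mem_comap.mp hy)
  · intro j
    obtain ⟨f, hf, hc⟩ := hproj j
    exact exists_proj_lifted _ _ _ (L.act _) (L.act _) hecke (fun y => hα _ y _ (hhecke y))
      (fun y => hα _ y _ (hhecke y)) f hf hc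
  · intro j
    obtain ⟨F, hF, hc⟩ := hdesc j
    obtain ⟨P, Q, ⟨Z, hZ⟩, hP⟩ := exists_desc_lifted _ _ _ (L.act _) (L.act _) hecke
      (fun y => hα _ y _ (hhecke y)) (fun y => hα _ y _ (hhecke y))
      (hα (Sum.inl j.castSucc) _ (tt j) fun i => (pr_cutTerm_frameAt T L.Pq L.fr _ i).trans
        (htt j i).symm) F hF hc
    refine ⟨P, Q, ⟨0, Z, by rw [smul_zero, zero_add, hZ]⟩, fun y => ?_⟩
    obtain ⟨Z', hZ'⟩ := hP y
    refine ⟨0, Z', ?_⟩
    rw [smul_zero, zero_add]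
    exact hZ'
  · intro k
    exact exists_par_lifted L T xB b hα (hpar k)
  · intro i j y hy
    rw [hα _ z hz hzpt] at hy
    exact constantCoeff_mem_of_map hϖ _ s ε hs _ hbase i j y hy

end Fermat.GR.RT

end
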