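import Mathlib
import Fermat.Agent.GR.RT.Framing
import Fermat.Agent.GR.Patch.Frames

/-!
# One level for avoidance, from eigen systems and one module over the auxiliary group rings

The module is specialised along two congruent characters of the group ring; the relations at the
points cut out by each character are the relations of its specialisation.
-/

set_option autoImplicit false

noncomputable section

namespace Fermat.GR.RT

open IsLocalRing Fermat.GR.Patch

local notation "Γℚ" => (AlgebraicClosure ℚ ≃ₐ[ℚ] AlgebraicClosure ℚ)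
local notation "M2" R => Matrix (Fin 2) (Fin 2) R

variable {𝒪 : Type} [CommRing 𝒪] [IsDomain 𝒪] [IsDiscreteValuationRing 𝒪]
  [IsAdicComplete (maximalIdeal 𝒪) 𝒪] [Finite (ResidueField 𝒪)] [CharZero 𝒪]

/-- The automorphic and Galois input of one level of a pair: Frobenius and tame elements `fr`, `tm`
in frames `Pq`; points `pt` of a ring `H` acting on `X`, the two sides `s₁` and `sχ` among them;
elements `tl`, `dl` of `H` giving trace and determinant of Frobenius away from `bad`. -/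
structure PairSetup {A : Type} (D : LocalData 𝒪 A) (N : NormData 𝒪) {ι : Type} (B : ι → Type)
    [∀ i, CommRing (B i)] [∀ i, Algebra 𝒪 (B i)] (ρ : ∀ i, Γℚ →* M2 (B i))
    {Γ : Type} [CommRing Γ] [Algebra 𝒪 Γ] (X : Type) [AddCommGroup X] [Module Γ X] [Module 𝒪 X]
    [IsScalarTower 𝒪 Γ X] (H : Type) [CommRing H] [Algebra 𝒪 H] : Type where
  /-- A Frobenius element at each framed prime. -/
  fr : A → Γℚ
  /-- A tame element at each framed prime. -/
  tm : A → Γℚ
  /-- The frame at each framed prime. -/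
  Pq : A → (M2 𝒪)ˣ
  /-- In its frame the residual Frobenius is `phi0`. -/
  fr_red : ∀ q i j, ((Pq q : M2 𝒪) * N.bar (fr q) * (↑(Pq q)⁻¹ : M2 𝒪) - phi0 D q) i j ∈
    maximalIdeal 𝒪
  /-- In its frame the residual tame element is `1`. -/
  tm_red : ∀ q i j, ((Pq q : M2 𝒪) * N.bar (tm q) * (↑(Pq q)⁻¹ : M2 𝒪) - 1) i j ∈ maximalIdeal 𝒪
  /-- The points of the operator ring. -/
  pt : ∀ i, H →ₐ[𝒪] B i
  /-- The operators on `X`. -/
  act : H →ₐ[𝒪] Module.End Γ X
  /-- The points of the two sides. -/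
  s₁ : Set ι
  /-- The points of the side with inertia characters of order `p`. -/
  sχ : Set ι
  /-- The operator giving the trace of Frobenius at `ℓ`. -/
  tl : ℕ → H
  /-- The operator giving the determinant of Frobenius at `ℓ`. -/
  dl : ℕ → H
  /-- The excluded primes. -/
  bad : Finset ℕ
  /-- Trace and determinant of Frobenius at the points are the values of `tl` and `dl`. -/
  frob : ∀ ℓ : ℕ, ℓ.Prime → ℓ ∉ bad → ∀ P : ValuationSubring (AlgebraicClosure ℚ),
    P.LiesOverPrime ℓ → ∀ φ : Γℚ, P.IsFrobeniusAt φ ℓ →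
      ∀ i, (ρ i φ).trace = pt i (tl ℓ) ∧ (ρ i φ).det = pt i (dl ℓ)

variable {A : Type} [Fintype A] [DecidableEq A] {d m g r n : ℕ}

local notation "S" => MvPowerSeries (Fin d) 𝒪

variable {D : LocalData 𝒪 A} {ϖ : 𝒪} {q₀ : A}
  {ψ : MvPowerSeries (Fin d) 𝒪 →ₐ[𝒪] MvPowerSeries (Fin d) 𝒪}
  {emb : Fin r ⊕ FrameVar A q₀ ≃ Fin d}
  {nd : NormData 𝒪} {ι : Type} [Fintype ι] [Nonempty ι] {B : ι → Type} [∀ i, CommRing (B i)]
  [∀ i, IsLocalRing (B i)] [∀ i, Algebra 𝒪 (B i)] [∀ i, Module.Finite 𝒪 (B i)]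
  [∀ i, IsLocalHom (algebraMap 𝒪 (B i))] {ρ : ∀ i, Γℚ →* M2 (B i)}
  {Γ : Type} [CommRing Γ] [Algebra 𝒪 Γ] {X : Type} [AddCommGroup X] [Module Γ X] [Module 𝒪 X]
  [IsScalarTower 𝒪 Γ X] {H : Type} [CommRing H] [Algebra 𝒪 H]

omit [CharZero 𝒪] [Fintype A] in
/-- **A level for avoidance.** If moreover the systems of the unipotent side satisfy
`(tr Frob)² = (1 + N)²` at a prime then so does the level. -/
theorem exists_framedCore (L : PairSetup D nd B ρ X H) (T : TraceRep nd B ρ)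
    (b : Module.Basis (Fin m) Γ X) (φ₁ φχ : Γ →ₐ[𝒪] S ⧸ maximalIdeal S ^ n)
    (hcongr : ∀ a, φ₁ a - φχ a ∈ Ideal.span {algebraMap 𝒪 _ ϖ})
    (hs₁ : ∀ h, (∀ i ∈ L.s₁, L.pt i h = 0) → matAct φ₁ b L.act h = 0)
    (hsχ : ∀ h, (∀ i ∈ L.sχ, L.pt i h = 0) → matAct φχ b L.act h = 0)
    (tangent : ∀ K : Submodule (ResidueField (MvPowerSeries (FrameVar A q₀) T.R))
        (MvPowerSeries (FrameVar A q₀) T.R → ResidueField (MvPowerSeries (FrameVar A q₀) T.R)),
      (∀ l ∈ K, l ∈ tangentSpace 𝒪 (MvPowerSeries (FrameVar A q₀) T.R) ∧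
        (∀ q i j, l (framed q₀ q (frameAt T L.Pq L.fr q) i j) = 0) ∧
          ∀ q i j, l (framed q₀ q (frameAt T L.Pq L.tm q) i j) = 0) →
      Finite K ∧
        Nat.card K ≤ Nat.card (ResidueField (MvPowerSeries (FrameVar A q₀) T.R)) ^ g)
    (h₁ : ∀ i ∈ L.s₁, ∀ q, (ρ i (L.fr q)).det = (D.N q : B i) ∧ (ρ i (L.tm q)).trace = 2 ∧
      (ρ i (L.tm q)).det = 1 ∧
      ρ i (L.fr q) * ρ i (L.tm q) = ρ i (L.tm q) ^ D.N q * ρ i (L.fr q))
    (hχ : ∀ i ∈ L.sχ, ∀ q, (ρ i (L.fr q)).det = (D.N q : B i) ∧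
      (ρ i (L.tm q)).trace = algebraMap 𝒪 (B i) (2 * D.κ q) ∧ (ρ i (L.tm q)).det = 1 ∧
      ρ i (L.fr q) * ρ i (L.tm q) = ρ i (L.tm q) * ρ i (L.fr q))
    (hpar : ∀ k : Fin r, ∃ (σ : Γℚ) (h : H) (a : Γ),
      (∀ i, L.pt i h = (ρ i σ).trace - 2) ∧ (∀ x, L.act h x = a • x) ∧
      φ₁ a = Ideal.Quotient.mk (maximalIdeal (MvPowerSeries (Fin d) 𝒪) ^ n)
          (ψ (MvPowerSeries.X (emb (Sum.inl k)))) ∧
      φχ a = Ideal.Quotient.mk (maximalIdeal (MvPowerSeries (Fin d) 𝒪) ^ n)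
          (ψ (MvPowerSeries.X (emb (Sum.inl k))))) :
    ∃ F : FramedCore (m := m) D ϖ q₀ g ψ emb n, ∀ q,
      (∀ i ∈ L.s₁, (ρ i (L.fr q)).trace ^ 2 = (1 + (D.N q : B i)) ^ 2) →
        F.α₁ ((F.Phi q).trace ^ 2 - (1 + (D.N q : F.R)) ^ 2) = 0 := by
  classical
  have hker : ∀ (φ : Γ →ₐ[𝒪] S ⧸ maximalIdeal S ^ n) (s : Set ι),
      (∀ h, (∀ i ∈ s, L.pt i h = 0) → matAct φ b L.act h = 0) →
      ∀ h, (∀ i, L.pt i h = 0) → matAct φ b L.act h = 0 :=
    fun φ s hs h hh => hs h fun i _ => hh i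
  -- the trace ring acts on each side, through matrices
  obtain ⟨α₁, hα₁⟩ := T.exists_action L.pt (matAct φ₁ b L.act) (hker _ _ hs₁) L.tl L.dl L.bad L.frob
  obtain ⟨αχ, hαχ⟩ := T.exists_action L.pt (matAct φχ b L.act) (hker _ _ hsχ) L.tl L.dl L.bad L.frob
  choose hecke hhecke using T.exists_hecke L.pt L.tl L.dl L.bad L.frob
  -- an element vanishing at the points of one side acts there as zero
  have hz₁ : ∀ x, (∀ i ∈ L.s₁, T.pr i x = 0) → α₁ x = 0 := fun x hx => by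
    rw [hα₁ x _ (hhecke x)]
    exact hs₁ _ fun i hi => by rw [← hhecke, hx i hi]
  have hzχ : ∀ x, (∀ i ∈ L.sχ, T.pr i x = 0) → αχ x = 0 := fun x hx => by
    rw [hαχ x _ (hhecke x)]
    exact hsχ _ fun i hi => by rw [← hhecke, hx i hi]
  have hmul : ∀ i q (k : ℕ), ∃ U V : M2 (B i), U * V = 1 ∧
      (frameAt T L.Pq L.fr q * frameAt T L.Pq L.tm q -
          frameAt T L.Pq L.tm q ^ k * frameAt T L.Pq L.fr q).map (T.pr i) =
        U * (ρ i (L.fr q) * ρ i (L.tm q) - ρ i (L.tm q) ^ k * ρ i (L.fr q)) * V := by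
    intro i q k
    obtain ⟨U, V, hUV, hM⟩ := exists_conj_frameAt T L.Pq i q
    refine ⟨U, V, hUV, ?_⟩
    have hVU : V * U = 1 := mul_eq_one_comm.mp hUV
    have hpow : ∀ M : M2 (B i), ∀ j : ℕ, (U * M * V) ^ j = U * M ^ j * V := fun M j => by
      induction j with
      | zero => rw [pow_zero, pow_zero, Matrix.mul_one, hUV]
      | succ j ih =>
        rw [pow_succ, ih, pow_succ]
        simp only [Matrix.mul_assoc, ← Matrix.mul_assoc V U, hVU, Matrix.one_mul]
    rw [← AlgHom.mapMatrix_apply, map_sub, map_mul, map_mul, map_pow, AlgHom.mapMatrix_apply,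
      AlgHom.mapMatrix_apply, hM, hM, hpow]
    simp only [Matrix.mul_sub, Matrix.sub_mul, Matrix.mul_assoc, ← Matrix.mul_assoc V U, hVU,
      Matrix.one_mul]
  -- each relation holds at every point of its side
  refine ⟨{ R := T.R, hres := T.hres, Phi := frameAt T L.Pq L.fr, Sig := frameAt T L.Pq L.tm,
            Phi_red := frameAt_red T L.Pq L.fr _ L.fr_red,
            Sig_red := frameAt_red_one T L.Pq L.tm L.tm_red, tangent := tangent,
            α₁ := α₁, αχ := αχ,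
            det₁ := fun q => hz₁ _ fun i hi => ?_, detχ := fun q => hzχ _ fun i hi => ?_,
            trace₁ := fun q => hz₁ _ fun i hi => ?_, traceχ := fun q => hzχ _ fun i hi => ?_,
            sdet₁ := fun q => hz₁ _ fun i hi => ?_, sdetχ := fun q => hzχ _ fun i hi => ?_,
            comm₁ := fun q a c => hz₁ _ fun i hi => ?_, commχ := fun q a c => hzχ _ fun i hi => ?_,
            congr := fun x i j => ?_, par₁ := fun k => ?_, parχ := fun k => ?_ },
    fun q hq => hz₁ _ fun i hi => ?_⟩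
  · rw [map_sub, map_natCast, pr_det_frameAt, (h₁ i hi q).1, sub_self]
  · rw [map_sub, map_natCast, pr_det_frameAt, (hχ i hi q).1, sub_self]
  · rw [map_sub, map_ofNat, pr_trace_frameAt, (h₁ i hi q).2.1, sub_self]
  · rw [map_sub, AlgHom.commutes, pr_trace_frameAt, (hχ i hi q).2.1, sub_self]
  · rw [map_sub, map_one, pr_det_frameAt, (h₁ i hi q).2.2.1, sub_self]
  · rw [map_sub, map_one, pr_det_frameAt, (hχ i hi q).2.2.1, sub_self]
  · obtain ⟨U, V, -, hM⟩ := hmul i q (D.N q)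
    rw [(h₁ i hi q).2.2.2, sub_self, Matrix.mul_zero, Matrix.zero_mul] at hM
    exact congrFun (congrFun hM a) c
  · obtain ⟨U, V, -, hM⟩ := hmul i q 1
    rw [pow_one, pow_one, (hχ i hi q).2.2.2, sub_self, Matrix.mul_zero, Matrix.zero_mul] at hM
    exact congrFun (congrFun hM a) c
  · rw [hα₁ x _ (hhecke x), hαχ x _ (hhecke x), matAct_apply, matAct_apply, Matrix.map_apply,
      Matrix.map_apply]
    exact hcongr _
  · obtain ⟨σ, h, a, hh, hsc, ha, -⟩ := hpar k
    refine ⟨(T.rep σ).trace - 2, ?_⟩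
    rw [hα₁ _ h (fun i => by rw [map_sub, pr_trace_rep, map_ofNat, hh]), ← ha]
    exact matAct_scalar φ₁ b L.act hsc
  · obtain ⟨σ, h, a, hh, hsc, -, ha⟩ := hpar k
    refine ⟨(T.rep σ).trace - 2, ?_⟩
    rw [hαχ _ h (fun i => by rw [map_sub, pr_trace_rep, map_ofNat, hh]), ← ha]
    exact matAct_scalar φχ b L.act hsc
  · rw [map_sub, map_pow, map_pow, map_add, map_one, map_natCast, pr_trace_frameAt, hq i hi,
      sub_self]

end Fermat.GR.RT

end
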