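import Mathlib
import Fermat.Agent.GR.RT.LowerBase
import Fermat.Agent.GR.RT.ModMatrices

/-!
# Level lowering: the auxiliary levels and their congruent systems

For a list `TWList` of auxiliary primes the level `levK`, its group `grpL` and the freeness of
its module (`free_and_finrank`).
-/

set_option autoImplicit false
set_option linter.unusedSectionVars false

noncomputable section

open MvPolynomial IsLocalRing

namespace Fermat.GR.RT

open Fermat.HM Fermat.MC.Lvl

local notation "Γℚ" => (AlgebraicClosure ℚ ≃ₐ[ℚ] AlgebraicClosure ℚ)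

variable {p : ℕ} [hp : Fact p.Prime]

/-- Auxiliary (Taylor–Wiles) primes of depth `n`: distinct, `1` modulo `p ^ n`, with residual
Frobenius of trace zero. -/
structure TWList (p : ℕ) [Fact p.Prime] (rb : Γℚ →* GL (Fin 2) (ZMod p)) {B : ℕ} (n : ℕ)
    (L : List (GoodIx B)) : Prop where
  /-- The depth is positive. -/
  pos : 1 ≤ n
  /-- The primes are distinct. -/
  nodup : L.Nodup
  /-- The primes are `1` modulo `p ^ n`. -/
  dvd : ∀ i ∈ L, p ^ n ∣ goodPr B i - 1
  /-- The residual Frobenius has trace zero. -/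
  trace : ∀ i ∈ L, (rb (frobOf i.1) : Matrix (Fin 2) (Fin 2) (ZMod p)).trace = 0

variable {rb : Γℚ →* GL (Fin 2) (ZMod p)} {N : ℕ} {A : Finset ℕ}

section Coeff

variable {O : Type} [CommRing O] [IsLocalRing O] {ζ : O}

/-- The eigenvalue of `U` at the auxiliary primes: a square root of `-1`. -/
def alphaRes (ζ : O) {B : ℕ} : GoodIx B → ResidueField O := fun _ => residue O (ζ ^ p)

/-- The eigenvalue at the auxiliary primes squares to `-1`. -/
theorem CoeffData.alpha_sq [IsDomain O] (hc : CoeffData p O ζ) :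
    residue O (ζ ^ p) * residue O (ζ ^ p) = -1 := by
  have h : IsPrimitiveRoot (ζ ^ p) 4 :=
    hc.root.pow (Nat.mul_pos four_pos hp.out.pos) (mul_comm 4 p)
  have h2 : IsPrimitiveRoot ((ζ ^ p) ^ 2) 2 := h.pow four_pos (by norm_num)
  rw [← map_mul, ← pow_two, h2.eq_neg_one_of_two_right, map_neg, map_one]

/-- The residual system at an auxiliary level. -/
abbrev thetaL (rb : Γℚ →* GL (Fin 2) (ZMod p)) (hO : (p : O) ∈ maximalIdeal O) (ζ : O) {B : ℕ}
    (L : List (GoodIx B)) : GoodIx B → ResidueField O :=
  sysUpd (theta rb hO B) (alphaRes (p := p) ζ) L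

/-- The members of a list of auxiliary primes are Taylor–Wiles primes for the localised system. -/
theorem TWList.isTWPrime [IsDomain O]
    (hc : CoeffData p O ζ) (h2 : p ≠ 2) {B n : ℕ} {M : ℕ}
    (hM : ∀ i : GoodIx B, ¬ goodPr B i ∣ M) {L : List (GoodIx B)} (hL : TWList p rb n L)
    {i : GoodIx B} (hi : i ∈ L) :
    Fermat.HM.IsTWPrime M (goodPr B) (theta rb hc.mem B) (alphaRes (p := p) ζ) i := by
  have : CharP (ResidueField O) p := (CharP.charP_iff_prime_eq_zero hp.out).mpr (by
    rw [← map_natCast (residue O), residue_eq_zero_iff]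
    exact hc.mem)
  have hq : ((goodPr B i : ℕ) : ResidueField O) = 1 := by
    have h : p ∣ goodPr B i - 1 := (dvd_pow_self p (by have := hL.pos; omega)).trans (hL.dvd i hi)
    rw [show goodPr B i = goodPr B i - 1 + 1 from (Nat.sub_add_cancel i.1.2.one_le).symm,
      Nat.cast_add,
      (CharP.cast_eq_zero_iff (ResidueField O) p _).mpr h, zero_add, Nat.cast_one]
  have hθ : theta rb hc.mem B i = 0 := by
    change resCast hc.mem _ = 0
    rw [hL.trace i hi, map_zero]
  have h20 : (2 : ResidueField O) ≠ 0 := fun h => h2 (((Nat.prime_dvd_prime_iff_eq hp.out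
    Nat.prime_two).mp ((CharP.cast_eq_zero_iff (ResidueField O) p 2).mp (by exact_mod_cast h))))
  refine ⟨hM i, by rw [hq]; exact one_ne_zero, ?_, ?_, ?_⟩
  · change residue O (ζ ^ p) * residue O (ζ ^ p) - _ * _ + _ = 0
    rw [hc.alpha_sq, hθ, hq]
    ring
  · rw [hθ]
    refine mul_ne_zero h20 fun h0 => ?_
    have := hc.alpha_sq
    rw [show residue O (ζ ^ p) = 0 from h0, mul_zero] at this
    exact one_ne_zero (neg_eq_zero.mp this.symm)
  · change residue O (ζ ^ p) * residue O (ζ ^ p) ≠ 1
    rw [hc.alpha_sq]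
    intro h
    exact h20 (by linear_combination -h)

end Coeff

/-- The chosen quotients at auxiliary primes. -/
def TWList.fQ {B n : ℕ} {L : List (GoodIx B)} (hL : TWList p rb n L) (k : Fin L.length) :
    (ZMod (goodPr B (L.get k)))ˣ →* Multiplicative (ZMod (p ^ n)) :=
  (exists_units_surj (hL.dvd _ (L.get_mem k))).choose

/-- The chosen quotient is surjective. -/
theorem TWList.fQ_surjective {B n : ℕ} {L : List (GoodIx B)} (hL : TWList p rb n L)
    (k : Fin L.length) : Function.Surjective (hL.fQ k) :=
  (exists_units_surj (hL.dvd _ (L.get_mem k))).choose_spec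

/-- The diamond character of the auxiliary primes, at any level they divide. -/
def TWList.chiQ {B n : ℕ} {L : List (GoodIx B)} (hL : TWList p rb n L) (M : ℕ)
    (h : ∀ k : Fin L.length, goodPr B (L.get k) ∣ M) :
    (ZMod M)ˣ →* DeltaQ p (fun _ : Fin L.length => n) :=
  chiPi (fun k => goodPr B (L.get k)) hL.fQ M h

/-- A prime prime to `N * p` is prime to `N`. -/
theorem not_dvd_of_goodIx (i : GoodIx (N * p)) : ¬ goodPr (N * p) i ∣ N :=
  fun h => i.2 (h.mul_right p)

namespace LowerData

variable (D : LowerData p rb N A) {n : ℕ} {L : List (GoodIx (N * p))} (hL : TWList p rb n L)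

/-- The auxiliary level: `N` times the primes of `L`. -/
abbrev levK (_D : LowerData p rb N A) (L : List (GoodIx (N * p))) : ℕ := levN N (goodPr (N * p)) L

/-- The auxiliary level is nonzero. -/
theorem neZero_levK [NeZero N] : NeZero (D.levK L) := neZero_levN (N := N) (goodPr (N * p)) L

/-- The character at the auxiliary primes. -/
abbrev chiL : (ZMod (D.levK L))ˣ →* DeltaQ p (fun _ : Fin L.length => n) :=
  hL.chiQ (D.levK L) fun k => dvd_levN_of_mem (L.get_mem k)

/-- The characters at `A` and at the auxiliary primes are jointly surjective. -/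
theorem jointSurj [NeZero N] : JointSurj (dvd_levN N (goodPr (N * p)) L) (D.chiL hL) :=
  jointSurj_chiPi (goodPr_injective _) hL.nodup (fun i _ => not_dvd_of_goodIx i) hL.fQ
    hL.fQ_surjective

/-- The level structure: the kernel of the characters at `A` and at the auxiliary primes. -/
abbrev grpL : Subgroup (ZMod (D.levK L))ˣ := auxH D.quot (dvd_levN N (goodPr (N * p)) L) (D.chiL hL)

/-- The diamond quotient of the auxiliary level: the two groups of characters. -/
abbrev quotL [NeZero N] :
    DiamondQuot (D.levK L) ⊤ (D.grpL hL) (DeltaA p A × DeltaQ p (fun _ : Fin L.length => n)) :=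
  auxQuot D.quot (D.jointSurj hL)

/-- The group of both characters is a `p`-group. -/
theorem isPGroup_prod (m : Fin L.length → ℕ) : IsPGroup p (DeltaA p A × DeltaQ p m) :=
  Fermat.HM.isPGroup_prod (isPGroup_deltaA A) (isPGroup_deltaQ p m)

/-- Both characters are killed by `p ^ n`. -/
theorem pow_mem_grpL (hn : 1 ≤ n) (u : (ZMod (D.levK L))ˣ) : u ^ p ^ n ∈ D.grpL hL := by
  rw [MonoidHom.mem_ker, map_pow]
  refine Prod.ext (funext fun q => Multiplicative.toAdd.injective ?_)
    (funext fun k => Multiplicative.toAdd.injective ?_)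
  · rw [Prod.pow_fst, Pi.pow_apply, toAdd_pow, nsmul_eq_mul]
    obtain ⟨c, hc⟩ := pow_dvd_pow p hn
    rw [hc, Nat.cast_mul, ZMod.natCast_self, zero_mul, zero_mul]
    rfl
  · rw [Prod.pow_snd, Pi.pow_apply, toAdd_pow, nsmul_eq_mul, ZMod.natCast_self, zero_mul]
    rfl

/-- `-1` is in the level structure, `p` being odd. -/
theorem neg_mem_grpL [NeZero N] : -1 ∈ D.grpL hL :=
  neg_one_mem_of_chiTop (D.quotL hL) D.p_ne_two (isPGroup_prod _)

variable {O : Type} [CommRing O] [IsDomain O]
  [IsDiscreteValuationRing O] [IsAdicComplete (maximalIdeal O) O] [Finite (ResidueField O)]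
  [CharZero O] {ζ : O} (hc : CoeffData p O ζ)

include hc in
/-- The classes at the auxiliary level form a finite module. -/
theorem finite_homsL [NeZero N] : haveI := D.neZero_levK (L := L)
    Module.Finite O (Homs O (GammaH (D.levK L) (D.grpL hL))) :=
  haveI := D.neZero_levK (L := L)
  ((D.good hc.mem).gammaH (dvd_levN N _ L) le_top (D.neg_mem_grpL hL)).moduleFinite

include hc in
/-- The residual system of the auxiliary level is not Eisenstein. -/
theorem nonEisL (hD : LowerData p rb N A) :
    NonEisenstein (goodPr (N * p)) (sysIdeal (thetaL rb hc.mem ζ L)) := by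
  refine NonEisenstein.of_agree (f := id) (hD.nonEis hc.mem)
    (B := (L.map (goodPr (N * p))).prod) ?_ fun j hj => ⟨j, rfl, ?_⟩
  · exact fun h => by
      obtain ⟨j, -, hj⟩ := List.mem_map.mp (List.prod_eq_zero_iff.mp h)
      exact j.1.2.ne_zero hj
  · simp only [sysUpd]
    rw [if_neg fun h => hj (List.dvd_prod (List.mem_map.mpr ⟨j, h, rfl⟩))]

include hc in
/-- The module at the auxiliary level is free of the rank of the base one. -/
theorem free_and_finrank [NeZero N] :
    haveI := D.neZero_levK (L := L)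
    haveI := D.finite_homsL hL hc
    let X := (D.quotL hL).LocMod (goodPr (N * p)) (sysIdeal (thetaL rb hc.mem ζ L))
    let R := MonoidAlgebra O (DeltaA p A × DeltaQ p (fun _ : Fin L.length => n))
    Module.Free R X ∧ Module.Finite R X ∧
      Module.finrank R X = Module.finrank (MonoidAlgebra O (DeltaA p A))
        (D.quot.LocMod (goodPr (N * p)) (sysIdeal (theta rb hc.mem (N * p)))) := by
  have := D.neZero_levK (L := L)
  have := D.finite_homsL hL hc
  have : ∀ _k : Fin L.length, NeZero (p ^ n) := fun _ => ⟨pow_ne_zero _ hp.out.ne_zero⟩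
  have B := D.baseData hc.mem
  have := B.finite_homs
  -- `p` kills `(ZMod N)ˣ` modulo `HA`
  obtain ⟨e, he⟩ : ∃ e, ∀ u : (ZMod N)ˣ, u ^ p ^ e ∈ D.HA :=
    ⟨1, fun u => by
      rw [HA, MonoidHom.mem_ker, map_pow]
      exact funext fun q => Multiplicative.toAdd.injective (by
        rw [Pi.pow_apply, toAdd_pow, nsmul_eq_mul, ZMod.natCast_self, zero_mul]; rfl)⟩
  have hneg₂ : -1 ∈ levH D.HA (goodPr (N * p)) L := by
    refine Subgroup.mem_comap.mpr ?_
    convert B.neg_mem
    exact Units.ext (by simp [ZMod.unitsMap_def])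
  have : Module.Finite O (Homs O (GammaH (levN N (goodPr (N * p)) L)
      (levH D.HA (goodPr (N * p)) L))) :=
    ((D.good hc.mem).gammaH (dvd_levN N _ L) le_top hneg₂).moduleFinite
  have hne' := D.nonEisL (L := L) hc
  have hgood₁ : GoodLevel O (GammaH (D.levK L) (D.grpL hL)) :=
    (D.good hc.mem).gammaH (dvd_levN N _ L) le_top (D.neg_mem_grpL hL)
  have hgood₀ : GoodLevel O (GammaH (D.levK L) ⊤) :=
    (D.good hc.mem).gammaH (dvd_levN N _ L) le_top (Subgroup.mem_top _)
  -- free over the group ring
  obtain ⟨hfree, hfin⟩ := DiamondQuot.LocMod.free (D := D.quotL hL)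
    (m := sysIdeal (thetaL rb hc.mem ζ L)) hc.mem (isPGroup_prod _) hgood₀ hgood₁ hne'
  -- and descent identifies the rank
  obtain ⟨T, -, -⟩ := exists_descent D.quot (D.jointSurj hL) hc.mem D.p_ne_two (isPGroup_deltaA A)
    (isPGroup_deltaQ p _) (D.good hc.mem) hne'
    (hasLevMap_levN (goodPr_injective _) B.nonEis hc.mem (D.good hc.mem) B.neg_mem he L hL.nodup
      fun i hi => hL.isTWPrime hc D.p_ne_two (fun j => not_dvd_of_goodIx j) hi)
  exact ⟨hfree, hfin, (finrank_descent (O := O) T).symm⟩

end LowerData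

end Fermat.GR.RT

end
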