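import Mathlib
import Fermat.Agent.GR.RT.LowerLevel
import Fermat.Agent.GR.RT.PointInertia

/-!
# Level lowering: the congruent systems of an auxiliary level

The congruent systems `ptsL` are finitely many, and each has representations as in `PtData`
(`nonempty_ptData`).
-/

set_option autoImplicit false

noncomputable section

open MvPolynomial IsLocalRing

namespace Fermat.GR.RT

open Fermat.HM Fermat.MC.Lvl

local notation "ℚbar" => AlgebraicClosure ℚ
local notation "Γℚ" => (AlgebraicClosure ℚ ≃ₐ[ℚ] AlgebraicClosure ℚ)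
local notation "M2" R => Matrix (Fin 2) (Fin 2) R

/-- Adjoining distinct new primes keeps a level squarefree. -/
theorem squarefree_levN {σ : Type} {pr : σ → ℕ} [hpr : ∀ i, Fact (pr i).Prime]
    (hinj : Function.Injective pr) {N : ℕ} (hN : Squarefree N) :
    ∀ L : List σ, L.Nodup → (∀ i ∈ L, ¬ pr i ∣ N) → Squarefree (levN N pr L)
  | [], _, _ => hN
  | i :: L, hnd, hL => by
    obtain ⟨hiL, hnd⟩ := List.nodup_cons.mp hnd
    change Squarefree (levN N pr L * pr i)
    refine (Nat.squarefree_mul ?_).mpr ⟨squarefree_levN hinj hN L hnd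
      fun j hj => hL j (List.mem_cons_of_mem i hj), (hpr i).out.squarefree⟩
    exact ((hpr i).out.coprime_iff_not_dvd.mpr
      (not_dvd_levN hinj hiL (hL i (List.mem_cons_self ..)))).symm

/-- A unit congruent to one modulo a multiple. -/
theorem val_cast_eq_one_of_dvd {K K' d : ℕ} (hd : d ∣ K') {u : (ZMod K)ˣ}
    (hu : ((u : ZMod K).val : ZMod K') = 1) : ((u : ZMod K).val : ZMod d) = 1 := by
  have h := congrArg (ZMod.castHom hd (ZMod d)) hu
  rwa [map_natCast, map_one] at h

variable {p : ℕ} [hp : Fact p.Prime] {rb : Γℚ →* GL (Fin 2) (ZMod p)} {N : ℕ} {A : Finset ℕ}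

namespace LowerData

variable (D : LowerData p rb N A) {n : ℕ} {L : List (GoodIx (N * p))} (hL : TWList p rb n L)
  {O : Type} [CommRing O] [IsDomain O] [IsDiscreteValuationRing O]
  [IsAdicComplete (maximalIdeal O) O] [Finite (ResidueField O)] [CharZero O] {ζ : O}
  (hc : CoeffData p O ζ)

/-- The congruent systems of the level. -/
def ptsL [NeZero N] : Set (MvPolynomial (Nat.Primes ⊕ (ZMod (D.levK L))ˣ) ℤ →+*
    AlgebraicClosure (FractionRing O)) :=
  haveI := D.neZero_levK (L := L)
  {x | IsPoint (D.levK L) (D.grpL hL) x ∧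
    CongruentTo (goodPr (N * p)) (sysIdeal (thetaL rb hc.mem ζ L)) x}

omit [IsAdicComplete (maximalIdeal O) O] [Finite (ResidueField O)] in
/-- There are finitely many congruent systems. -/
theorem finite_ptsL [NeZero N] : (D.ptsL hL hc).Finite := by
  have := D.neZero_levK (L := L)
  have : NegMem (D.grpL hL) := ⟨D.neg_mem_grpL hL⟩
  exact (finite_isPoint (D.levK L) (D.grpL hL) _).subset fun _ hx => hx.1

/-- An auxiliary level has a congruent system. -/
theorem nonempty_ptsL [NeZero N] {u : O →+* ℂ} (hu : Function.Injective u) :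
    (D.ptsL hL hc).Nonempty := by
  have := D.neZero_levK (L := L)
  have : NegMem (D.grpL hL) := ⟨D.neg_mem_grpL hL⟩
  have := D.finite_homsL hL hc
  obtain ⟨hfree, hfin, hrank⟩ := D.free_and_finrank hL hc
  have B := D.baseData hc.mem
  have := B.free.1
  have := B.free.2
  have hm : 0 < Module.finrank (MonoidAlgebra O (DeltaA p A))
      (D.quot.LocMod (goodPr (N * p)) (sysIdeal (theta rb hc.mem (N * p)))) := by
    obtain ⟨i⟩ := B.nonempty
    exact i.pos
  rw [← hrank] at hm
  let b := Module.finBasis (MonoidAlgebra O (DeltaA p A × DeltaQ p (fun _ : Fin L.length => n)))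
    ((D.quotL hL).LocMod (goodPr (N * p)) (sysIdeal (thetaL rb hc.mem ζ L)))
  have h0 := b.ne_zero ⟨0, hm⟩
  obtain ⟨x, hx, hxc⟩ := exists_congruent_point (D.nonEisL hc) hu (b ⟨0, hm⟩).val.2
    fun e => h0 (DiamondQuot.LocMod.ext_val e)
  exact ⟨x, hx, hxc⟩

/-- The product of `N p` and the auxiliary primes, whose prime factors are the bad primes. -/
def badL (_D : LowerData p rb N A) (L : List (GoodIx (N * p))) : ℕ :=
  N * p * (L.map (goodPr (N * p))).prod

/-- The product of the bad primes is nonzero. -/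
theorem badL_ne_zero : D.badL L ≠ 0 :=
  mul_ne_zero D.bad_ne_zero fun h => by
    obtain ⟨j, -, hj⟩ := List.mem_map.mp (List.prod_eq_zero_iff.mp h)
    exact j.1.2.ne_zero hj

/-- `rb` is unramified outside the bad primes. -/
theorem resUnrL (i : GoodIx (D.badL L)) : IsResUnramified p rb (goodPr (D.badL L) i) :=
  D.resUnr ⟨i.1, fun h => i.2 (h.mul_right _)⟩

/-- A congruent system `x` with its representations: its integral form `y` over a finite extension
`O'`, the attached `r`, and the twist `ρ` of `r` which has cyclotomic determinant. -/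
structure PtData [NeZero N] (x : MvPolynomial (Nat.Primes ⊕ (ZMod (D.levK L))ˣ) ℤ →+*
    AlgebraicClosure (FractionRing O)) : Type 1 where
  /-- The ring of values, a finite extension of `O`. -/
  O' : Type
  [commRing : CommRing O']
  [isDomain : IsDomain O']
  [dvr : IsDiscreteValuationRing O']
  [complete : IsAdicComplete (maximalIdeal O') O']
  [finiteRes : Finite (ResidueField O')]
  [charZero : CharZero O']
  [algebra : Algebra O O']
  [finite : Module.Finite O O']
  [isLocal : IsLocalHom (algebraMap O O')]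
  [neZero : NeZero (D.levK L)]
  /-- The integral form of the system. -/
  y : MvPolynomial (Nat.Primes ⊕ (ZMod (D.levK L))ˣ) ℤ →+* O'
  /-- The embedding of the ring of values. -/
  j : O' →ₐ[O] AlgebraicClosure (FractionRing O)
  /-- The embedding is injective. -/
  inj : Function.Injective j
  /-- `y` is an integral form of `x`. -/
  comp : (j : O' →+* _).comp y = x
  /-- `y` is congruent to `rb`. -/
  res : IsResPoint p rb (D.badL L) ((ResidueField.map (algebraMap O O')).comp (resCast hc.mem)) n
    (D.grpL hL) y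
  /-- The residues of the Hecke values away from `N p` are those of `thetaL`. -/
  cong : ∀ i : GoodIx (N * p), residue O' (tVal y (goodPr (N * p) i)) =
    ResidueField.map (algebraMap O O') (thetaL rb hc.mem ζ L i)
  /-- The attached representation. -/
  r : Γℚ →* M2 O'
  /-- Its twist with cyclotomic determinant. -/
  ρ : Γℚ →* M2 O'
  /-- `r` is attached to `y`. -/
  attached : IsAttached p y r
  /-- `ρ` is continuous. -/
  cont : MatCont ρ
  /-- `ρ` is the twist of `r` by the twisting character. -/
  rho_eq : ∀ σ, ρ σ = twistChar res.point (p ^ n) σ • r σ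
  /-- The determinant of `ρ` is cyclotomic. -/
  det : ∀ σ, (ρ σ).det = cycO res.mem σ
  /-- The trace of `r` reduces to that of `rb`. -/
  trace_r : ∀ σ, residue O' (r σ).trace =
    ((ResidueField.map (algebraMap O O')).comp (resCast hc.mem))
      (rb σ : Matrix (Fin 2) (Fin 2) (ZMod p)).trace
  /-- The trace of `ρ` reduces to that of `rb`. -/
  trace : ∀ σ, residue O' (ρ σ).trace =
    ((ResidueField.map (algebraMap O O')).comp (resCast hc.mem))
      (rb σ : Matrix (Fin 2) (Fin 2) (ZMod p)).trace
  /-- Away from the level and `p`: `ρ` is unramified, Frobenius has trace `trLabel` and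
  determinant `ℓ`. -/
  frob : ∀ ℓ : ℕ, ℓ.Prime → ¬ ℓ ∣ D.levK L * p → ∀ P : ValuationSubring ℚbar,
    P.LiesOverPrime ℓ →
      (∀ σ ∈ P.inertiaSubgroupIn ℚ, ρ σ = 1) ∧
      ∀ φ : Γℚ, P.IsFrobeniusAt φ ℓ →
        (ρ φ).trace = y (trLabel (D.levK L) (p ^ n) ℓ) ∧ (ρ φ).det = (ℓ : O')

attribute [instance] PtData.commRing PtData.isDomain PtData.dvr PtData.complete PtData.finiteRes
  PtData.charZero PtData.algebra PtData.finite PtData.isLocal

/-- **Every congruent system has such data.** -/
theorem nonempty_ptData [NeZero N] (hA : AttachInput p)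
    {x : MvPolynomial (Nat.Primes ⊕ (ZMod (D.levK L))ˣ) ℤ →+* AlgebraicClosure (FractionRing O)}
    (hx : x ∈ D.ptsL hL hc) : Nonempty (D.PtData hL hc x) := by
  have := D.neZero_levK (L := L)
  have : NegMem (D.grpL hL) := ⟨D.neg_mem_grpL hL⟩
  -- realise the point over a discrete valuation ring `O'`
  obtain ⟨⟨O', _⟩, y, hy, j, hj, hjy⟩ :=
    exists_dvr_point (D.levK L) (D.grpL hL) O hx.1
  have hcy : CongruentTo (goodPr (N * p)) (sysIdeal (thetaL rb hc.mem ζ L)) y := fun P hP =>
    hx.2 P (by
      have h := congrArg j hP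
      rw [map_zero, ← AlgHom.comp_apply, MvPolynomial.comp_aeval] at h
      rw [← h, ← hjy]
      rfl)
  -- the congruence also holds away from the larger bad level
  have hc' : CongruentTo (goodPr (D.badL L)) (sysIdeal (theta rb hc.mem (D.badL L))) x := by
    intro P hP
    let g : GoodIx (D.badL L) → GoodIx (N * p) := fun i => ⟨i.1, fun h => i.2 (h.mul_right _)⟩
    have h1 : rename g P ∈ sysIdeal (thetaL rb hc.mem ζ L) := hx.2 _ (by
      rw [aeval_rename]; exact hP)
    rw [sysIdeal, RingHom.mem_ker, aeval_rename] at h1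
    rw [sysIdeal, RingHom.mem_ker]
    convert h1 using 3
    funext i
    change _ = sysUpd _ _ _ (g i)
    rw [sysUpd, if_neg fun h => i.2 ((List.dvd_prod (List.mem_map.mpr ⟨g i, h, rfl⟩)).mul_left _)]
    rfl
  -- so it is a residual point, with an attached representation
  have h := isResPoint_of_congruent hc.mem (resCast hc.mem) (D.pow_mem_grpL hL hL.pos) hc' hy j hjy
  obtain ⟨r, ρ, h1, h2, h3, h4, h5, h6, h7⟩ :=
    h.exists_rep_of_det D.semi.isOpen_ker D.semi.det_eq D.p_ne_two hA
    (D.neg_mem_grpL hL) D.badL_ne_zero D.resUnrL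
  refine ⟨{ O' := O', y := y, j := j, inj := hj, comp := hjy, res := h, cong := fun i => ?_,
            r := r, ρ := ρ, attached := h1, cont := h2, rho_eq := h3, det := h4, trace_r := h5,
            trace := h6, frob := h7 }⟩
  have := residue_of_congruentTo hcy i
  rw [tVal, dif_pos i.1.2]
  exact this

/-- The base level is the auxiliary level of no primes: a congruent system of it, with trivial
diamond values, and its representations. -/
theorem exists_basePtData [NeZero N] (hA : AttachInput p) :
    ∃ (hnil : TWList p rb 1 ([] : List (GoodIx (N * p))))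
      (x : MvPolynomial (Nat.Primes ⊕ (ZMod (D.levK ([] : List (GoodIx (N * p)))))ˣ) ℤ →+*
        AlgebraicClosure (FractionRing O))
      (P : D.PtData hnil hc x), ∀ v, P.y (X (Sum.inr v)) = 1 := by
  have hnil : TWList p rb 1 ([] : List (GoodIx (N * p))) :=
    ⟨le_rfl, List.nodup_nil, fun i hi => absurd hi List.not_mem_nil,
      fun i hi => absurd hi List.not_mem_nil⟩
  obtain ⟨x, hx, hxc⟩ := D.exists_congruent hc.mem
  have := D.neZero_levK (L := ([] : List (GoodIx (N * p))))
  have hθ : thetaL rb hc.mem ζ ([] : List (GoodIx (N * p))) = theta rb hc.mem (N * p) :=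
    funext fun i => if_neg List.not_mem_nil
  obtain ⟨P⟩ := D.nonempty_ptData hnil hc hA (x := x) ⟨hx.mono le_top, hθ.symm ▸ hxc⟩
  refine ⟨hnil, x, P, fun v => P.inj ?_⟩
  rw [map_one, show P.j (P.y (X (Sum.inr v))) = x (X (Sum.inr v)) from RingHom.congr_fun P.comp _]
  exact hx.dia_eq_one (Subgroup.mem_top _)

include hL in
/-- The auxiliary level is squarefree. -/
theorem squarefree_levK : Squarefree (D.levK L) :=
  squarefree_levN (goodPr_injective _) D.squarefree L (TWList.nodup hL)
    fun i _ => not_dvd_of_goodIx i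

include hL in
/-- A prime of the auxiliary level divides it once. -/
theorem not_dvd_of_mul_eq {q K' : ℕ} (hq : q.Prime) (hK : K' * q = D.levK L) : ¬ q ∣ K' :=
  fun h => hq.one_lt.ne' (Nat.isUnit_iff.mp
    (D.squarefree_levK hL q (hK ▸ Nat.mul_dvd_mul_right h q)))

/-- The divisors of `N` divide the auxiliary level. -/
theorem dvd_levK {q : ℕ} (hq : q ∣ N) : q ∣ D.levK L := hq.trans (dvd_levN N _ L)

/-- The divisors of `N` divide `badL`, so are bad at the auxiliary level. -/
theorem dvd_badL {q : ℕ} (hq : q ∣ N) : q ∣ D.badL L := (hq.mul_right p).mul_right _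

/-- Away from `A` the diamond operators at a prime of `N` are trivial. -/
theorem mem_grpL_of_one [NeZero N] {q K' : ℕ} (hq : q.Prime) (hqN : q ∣ N) (hqA : q ∉ A)
    (hK : K' * q = D.levK L) {u : (ZMod (D.levK L))ˣ}
    (hu : ((u : ZMod (D.levK L)).val : ZMod K') = 1) : u ∈ D.grpL hL := by
  have := D.neZero_levK (L := L)
  have hdvd : ∀ r : ℕ, r.Prime → r ∣ D.levK L → r ≠ q → r ∣ K' := fun r hr hrK hne => by
    rw [← hK] at hrK
    exact (hr.dvd_mul.mp hrK).resolve_right fun e =>
      hne ((Nat.prime_dvd_prime_iff_eq hr hq).mp e)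
  rw [MonoidHom.mem_ker]
  refine Prod.ext ?_ ?_
  · change D.chiA N _ (ZMod.unitsMap _ u) = 1
    rw [chiA, chiPi_unitsMap _ _ _ fun r : A => (D.dvd _ r.2).trans (dvd_levN N _ L)]
    exact funext fun r => chiPi_eq_one _ _ _ (val_cast_eq_one_of_dvd
      (hdvd r (D.prime _ r.2) (D.dvd_levK (D.dvd _ r.2)) fun e => hqA (e ▸ r.2)) hu)
  · refine funext fun k => chiPi_eq_one _ _ _ (val_cast_eq_one_of_dvd
      (hdvd _ (L.get k).1.2 (dvd_levN_of_mem (L.get_mem k)) fun e => ?_) hu)
    exact not_dvd_of_goodIx (L.get k) (show goodPr (N * p) (L.get k) ∣ N by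
      change ((L.get k).1 : ℕ) ∣ N; rw [e]; exact hqN)

namespace PtData

variable {D} {hL} {hc}
variable [NeZero N] {x : MvPolynomial (Nat.Primes ⊕ (ZMod (D.levK L))ˣ) ℤ →+*
    AlgebraicClosure (FractionRing O)} (P : D.PtData hL hc x)

omit [IsAdicComplete (maximalIdeal O) O] [Finite (ResidueField O)] [CharZero O] in
/-- **An auxiliary prime of the base level is unramified.** -/
theorem rho_inertia_aux_prime (hA : AttachInput p) (hN : NewInput p) {q : ℕ} (hq : q.Prime)
    (hqN : q ∣ N)
    (hqA : q ∉ A) (hqp : q ≠ p) (hunr : IsResUnramified p rb q) {B : ValuationSubring ℚbar}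
    (hB : B.LiesOverPrime q) {σ : Γℚ} (hσ : σ ∈ B.inertiaSubgroupIn ℚ) : P.ρ σ = 1 := by
  have := D.neZero_levK (L := L)
  obtain ⟨K', hK⟩ := (D.dvd_levK (L := L) hqN : q ∣ D.levK L)
  rw [mul_comm] at hK
  have hqK' : ¬ q ∣ K' := D.not_dvd_of_mul_eq hL hq hK.symm
  have hneg := D.neg_mem_grpL hL
  by_cases hold : IsOldAt (D.levK L) (D.grpL hL) P.y q
  -- old: unramified after lowering, and the twist is trivial on inertia
  · have hr1 := P.res.unramified_of_old D.semi.surjective D.p_ne_two hA hneg hq hqp
      (D.dvd_badL hqN) (fun K'' h => D.not_dvd_of_mul_eq hL hq h) hold P.attached P.trace_r hB hσ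
    rw [P.rho_eq, hr1]
    have hone : twistChar P.res.point (p ^ n) σ = 1 := by
      have hdK : K' ∣ D.levK L := ⟨q, hK⟩
      have : NeZero K' := ⟨fun h => NeZero.ne (D.levK L) (by rw [hK, h, zero_mul])⟩
      have hu : ((cycK (D.levK L) σ : ZMod (D.levK L)).val : ZMod K') = 1 := by
        rw [ZMod.natCast_val, ← ZMod.unitsMap_val hdK, unitsMap_cycK hdK,
          cycK_inertia hq (hq.coprime_iff_not_dvd.mpr hqK') hB hσ, Units.val_one]
      rw [twistChar_apply, diaVal_apply,
        P.res.point.dia_eq_one (D.mem_grpL_of_one hL hq hqN hqA hK.symm hu), one_pow]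
    rw [hone, one_smul]
  exfalso
  -- new: the trace congruence contradicts the auxiliary condition
  obtain ⟨-, hnew⟩ := hN _ _ hneg q hq hqp K' hK.symm hqK'
    (fun u hu => D.mem_grpL_of_one hL hq hqN hqA hK.symm hu) P.O' P.res.mem P.y P.res.point P.r
    P.attached B hB
  obtain ⟨φ, hφ⟩ := Fermat.CFT.exists_isFrobeniusAt hq hB
  have hdK : K' ∣ D.levK L := ⟨q, hK⟩
  obtain ⟨u, hu⟩ := ZMod.unitsMap_surjective hdK
    (ZMod.unitOfCoprime q (hq.coprime_iff_not_dvd.mpr hqK'))
  have hu' : ((u : ZMod (D.levK L)).val : ZMod K') = (q : ZMod K') := by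
    rw [ZMod.natCast_val, ← ZMod.unitsMap_val hdK, hu, ZMod.coe_unitOfCoprime]
  have h := congrArg (residue P.O') (hnew hold φ hφ u hu')
  rw [map_pow, P.trace_r, map_mul, P.res.residue_dia, one_mul, map_pow, map_add, map_natCast,
    map_one] at h
  refine D.aux q hq hqp hqN hqA hunr B hB φ hφ (((ResidueField.map (algebraMap O P.O')).comp
    (resCast hc.mem)).injective ?_)
  rw [map_pow, map_pow, map_add, map_natCast, map_one, h, add_comm]

end PtData

end LowerData

end Fermat.GR.RT

end
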