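import Mathlib
import Fermat.Agent.GR.RT.LowerPoints

/-!
# Level lowering: minimality at the auxiliary levels

The systems with trivial characters at `A` are new at every prime of `A`, as the level cannot be
lowered there.
-/

set_option autoImplicit false

noncomputable section

open MvPolynomial IsLocalRing

namespace Fermat.GR.RT

open Fermat.HM Fermat.MC.Lvl

local notation "ℚbar" => AlgebraicClosure ℚ
local notation "Γℚ" => (AlgebraicClosure ℚ ≃ₐ[ℚ] AlgebraicClosure ℚ)

/-- The trivial diamond quotient, with group `Unit`. -/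
def trivQuot (M : ℕ) : DiamondQuot M ⊤ (⊤ : Subgroup (ZMod M)ˣ) Unit where
  le := le_rfl
  chi := 1
  surj := fun _ => ⟨1, rfl⟩
  ker_iff _ := iff_of_true rfl trivial

variable {p : ℕ} [hp : Fact p.Prime] {rb : Γℚ →* GL (Fin 2) (ZMod p)} {N : ℕ} {A : Finset ℕ}

namespace LowerData

variable (D : LowerData p rb N A) {n : ℕ} {L : List (GoodIx (N * p))} (hL : TWList p rb n L)
  {O : Type} [CommRing O] [IsDomain O] [IsDiscreteValuationRing O]
  [IsAdicComplete (maximalIdeal O) O] [Finite (ResidueField O)] [CharZero O] {ζ : O}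
  (hc : CoeffData p O ζ)

omit [IsAdicComplete (maximalIdeal O) O] [Finite (ResidueField O)] [CharZero O] in
include D hc in
/-- A level obtained by removing a prime being lowered is good. -/
theorem goodLevel_below {q M : ℕ} (hqA : q ∈ A) (hM : M * q = N) [NeZero M] :
    GoodLevel O (GammaH M ⊤) := by
  classical
  by_cases h3 : p = 3
  · refine GoodLevel.of_neat (D.isUnit_two hc.mem) (Subgroup.mem_top _) ?_
    rcases D.neat h3 with ⟨l, hl, hl3, hlN⟩ | h9
    · refine Or.inl ⟨l, hl, hl3, ?_⟩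
      rw [← hM] at hlN
      refine (hl.dvd_mul.mp hlN).resolve_right fun e => ?_
      have he : l = q := (Nat.prime_dvd_prime_iff_eq hl (D.prime q hqA)).mp e
      have : Fact (1 < p) := ⟨hp.out.one_lt⟩
      have h1 := congrArg ZMod.val (D.one q hqA)
      rw [← he, ZMod.val_natCast, ZMod.val_one, h3, hl3] at h1
      exact absurd h1 (by norm_num)
    · exact absurd (Nat.isUnit_iff.mp (D.squarefree 3 h9)) (by decide)
  refine ⟨neg_one_mem_GammaH (Subgroup.mem_top _), Subgroup.finite_quotient_of_finiteIndex,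
    D.isUnit_two hc.mem, Or.inl ?_⟩
  exact_mod_cast isUnit_natCast_of_prime_ne hc.mem Nat.prime_three (Ne.symm h3)

include D hL hc in
/-- No congruent system at an auxiliary level over a lowered level. -/
theorem false_of_point_below (hA : AttachInput p) {u : O →+* ℂ} (hu : Function.Injective u)
    {q M : ℕ} (hqA : q ∈ A) (hM : M * q = N) {K' : ℕ} [NeZero K']
    (hK' : K' = levN M (goodPr (N * p)) L) {H' : Subgroup (ZMod K')ˣ} {O' : Type} [CommRing O']
    [IsDomain O'] [IsDiscreteValuationRing O'] [Algebra O O']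
    [IsLocalHom (algebraMap O O')] {y : MvPolynomial (Nat.Primes ⊕ (ZMod K')ˣ) ℤ →+* O'}
    (hy : IsPoint K' H' y) (j : O' →ₐ[O] AlgebraicClosure (FractionRing O))
    (hj : Function.Injective j)
    (hdia : ∀ (hd : ∀ k : Fin L.length, goodPr (N * p) (L.get k) ∣ K') (v : (ZMod K')ˣ),
      hL.chiQ K' hd v = 1 → y (X (Sum.inr v)) = 1)
    (hcong : ∀ i : GoodIx (N * p), residue O' (tVal y (goodPr (N * p) i)) =
      ResidueField.map (algebraMap O O') (thetaL rb hc.mem ζ L i)) : False := by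
  subst hK'
  classical
  have : NeZero M := ⟨fun h => D.ne_zero (by rw [← hM, h, zero_mul])⟩
  have hMN : M ∣ N := ⟨q, hM.symm⟩
  have : ∀ _k : Fin L.length, NeZero (p ^ n) := fun _ => ⟨pow_ne_zero _ hp.out.ne_zero⟩
  have hd : ∀ k : Fin L.length, (goodPr (N * p)) (L.get k) ∣ levN M (goodPr (N * p)) L := fun k =>
    dvd_levN_of_mem (L.get_mem k)
  have hnot : ∀ i : GoodIx (N * p), ¬ (goodPr (N * p)) i ∣ M := fun i h =>
    not_dvd_of_goodIx i (h.trans hMN)
  have hjs : JointSurj (dvd_levN M (goodPr (N * p)) L) (hL.chiQ (levN M (goodPr (N * p)) L) hd) :=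
    jointSurj_chiPi (goodPr_injective _) hL.nodup (fun i _ => hnot i) hL.fQ hL.fQ_surjective
  -- the system in the algebraic closure, with the diamonds it kills
  have hinj := algClosure_algebraMap_injective O
  let x : MvPolynomial (Nat.Primes ⊕ (ZMod (levN M (goodPr (N * p)) L))ˣ) ℤ →+*
      AlgebraicClosure (FractionRing O) :=
    (j : O' →+* _).comp y
  have hx : IsPoint _ H' x := ⟨fun P hP => by
    rw [RingHom.comp_apply, hy.kills P hP, map_zero]⟩
  have hxc : CongruentTo (goodPr (N * p)) (sysIdeal (thetaL rb hc.mem ζ L)) x := by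
    have hcy : CongruentTo (goodPr (N * p)) (sysIdeal (thetaL rb hc.mem ζ L)) y :=
        congruentTo_of_residue fun i => by
      have := hcong i
      rw [tVal, dif_pos i.1.2] at this
      exact this
    intro P hP
    refine hcy P (hj ?_)
    rw [map_zero, ← AlgHom.comp_apply, MvPolynomial.comp_aeval, ← hP]
    rfl
  let H₂ : Subgroup (ZMod (levN M (goodPr (N * p)) L))ˣ :=
    (diaVal hx).ker
  have hle : H' ≤ H₂ := fun v hv => MonoidHom.mem_ker.mpr (by
    rw [diaVal_apply, hx.dia_eq_one hv])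
  have haux : auxH (trivQuot M) (dvd_levN M (goodPr (N * p)) L)
      (hL.chiQ (levN M (goodPr (N * p)) L) hd) ≤ H₂ := fun v hv => by
    have h1 : hL.chiQ (levN M (goodPr (N * p)) L) hd v = 1 :=
      congrArg Prod.snd (MonoidHom.mem_ker.mp hv)
    refine MonoidHom.mem_ker.mpr ?_
    rw [diaVal_apply, RingHom.comp_apply, hdia hd v h1, map_one]
  have hx₂ : IsPoint _ H₂ x := hx.of_trivial hle fun v hv => by
    rw [← diaVal_apply hx]; exact MonoidHom.mem_ker.mp hv
  have hx₁ := hx₂.mono haux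
  have hgood : GoodLevel O (GammaH M ⊤) := D.goodLevel_below hc hqA hM
  -- a class at `M` with the residual system, its eigen system, and modularity of level `N / q`
  have hUnit : IsPGroup p Unit := fun _ => ⟨0, rfl⟩
  have : Module.Finite O (Homs O (GammaH M (⊤ : Subgroup (ZMod M)ˣ))) := hgood.moduleFinite
  have hneg₁ : -1 ∈ auxH (trivQuot M) (dvd_levN M (goodPr (N * p)) L)
      (hL.chiQ (levN M (goodPr (N * p)) L) hd) :=
    neg_one_mem_of_chiTop (auxQuot (trivQuot M) hjs) D.p_ne_two (fun v => by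
      obtain ⟨e, he⟩ := isPGroup_deltaQ p _ v.2
      exact ⟨e, Prod.ext rfl he⟩)
  have := (hgood.gammaH (dvd_levN M (goodPr (N * p)) L) le_top hneg₁).moduleFinite
  obtain ⟨φ, hφ, hφ0⟩ := exists_mem_locPart_ne_zero hx₁ hinj hxc
  obtain ⟨z, hz⟩ := exists_ne_of_aux (D := trivQuot M) (θ := theta rb hc.mem (N * p))
    (α := alphaRes (p := p) ζ) (n := fun _ : Fin L.length => n) D.p_ne_two hc.mem hUnit
    (goodPr_injective _) (D.nonEis hc.mem) (D.nonEisL hc) hgood hL.nodup
    (fun i hi => hL.isTWPrime hc D.p_ne_two hnot hi) hjs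
    ⟨⟨⟨φ, hφ⟩⟩, fun e => hφ0 (by
      have h1 := congrArg DiamondQuot.LocMod.val e
      exact congrArg Subtype.val h1)⟩
  have : NegMem (⊤ : Subgroup (ZMod M)ˣ) := ⟨Subgroup.mem_top _⟩
  obtain ⟨x₀, hx₀, hx₀c⟩ := exists_congruent_point (D.nonEis hc.mem) hu z.val.2
    fun e => hz (DiamondQuot.LocMod.ext_val e)
  obtain ⟨⟨O₀, _⟩, y₀, hy₀, j₀, hj₀, hjy₀⟩ :=
    exists_dvr_point M ⊤ O hx₀
  have h₀ := isResPoint_of_congruent hc.mem (resCast hc.mem) (e := 0)
    (fun v => Subgroup.mem_top _) hx₀c hy₀ j₀ hjy₀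
  obtain ⟨r₀, ρ₀, -, -, -, -, -, htr, hfrob⟩ :=
    h₀.exists_rep_of_det D.semi.isOpen_ker D.semi.det_eq D.p_ne_two hA
    (Subgroup.mem_top _) D.bad_ne_zero D.resUnr
  refine D.minimal q hqA ?_
  rw [show N / q = M by rw [← hM, Nat.mul_div_cancel _ (D.prime q hqA).pos]]
  refine modularOf_of_point hy₀ h₀.mem ((ResidueField.map (algebraMap O O₀)).comp (resCast hc.mem))
    fun ℓ hℓ hℓM hℓp _ P hP φ' hφ' => ?_
  have hℓK : ¬ ℓ ∣ M * p := fun h => (hℓ.dvd_mul.mp h).elim hℓM
    fun e => hℓp ((Nat.prime_dvd_prime_iff_eq hℓ hp.out).mp e)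
  rw [← htr φ', ((hfrob ℓ hℓ hℓK P hP).2 φ' hφ').1, trLabel,
    dif_pos ⟨hℓ, hℓ.coprime_iff_not_dvd.mpr hℓM⟩, map_mul, map_mul, h₀.residue_dia, mul_one, tVal,
    dif_pos hℓ]

namespace PtData

variable {D} {hL} {hc}
variable [NeZero N] [NeZero (D.levK L)] {x : MvPolynomial (Nat.Primes ⊕ (ZMod (D.levK L))ˣ) ℤ →+*
    AlgebraicClosure (FractionRing O)} (P : D.PtData hL hc x)

/-- The systems with trivial characters at `A`. -/
def IsSideOne : Prop :=
  ∀ u : (ZMod (D.levK L))ˣ, D.chiL hL u = 1 → P.y (X (Sum.inr u)) = 1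

/-- **The systems with trivial characters at `A` are new at every prime of `A`.** -/
theorem not_old (hA : AttachInput p) {u : O →+* ℂ} (hu : Function.Injective u)
    (hside : P.IsSideOne) {q : ℕ} (hqA : q ∈ A) :
    ¬ IsOldAt (D.levK L) (D.grpL hL) P.y q := by
  intro hold
  obtain ⟨K', hK'0, hd, hK, y', h', ht, hval⟩ := P.res.exists_old (D.dvd_badL (D.dvd q hqA)) hold
  obtain ⟨M, hM⟩ := D.dvd q hqA
  refine D.false_of_point_below hL hc hA hu hqA (M := M) (by rw [hM, mul_comm]) (K' := K') ?_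
    h'.point P.j P.inj (fun hdk v hv => ?_) fun i => ?_
  · refine Nat.eq_of_mul_eq_mul_right (D.prime q hqA).pos ?_
    show K' * q = _
    rw [hK, levK, levN_eq, levN_eq, mul_right_comm, mul_comm M q, ← hM]
  · obtain ⟨w, rfl⟩ := ZMod.unitsMap_surjective hd v
    rw [hval]
    refine hside w ?_
    rw [← hv]
    exact (chiPi_unitsMap _ _ hd _ _ w).symm
  · rw [ht _ i.1.2 fun e => not_dvd_of_goodIx i (by
      change ((i.1 : Nat.Primes) : ℕ) ∣ N
      rw [show ((i.1 : Nat.Primes) : ℕ) = q from e]; exact D.dvd q hqA)]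
    exact P.cong i

/-- **The new relation for Frobenius.** For trivial characters at `A`, the trace of Frobenius at
`q ∈ A` squares to `(1 + q) ^ 2`. -/
theorem trace_sq (hA : AttachInput p) (hN : NewInput p) {u : O →+* ℂ} (hu : Function.Injective u)
    (hside : P.IsSideOne) {q : ℕ} (hqA : q ∈ A) {B : ValuationSubring ℚbar}
    (hB : B.LiesOverPrime q) {φ : Γℚ} (hφ : B.IsFrobeniusAt φ q) :
    (P.ρ φ).trace ^ 2 = (1 + (q : P.O')) ^ 2 := by
  have hq := D.prime q hqA
  have hqN := D.dvd q hqA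
  have hqp : q ≠ p := D.ne_p hqA
  obtain ⟨K', hK⟩ := (D.dvd_levK (L := L) hqN : q ∣ D.levK L)
  rw [mul_comm] at hK
  have hqK' : ¬ q ∣ K' := D.not_dvd_of_mul_eq hL hq hK.symm
  have hdK : K' ∣ D.levK L := ⟨q, hK⟩
  have : NeZero K' := ⟨fun h => NeZero.ne (D.levK L) (by rw [hK, h, zero_mul])⟩
  -- enlarge the level group to the kernel of the diamond character
  let H₂ : Subgroup (ZMod (D.levK L))ˣ := (diaVal P.res.point).ker
  have hle : D.grpL hL ≤ H₂ := fun v hv => MonoidHom.mem_ker.mpr (by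
    rw [diaVal_apply, P.res.point.dia_eq_one hv])
  have hpt₂ : IsPoint (D.levK L) H₂ P.y := P.res.point.of_trivial hle fun v hv => by
    rw [← diaVal_apply P.res.point]; exact MonoidHom.mem_ker.mp hv
  have hone : ∀ v : (ZMod (D.levK L))ˣ, ((v : ZMod (D.levK L)).val : ZMod K') = 1 → v ∈ H₂ := by
    intro v hv
    refine MonoidHom.mem_ker.mpr ?_
    rw [diaVal_apply]
    refine hside v (funext fun k => chiPi_eq_one _ _ _ (val_cast_eq_one_of_dvd ?_ hv))
    have hk : goodPr (N * p) (L.get k) ∣ K' * q := hK ▸ dvd_levN_of_mem (L.get_mem k)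
    refine ((L.get k).1.2.dvd_mul.mp hk).resolve_right fun e => not_dvd_of_goodIx (L.get k) ?_
    exact e.trans hqN
  obtain ⟨-, hnew⟩ := hN _ H₂ (hle (D.neg_mem_grpL hL)) q hq hqp K' hK.symm hqK' hone P.O' P.res.mem
    P.y hpt₂ P.r ⟨P.attached.cont, P.attached.unramified, P.attached.frobenius⟩ B hB
  -- the point is not old at `q`, so the new case applies
  have hnold : ¬ IsOldAt (D.levK L) H₂ P.y q := by
    rintro ⟨K'', h0, hd, hK'', y', hy', ht, hval⟩
    exact P.not_old hA hu hside hqA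
      ⟨K'', h0, hd, hK'', y', hy'.mono (Subgroup.map_mono hle), ht, hval⟩
  have hu' : ((cycK (D.levK L) φ : ZMod (D.levK L)).val : ZMod K') = (q : ZMod K') := by
    rw [ZMod.natCast_val, ← ZMod.unitsMap_val hdK, unitsMap_cycK hdK,
      cycK_frobenius hq (hq.coprime_iff_not_dvd.mpr hqK') hB hφ, ZMod.coe_unitOfCoprime]
  have h := hnew hnold φ hφ _ hu'
  rw [← diaVal_apply P.res.point] at h
  -- undo the twist
  rw [P.rho_eq, Matrix.trace_smul, smul_eq_mul, mul_pow, h, ← mul_assoc,
    twistChar_sq_mul P.res.point (Odd.pow (hp.out.odd_of_ne_two D.p_ne_two)) P.res.pow_mem,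
    one_mul, add_comm]

end PtData

include D in
/-- **The residual Frobenius at a prime being lowered.** -/
theorem trace_sq_residual (hA : AttachInput p) (hN : NewInput p) [NeZero N] {u : O →+* ℂ}
    (hu : Function.Injective u) {q : ℕ} (hqA : q ∈ A) {B : ValuationSubring ℚbar}
    (hB : B.LiesOverPrime q) {φ : Γℚ} (hφ : B.IsFrobeniusAt φ q) (hc : CoeffData p O ζ) :
    (rb φ : Matrix (Fin 2) (Fin 2) (ZMod p)).trace ^ 2 = 4 := by
  obtain ⟨hnil, x, P, hP1⟩ := D.exists_basePtData hc hA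
  have := D.neZero_levK (L := ([] : List (GoodIx (N * p))))
  have hside : P.IsSideOne := fun v _ => hP1 v
  have h := congrArg (residue P.O') (P.trace_sq hA hN hu hside hqA hB hφ)
  rw [map_pow, P.trace, map_pow, map_add, map_one, map_natCast] at h
  refine ((ResidueField.map (algebraMap O P.O')).comp (resCast hc.mem)).injective ?_
  rw [map_pow, h, show (4 : ZMod p) = (1 + (q : ZMod p)) ^ 2 by rw [D.one q hqA]; norm_num, map_pow,
    map_add, map_one, map_natCast]

end LowerData

end Fermat.GR.RT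

end
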