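import Mathlib
import Fermat.Agent.GR.RT.Tame
import Fermat.Agent.GR.RT.TraceFrob
import Fermat.Agent.CFT.Density.Places

/-!
# Tame inertia of a residually unramified representation

Frobenius conjugates every element of inertia to its `q`-th power, and a topological generator
modulo the square of the maximal ideal may be chosen with prescribed value under a character of
order `p`.
-/

set_option autoImplicit false

noncomputable section

open IsLocalRing Fermat.EC.Val Fermat.FLAT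

namespace Fermat.GR.RT

local notation "ℚbar" => AlgebraicClosure ℚ
local notation "Γℚ" => (AlgebraicClosure ℚ ≃ₐ[ℚ] AlgebraicClosure ℚ)
local notation "M2" R => Matrix (Fin 2) (Fin 2) R

/-- A matrix congruent to one has `p`-th power congruent one step further. -/
theorem matrix_pow_prime_sub_one_mem {R : Type} [CommRing R] {I : Ideal R} {p : ℕ}
    (hp : (p : R) ∈ I) {k : ℕ} (hk : 1 ≤ k) {M : M2 R}
    (hM : ∀ i j, (M - 1) i j ∈ I ^ k) : ∀ i j, (M ^ p - 1) i j ∈ I ^ (k + 1) := by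
  intro i j
  let mk1 := (Ideal.Quotient.mk I).mapMatrix (m := Fin 2)
  have hM1 : mk1 M = 1 := by
    rw [← map_one mk1]
    exact Matrix.ext fun a b => Ideal.Quotient.eq.mpr
      (Ideal.pow_le_self (by omega) (hM a b))
  have hsum : ∀ a b, (∑ l ∈ Finset.range p, M ^ l) a b ∈ I := by
    intro a b
    have h : mk1 (∑ l ∈ Finset.range p, M ^ l) = 0 := by
      simp only [map_sum, map_pow, hM1, one_pow, Finset.sum_const, Finset.card_range]
      rw [← map_one mk1, ← map_nsmul]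
      refine Matrix.ext fun c d => Ideal.Quotient.eq_zero_iff_mem.mpr ?_
      rw [Matrix.smul_apply, nsmul_eq_mul]
      exact Ideal.mul_mem_right _ _ hp
    exact Ideal.Quotient.eq_zero_iff_mem.mp (congrFun (congrFun h a) b)
  rw [← geom_sum_mul M p, Matrix.mul_apply, pow_succ']
  exact Ideal.sum_mem _ fun l _ => Ideal.mul_mem_mul (hsum i l) (hM l j)

/-- The iterated `p`-th powers of a matrix congruent to one are congruent to one modulo higher
powers. -/
theorem matrix_pow_prime_pow_sub_one_mem {R : Type} [CommRing R] {I : Ideal R} {p : ℕ}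
    (hp : (p : R) ∈ I) {M : M2 R} (hM : ∀ i j, (M - 1) i j ∈ I) :
    ∀ (N : ℕ) (i j : Fin 2), (M ^ p ^ N - 1) i j ∈ I ^ (N + 1)
  | 0, i, j => by simpa using hM i j
  | N + 1, i, j => by
    rw [pow_succ p, pow_mul]
    exact matrix_pow_prime_sub_one_mem hp (Nat.succ_pos N)
      (matrix_pow_prime_pow_sub_one_mem hp hM N) i j

variable {p : ℕ} [hp : Fact p.Prime] {R : Type} [CommRing R] [IsLocalRing R] {r : Γℚ →* M2 R}
  {G : Type} [CommGroup G]

/-- Generators of the image of a decomposition group modulo a power of the maximal ideal, together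
with a character of `p`-power order. -/
theorem exists_generators_modPow (hr : MatCont r) (hpR : (p : R) ∈ maximalIdeal R) {q : ℕ}
    (hq : q.Prime) (hqp : q ≠ p) {B : ValuationSubring ℚbar} (hB : B.LiesOverPrime q)
    (hres : ∀ σ ∈ B.inertiaSubgroupIn ℚ, ∀ i j, (r σ - 1) i j ∈ maximalIdeal R) (c : Γℚ →* G)
    (hc : IsOpen (c.ker : Set Γℚ)) (hG : IsPGroup p G) {φ : Γℚ} (hφ : B.IsFrobeniusAt φ q)
    (n : ℕ) :
    ∃ τ ∈ B.inertiaSubgroupIn ℚ,
      (∀ σ ∈ B.inertiaSubgroupIn ℚ, ∃ j : ℕ, (∀ a b, (r σ - r τ ^ j) a b ∈ maximalIdeal R ^ n) ∧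
        c σ = c τ ^ j) ∧
      (∀ a b, (r φ * r τ - r τ ^ q * r φ) a b ∈ maximalIdeal R ^ n) ∧
      ∀ δ ∈ B.decompositionSubgroup ℚ, ∃ i j : ℕ,
        ∀ a b, r δ a b - r (φ ^ i * τ ^ j) a b ∈ maximalIdeal R ^ n := by
  classical
  let mk := (Ideal.Quotient.mk (maximalIdeal R ^ n)).mapMatrix (m := Fin 2)
  -- reduction modulo the power of the maximal ideal, with `c`
  let f : Γℚ →* (M2 (R ⧸ maximalIdeal R ^ n))ˣ × G := ((mk.toMonoidHom.comp r).toHomUnits).prod c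
  have hf : IsOpen (f.ker : Set Γℚ) := by
    refine Subgroup.isOpen_mono (H₁ := ((mk.toMonoidHom.comp r).toHomUnits).ker ⊓ c.ker)
      (fun τ hτ => ?_) ((isOpen_ker_modPow hr n).inter hc)
    rw [MonoidHom.mem_ker]
    exact Prod.ext (MonoidHom.mem_ker.mp hτ.1) (MonoidHom.mem_ker.mp hτ.2)
  obtain ⟨L, hL, hLn, hLU⟩ := Fermat.CFT.exists_normal_fixingSubgroup_le hf
  have hI : ∀ σ ∈ B.inertiaSubgroupIn ℚ, ∃ b : ℕ, f σ ^ p ^ b = 1 := by
    intro σ hσ
    obtain ⟨e, he⟩ := hG (c σ)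
    refine ⟨e + n, Prod.ext (Units.ext ?_) ?_⟩
    · rw [Prod.pow_fst, Units.val_pow_eq_pow_val]
      change mk (r σ) ^ p ^ (e + n) = 1
      rw [← map_pow, ← map_one mk]
      exact Matrix.ext fun a b => Ideal.Quotient.eq.mpr (Ideal.pow_le_pow_right (by omega)
        (matrix_pow_prime_pow_sub_one_mem hpR (hres σ hσ) (e + n) a b))
    · rw [Prod.pow_snd, pow_add, pow_mul]
      change (c σ ^ p ^ e) ^ p ^ n = 1
      rw [he, one_pow]
  -- tame generators of its image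
  obtain ⟨τ, hτ, hτq, hgenI, hgenD⟩ := exists_decomposition_generators (ρ := f) (L := L)
    (⟨hq, hB⟩ : IsPlace B q) hLU
    ((Nat.coprime_primes hp.out hq).mpr (Ne.symm hqp)) hI hφ
  have key : ∀ g g' : Γℚ, f g = f g' →
      (∀ a b, (r g - r g') a b ∈ maximalIdeal R ^ n) ∧ c g = c g' := fun g g' h =>
    ⟨fun a b => by
      have h1 := congrArg (fun u : (M2 (R ⧸ maximalIdeal R ^ n))ˣ × G =>
        (u.1 : M2 (R ⧸ maximalIdeal R ^ n))) h
      exact Ideal.Quotient.eq.mp (congrFun (congrFun h1 a) b), congrArg Prod.snd h⟩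
  refine ⟨τ, hτ, fun σ hσ => ?_, fun a b => ?_, fun δ hδ => ?_⟩
  · obtain ⟨j, hj⟩ := hgenI σ hσ
    rw [← map_pow] at hj
    refine ⟨j, fun a b => ?_, ?_⟩
    · rw [← map_pow]; exact (key _ _ hj).1 a b
    · rw [← map_pow]; exact (key _ _ hj).2
  · rw [← map_pow, ← map_mul, ← map_mul]
    refine (key (φ * τ) (τ ^ q * φ) ?_).1 a b
    rw [map_mul, map_mul, map_pow, ← hτq, map_mul, map_mul, map_inv, mul_assoc, inv_mul_cancel,
      mul_one]
  · obtain ⟨i, j, hij⟩ := hgenD δ hδ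
    rw [← map_pow, ← map_pow, ← map_mul] at hij
    exact ⟨i, j, fun a b => (key _ _ hij).1 a b⟩

/-- If modulo every power of the maximal ideal `Y` is a power of some `T` with `X T = T ^ q X`, then
`X Y = Y ^ q X`. -/
theorem mul_eq_pow_mul_of_approx [IsHausdorff (maximalIdeal R) R] {q : ℕ} {X Y : M2 R}
    (h : ∀ n, ∃ T : M2 R, (∃ j, ∀ a b, (Y - T ^ j) a b ∈ maximalIdeal R ^ n) ∧
      ∀ a b, (X * T - T ^ q * X) a b ∈ maximalIdeal R ^ n) :
    X * Y = Y ^ q * X := by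
  refine Matrix.ext fun a b => sub_eq_zero.mp
    (IsHausdorff.haus' (I := maximalIdeal R) _ fun n => ?_)
  rw [SModEq.zero, smul_eq_mul, Ideal.mul_top]
  obtain ⟨T, ⟨j, hj⟩, hT⟩ := h n
  let mk := (Ideal.Quotient.mk (maximalIdeal R ^ n)).mapMatrix (m := Fin 2)
  have e1 : mk Y = mk T ^ j := by
    rw [← map_pow]
    exact Matrix.ext fun a b => Ideal.Quotient.eq.mpr (hj a b)
  have e2 : SemiconjBy (mk X) (mk T) (mk T ^ q) := by
    rw [SemiconjBy, ← map_pow mk, ← map_mul mk, ← map_mul mk]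
    exact Matrix.ext fun a b => Ideal.Quotient.eq.mpr (hT a b)
  refine Ideal.Quotient.eq.mp (congrFun (congrFun (show mk (X * Y) = mk (Y ^ q * X) by
    rw [map_mul, map_mul, map_pow, e1, ← pow_mul, mul_comm j q, pow_mul]
    exact e2.pow_right j) a) b)

/-- **Frobenius conjugates inertia to the `q`-th power.** -/
theorem frob_mul_inertia [IsHausdorff (maximalIdeal R) R] (hr : MatCont r)
    (hpR : (p : R) ∈ maximalIdeal R) {q : ℕ} (hq : q.Prime) (hqp : q ≠ p)
    {B : ValuationSubring ℚbar} (hB : B.LiesOverPrime q)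
    (hres : ∀ σ ∈ B.inertiaSubgroupIn ℚ, ∀ i j, (r σ - 1) i j ∈ maximalIdeal R) {φ : Γℚ}
    (hφ : B.IsFrobeniusAt φ q) {σ : Γℚ} (hσ : σ ∈ B.inertiaSubgroupIn ℚ) :
    r φ * r σ = r σ ^ q * r φ := by
  refine mul_eq_pow_mul_of_approx fun n => ?_
  obtain ⟨τ, -, hgen, hcomm, -⟩ := exists_generators_modPow (G := Unit) hr hpR hq hqp hB hres 1
    (by rw [MonoidHom.ker_one]; exact isOpen_univ) (fun _ => ⟨0, rfl⟩) hφ n
  obtain ⟨j, hj, -⟩ := hgen σ hσ
  exact ⟨r τ, ⟨j, hj⟩, hcomm⟩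

/-- **A generator with prescribed character value.** -/
theorem exists_generator_of_char (hr : MatCont r) (hpR : (p : R) ∈ maximalIdeal R) {q : ℕ}
    (hq : q.Prime) (hqp : q ≠ p) {B : ValuationSubring ℚbar} (hB : B.LiesOverPrime q)
    (hres : ∀ σ ∈ B.inertiaSubgroupIn ℚ, ∀ i j, (r σ - 1) i j ∈ maximalIdeal R) (c : Γℚ →* G)
    (hc : IsOpen (c.ker : Set Γℚ)) (hG : ∀ g : G, g ^ p = 1) {φ : Γℚ} (hφ : B.IsFrobeniusAt φ q)
    {g : G} (hg : g ≠ 1) (hsurj : ∃ σ ∈ B.inertiaSubgroupIn ℚ, c σ = g) :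
    ∃ τ ∈ B.inertiaSubgroupIn ℚ, c τ = g ∧ ∀ δ ∈ B.decompositionSubgroup ℚ, ∃ i j : ℕ,
      ∀ a b, r δ a b - r (φ ^ i * τ ^ j) a b ∈ maximalIdeal R ^ 2 := by
  obtain ⟨τ, hτ, hgen, -, hdec⟩ := exists_generators_modPow hr hpR hq hqp hB hres c hc
    (fun x => ⟨1, by rw [pow_one]; exact hG x⟩) hφ 2
  obtain ⟨σ, hσ, rfl⟩ := hsurj
  obtain ⟨k, -, hk⟩ := hgen σ hσ
  have hkp : ¬ p ∣ k := by
    rintro ⟨d, rfl⟩
    exact hg (by rw [hk, pow_mul, hG, one_pow])
  obtain ⟨l, -, hl⟩ := Nat.exists_mul_mod_eq_one_of_coprime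
    ((hp.out.coprime_iff_not_dvd.mpr hkp).symm.pow_right 2)
    (Nat.one_lt_pow two_ne_zero hp.out.one_lt)
  refine ⟨τ ^ k, pow_mem hτ k, by rw [map_pow, hk], fun δ hδ => ?_⟩
  obtain ⟨i, j, hij⟩ := hdec δ hδ
  refine ⟨i, l * j, fun a b => ?_⟩
  -- the image of inertia has exponent dividing `p ^ 2`
  let mk := (Ideal.Quotient.mk (maximalIdeal R ^ 2)).mapMatrix (m := Fin 2)
  have hp2 : mk (r τ) ^ p ^ 2 = 1 := by
    rw [← map_pow, ← map_one mk]
    exact Matrix.ext fun a b => Ideal.Quotient.eq.mpr (Ideal.pow_le_pow_right (by omega)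
      (matrix_pow_prime_pow_sub_one_mem hpR (hres τ hτ) 2 a b))
  have e : mk (r (φ ^ i * (τ ^ k) ^ (l * j))) = mk (r (φ ^ i * τ ^ j)) := by
    rw [map_mul r, map_mul r, map_pow r τ j, map_pow r (τ ^ k), map_pow r τ k,
      map_mul mk, map_mul mk, map_pow mk (r τ ^ k), map_pow mk (r τ), map_pow mk (r τ), ← pow_mul,
      ← mul_assoc, pow_mul]
    congr 2
    rw [pow_eq_pow_mod (k * l) hp2, hl, pow_one]
  have h1 := congrFun (congrFun e a) b
  have h2 := add_mem (hij a b) (Ideal.Quotient.eq.mp h1.symm)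
  rwa [sub_add_sub_cancel] at h2

end Fermat.GR.RT

end
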