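import Mathlib
import Fermat.Agent.GR.RT.LowerMinimal
import Fermat.Agent.GR.RT.TameGen

/-!
# Level lowering: the systems at the primes being lowered

The character `charA` at `A`, the two values of it which are used (trivial, and `chiVal`), and the
inertia and Frobenius of the systems with these characters.
-/

set_option autoImplicit false
set_option linter.unusedSectionVars false

noncomputable section

open MvPolynomial IsLocalRing

namespace Fermat.GR.RT

open Fermat.HM

local notation "ℚbar" => AlgebraicClosure ℚ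
local notation "Γℚ" => (AlgebraicClosure ℚ ≃ₐ[ℚ] AlgebraicClosure ℚ)
local notation "M2" R => Matrix (Fin 2) (Fin 2) R

/-- A matrix whose two eigenvalues are distinct roots of `X ^ N = X` is fixed by `N`-th powers. -/
theorem pow_eq_self_of_roots {R : Type} [CommRing R] [IsDomain R] {M : M2 R} {a b : R}
    (htr : M.trace = a + b) (hdet : M.det = a * b) (hab : a ≠ b) {N : ℕ} (ha : a ^ N = a)
    (hb : b ^ N = b) : M ^ N = M := by
  classical
  set P : Polynomial R := Polynomial.X ^ N - Polynomial.X with hP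
  have hPa : P.IsRoot a := by simp [hP, ha]
  obtain ⟨g, hg⟩ := Polynomial.dvd_iff_isRoot.mpr hPa
  have hgb : g.IsRoot b := by
    have h : P.eval b = 0 := by simp [hP, hb]
    rw [hg, Polynomial.eval_mul, Polynomial.eval_sub, Polynomial.eval_X, Polynomial.eval_C,
      mul_eq_zero] at h
    exact h.resolve_left (sub_ne_zero.mpr hab.symm)
  obtain ⟨k, hk⟩ := Polynomial.dvd_iff_isRoot.mpr hgb
  have hch : (M - algebraMap R (M2 R) a) * (M - algebraMap R (M2 R) b) = 0 := by
    rw [Matrix.trace_fin_two] at htr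
    rw [Matrix.det_fin_two] at hdet
    ext i j
    fin_cases i <;> fin_cases j <;>
      simp [Matrix.mul_apply, Fin.sum_univ_two, Matrix.algebraMap_matrix_apply]
    · linear_combination M 0 0 * htr - hdet
    · linear_combination M 0 1 * htr
    · linear_combination M 1 0 * htr
    · linear_combination M 1 1 * htr - hdet
  have h := congrArg (Polynomial.aeval M) (show P = (Polynomial.X - Polynomial.C a) *
    ((Polynomial.X - Polynomial.C b) * k) by rw [hg, hk])
  simp only [hP, map_sub, map_pow, map_mul, Polynomial.aeval_X, Polynomial.aeval_C] at h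
  rw [← mul_assoc, hch, zero_mul] at h
  exact sub_eq_zero.mp h

variable {p : ℕ} [hp : Fact p.Prime] {rb : Γℚ →* GL (Fin 2) (ZMod p)} {N : ℕ} {A : Finset ℕ}
  {O : Type} [CommRing O] [IsDomain O] [IsDiscreteValuationRing O]
  [IsAdicComplete (maximalIdeal O) O] [Finite (ResidueField O)] [CharZero O] {ζ : O}

/-! ### Constants -/

/-- `ζ ^ 4` is a primitive `p`-th root of unity. -/
theorem CoeffData.root_p (hc : CoeffData p O ζ) : IsPrimitiveRoot (ζ ^ 4) p :=
  hc.root.pow (Nat.mul_pos four_pos hp.out.pos) rfl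

/-- The eigenvalue of inertia on the side with nontrivial characters. -/
def zEig (p : ℕ) (ζ : O) : O := (ζ ^ 4) ^ ((p - 1) / 2)

/-- `zEig` is a `p`-th root of unity. -/
theorem CoeffData.zEig_pow (hc : CoeffData p O ζ) : zEig p ζ ^ p = 1 := by
  rw [zEig, ← pow_mul, mul_comm, pow_mul, hc.root_p.pow_eq_one, one_pow]

/-- `zEig ^ (p - 1)` is the inverse of `zEig`. -/
theorem CoeffData.zEig_mul (hc : CoeffData p O ζ) : zEig p ζ * zEig p ζ ^ (p - 1) = 1 := by
  rw [← pow_succ', Nat.sub_add_cancel hp.out.one_le, hc.zEig_pow]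

/-- `zEig` is a square root of the inverse of `ζ ^ 4`. -/
theorem CoeffData.zEig_sq_mul (hc : CoeffData p O ζ) (hp2 : p ≠ 2) :
    zEig p ζ ^ 2 * ζ ^ 4 = 1 := by
  obtain ⟨k, hk⟩ := hp.out.odd_of_ne_two hp2
  rw [zEig, ← pow_mul, ← pow_succ, show (p - 1) / 2 * 2 + 1 = p by omega, hc.root_p.pow_eq_one]

/-- `zEig` is not its inverse. -/
theorem CoeffData.zEig_ne (hc : CoeffData p O ζ) (hp2 : p ≠ 2) :
    zEig p ζ ≠ zEig p ζ ^ (p - 1) := by
  intro h
  have h1 : zEig p ζ ^ 2 = 1 := by rw [pow_two]; nth_rewrite 2 [h]; exact hc.zEig_mul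
  have h2 := hc.zEig_sq_mul hp2
  rw [h1, one_mul] at h2
  exact hc.root_p.ne_one hp.out.one_lt h2

/-- The character of `ΔA` on the twisted side. -/
def chiVal (hc : CoeffData p O ζ) (A : Finset ℕ) : DeltaA p A →* O where
  toFun a := ∏ q : A, (ζ ^ 4) ^ (Multiplicative.toAdd (a q)).val
  map_one' := by simp
  map_mul' a b := by
    have : NeZero (p ^ 1) := ⟨pow_ne_zero _ hp.out.ne_zero⟩
    rw [← Finset.prod_mul_distrib]
    refine Finset.prod_congr rfl fun q _ => ?_
    rw [Pi.mul_apply, toAdd_mul, ← pow_add, ZMod.val_add,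
      ← pow_eq_pow_mod _ (show (ζ ^ 4) ^ p ^ 1 = 1 by rw [pow_one]; exact hc.root_p.pow_eq_one)]

/-- The generator at `q`. -/
def genA (A : Finset ℕ) (q : A) : DeltaA p A := Pi.mulSingle q (Multiplicative.ofAdd 1)

/-- The generator at `q` is nontrivial. -/
theorem genA_ne_one (q : A) : genA (p := p) A q ≠ 1 := by
  intro h
  have h1 : Multiplicative.ofAdd (1 : ZMod (p ^ 1)) = 1 := by
    have := congrFun h q
    rwa [genA, Pi.mulSingle_eq_same, Pi.one_apply] at this
  have : Fact (1 < p ^ 1) := ⟨by rw [pow_one]; exact hp.out.one_lt⟩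
  exact one_ne_zero (α := ZMod (p ^ 1)) (Multiplicative.ofAdd.injective (h1.trans ofAdd_zero.symm))

/-- `chiVal` sends the generators to `ζ ^ 4`. -/
theorem chiVal_genA (hc : CoeffData p O ζ) (q : A) : chiVal hc A (genA A q) = ζ ^ 4 := by
  have : Fact (1 < p ^ 1) := ⟨by rw [pow_one]; exact hp.out.one_lt⟩
  change ∏ r : A, (ζ ^ 4) ^ (Multiplicative.toAdd (genA A q r)).val = _
  rw [Finset.prod_eq_single q (fun r _ hr => by
    rw [genA, Pi.mulSingle_eq_of_ne hr, toAdd_one, ZMod.val_zero, pow_zero])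
    fun h => absurd (Finset.mem_univ q) h, genA, Pi.mulSingle_eq_same, toAdd_ofAdd, ZMod.val_one,
    pow_one]

/-- `chiVal` takes values in the `p`-th roots of unity. -/
theorem chiVal_pow (hc : CoeffData p O ζ) (a : DeltaA p A) : chiVal hc A a ^ p = 1 := by
  change (∏ r : A, (ζ ^ 4) ^ (Multiplicative.toAdd (a r)).val) ^ p = 1
  rw [← Finset.prod_pow]
  exact Finset.prod_eq_one fun r _ => by
    rw [← pow_mul, mul_comm, pow_mul, hc.root_p.pow_eq_one, one_pow]

/-- `chiVal` is trivial modulo the maximal ideal. -/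
theorem chiVal_sub_one_mem (hc : CoeffData p O ζ) (a : DeltaA p A) :
    chiVal hc A a - 1 ∈ maximalIdeal O := by
  rw [← residue_eq_zero_iff, map_sub, map_one,
    residue_eq_one_of_pow (e := 1) hc.mem
      ((congrArg (chiVal hc A a ^ ·) (pow_one p)).trans (chiVal_pow hc a)), sub_self]

/-! ### The systems on the two sides -/

namespace LowerData

variable (D : LowerData p rb N A) {n : ℕ} {L : List (GoodIx (N * p))} (hL : TWList p rb n L)
  (hc : CoeffData p O ζ)

/-- The character of `Γ` at the primes of `A`. -/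
def charA [NeZero N] : Γℚ →* DeltaA p A :=
  (D.chiA N fun q => D.dvd _ q.2).comp (cycK N)

/-- The character at `A` is continuous. -/
theorem isOpen_ker_charA [NeZero N] : IsOpen (D.charA.ker : Set Γℚ) := by
  obtain ⟨F, hF, hF1⟩ := cycK_cont N
  refine Subgroup.isOpen_mono (H₁ := F.fixingSubgroup) (fun σ hσ => ?_)
    (F.fixingSubgroup_isOpen)
  rw [MonoidHom.mem_ker, charA, MonoidHom.comp_apply,
    hF1 σ ((IntermediateField.mem_fixingSubgroup_iff F σ).mp hσ), map_one]

/-- Inertia at a prime of `A` reaches its generator. -/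
theorem exists_inertia_genA [NeZero N] (q : A) {B : ValuationSubring ℚbar}
    (hB : B.LiesOverPrime (q : ℕ)) : ∃ σ ∈ B.inertiaSubgroupIn ℚ, D.charA σ = genA A q := by
  classical
  have hq := D.prime _ q.2
  obtain ⟨K', hK⟩ := D.dvd _ q.2
  have hK'0 : K' ≠ 0 := fun h => D.ne_zero (by rw [hK, h, mul_zero])
  have : NeZero K' := ⟨hK'0⟩
  have hqK' : ¬ (q : ℕ) ∣ K' := fun h => hq.one_lt.ne' (Nat.isUnit_iff.mp
    (D.squarefree q (hK ▸ Nat.mul_dvd_mul_left (q : ℕ) h)))
  -- a unit trivial away from `q` mapping to the generator at `q`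
  obtain ⟨b, hb⟩ := D.fA_surjective q (Multiplicative.ofAdd 1)
  have hcop : Nat.Coprime K' q := (hq.coprime_iff_not_dvd.mpr hqK').symm
  obtain ⟨v, hv⟩ := ZMod.unitsMap_surjective (show K' * q ∣ N by rw [hK, mul_comm])
    (Units.map (ZMod.chineseRemainder hcop).symm.toMonoidHom (MulEquiv.prodUnits.symm (1, b)))
  have hpr : ∀ (d : ℕ) (hd : d ∣ K' * q) (hdN : d ∣ N), ZMod.unitsMap hdN v = ZMod.unitsMap hd
      (Units.map (ZMod.chineseRemainder hcop).symm.toMonoidHom
        (MulEquiv.prodUnits.symm (1, b))) := by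
    intro d hd hdN
    rw [← hv]
    exact (DFunLike.congr_fun (ZMod.unitsMap_comp hd _) v).symm
  have hy : ZMod.chineseRemainder hcop
      ((Units.map (ZMod.chineseRemainder hcop).symm.toMonoidHom
        (MulEquiv.prodUnits.symm ((1 : (ZMod K')ˣ), b)) : (ZMod (K' * q))ˣ) : ZMod (K' * q)) =
      ((1 : ZMod K'), (b : ZMod (q : ℕ))) := (ZMod.chineseRemainder hcop).apply_symm_apply _
  have h1 : ZMod.unitsMap (show K' ∣ N from ⟨q, by rw [hK, mul_comm]⟩) v = 1 := by
    rw [hpr K' (dvd_mul_right _ _)]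
    refine Units.ext ?_
    rw [ZMod.unitsMap_def, Units.coe_map, Units.val_one]
    exact (RingHom.congr_fun (Subsingleton.elim
      (ZMod.castHom (dvd_mul_right K' (q : ℕ)) (ZMod K'))
      ((RingHom.fst (ZMod K') (ZMod q)).comp (ZMod.chineseRemainder hcop).toRingHom)) _).trans
        (congrArg Prod.fst hy)
  have h2 : ZMod.unitsMap (D.dvd _ q.2) v = b := by
    rw [hpr (q : ℕ) (dvd_mul_left _ _)]
    refine Units.ext ?_
    rw [ZMod.unitsMap_def, Units.coe_map]
    exact (RingHom.congr_fun (Subsingleton.elim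
      (ZMod.castHom (dvd_mul_left (q : ℕ) K') (ZMod q))
      ((RingHom.snd (ZMod K') (ZMod q)).comp (ZMod.chineseRemainder hcop).toRingHom)) _).trans
        (congrArg Prod.snd hy)
  have hv1 : ((v : ZMod N).val : ZMod K') = 1 := by
    have := congrArg Units.val h1
    rwa [ZMod.unitsMap_val, ← ZMod.natCast_val, Units.val_one] at this
  -- it is the cyclotomic value of an inertia element
  obtain ⟨σ, hσ, hσv⟩ := exists_inertia_cycK hq (show K' * q = N by rw [hK, mul_comm]) hqK' hB v hv1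
  refine ⟨σ, hσ, funext fun r => ?_⟩
  change D.chiA N _ (cycK N σ) r = _
  rw [hσv]
  by_cases hr : r = q
  · subst hr
    rw [chiA, chiPi_apply, h2, hb, genA, Pi.mulSingle_eq_same]
  · rw [genA, Pi.mulSingle_eq_of_ne hr]
    refine chiPi_eq_one _ _ _ (val_cast_eq_one_of_dvd ?_ hv1)
    refine ((D.prime _ r.2).dvd_mul.mp (hK ▸ D.dvd _ r.2)).resolve_left fun e => hr ?_
    exact Subtype.ext ((Nat.prime_dvd_prime_iff_eq (D.prime _ r.2) hq).mp e)

namespace PtData

variable {D} {hL} {hc}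
variable [NeZero N] [NeZero (D.levK L)] {x : MvPolynomial (Nat.Primes ⊕ (ZMod (D.levK L))ˣ) ℤ →+*
    AlgebraicClosure (FractionRing O)} (P : D.PtData hL hc x)

/-- The systems whose characters at `A` are `χ`. -/
def IsSide (χ : DeltaA p A →* O) : Prop :=
  ∀ v : (ZMod (D.levK L))ˣ, D.chiL hL v = 1 → P.y (X (Sum.inr v)) = algebraMap O P.O'
    (χ (D.chiA (D.levK L) (fun q => D.dvd_levK (D.dvd _ q.2)) v))

/-- Units which are `1` away from a prime of `N` have trivial characters at the auxiliary primes. -/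
theorem chiL_eq_one {q K' : ℕ} (hqN : q ∣ N) (hK : K' * q = D.levK L)
    {v : (ZMod (D.levK L))ˣ} (hv : ((v : ZMod (D.levK L)).val : ZMod K') = 1) :
    D.chiL hL v = 1 :=
  funext fun k => chiPi_eq_one _ _ _ (val_cast_eq_one_of_dvd (by
    have hk : goodPr (N * p) (L.get k) ∣ K' * q := hK.symm ▸ dvd_levN_of_mem (L.get_mem k)
    refine ((L.get k).1.2.dvd_mul.mp hk).resolve_right fun e => not_dvd_of_goodIx (L.get k) ?_
    exact e.trans hqN) hv)

/-- The cyclotomic value of inertia at `q` is `1` away from `q`. -/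
theorem inertia_val_one {q K' : ℕ} (hq : q.Prime) (hK : K' * q = D.levK L) (hqK' : ¬ q ∣ K')
    {B : ValuationSubring ℚbar} (hB : B.LiesOverPrime q) {σ : Γℚ}
    (hσ : σ ∈ B.inertiaSubgroupIn ℚ) :
    ((cycK (D.levK L) σ : ZMod (D.levK L)).val : ZMod K') = 1 := by
  have : NeZero K' := ⟨fun h => NeZero.ne (D.levK L) (by rw [← hK, h, zero_mul])⟩
  have hdK : K' ∣ D.levK L := ⟨q, hK.symm⟩
  rw [ZMod.natCast_val, ← ZMod.unitsMap_val hdK, unitsMap_cycK hdK,
    cycK_inertia hq (hq.coprime_iff_not_dvd.mpr hqK') hB hσ, Units.val_one]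

/-- On the trivial side the diamonds of inertia at `A` are trivial. -/
theorem dia_inertia_one (h : P.IsSideOne) {q : ℕ} (hq : q ∈ A) {B : ValuationSubring ℚbar}
    (hB : B.LiesOverPrime q) {σ : Γℚ} (hσ : σ ∈ B.inertiaSubgroupIn ℚ) :
    diaVal P.res.point (cycK (D.levK L) σ) = 1 := by
  obtain ⟨K', hK⟩ := D.dvd_levK (L := L) (D.dvd q hq)
  rw [mul_comm] at hK
  rw [diaVal_apply]
  exact h _ (chiL_eq_one (D.dvd q hq) hK.symm (inertia_val_one (D.prime q hq) hK.symm
    (D.not_dvd_of_mul_eq hL (D.prime q hq) hK.symm) hB hσ))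

/-- **Inertia on the trivial side.** For trivial characters at `A`, inertia at a prime of `A` has
determinant `1` and trace `2`. -/
theorem inertia_sideOne (hN : NewInput p) (hC : CharInput p) (h : P.IsSideOne) {q : ℕ} (hq : q ∈ A)
    {B : ValuationSubring ℚbar} (hB : B.LiesOverPrime q) {σ : Γℚ}
    (hσ : σ ∈ B.inertiaSubgroupIn ℚ) : (P.ρ σ).det = 1 ∧ (P.ρ σ).trace = 2 := by
  obtain ⟨K', hK⟩ := D.dvd_levK (L := L) (D.dvd q hq)
  rw [mul_comm] at hK
  obtain ⟨hd, ht⟩ := P.res.trace_inertia hN hC (D.neg_mem_grpL hL) (D.prime q hq)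
    (D.ne_p hq) hK.symm
    (D.not_dvd_of_mul_eq hL (D.prime q hq) hK.symm) P.attached P.rho_eq P.det hB hσ
  refine ⟨hd, ?_⟩
  rw [ht, twistChar_apply, twistChar_apply, map_inv (cycK _),
    map_inv_eq_one _ (P.dia_inertia_one h hq hB hσ), P.dia_inertia_one h hq hB hσ, one_pow,
    one_add_one_eq_two]
where
  /-- A homomorphism to a ring is one on the inverse where it is one. -/
  map_inv_eq_one {G R : Type} [Group G] [CommRing R] (f : G →* R) {g : G} (hg : f g = 1) :
      f g⁻¹ = 1 := by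
    have := map_mul f g g⁻¹
    rwa [mul_inv_cancel, map_one, hg, one_mul, eq_comm] at this

/-- **Inertia on the side of `chiVal`.** For the characters `chiVal` at `A`, a tame generator at
`q ∈ A` has determinant `1`, trace `ζ + ζ⁻¹` (normalised) and equals its `q`-th power. -/
theorem inertia_sideChi (hN : NewInput p) (hC : CharInput p) (h : P.IsSide (chiVal hc A)) (q : A)
    {B : ValuationSubring ℚbar} (hB : B.LiesOverPrime (q : ℕ)) {τ : Γℚ}
    (hτ : τ ∈ B.inertiaSubgroupIn ℚ) (hτg : D.charA τ = genA A q) :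
    (P.ρ τ).det = 1 ∧
      (P.ρ τ).trace = algebraMap O P.O' (zEig p ζ + zEig p ζ ^ (p - 1)) ∧
      P.ρ τ ^ (q : ℕ) = P.ρ τ := by
  obtain ⟨K', hK⟩ := D.dvd_levK (L := L) (D.dvd _ q.2)
  rw [mul_comm] at hK
  have hq := D.prime _ q.2
  have hqK' := D.not_dvd_of_mul_eq hL hq hK.symm
  obtain ⟨hd, ht⟩ := P.res.trace_inertia hN hC (D.neg_mem_grpL hL) hq
    (D.ne_p q.2) hK.symm hqK' P.attached P.rho_eq P.det hB hτ
  set t := twistChar P.res.point (p ^ n) τ with htdef
  have hodd : Odd (p ^ n) := Odd.pow (hp.out.odd_of_ne_two D.p_ne_two)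
  have hdia : diaVal P.res.point (cycK (D.levK L) τ) = algebraMap O P.O' (ζ ^ 4) := by
    rw [diaVal_apply, h _ (chiL_eq_one (D.dvd _ q.2) hK.symm
      (inertia_val_one hq hK.symm hqK' hB hτ)), ← chiVal_genA hc q, ← hτg]
    refine congrArg (fun a => algebraMap O P.O' (chiVal hc A a)) ?_
    change _ = D.chiA N _ (cycK N τ)
    rw [← unitsMap_cycK (dvd_levN N (goodPr (N * p)) L) τ]
    exact (chiPi_unitsMap _ _ _ _ _ _).symm
  -- the twist at `τ` is `zEig`, so the eigenvalues of `ρ τ` are `zEig` and its inverse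
  have ht2 : t = algebraMap O P.O' (zEig p ζ) := by
    refine eq_of_sq_eq_sq_of_odd_pow hodd ?sq (P.res.twistChar_pow τ) ?_
    case sq =>
      have e1 := twistChar_sq_mul P.res.point hodd P.res.pow_mem τ
      rw [← htdef, hdia] at e1
      have e2 : algebraMap O P.O' (zEig p ζ) ^ 2 * algebraMap O P.O' (ζ ^ 4) = 1 := by
        rw [← map_pow, ← map_mul, hc.zEig_sq_mul D.p_ne_two, map_one]
      linear_combination (algebraMap O P.O' (zEig p ζ) ^ 2) * e1 - t ^ 2 * e2
    · obtain ⟨d, hd⟩ := dvd_pow_self p (show n ≠ 0 by have := hL.pos; omega)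
      rw [← map_pow, hd, pow_mul, hc.zEig_pow, one_pow, map_one]
  have ht3 : twistChar P.res.point (p ^ n) τ⁻¹ = algebraMap O P.O' (zEig p ζ ^ (p - 1)) := by
    have e : twistChar P.res.point (p ^ n) τ⁻¹ * t = 1 := by
      rw [htdef, ← map_mul, inv_mul_cancel, map_one]
    have e' : algebraMap O P.O' (zEig p ζ ^ (p - 1)) * t = 1 := by
      rw [ht2, ← map_mul, mul_comm, hc.zEig_mul, map_one]
    calc twistChar P.res.point (p ^ n) τ⁻¹
        = twistChar P.res.point (p ^ n) τ⁻¹ * (algebraMap O P.O' (zEig p ζ ^ (p - 1)) * t) := by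
          rw [e', mul_one]
      _ = (twistChar P.res.point (p ^ n) τ⁻¹ * t) * algebraMap O P.O'
        (zEig p ζ ^ (p - 1)) := by ring
      _ = _ := by rw [e, one_mul]
  rw [ht2, ht3, ← map_add] at ht
  refine ⟨hd, ht, ?_⟩
  -- they are distinct and fixed by `q`-th powers
  have hinj : Function.Injective (algebraMap O P.O') := by
    intro a b hab
    have h1 := congrArg P.j hab
    rw [AlgHom.commutes, AlgHom.commutes] at h1
    exact algClosure_algebraMap_injective O h1
  refine pow_eq_self_of_roots (a := algebraMap O P.O' (zEig p ζ))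
    (b := algebraMap O P.O' (zEig p ζ ^ (p - 1))) (by rw [ht, map_add])
    (by rw [hd, ← map_mul, hc.zEig_mul, map_one]) (hinj.ne (hc.zEig_ne D.p_ne_two)) ?_ ?_
  · obtain ⟨d, hd⟩ := pow_one p ▸ D.dvd_sub_one q.2
    rw [← map_pow, show (q : ℕ) = p * d + 1 by rw [← hd, Nat.sub_add_cancel hq.one_le], pow_succ,
      pow_mul, hc.zEig_pow, one_pow, one_mul]
  · obtain ⟨d, hd⟩ := pow_one p ▸ D.dvd_sub_one q.2
    rw [← map_pow, ← pow_mul,
      show (p - 1) * (q : ℕ) = p * ((p - 1) * d) + (p - 1) by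
        rw [show (q : ℕ) = p * d + 1 by rw [← hd, Nat.sub_add_cancel hq.one_le]]; ring,
      pow_add, pow_mul, hc.zEig_pow, one_pow, one_mul]

/-- Frobenius and inertia at a residually unramified prime. -/
theorem frob_mul {q : ℕ} (hq : q.Prime) (hqp : q ≠ p) (hunr : IsResUnramified p rb q)
    {B : ValuationSubring ℚbar} (hB : B.LiesOverPrime q) {φ : Γℚ} (hφ : B.IsFrobeniusAt φ q)
    {σ : Γℚ} (hσ : σ ∈ B.inertiaSubgroupIn ℚ) :
    P.ρ φ * P.ρ σ = P.ρ σ ^ q * P.ρ φ := by
  obtain ⟨Q, hQ⟩ := exists_isRed (O := O) D.semi.surjective _ P.ρ P.trace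
  have h := frob_mul_inertia (matCont_conjHom P.cont Q) P.res.mem hq hqp hB (fun τ hτ i j => by
    have h1 := hQ τ i j
    rw [normDataOf_bar_eq_one _ (hunr B hB τ hτ), Matrix.one_apply] at h1
    rw [Matrix.sub_apply, Matrix.one_apply]
    split_ifs at h1 ⊢ <;> simpa using h1) hφ hσ
  rw [← map_pow, ← map_mul, ← map_mul] at h ⊢
  have h' : (Q : M2 P.O') * P.ρ (φ * σ) * (↑Q⁻¹ : M2 P.O') =
      (Q : M2 P.O') * P.ρ (σ ^ q * φ) * (↑Q⁻¹ : M2 P.O') := h
  exact Q.mul_right_inj.mp ((Units.mul_left_inj Q⁻¹).mp h')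

end PtData

end LowerData

end Fermat.GR.RT

end
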