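import Mathlib
import Fermat.Agent.GR.RT.LowerLocal
import Fermat.Agent.GR.RT.Framing

/-!
# Level lowering: the Hecke data of an auxiliary level

The operators away from the level and the diamond operators, their values at the congruent systems,
and the way the characters at `A` cut the module into the two sides.
-/

set_option autoImplicit false
set_option linter.unusedSectionVars false

noncomputable section

open MvPolynomial IsLocalRing

namespace Fermat.GR.RT

open Fermat.HM Fermat.MC.Lvl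

local notation "ℚbar" => AlgebraicClosure ℚ
local notation "Γℚ" => (AlgebraicClosure ℚ ≃ₐ[ℚ] AlgebraicClosure ℚ)

variable {p : ℕ} [hp : Fact p.Prime] {rb : Γℚ →* GL (Fin 2) (ZMod p)} {N : ℕ} {A : Finset ℕ}
  {O : Type} [CommRing O] [IsDomain O] [IsDiscreteValuationRing O]
  [IsAdicComplete (maximalIdeal O) O] [Finite (ResidueField O)] [CharZero O] {ζ : O}

namespace LowerData

variable (D : LowerData p rb N A) {n : ℕ} {L : List (GoodIx (N * p))} (hL : TWList p rb n L)
  (hc : CoeffData p O ζ)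

/-- The good primes which are prime to the auxiliary level. -/
abbrev OutIx (_D : LowerData p rb N A) (L : List (GoodIx (N * p))) : Type :=
  {i : GoodIx (N * p) // ¬ goodPr (N * p) i ∣ levN N (goodPr (N * p)) L}

/-- The labels of the operators: those primes and the diamonds of the auxiliary level. -/
abbrev labL (L : List (GoodIx (N * p))) : Type := D.OutIx L ⊕ (ZMod (D.levK L))ˣ

/-- The ring of operators. -/
abbrev HRing (O : Type) [CommRing O] (L : List (GoodIx (N * p))) : Type :=
  MvPolynomial (D.labL L) O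

variable [NeZero N] [NeZero (D.levK L)]

/-- The module of the level. -/
abbrev XL : Type :=
  (D.quotL hL).LocMod (goodPr (N * p)) (sysIdeal (thetaL rb hc.mem ζ L))

/-- The group ring of the level. -/
abbrev GRing (O : Type) [CommRing O] (p : ℕ) (A : Finset ℕ) (n len : ℕ) : Type :=
  MonoidAlgebra O (DeltaA p A × DeltaQ p (fun _ : Fin len => n))

/-- The action on the module. -/
def actL : D.HRing O L →ₐ[O] Module.End (GRing O p A n L.length) (D.XL hL hc) :=
  haveI := D.finite_homsL hL hc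
  (labelAct (D.quotL hL) (goodPr (N * p)) (sysIdeal (thetaL rb hc.mem ζ L))).comp
    (rename (Sum.map Subtype.val id))

variable {D hL hc}

/-- The value of a label at a system. -/
def PtData.lblVal {x : MvPolynomial (Nat.Primes ⊕ (ZMod (D.levK L))ˣ) ℤ →+*
    AlgebraicClosure (FractionRing O)} (P : D.PtData hL hc x) (v : D.labL L) : P.O' :=
  P.y (X (Sum.elim (heckeLbl (goodPr (N * p)) (D.levK L)) Sum.inr (Sum.map Subtype.val id v)))

/-- Evaluation of the ring of operators at a system, into its ring of values. -/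
def PtData.evalL {x : MvPolynomial (Nat.Primes ⊕ (ZMod (D.levK L))ˣ) ℤ →+*
    AlgebraicClosure (FractionRing O)} (P : D.PtData hL hc x) : D.HRing O L →ₐ[O] P.O' :=
  aeval P.lblVal

variable (D hL hc)

/-- **The systems separate the operators.** -/
theorem actL_eq_zero {u : O →+* ℂ} (hu : Function.Injective u)
    (fam : ∀ x ∈ D.ptsL hL hc, D.PtData hL hc x) (h : D.HRing O L)
    (hh : ∀ x hx, (fam x hx).evalL h = 0) : D.actL hL hc h = 0 := by
  have := D.finite_homsL hL hc
  have : NegMem (D.grpL hL) := ⟨D.neg_mem_grpL hL⟩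
  refine labelAct_rename_eq_zero (D.quotL hL) (D.nonEisL hc) hu Subtype.val (fun i => i.2) h
    fun x hx hxc => ?_
  have h1 := congrArg (fam x ⟨hx, hxc⟩).j (hh x ⟨hx, hxc⟩)
  rw [map_zero, PtData.evalL, ← AlgHom.comp_apply, MvPolynomial.comp_aeval] at h1
  rw [← h1]
  refine congrArg (fun f => aeval f h) (funext fun v => ?_)
  exact (RingHom.congr_fun (fam x ⟨hx, hxc⟩).comp _).symm

/-- The operator giving the trace of Frobenius at `ℓ`: `T_ℓ` times the diamond of the twist. -/
def tlL (O : Type) [CommRing O] (L : List (GoodIx (N * p))) (n ℓ : ℕ) : D.HRing O L :=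
  if h : ℓ.Prime ∧ ¬ ℓ ∣ levN N (goodPr (N * p)) L ∧ ℓ ≠ p then
    X (Sum.inl ⟨⟨⟨ℓ, h.1⟩, fun e => (h.1.dvd_mul.mp e).elim
      (fun e' => h.2.1 (e'.trans (dvd_levN N _ L)))
      fun e' => h.2.2 ((Nat.prime_dvd_prime_iff_eq h.1 hp.out).mp e')⟩, h.2.1⟩) *
    X (Sum.inr (ZMod.unitOfCoprime ℓ (h.1.coprime_iff_not_dvd.mpr h.2.1) ^ ((p ^ n + 1) / 2)))
  else 0

variable {D hL hc}

/-- The trace and determinant of Frobenius are the values of the operators `tlL` and `ℓ`. -/
theorem PtData.frobL {x : MvPolynomial (Nat.Primes ⊕ (ZMod (D.levK L))ˣ) ℤ →+*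
    AlgebraicClosure (FractionRing O)} (P : D.PtData hL hc x) {ℓ : ℕ} (hℓ : ℓ.Prime)
    (hbad : ℓ ∉ (D.levK L * p).primeFactors) {B : ValuationSubring ℚbar} (hB : B.LiesOverPrime ℓ)
    {φ : Γℚ} (hφ : B.IsFrobeniusAt φ ℓ) :
    (P.ρ φ).trace = P.evalL (D.tlL O L n ℓ) ∧ (P.ρ φ).det = P.evalL (ℓ : D.HRing O L) := by
  have hℓK : ¬ ℓ ∣ D.levK L * p := fun hd => hbad (Nat.mem_primeFactors.mpr
    ⟨hℓ, hd, mul_ne_zero (NeZero.ne _) hp.out.ne_zero⟩)
  obtain ⟨ht, hd⟩ := (P.frob ℓ hℓ hℓK B hB).2 φ hφ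
  refine ⟨?_, by rw [hd, map_natCast]⟩
  have hℓL : ¬ ℓ ∣ D.levK L := fun e => hℓK (e.mul_right p)
  have hℓp : ℓ ≠ p := fun e => hℓK (by rw [e]; exact dvd_mul_left p _)
  rw [ht, trLabel, dif_pos ⟨hℓ, hℓ.coprime_iff_not_dvd.mpr hℓL⟩, tlL, dif_pos ⟨hℓ, hℓL, hℓp⟩,
    map_mul, map_mul, PtData.evalL, aeval_X, aeval_X]
  rfl

/-- The side of the trivial character is the one with trivial characters at `A`. -/
theorem PtData.isSideOne_of_side {x : MvPolynomial (Nat.Primes ⊕ (ZMod (D.levK L))ˣ) ℤ →+*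
    AlgebraicClosure (FractionRing O)} {P : D.PtData hL hc x} (h : P.IsSide 1) : P.IsSideOne :=
  fun v hv => by rw [h v hv, MonoidHom.one_apply, map_one]

/-- The diamond character of a system. -/
theorem PtData.exists_diaChar {x : MvPolynomial (Nat.Primes ⊕ (ZMod (D.levK L))ˣ) ℤ →+*
    AlgebraicClosure (FractionRing O)} (P : D.PtData hL hc x) :
    ∃ ψ : DeltaA p A × DeltaQ p (fun _ : Fin L.length => n) →* P.O', ∀ v,
      P.y (X (Sum.inr v)) = ψ ((D.quotL hL).chiTop v) := by
  let g : (ZMod (D.levK L))ˣ →* P.O'ˣ := (diaVal P.res.point).toHomUnits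
  have hsurj : Function.Surjective (D.quotL hL).chiTop := fun a => by
    obtain ⟨u, hu⟩ := (D.quotL hL).surj a
    exact ⟨(u : (ZMod (D.levK L))ˣ), hu⟩
  have hker : (D.quotL hL).chiTop.ker ≤ g.ker := fun v hv => MonoidHom.mem_ker.mpr (Units.ext (by
    change diaVal P.res.point v = 1
    rw [diaVal_apply]
    exact P.res.point.dia_eq_one (((D.quotL hL).chiTop_eq_one v).mp (MonoidHom.mem_ker.mp hv))))
  refine ⟨(Units.coeHom P.O').comp ((D.quotL hL).chiTop.liftOfSurjective hsurj ⟨g, hker⟩),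
    fun v => ?_⟩
  rw [MonoidHom.comp_apply, Units.coeHom_apply, MonoidHom.liftOfSurjective,
    MonoidHom.liftOfRightInverse_comp_apply]
  rfl

/-- The diamond character of the auxiliary level is the pair of the two characters. -/
theorem chiTop_quotL (v : (ZMod (D.levK L))ˣ) :
    (D.quotL hL).chiTop v =
      (D.chiA (D.levK L) (fun q => D.dvd_levK (D.dvd _ q.2)) v, D.chiL hL v) := by
  refine Prod.ext ?_ rfl
  change D.chiA N _ (ZMod.unitsMap _ v) = _
  exact chiPi_unitsMap _ _ _ _ _ v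

variable (D hL hc)

/-- **An operator vanishing on one side acts as zero after the specialisation to that side.** -/
theorem matAct_eq_zero_side {u : O →+* ℂ} (hu : Function.Injective u)
    (fam : ∀ x ∈ D.ptsL hL hc, D.PtData hL hc x) {m : ℕ}
    (b : Module.Basis (Fin m) (GRing O p A n L.length) (D.XL hL hc)) (χ : DeltaA p A →* O)
    {R : Type} [CommRing R] [Algebra O R]
    (g : MonoidAlgebra O (DeltaQ p (fun _ : Fin L.length => n)) →ₐ[O] R) (h : D.HRing O L)
    (hh : ∀ x hx, (fam x hx).IsSide χ → (fam x hx).evalL h = 0) :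
    matAct (g.comp (chiAlgProd _ χ)) b (D.actL hL hc) h = 0 := by
  classical
  have := D.finite_homsL hL hc
  have : NeZero (p ^ 1) := ⟨pow_ne_zero _ hp.out.ne_zero⟩
  have : Fintype (DeltaA p A) := Fintype.ofFinite _
  have hsurj : ∀ a : DeltaA p A, ∃ v : (ZMod (D.levK L))ˣ, (D.quotL hL).chiTop v = (a, 1) :=
    fun a => by
      obtain ⟨w, hw⟩ := (D.quotL hL).surj (a, 1)
      exact ⟨(w : (ZMod (D.levK L))ˣ), hw⟩
  choose lift hlift using hsurj
  -- `he` cuts out the side of `χ` among the systems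
  let he : D.HRing O L := ∑ a : DeltaA p A, C (χ a⁻¹) * X (Sum.inr (lift a))
  refine matAct_eq_zero_of_cut (B := fun i : D.ptsL hL hc => (fam i.1 i.2).O')
    (g.comp (chiAlgProd _ χ)) b (D.actL hL hc) (fun i => (fam i.1 i.2).evalL)
    (fun f hf => D.actL_eq_zero hL hc hu fam f fun x hx => hf ⟨x, hx⟩)
    (e := cutElt (DeltaQ p (fun _ : Fin L.length => n)) χ) (he := he) (fun x => ?_) (fun f hf => ?_)
    (s := {i | (fam i.1 i.2).IsSide χ}) (fun i hi => ?_) fun i hi => hh i.1 i.2 hi
  · simp only [he, actL, AlgHom.comp_apply, map_sum, map_mul, rename_C, rename_X,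
      Sum.map_inr, id_eq, LinearMap.sum_apply, Module.End.mul_apply, labelAct_dia, cutElt,
      Finset.sum_smul]
    refine Finset.sum_congr rfl fun a _ => ?_
    rw [show C (χ a⁻¹) = algebraMap O (MvPolynomial (GoodIx (N * p) ⊕ (ZMod (D.levK L))ˣ) O) (χ a⁻¹)
        from rfl, AlgHom.commutes, Module.algebraMap_end_apply, hlift, LinearMap.smul_apply,
      Module.End.one_apply, ← smul_assoc]
    congr 1
    simp [MonoidAlgebra.of_apply, MonoidAlgebra.smul_single]
  · rw [AlgHom.comp_apply, chiAlgProd_eq_zero χ f hf, map_zero]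
  · obtain ⟨ψ, hψ⟩ := (fam i.1 i.2).exists_diaChar
    have hval : (fam i.1 i.2).evalL he =
        MonoidAlgebra.lift O (fam i.1 i.2).O' _ ψ (cutElt _ χ) := by
      simp only [he, cutElt, map_sum, map_mul, PtData.evalL, aeval_C, aeval_X,
        MonoidAlgebra.lift_single]
      refine Finset.sum_congr rfl fun a _ => ?_
      rw [Algebra.smul_def, ← hlift a, ← hψ]
      rfl
    rw [hval]
    refine lift_cutElt_eq_zero χ ψ ?_
    rw [Set.mem_ofPred_eq, PtData.IsSide, not_forall] at hi
    obtain ⟨v, hv⟩ := hi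
    rw [Classical.not_imp] at hv
    refine ⟨D.chiA (D.levK L) (fun q => D.dvd_levK (D.dvd _ q.2)) v, ?_⟩
    rw [← hv.1, ← chiTop_quotL, ← hψ]
    exact hv.2

end LowerData

end Fermat.GR.RT

end
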