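import Mathlib
import Fermat.Agent.GR.RT.TameGen

/-!
# Representations with nontrivial unipotent inertia away from `p`

On the decomposition group such a representation is triangular, with diagonal a quadratic unramified
character times `(χ, 1)`, `χ` its determinant.
-/

set_option autoImplicit false
set_option linter.unusedSectionVars false

noncomputable section

open IsLocalRing Fermat.EC.Val Fermat.FLAT

namespace Fermat.GR.RT

local notation "ℚbar" => AlgebraicClosure ℚ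
local notation "Γℚ" => (AlgebraicClosure ℚ ≃ₐ[ℚ] AlgebraicClosure ℚ)
local notation "M2" R => Matrix (Fin 2) (Fin 2) R

/-- Square-zero matrices: powers of one plus such. -/
theorem one_add_sq_zero_pow {R : Type} [CommRing R] {X : M2 R} (hX : X * X = 0) :
    ∀ n : ℕ, (1 + X) ^ n = 1 + n • X
  | 0 => by simp
  | n + 1 => by
    rw [pow_succ, one_add_sq_zero_pow hX n]
    simp only [add_mul, mul_add, one_mul, mul_one, smul_mul_assoc, hX, smul_zero, add_zero,
      add_smul, one_smul]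
    abel

variable {p : ℕ} [hp : Fact p.Prime] {R : Type} [CommRing R] [IsLocalRing R] [IsDomain R]
  [IsNoetherianRing R] [IsHausdorff (maximalIdeal R) R] {r : Γℚ →* M2 R}

/-- Modulo each power of the maximal ideal Frobenius and one element of unipotent inertia generate
the image of the decomposition group. -/
theorem exists_generators_unipotent (hr : MatCont r) (hpR : (p : R) ∈ maximalIdeal R) {q : ℕ}
    (hq : q.Prime) (hqp : q ≠ p) {B : ValuationSubring ℚbar} (hB : B.LiesOverPrime q)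
    (hun : ∀ σ ∈ B.inertiaSubgroupIn ℚ, (r σ - 1) * (r σ - 1) = 0) {φ : Γℚ}
    (hφ : B.IsFrobeniusAt φ q) (n : ℕ) :
    ∃ τ ∈ B.inertiaSubgroupIn ℚ,
      (∀ σ ∈ B.inertiaSubgroupIn ℚ, ∃ j : ℕ, ∀ a b, (r σ - r τ ^ j) a b ∈ maximalIdeal R ^ n) ∧
      (∀ a b, (r φ * r τ - r τ ^ q * r φ) a b ∈ maximalIdeal R ^ n) ∧
      ∀ δ ∈ B.decompositionSubgroup ℚ, ∃ i j : ℕ,
        ∀ a b, r δ a b - r (φ ^ i * τ ^ j) a b ∈ maximalIdeal R ^ n := by
  classical
  -- work with `f`, the image modulo `m ^ n`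
  let mk := (Ideal.Quotient.mk (maximalIdeal R ^ n)).mapMatrix (m := Fin 2)
  let f := (mk.toMonoidHom.comp r).toHomUnits
  obtain ⟨L, hL, hLn, hLU⟩ := Fermat.CFT.exists_normal_fixingSubgroup_le (isOpen_ker_modPow hr n)
  -- there inertia has `p`-power order, being unipotent
  have hI : ∀ σ ∈ B.inertiaSubgroupIn ℚ, ∃ b : ℕ, f σ ^ p ^ b = 1 := by
    intro σ hσ
    refine ⟨n, Units.ext ?_⟩
    rw [Units.val_pow_eq_pow_val]
    change mk (r σ) ^ p ^ n = 1
    rw [← map_pow, ← map_one mk]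
    refine Matrix.ext fun a b => Ideal.Quotient.eq.mpr ?_
    rw [show r σ = 1 + (r σ - 1) by abel, one_add_sq_zero_pow (hun σ hσ), ← Matrix.sub_apply,
      add_sub_cancel_left, Matrix.smul_apply, nsmul_eq_mul, Nat.cast_pow]
    exact Ideal.mul_mem_right _ _ (Ideal.pow_mem_pow hpR n)
  -- so Frobenius and one tame element generate the decomposition image
  obtain ⟨τ, hτ, hτq, hgenI, hgenD⟩ := exists_decomposition_generators (ρ := f) (L := L)
    (⟨hq, hB⟩ : IsPlace B q) hLU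
    ((Nat.coprime_primes hp.out hq).mpr (Ne.symm hqp)) hI hφ
  have key : ∀ g g' : Γℚ, f g = f g' → ∀ a b, (r g - r g') a b ∈ maximalIdeal R ^ n :=
    fun g g' h a b => by
      have h1 := congrArg (fun u : (M2 (R ⧸ maximalIdeal R ^ n))ˣ =>
        (u : M2 (R ⧸ maximalIdeal R ^ n))) h
      exact Ideal.Quotient.eq.mp (congrFun (congrFun h1 a) b)
  -- read the group relations as congruences of the entries
  refine ⟨τ, hτ, fun σ hσ => ?_, ?_, fun δ hδ => ?_⟩
  · obtain ⟨j, hj⟩ := hgenI σ hσ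
    rw [← map_pow] at hj
    exact ⟨j, fun a b => by rw [← map_pow]; exact key _ _ hj a b⟩
  · intro a b
    rw [← map_pow, ← map_mul, ← map_mul]
    refine key (φ * τ) (τ ^ q * φ) ?_ a b
    rw [map_mul, map_mul, map_pow, ← hτq, map_mul, map_mul, map_inv, mul_assoc, inv_mul_cancel,
      mul_one]
  · obtain ⟨i, j, hij⟩ := hgenD δ hδ
    rw [← map_pow, ← map_pow, ← map_mul] at hij
    exact ⟨i, j, key _ _ hij⟩

/-- **Frobenius conjugates unipotent inertia to the `q`-th power.** -/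
theorem frob_mul_unipotent (hr : MatCont r) (hpR : (p : R) ∈ maximalIdeal R) {q : ℕ}
    (hq : q.Prime) (hqp : q ≠ p) {B : ValuationSubring ℚbar} (hB : B.LiesOverPrime q)
    (hun : ∀ σ ∈ B.inertiaSubgroupIn ℚ, (r σ - 1) * (r σ - 1) = 0) {φ : Γℚ}
    (hφ : B.IsFrobeniusAt φ q) {σ : Γℚ} (hσ : σ ∈ B.inertiaSubgroupIn ℚ) :
    r φ * r σ = r σ ^ q * r φ := by
  refine mul_eq_pow_mul_of_approx fun n => ?_
  obtain ⟨τ, -, hgen, hcomm, -⟩ := exists_generators_unipotent hr hpR hq hqp hB hun hφ n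
  exact ⟨r τ, hgen σ hσ, hcomm⟩

/-- A square-zero matrix which is not zero residually is the standard one in some basis. -/
theorem exists_basis_of_sq_zero {X : M2 R} (hX : X * X = 0)
    (hne : ∃ a b, X a b ∉ maximalIdeal R) :
    ∃ U : (M2 R)ˣ, (↑U⁻¹ : M2 R) * X * (U : M2 R) = !![0, 1; 0, 0] := by
  obtain ⟨a, b, hab⟩ := hne
  have e00 : X 0 0 * X 0 0 + X 0 1 * X 1 0 = 0 := by
    simpa [Matrix.mul_apply] using congrFun (congrFun hX 0) 0
  have e11 : X 1 0 * X 0 1 + X 1 1 * X 1 1 = 0 := by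
    simpa [Matrix.mul_apply] using congrFun (congrFun hX 1) 1
  have e01 : X 0 0 * X 0 1 + X 0 1 * X 1 1 = 0 := by
    simpa [Matrix.mul_apply] using congrFun (congrFun hX 0) 1
  have e10 : X 1 0 * X 0 0 + X 1 1 * X 1 0 = 0 := by
    simpa [Matrix.mul_apply] using congrFun (congrFun hX 1) 0
  have hsq : ∀ z : R, z ∉ maximalIdeal R → z * z ∉ maximalIdeal R := fun z hz h =>
    hz (((maximalIdeal.isMaximal R).isPrime.mem_or_mem h).elim id id)
  -- an off-diagonal entry is a unit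
  have hcases : X 0 1 ∉ maximalIdeal R ∨ X 1 0 ∉ maximalIdeal R := by
    by_contra hcon
    push Not at hcon
    obtain ⟨h01, h10⟩ := hcon
    have h00 : X 0 0 ∈ maximalIdeal R := by
      by_contra h
      refine hsq _ h ?_
      rw [eq_neg_of_add_eq_zero_left e00]
      exact neg_mem (Ideal.mul_mem_right _ _ h01)
    have h11 : X 1 1 ∈ maximalIdeal R := by
      by_contra h
      refine hsq _ h ?_
      rw [eq_neg_of_add_eq_zero_right e11]
      exact neg_mem (Ideal.mul_mem_right _ _ h10)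
    exact hab ((Fin.forall_fin_two (p := fun i => ∀ j, X i j ∈ maximalIdeal R)).mpr
      ⟨(Fin.forall_fin_two (p := fun j => X 0 j ∈ maximalIdeal R)).mpr ⟨h00, h01⟩,
       (Fin.forall_fin_two (p := fun j => X 1 j ∈ maximalIdeal R)).mpr ⟨h10, h11⟩⟩ a b)
  -- a vector not killed by `X` and its image form the basis
  rcases hcases with h | h
  · have hu : IsUnit (!![X 0 1, 0; X 1 1, 1] : M2 R) := by
      rw [Matrix.isUnit_iff_isUnit_det, Matrix.det_fin_two_of, mul_one, zero_mul, sub_zero]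
      exact IsLocalRing.notMem_maximalIdeal.mp h
    refine ⟨hu.unit, ?_⟩
    suffices hXU : X * (!![X 0 1, 0; X 1 1, 1] : M2 R) = !![X 0 1, 0; X 1 1, 1] * !![0, 1; 0, 0] by
      rw [mul_assoc, IsUnit.unit_spec, hXU, ← mul_assoc, IsUnit.val_inv_mul, one_mul]
    ext i j
    fin_cases i <;> fin_cases j <;> simp [Matrix.mul_apply, Fin.sum_univ_two]
    · linear_combination e01
    · linear_combination e11
  · have hu : IsUnit (!![X 0 0, 1; X 1 0, 0] : M2 R) := by
      rw [Matrix.isUnit_iff_isUnit_det, Matrix.det_fin_two_of, mul_zero, one_mul, zero_sub,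
        IsUnit.neg_iff]
      exact IsLocalRing.notMem_maximalIdeal.mp h
    refine ⟨hu.unit, ?_⟩
    suffices hXU : X * (!![X 0 0, 1; X 1 0, 0] : M2 R) = !![X 0 0, 1; X 1 0, 0] * !![0, 1; 0, 0] by
      rw [mul_assoc, IsUnit.unit_spec, hXU, ← mul_assoc, IsUnit.val_inv_mul, one_mul]
    ext i j
    fin_cases i <;> fin_cases j <;> simp [Matrix.mul_apply, Fin.sum_univ_two]
    · linear_combination e00
    · linear_combination e10

/-- Over a field, a nonzero square-zero matrix is the standard one in some basis. -/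
theorem exists_basis_of_sq_zero_field {k : Type} [Field k] {X : M2 k} (hX : X * X = 0)
    (hne : X ≠ 0) : ∃ U : (M2 k)ˣ, (↑U⁻¹ : M2 k) * X * (U : M2 k) = !![0, 1; 0, 0] := by
  have : IsHausdorff (maximalIdeal k) k := by
    rw [IsLocalRing.maximalIdeal_eq_bot]; infer_instance
  refine exists_basis_of_sq_zero hX ?_
  by_contra hc
  push Not at hc
  simp only [IsLocalRing.maximalIdeal_eq_bot, Ideal.mem_bot] at hc
  exact hne (Matrix.ext hc)

/-- A unipotent matrix has trace `2`. -/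
private theorem trace_eq_two_of_sq_zero {X : M2 R} (hX : (X - 1) * (X - 1) = 0) :
    X 0 0 + X 1 1 = 2 := by
  have h00 := congrFun (congrFun hX 0) 0
  have h11 := congrFun (congrFun hX 1) 1
  have h01 := congrFun (congrFun hX 0) 1
  simp [Matrix.mul_apply, Fin.sum_univ_two] at h00 h11 h01
  by_contra h
  have h' : X 0 0 + X 1 1 - 2 ≠ 0 := sub_ne_zero.mpr h
  have b0 : X 0 1 = 0 := (mul_eq_zero.mp (show X 0 1 * (X 0 0 + X 1 1 - 2) = 0 by
    linear_combination h01)).resolve_right h'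
  rw [b0, zero_mul, add_zero] at h00
  rw [b0, mul_zero, zero_add] at h11
  refine h ?_
  linear_combination mul_self_eq_zero.mp h00 + mul_self_eq_zero.mp h11

/-- A unipotent matrix whose product with the standard one is unipotent is upper unitriangular. -/
private theorem entries_of_unipotent_mul {X : M2 R} (hX : (X - 1) * (X - 1) = 0)
    (hX' : (X * !![1, 1; 0, 1] - 1) * (X * !![1, 1; 0, 1] - 1) = 0) :
    X 1 0 = 0 ∧ X 0 0 = 1 ∧ X 1 1 = 1 := by
  have h := trace_eq_two_of_sq_zero hX'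
  simp [Matrix.mul_apply, Fin.sum_univ_two] at h
  have hc : X 1 0 = 0 := by linear_combination h - trace_eq_two_of_sq_zero hX
  have h00 := congrFun (congrFun hX 0) 0
  have h11 := congrFun (congrFun hX 1) 1
  simp [Matrix.mul_apply, Fin.sum_univ_two, hc] at h00 h11
  exact ⟨hc, sub_eq_zero.mp h00, sub_eq_zero.mp h11⟩

/-- **The shape on the decomposition group.** -/
theorem exists_steinberg (hr : MatCont r) (hpR : (p : R) ∈ maximalIdeal R) {q : ℕ}
    (hq : q.Prime) (hqp : q ≠ p) {B : ValuationSubring ℚbar} (hB : B.LiesOverPrime q)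
    (hun : ∀ σ ∈ B.inertiaSubgroupIn ℚ, (r σ - 1) * (r σ - 1) = 0) {φ : Γℚ}
    (hφ : B.IsFrobeniusAt φ q) (hdet : (r φ).det = (q : R)) {σ₀ : Γℚ}
    (hσ₀ : σ₀ ∈ B.inertiaSubgroupIn ℚ) (hne : ∃ a b, (r σ₀ - 1) a b ∉ maximalIdeal R) :
    ∃ (U : (M2 R)ˣ) (e : B.decompositionSubgroup ℚ →* R),
      (↑U⁻¹ : M2 R) * r σ₀ * (U : M2 R) = !![1, 1; 0, 1] ∧
      (∀ δ, e δ * e δ = 1) ∧
      (∀ δ : B.decompositionSubgroup ℚ, δ.1 ∈ B.inertiaSubgroupIn ℚ → e δ = 1) ∧
      ∀ δ : B.decompositionSubgroup ℚ, ∃ b : R,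
        (↑U⁻¹ : M2 R) * r δ.1 * (U : M2 R) = !![(r δ.1).det * e δ, b; 0, e δ] := by
  obtain ⟨U, hU⟩ := exists_basis_of_sq_zero (hun σ₀ hσ₀) hne
  set T : Γℚ → M2 R := fun σ => (↑U⁻¹ : M2 R) * r σ * (U : M2 R) with hT
  have hTmul : ∀ σ τ, T (σ * τ) = T σ * T τ := fun σ τ => by
    simp only [hT, map_mul, mul_assoc]
    rw [← mul_assoc (U : M2 R) (↑U⁻¹ : M2 R), U.mul_inv, one_mul]
  have hTsub : ∀ σ, T σ - 1 = (↑U⁻¹ : M2 R) * (r σ - 1) * (U : M2 R) := fun σ => by
    simp only [hT, mul_sub, sub_mul, mul_one, U.inv_mul]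
  have hT0 : T σ₀ = !![1, 1; 0, 1] := by
    have h := (hTsub σ₀).trans hU
    rw [sub_eq_iff_eq_add] at h
    rw [h]
    ext i j; fin_cases i <;> fin_cases j <;> simp
  have hTsq : ∀ σ ∈ B.inertiaSubgroupIn ℚ, (T σ - 1) * (T σ - 1) = 0 := fun σ hσ => by
    rw [hTsub]
    calc _ = (↑U⁻¹ : M2 R) * ((r σ - 1) * (r σ - 1)) * (U : M2 R) := by
          simp only [mul_assoc]
          rw [← mul_assoc (U : M2 R) (↑U⁻¹ : M2 R), U.mul_inv, one_mul]
      _ = 0 := by rw [hun σ hσ, mul_zero, zero_mul]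
  -- inertia is upper unipotent and the decomposition group upper triangular
  have hinert : ∀ σ ∈ B.inertiaSubgroupIn ℚ, T σ 1 0 = 0 ∧ T σ 0 0 = 1 ∧ T σ 1 1 = 1 :=
    fun σ hσ => entries_of_unipotent_mul (hTsq σ hσ)
      (hT0 ▸ hTmul σ σ₀ ▸ hTsq _ (mul_mem hσ hσ₀))
  have hupper : ∀ δ ∈ B.decompositionSubgroup ℚ, T δ 1 0 = 0 := by
    intro δ hδ
    have hc : δ * σ₀ * δ⁻¹ ∈ B.inertiaSubgroupIn ℚ := conj_mem_inertia ⟨hq, hB⟩ hδ hσ₀
    obtain ⟨h10, h00, h11⟩ := hinert _ hc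
    have h : T (δ * σ₀ * δ⁻¹) * T δ = T δ * T σ₀ := by
      rw [← hTmul, ← hTmul, inv_mul_cancel_right]
    have h' := congrFun (congrFun h 1) 1
    rw [hT0] at h'
    simp [Matrix.mul_apply, Fin.sum_univ_two, h10, h11] at h'
    exact h'
  have hdetT : ∀ δ, (r δ).det = (T δ).det := fun δ => by
    rw [hT, Matrix.det_mul, Matrix.det_mul, mul_comm (↑U⁻¹ : M2 R).det, mul_assoc, ← Matrix.det_mul,
      U.inv_mul, Matrix.det_one, mul_one]
  let e : B.decompositionSubgroup ℚ →* R :=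
    { toFun := fun δ => T δ.1 1 1
      map_one' := by simp [hT]
      map_mul' := fun δ δ' => by
        rw [Subgroup.coe_mul, hTmul, Matrix.mul_apply, Fin.sum_univ_two, hupper _ δ.2, zero_mul,
          zero_add] }
  have hφD := hφ.mem_decompositionSubgroup
  have hqu : IsUnit (q : R) := isUnit_natCast_of_prime_ne hpR hq hqp
  -- conjugation of inertia by Frobenius fixes the square of `e` there, hence everywhere
  have hφsq : T φ 1 1 * T φ 1 1 = 1 := by
    have h := frob_mul_unipotent hr hpR hq hqp hB hun hφ hσ₀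
    rw [← map_pow, ← map_mul, ← map_mul] at h
    have h' : T (φ * σ₀) = T (σ₀ ^ q * φ) := by simp only [hT, h]
    have hTpow : T (σ₀ ^ q) = !![1, (q : R); 0, 1] := by
      have hX : (!![0, 1; 0, 0] : M2 R) * !![0, 1; 0, 0] = 0 := by
        ext i j; fin_cases i <;> fin_cases j <;> simp
      have hpow : ∀ m : ℕ, T (σ₀ ^ m) = (1 + (!![0, 1; 0, 0] : M2 R)) ^ m := fun m => by
        induction m with
        | zero => simp [hT]
        | succ m ih =>
          rw [pow_succ, hTmul, ih, pow_succ, hT0]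
          congr 1
          ext i j; fin_cases i <;> fin_cases j <;> simp
      rw [hpow, one_add_sq_zero_pow hX]
      ext i j; fin_cases i <;> fin_cases j <;> simp
    rw [hTmul, hTmul, hT0, hTpow] at h'
    have h01 := congrFun (congrFun h' 0) 1
    simp [Matrix.mul_apply, Fin.sum_univ_two] at h01
    have hd := hdetT φ
    rw [hdet, Matrix.det_fin_two, hupper φ hφD, mul_zero, sub_zero] at hd
    refine hqu.mul_left_cancel ?_
    linear_combination -hd - T φ 1 1 * h01
  have hesq : ∀ δ : B.decompositionSubgroup ℚ, T δ.1 1 1 * T δ.1 1 1 = 1 := fun δ => by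
    refine sub_eq_zero.mp (IsHausdorff.haus' (I := maximalIdeal R) _ fun n => ?_)
    rw [SModEq.zero, smul_eq_mul, Ideal.mul_top, ← Ideal.Quotient.eq]
    obtain ⟨τ, hτ, -, -, hgen⟩ := exists_generators_unipotent hr hpR hq hqp hB hun hφ n
    obtain ⟨i, j, hij⟩ := hgen δ.1 δ.2
    set mk := Ideal.Quotient.mk (maximalIdeal R ^ n)
    have h1 : mk (T δ.1 1 1) = mk (T (φ ^ i * τ ^ j) 1 1) := by
      have h : (r δ.1).map mk = (r (φ ^ i * τ ^ j)).map mk :=
        Matrix.ext fun a b => Ideal.Quotient.eq.mpr (hij a b)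
      exact congrFun (congrFun (show (T δ.1).map mk = (T (φ ^ i * τ ^ j)).map mk by
        simp only [hT, Matrix.map_mul, h]) 1) 1
    have h2 : T (φ ^ i * τ ^ j) 1 1 = T φ 1 1 ^ i := by
      have h3 : ∀ k : ℕ, T (φ ^ k) 1 1 = T φ 1 1 ^ k := fun k => by
        have := map_pow e ⟨φ, hφD⟩ k
        exact this
      rw [hTmul, Matrix.mul_apply, Fin.sum_univ_two, hupper _ (pow_mem hφD i), zero_mul, zero_add,
        (hinert _ (pow_mem hτ j)).2.2, mul_one, h3]
    change mk (T δ.1 1 1 * T δ.1 1 1) = mk 1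
    rw [map_mul, h1, h2, ← map_mul, ← mul_pow, hφsq, one_pow]
  refine ⟨U, e, hT0, hesq, fun δ hδ => (hinert _ hδ).2.2, fun δ => ⟨T δ.1 0 1, ?_⟩⟩
  change T δ.1 = !![(r δ.1).det * T δ.1 1 1, T δ.1 0 1; 0, T δ.1 1 1]
  rw [hdetT, Matrix.det_fin_two, hupper _ δ.2, mul_zero, sub_zero, mul_assoc, hesq, mul_one]
  ext a b; fin_cases a <;> fin_cases b <;> simp [hupper _ δ.2]

end Fermat.GR.RT

end
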