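import Mathlib
import Fermat.Agent.GR.RT.LowerSetup
import Fermat.Agent.GR.RT.Steinberg
import Fermat.Agent.GR.Patch.Psi
import Fermat.Agent.GR.Patch.Push

/-!
# Level lowering: residual frames and the diamond parameters

The residual Frobenius at a prime being lowered in a basis, the inertia elements at the auxiliary
primes whose characters are the generators, and the specialisations of the group ring.
-/

set_option autoImplicit false

noncomputable section

open MvPolynomial IsLocalRing

namespace Fermat.GR.RT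

open Fermat.HM Fermat.GR.Patch

local notation "Γℚ" => (AlgebraicClosure ℚ ≃ₐ[ℚ] AlgebraicClosure ℚ)
local notation "M2" R => Matrix (Fin 2) (Fin 2) R

variable {p : ℕ} [hp : Fact p.Prime]

/-- A matrix of square trace four and determinant one is triangular in some basis. -/
theorem exists_conj_frame {g : M2 (ZMod p)} (ht : g.trace ^ 2 = 4) (hd : g.det = 1) :
    ∃ (e b : ZMod p) (P : (M2 (ZMod p))ˣ), (e = 1 ∨ e = -1) ∧ (b = 0 ∨ b = 1) ∧
      (P : M2 (ZMod p)) * g * (↑P⁻¹ : M2 (ZMod p)) = !![e, e * b; 0, e] := by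
  obtain ⟨e, he, hte⟩ : ∃ e : ZMod p, (e = 1 ∨ e = -1) ∧ g.trace = 2 * e := by
    have h : (g.trace - 2) * (g.trace + 2) = 0 := by linear_combination ht
    rcases mul_eq_zero.mp h with h | h
    · exact ⟨1, Or.inl rfl, by linear_combination h⟩
    · exact ⟨-1, Or.inr rfl, by linear_combination h⟩
  have hee : e * e = 1 := by rcases he with rfl | rfl <;> ring
  by_cases hg : g = e • (1 : M2 (ZMod p))
  · refine ⟨e, 0, 1, he, Or.inl rfl, ?_⟩
    rw [Units.val_one, inv_one, Units.val_one, one_mul, mul_one, hg]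
    ext i j; fin_cases i <;> fin_cases j <;> simp
  set X : M2 (ZMod p) := e • (g - e • (1 : M2 (ZMod p))) with hX
  have hX2 : X * X = 0 := by
    rw [Matrix.trace_fin_two] at hte
    rw [Matrix.det_fin_two] at hd
    rw [hX, Matrix.smul_mul, Matrix.mul_smul, smul_smul, hee, one_smul]
    ext i j
    fin_cases i <;> fin_cases j <;> simp [Matrix.mul_apply, Fin.sum_univ_two]
    · linear_combination g 0 0 * hte - hd + hee
    · linear_combination g 0 1 * hte
    · linear_combination g 1 0 * hte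
    · linear_combination g 1 1 * hte - hd + hee
  have hne : X ≠ 0 := fun h0 => hg (sub_eq_zero.mp (by
    simpa [hX, smul_smul, hee] using congrArg (e • ·) h0))
  obtain ⟨U, hU⟩ := exists_basis_of_sq_zero_field hX2 hne
  refine ⟨e, 1, U⁻¹, he, Or.inr rfl, ?_⟩
  rw [inv_inv]
  have hgX : g = e • X + e • (1 : M2 (ZMod p)) := by
    rw [hX, smul_smul, hee, one_smul, sub_add_cancel]
  rw [hgX, mul_add, add_mul, Matrix.mul_smul, Matrix.smul_mul, hU, Matrix.mul_smul, Matrix.smul_mul,
    mul_one, U.inv_mul]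
  ext i j; fin_cases i <;> fin_cases j <;> simp

/-- The trace ring only depends on the representations up to conjugation. -/
theorem TraceRep.nonempty_of_conj {𝒪 : Type} [CommRing 𝒪] [IsLocalRing 𝒪] {N : NormData 𝒪}
    {ι : Type} {B : ι → Type} [∀ i, CommRing (B i)] [∀ i, Algebra 𝒪 (B i)]
    {r r' : ∀ i, Γℚ →* M2 (B i)} (T : TraceRep N B r') (Q : ∀ i, (M2 (B i))ˣ)
    (hQ : ∀ i σ, r' i σ = (Q i : M2 (B i)) * r i σ * (↑(Q i)⁻¹ : M2 (B i))) :
    Nonempty (TraceRep N B r) :=
  ⟨{ R := T.R, hres := T.hres, rep := T.rep, cont := T.cont, normal := T.normal, pr := T.pr,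
     pr_injective := T.pr_injective, adjoin_traces := T.adjoin_traces,
     pr_rep := fun i => by
      obtain ⟨P, hP⟩ := T.pr_rep i
      refine ⟨P * Q i, fun σ => ?_⟩
      rw [Units.val_mul, ← mul_assoc, hP, hQ]
      simp only [mul_assoc, Units.inv_mul, mul_one] }⟩

/-- A residue that is `1` modulo each prime factor of a squarefree `K` is `1` modulo `K`. -/
theorem natCast_val_eq_one_of_prime_divisors {M K : ℕ} [NeZero M] (hsq : Squarefree K)
    (v : (ZMod M)ˣ) (h : ∀ r : ℕ, r.Prime → r ∣ K → ((v : ZMod M).cast : ZMod r) = 1) :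
    ((v : ZMod M).val : ZMod K) = 1 := by
  have : NeZero K := ⟨hsq.ne_zero⟩
  rw [← sub_eq_zero, ← ZMod.natCast_zmod_val (_ - 1), ZMod.natCast_eq_zero_iff]
  refine (Nat.prod_primeFactors_of_squarefree hsq).symm.dvd.trans ?_
  refine Finset.prod_primes_dvd _ (fun r hr => (Nat.prime_of_mem_primeFactors hr).prime)
    fun r hr => ?_
  have hrK := Nat.dvd_of_mem_primeFactors hr
  rw [← ZMod.natCast_eq_zero_iff, ← map_natCast (ZMod.castHom hrK (ZMod r)),
    ZMod.natCast_zmod_val, map_sub, map_one, map_natCast, ZMod.natCast_val,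
    h r (Nat.prime_of_mem_primeFactors hr) hrK, sub_self]

/-- A unit which is `1` at the base level and at the primes of `L` dividing `K'` is `1` at `K'`. -/
theorem val_eq_one_of_unitsMap {σ : Type} {g : σ → ℕ} [hg : ∀ i, Fact (g i).Prime] {N : ℕ}
    {L : List σ} [NeZero (levN N g L)] {K' : ℕ} (hK : K' ∣ levN N g L) (hsq : Squarefree K')
    {v : (ZMod (levN N g L))ˣ} (hv1 : ZMod.unitsMap (dvd_levN N g L) v = 1)
    (h : ∀ i, ∀ hi : i ∈ L, g i ∣ K' → ZMod.unitsMap (dvd_levN_of_mem hi) v = 1) :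
    ((v : ZMod (levN N g L)).val : ZMod K') = 1 := by
  refine natCast_val_eq_one_of_prime_divisors hsq v fun r hr hrK => ?_
  have hrdvd : r ∣ levN N g L := hrK.trans hK
  rw [levN_eq] at hrdvd
  rcases hr.dvd_mul.mp hrdvd with hrN | hrL
  · have h1 := congrArg (ZMod.unitsMap hrN) hv1
    rw [map_one, ← MonoidHom.comp_apply, ZMod.unitsMap_comp] at h1
    have h2 := congrArg Units.val h1
    rw [ZMod.unitsMap_val, Units.val_one] at h2
    exact h2
  · obtain ⟨a, ha, hra⟩ := (Prime.dvd_prod_iff hr.prime).mp hrL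
    obtain ⟨i, hi, rfl⟩ := List.mem_map.mp ha
    obtain rfl := (Nat.prime_dvd_prime_iff_eq hr (hg i).out).mp hra
    have h2 := congrArg Units.val (h i hi hrK)
    rw [ZMod.unitsMap_val, Units.val_one] at h2
    exact h2

variable {rb : Γℚ →* GL (Fin 2) (ZMod p)} {N : ℕ} {A : Finset ℕ}
  {O : Type} [CommRing O] [IsDomain O] [IsDiscreteValuationRing O]
  [IsAdicComplete (maximalIdeal O) O] [Finite (ResidueField O)] [CharZero O] {ζ : O}

/-- The powers of `zEig` are `1` modulo the maximal ideal. -/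
theorem zEig_sub_one_mem (hc : CoeffData p O ζ) (i : ℕ) : zEig p ζ ^ i - 1 ∈ maximalIdeal O := by
  rw [← residue_eq_zero_iff, map_sub, map_one, sub_eq_zero]
  exact residue_eq_one_of_pow hc.mem (e := 1) (by
    rw [pow_one, ← pow_mul, mul_comm, pow_mul, hc.zEig_pow, one_pow])

namespace LowerData

/-- **The residual frames at the primes being lowered.** -/
theorem exists_localData (D : LowerData p rb N A) [NeZero N] (hA : AttachInput p) (hN : NewInput p)
    (hc : CoeffData p O ζ) {u : O →+* ℂ} (hu : Function.Injective u) (φ : A → Γℚ)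
    (hφ : ∀ q : A, (Fermat.CFT.placeAt ⟨q, D.prime q q.2⟩).IsFrobeniusAt (φ q) q) :
    ∃ (L : LocalData O A) (Pq : A → (M2 O)ˣ),
      (∀ q, L.N q = (q : ℕ)) ∧ (∀ q, 2 * L.κ q = zEig p ζ + zEig p ζ ^ (p - 1)) ∧
      ∀ q i j, ((Pq q : M2 O) * (normDataOf D.semi.surjective O).bar (φ q) *
        (↑(Pq q)⁻¹ : M2 O) - phi0 L q) i j ∈ maximalIdeal O := by
  classical
  have hrb : ∀ q : A, ∃ (e b : ZMod p) (P : (M2 (ZMod p))ˣ), (e = 1 ∨ e = -1) ∧ (b = 0 ∨ b = 1) ∧
      (P : M2 (ZMod p)) * (rb (φ q) : M2 (ZMod p)) * (↑P⁻¹ : M2 (ZMod p)) = !![e, e * b; 0, e] :=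
    fun q => exists_conj_frame
      (D.trace_sq_residual hA hN hu q.2 (Fermat.CFT.placeAt_spec _) (hφ q) hc) (by
        have := Fact.mk (D.prime q q.2)
        rw [D.semi.det_eq, Fermat.CFT.cycChar_frobenius (D.prime q q.2)
          (D.ne_p q.2) (Fermat.CFT.placeAt_spec _) (hφ q)]
        exact D.one q q.2)
  choose e b P he hb hP using hrb
  -- lift the frames, and take the data of the two sides
  have hlift : ∀ q : A, ∃ Q : (M2 O)ˣ, (residue O).mapMatrix (Q : M2 O) =
      ((P q : M2 (ZMod p))).map (resCast hc.mem) := fun q =>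
    exists_unit_lift (Units.map (resCast hc.mem).mapMatrix.toMonoidHom (P q))
  choose Q hQ using hlift
  obtain ⟨c, hc2⟩ := (D.isUnit_two hc.mem).exists_left_inv
  set z := zEig p ζ
  set w := zEig p ζ ^ (p - 1)
  refine ⟨{ e := fun q => if e q = 1 then 1 else -1
            b := fun q => if b q = 0 then 0 else 1
            κ := fun _ => c * (z + w)
            s := fun _ => c * (z - w)
            N := fun q => (q : ℕ)
            e_sq := fun q => by split_ifs <;> ring
            b_cases := fun q => by split_ifs <;> [exact Or.inl rfl; exact Or.inr isUnit_one]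
            N_sub := fun q => ?_, κ_sub := fun q => ?_, s_mem := fun q => ?_, s_ne := fun q => ?_,
            sq_sub := fun q => ?_ }, Q, fun q => rfl, fun q => ?_, fun q i j => ?_⟩
  · obtain ⟨d, hd⟩ := D.dvd_sub_one q.2
    rw [← Nat.cast_one, ← Nat.cast_sub (D.prime q q.2).one_le, hd, pow_one, Nat.cast_mul]
    exact Ideal.mul_mem_right _ _ hc.mem
  · rw [show c * (z + w) - 1 = c * ((zEig p ζ ^ 1 - 1) + (zEig p ζ ^ (p - 1) - 1)) by
      rw [pow_one]; linear_combination hc2]
    exact Ideal.mul_mem_left _ _ (add_mem (zEig_sub_one_mem hc 1) (zEig_sub_one_mem hc _))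
  · rw [show c * (z - w) = c *
      ((zEig p ζ ^ 1 - 1) - (zEig p ζ ^ (p - 1) - 1)) by rw [pow_one]; ring]
    exact Ideal.mul_mem_left _ _ (sub_mem (zEig_sub_one_mem hc 1) (zEig_sub_one_mem hc _))
  · refine mul_ne_zero (fun h => ?_) (sub_ne_zero.mpr (hc.zEig_ne D.p_ne_two))
    rw [h, zero_mul] at hc2
    exact zero_ne_one hc2
  · have hzw : z * w = 1 := hc.zEig_mul
    linear_combination (4 * c ^ 2) * hzw + (c * 2 + 1) * hc2
  · linear_combination (z + w) * hc2
  · rw [← residue_eq_zero_iff, Matrix.sub_apply, map_sub, sub_eq_zero]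
    have hsplit : ∀ x : ZMod p, (x = 1 ∨ x = -1) →
        residue O (if x = 1 then (1 : O) else -1) = resCast hc.mem x := fun x hx => by
      split_ifs with h
      · rw [h, map_one, map_one]
      · rw [hx.resolve_left h, map_neg, map_neg, map_one, map_one]
    have hsplit' : ∀ x : ZMod p, (x = 0 ∨ x = 1) →
        residue O (if x = 0 then (0 : O) else 1) = resCast hc.mem x := fun x hx => by
      split_ifs with h
      · rw [h, map_zero, map_zero]
      · rw [hx.resolve_left h, map_one, map_one]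
    have hinv : (residue O).mapMatrix (↑(Q q)⁻¹ : M2 O) =
        ((↑(P q)⁻¹ : M2 (ZMod p))).map (resCast hc.mem) :=
      left_inv_eq_right_inv (a := (residue O).mapMatrix (Q q : M2 O))
        (by rw [← map_mul, (Q q).inv_mul, map_one])
        (by rw [hQ, ← Matrix.map_mul, (P q).mul_inv, Matrix.map_one _ (map_zero _) (map_one _)])
    have hbar : (residue O).mapMatrix ((normDataOf D.semi.surjective O).bar (φ q)) =
        (rb (φ q) : M2 (ZMod p)).map (resCast hc.mem) := by
      rw [normDataOf_bar, RingHom.mapMatrix_apply]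
      exact barOf_map rb (residue O) (resCast hc.mem) (φ q)
    have hmat : (residue O).mapMatrix ((Q q : M2 O) * (normDataOf D.semi.surjective O).bar (φ q) *
        (↑(Q q)⁻¹ : M2 O)) = (!![e q, e q * b q; 0, e q]).map (resCast hc.mem) := by
      rw [map_mul, map_mul, hQ, hinv, hbar, ← Matrix.map_mul, ← Matrix.map_mul, hP]
    refine (congrFun (congrFun hmat i) j).trans ?_
    have hE := hsplit _ (he q)
    have hB := hsplit' _ (hb q)
    rw [phi0]
    simp only [] at *
    generalize (if e q = 1 then (1 : O) else -1) = E at hE ⊢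
    generalize (if b q = 0 then (0 : O) else 1) = B at hB ⊢
    fin_cases i <;> fin_cases j <;> simp [hE, hB]

variable {D : LowerData p rb N A} {n : ℕ} {L : List (GoodIx (N * p))} {hL : TWList p rb n L}

/-- The auxiliary primes divide their level. -/
theorem dvd_levK_get (k : Fin L.length) : goodPr (N * p) (L.get k) ∣ D.levK L :=
  dvd_levN_of_mem (L.get_mem k)

/-- **Inertia at an auxiliary prime reaches its generator.** -/
theorem exists_inertia_chiL [NeZero N] [NeZero (D.levK L)] (k : Fin L.length) :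
    ∃ τ ∈ (Fermat.CFT.placeAt (L.get k).1).inertiaSubgroupIn ℚ,
      (D.quotL hL).chiTop (cycK (D.levK L) τ) =
        (1, Pi.mulSingle k (Multiplicative.ofAdd (1 : ZMod (p ^ n)))) := by
  classical
  obtain ⟨b, hb⟩ := hL.fQ_surjective k (Multiplicative.ofAdd 1)
  obtain ⟨v, hv1, hvb⟩ := exists_unit_crt (N := N) (goodPr_injective (N * p)) L hL.nodup
    (fun i _ => not_dvd_of_goodIx i) 1
    fun i => if h : L.get k = i then h ▸ b else 1
  obtain ⟨K', hK⟩ := dvd_levK_get (D := D) (L := L) k
  rw [mul_comm] at hK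
  have hℓ := (L.get k).1.2
  have hℓK' : ¬ goodPr (N * p) (L.get k) ∣ K' := D.not_dvd_of_mul_eq hL hℓ hK.symm
  have : NeZero K' := ⟨fun h => NeZero.ne (D.levK L) (by rw [hK, h, zero_mul])⟩
  -- `v` is one away from the auxiliary prime, so it is a cyclotomic value of inertia there
  have hv : ((v : ZMod (D.levK L)).val : ZMod K') = 1 :=
    val_eq_one_of_unitsMap ⟨_, hK⟩ ((D.squarefree_levK hL).squarefree_of_dvd ⟨_, hK⟩) hv1
      fun i hi hiK => by
        have hne : L.get k ≠ i := fun e => hℓK' (e ▸ hiK)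
        rw [hvb i hi, dif_neg hne]
  obtain ⟨τ, hτ, hτv⟩ := exists_inertia_cycK hℓ hK.symm hℓK' (Fermat.CFT.placeAt_spec _) v hv
  refine ⟨τ, hτ, ?_⟩
  rw [hτv, chiTop_quotL]
  refine Prod.ext ?_ (funext fun j => ?_)
  · change D.chiA (D.levK L) _ v = 1
    rw [chiA, ← chiPi_unitsMap (fun q : A => (q : ℕ)) D.fA (dvd_levN N (goodPr (N * p)) L) _
      (fun q => D.dvd _ q.2) v, hv1, map_one]
  · change chiPi _ hL.fQ _ _ v j =
      (Pi.mulSingle k (Multiplicative.ofAdd (1 : ZMod (p ^ n))) :
        Fin L.length → Multiplicative (ZMod (p ^ n))) j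
    rw [chiPi_apply, hvb _ (L.get_mem j)]
    by_cases hjk : j = k
    · subst hjk
      rw [dif_pos rfl, Pi.mulSingle_eq_same]
      exact hb
    · rw [dif_neg fun e => hjk ((List.nodup_iff_injective_get.mp hL.nodup) e.symm),
        Pi.mulSingle_eq_of_ne hjk, map_one]

omit [IsAdicComplete (maximalIdeal O) O] [Finite (ResidueField O)] [CharZero O] in
/-- **The trace at the square of inertia at an auxiliary prime.** -/
theorem PtData.trace_sq_inertia [NeZero N] [NeZero (D.levK L)] {hc : CoeffData p O ζ}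
    {x : MvPolynomial (Nat.Primes ⊕ (ZMod (D.levK L))ˣ) ℤ →+* AlgebraicClosure (FractionRing O)}
    (P : D.PtData hL hc x) (hN : NewInput p) (hC : CharInput p) (k : Fin L.length) {τ : Γℚ}
    (hτ : τ ∈ (Fermat.CFT.placeAt (L.get k).1).inertiaSubgroupIn ℚ) :
    (P.ρ (τ * τ)).trace = P.y (X (Sum.inr (cycK (D.levK L) τ))) +
      P.y (X (Sum.inr (cycK (D.levK L) τ)⁻¹)) := by
  obtain ⟨K', hK⟩ := dvd_levK_get (D := D) (L := L) k
  rw [mul_comm] at hK
  have hℓ := (L.get k).1.2
  have hℓp : goodPr (N * p) (L.get k) ≠ p := fun e => (L.get k).2 (by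
    show ((L.get k).1 : ℕ) ∣ _
    rw [show (((L.get k).1 : Nat.Primes) : ℕ) = p from e]; exact dvd_mul_left p N)
  obtain ⟨-, ht⟩ := P.res.trace_inertia hN hC (D.neg_mem_grpL hL) hℓ hℓp hK.symm
    (D.not_dvd_of_mul_eq hL hℓ hK.symm) P.attached P.rho_eq P.det
    (Fermat.CFT.placeAt_spec _) (mul_mem hτ hτ)
  have hodd : Odd (p ^ n) := Odd.pow (hp.out.odd_of_ne_two D.p_ne_two)
  have key : ∀ σ : Γℚ, twistChar P.res.point (p ^ n) (σ * σ) =
      diaVal P.res.point (cycK (D.levK L) σ)⁻¹ := by
    intro σ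
    have h1 := twistChar_sq_mul P.res.point hodd P.res.pow_mem σ
    have h2 : diaVal P.res.point (cycK (D.levK L) σ) * diaVal P.res.point
        (cycK (D.levK L) σ)⁻¹ = 1 := by
      rw [← map_mul, mul_inv_cancel, map_one]
    rw [map_mul, ← pow_two]
    linear_combination (diaVal P.res.point (cycK (D.levK L) σ)⁻¹) * h1 -
      twistChar P.res.point (p ^ n) σ ^ 2 * h2
  rw [ht, key, _root_.mul_inv_rev, key, map_inv (cycK (D.levK L)), inv_inv, diaVal_apply,
    diaVal_apply, add_comm]

end LowerData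

section Diamond

variable {d : ℕ}

omit [IsAdicComplete (maximalIdeal O) O] [Finite (ResidueField O)] [CharZero O] in
/-- The two specialisations agree modulo the uniformiser. -/
theorem lift_chiAlgProd_congr {ΔA Δ : Type} [CommGroup ΔA] [CommGroup Δ] {R : Type} [CommRing R]
    [Algebra O R] {ϖ : O} (hϖ : Irreducible ϖ) (χ : ΔA →* O)
    (hχ : ∀ a, χ a - 1 ∈ maximalIdeal O) (g : MonoidAlgebra O Δ →ₐ[O] R)
    (f : MonoidAlgebra O (ΔA × Δ)) :
    g (chiAlgProd Δ 1 f) - g (chiAlgProd Δ χ f) ∈ Ideal.span {algebraMap O R ϖ} := by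
  induction f using MonoidAlgebra.induction_linear with
  | zero => simp
  | add a b ha hb =>
    rw [map_add, map_add, map_add, map_add, add_sub_add_comm]
    exact add_mem ha hb
  | single a c =>
    obtain ⟨a, δ⟩ := a
    obtain ⟨t, ht⟩ := Ideal.mem_span_singleton'.mp (hϖ.maximalIdeal_eq ▸ hχ a :)
    have e : chiAlgProd Δ χ (MonoidAlgebra.single (a, δ) c) =
        algebraMap O (MonoidAlgebra O Δ) (χ a) * chiAlgProd Δ 1
          (MonoidAlgebra.single (a, δ) c) := by
      simp only [chiAlgProd, MonoidAlgebra.lift_single, MonoidHom.mul_apply, MonoidHom.comp_apply,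
        MonoidHom.one_apply]
      simp [Algebra.smul_def]
      ring
    rw [e, map_mul, AlgHom.commutes, ← one_sub_mul]
    refine Ideal.mul_mem_right _ _ (Ideal.mem_span_singleton'.mpr ⟨-algebraMap O R t, ?_⟩)
    rw [neg_mul, ← map_mul, ht, map_sub, map_one, neg_sub]

/-- The value of the symmetrised diamond element. -/
theorem mk_symm_eq (v : Fin d) (n : ℕ) {a b : MvPowerSeries (Fin d) O ⧸
      maximalIdeal (MvPowerSeries (Fin d) O) ^ n}
    (ha : a = Ideal.Quotient.mk _ (1 + MvPowerSeries.X v)) (hab : a * b = 1) :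
    a + b - 2 = Ideal.Quotient.mk _
      (MvPowerSeries.X v ^ 2 * Ring.inverse (1 + MvPowerSeries.X v)) := by
  have hu := isUnit_one_add_X (𝒪 := O) v
  set i := Ring.inverse (1 + MvPowerSeries.X v : MvPowerSeries (Fin d) O)
  have hi : ((1 : MvPowerSeries (Fin d) O) + MvPowerSeries.X v) * i = 1 :=
    Ring.mul_inverse_cancel _ hu
  have hb : b = Ideal.Quotient.mk _ i := by
    refine (left_inv_eq_right_inv (a := a) ?_ ?_)
    · rw [mul_comm]; exact hab
    · rw [ha, ← map_mul, hi, map_one]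
  rw [ha, hb, ← map_add, ← map_ofNat (Ideal.Quotient.mk _) 2, ← map_sub]
  refine congrArg _ ?_
  linear_combination (1 - MvPowerSeries.X v) * hi

end Diamond

end Fermat.GR.RT

end
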