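import Mathlib
import Fermat.Agent.GR.RT.LocalCount
import Fermat.Agent.GR.RT.Adjoint

/-!
# The strict condition at a prime of the minimal level

If the residual representation at the place is upper triangular with diagonal `(a, d)` and
non-split, the first order solutions of `(ρσ - a σ)(ρτ - d τ) = 0` come from the line `k(a/d)`, and
the class of the extension is killed.  So there are at most `|H¹(k(a/d))| / |k|` of them.
-/

set_option autoImplicit false

noncomputable section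

open Fermat.EC.Val Fermat.CFT

namespace Fermat.GR.RT

local notation "ℚbar" => AlgebraicClosure ℚ
local notation "Γℚ" => (AlgebraicClosure ℚ ≃ₐ[ℚ] AlgebraicClosure ℚ)
local notation "M2" R => Matrix (Fin 2) (Fin 2) R

variable {p : ℕ} [Fact p.Prime] {k : Type} [Field k] [Algebra (ZMod p) k] {r : Γℚ →* M2 k}
  {B : ValuationSubring ℚbar} {U : (M2 k)ˣ} {a d : B.decompositionSubgroup ℚ →* k}
  {b : B.decompositionSubgroup ℚ → k}

variable (p a d) in
/-- The line of the ratio of the diagonal characters. -/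
def lineRep : Representation (ZMod p) (B.decompositionSubgroup ℚ) k where
  toFun σ := LinearMap.mulLeft (ZMod p) (a σ * d σ⁻¹)
  map_one' := by
    refine LinearMap.ext fun x => ?_
    change a 1 * d 1⁻¹ * x = x
    rw [inv_one, map_one, map_one, one_mul, one_mul]
  map_mul' σ τ := by
    refine LinearMap.ext fun x => ?_
    change a (σ * τ) * d (σ * τ)⁻¹ * x = a σ * d σ⁻¹ * (a τ * d τ⁻¹ * x)
    rw [_root_.mul_inv_rev, map_mul, map_mul]
    ring

/-- `lineRep` is multiplication by the ratio of the characters. -/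
@[simp] theorem lineRep_apply (σ : B.decompositionSubgroup ℚ) (x : k) :
    lineRep p a d σ x = a σ * d σ⁻¹ * x := rfl

variable (p U) in
/-- The upper right corner in the basis `U`, as a map into trace zero matrices. -/
def lineEmb : k →ₗ[ZMod p] adZero p k where
  toFun x := ⟨(U : M2 k) * !![0, x; 0, 0] * (↑U⁻¹ : M2 k), by
    rw [mem_adZero, Matrix.trace_units_conj, Matrix.trace_fin_two]
    simp⟩
  map_add' x y := Subtype.ext (by
    rw [Submodule.coe_add, ← add_mul, ← mul_add]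
    ext i j; fin_cases i <;> fin_cases j <;> simp)
  map_smul' c x := Subtype.ext (by
    rw [RingHom.id_apply, Submodule.coe_smul, ← Matrix.smul_mul, ← Matrix.mul_smul]
    ext i j; fin_cases i <;> fin_cases j <;> simp)

/-- `lineEmb` on the underlying matrices. -/
theorem coe_lineEmb (x : k) :
    ((lineEmb p U x : adZero p k) : M2 k) = (U : M2 k) * !![0, x; 0, 0] * (↑U⁻¹ : M2 k) := rfl

/-- The embedding of the line is injective. -/
theorem lineEmb_injective : Function.Injective (lineEmb p U) := by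
  intro x y h
  have h' := congrArg (fun X : M2 k => (↑U⁻¹ : M2 k) * X * (U : M2 k)) (congrArg Subtype.val h)
  simp only [coe_lineEmb, ← mul_assoc, U.inv_mul, one_mul] at h'
  simp only [mul_assoc, U.inv_mul, mul_one] at h'
  simpa using congrFun (congrFun h' 0) 1

variable (hb : ∀ δ : B.decompositionSubgroup ℚ,
  (↑U⁻¹ : M2 k) * r δ.1 * (U : M2 k) = !![a δ, b δ; 0, d δ])
include hb

/-- `r` on the decomposition group, from its triangular form. -/
theorem conj_triangular (δ : B.decompositionSubgroup ℚ) :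
    r δ.1 = (U : M2 k) * !![a δ, b δ; 0, d δ] * (↑U⁻¹ : M2 k) := by
  rw [← hb δ]
  simp only [← mul_assoc, U.mul_inv, one_mul]
  rw [mul_assoc, U.mul_inv, mul_one]

/-- The entries of the triangular form at `δ⁻¹` invert those at `δ`. -/
theorem triangular_mul_inv (δ : B.decompositionSubgroup ℚ) :
    a δ * a δ⁻¹ = 1 ∧ d δ * d δ⁻¹ = 1 ∧ a δ * b δ⁻¹ + b δ * d δ⁻¹ = 0 := by
  have h : (!![a δ, b δ; 0, d δ] : M2 k) * !![a δ⁻¹, b δ⁻¹; 0, d δ⁻¹] = 1 := by
    rw [← hb, ← hb, show ((δ⁻¹ : B.decompositionSubgroup ℚ) : Γℚ) = (δ : Γℚ)⁻¹ from rfl]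
    simp only [← mul_assoc]
    rw [mul_assoc _ (U : M2 k) (↑U⁻¹ : M2 k), U.mul_inv, mul_one,
      mul_assoc (↑U⁻¹ : M2 k), hom_mul_inv, mul_one, U.inv_mul]
  exact ⟨by simpa [Matrix.mul_apply] using congrFun (congrFun h 0) 0,
    by simpa [Matrix.mul_apply] using congrFun (congrFun h 1) 1,
    by simpa [Matrix.mul_apply] using congrFun (congrFun h 0) 1⟩

/-- The local adjoint action in the triangular basis. -/
theorem locRep_conj (δ : B.decompositionSubgroup ℚ) (V : M2 k) (hV : V.trace = 0) :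
    ((locRep p r B δ ⟨(U : M2 k) * V * (↑U⁻¹ : M2 k),
        by rw [mem_adZero, Matrix.trace_units_conj, hV]⟩ : adZero p k) : M2 k) =
      (U : M2 k) * (!![a δ, b δ; 0, d δ] * V * !![a δ⁻¹, b δ⁻¹; 0, d δ⁻¹]) * (↑U⁻¹ : M2 k) := by
  change r δ.1 * _ * r (δ.1)⁻¹ = _
  rw [conj_triangular hb δ, show (δ.1)⁻¹ = ((δ⁻¹ : B.decompositionSubgroup ℚ) : Γℚ) from rfl,
    conj_triangular hb δ⁻¹]
  simp only [← mul_assoc]
  rw [mul_assoc _ (↑U⁻¹ : M2 k) (U : M2 k), U.inv_mul, mul_one,
    mul_assoc _ (↑U⁻¹ : M2 k) (U : M2 k), U.inv_mul, mul_one]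

/-- The upper right corner is a subrepresentation isomorphic to the line. -/
theorem lineEmb_equivariant :
    Coh.IsEquivariant (lineRep p a d) (locRep p r B) (MonoidHom.id _) (lineEmb p U) := by
  intro δ x
  refine Subtype.ext ?_
  refine Eq.trans ?_ (locRep_conj hb δ !![0, x; 0, 0] (by simp [Matrix.trace_fin_two])).symm
  rw [coe_lineEmb]
  congr 2
  ext i j
  fin_cases i <;> fin_cases j <;> simp [Matrix.mul_apply, mul_assoc, mul_comm (d δ⁻¹), -map_inv]

/-- A cochain is a cocycle of the line if its image in the module is one. -/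
theorem mem_Z1_of_lineEmb {f : B.decompositionSubgroup ℚ → k}
    (hf : (fun δ => lineEmb p U (f δ)) ∈
      Coh.Z1 (glev (B.decompositionSubgroup ℚ).subtype) (locRep p r B)) :
    f ∈ Coh.Z1 (glev (B.decompositionSubgroup ℚ).subtype) (lineRep p a d) := by
  refine Coh.mem_Z1.mpr ⟨?_, funext₂ fun σ τ => lineEmb_injective (p := p) (U := U) ?_⟩
  · have h := hf.1.comp fun X : adZero p k => ((↑U⁻¹ : M2 k) * X.1 * (U : M2 k)) 0 1
    convert h using 1
    funext δ
    rw [coe_lineEmb]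
    simp only [← mul_assoc, U.inv_mul, one_mul]
    rw [mul_assoc, U.inv_mul, mul_one]
    simp
  · have h := congrFun (congrFun hf.2 σ) τ
    rw [Coh.d₁_apply, Pi.zero_apply, Pi.zero_apply] at h
    rw [Coh.d₁_apply, map_add, map_sub, Pi.zero_apply, Pi.zero_apply, map_zero]
    rw [show lineEmb p U (lineRep p a d σ (f τ)) = locRep p r B σ (lineEmb p U (f τ)) from
      lineEmb_equivariant hb σ (f τ)]
    exact h

/-- The line is smooth if the local adjoint representation is. -/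
theorem isSmooth_lineRep
    (hsm : Coh.IsSmooth (glev (B.decompositionSubgroup ℚ).subtype) (locRep p r B)) :
    Coh.IsSmooth (glev (B.decompositionSubgroup ℚ).subtype) (lineRep p a d) := by
  intro x
  obtain ⟨N, hN, h⟩ := hsm (lineEmb p U x)
  exact ⟨N, hN, fun s hs => lineEmb_injective ((lineEmb_equivariant hb s x).trans (h s hs))⟩

variable (p) in
/-- The classes coming from the line. -/
def strictSub : Submodule (ZMod p) (locH1 p r B) :=
  LinearMap.range (Coh.map₁ (Coh.IsLevelsHom.id _) (lineEmb_equivariant (p := p) hb))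

/-- A first order solution, in the triangular basis, is normalised by one scalar `v` if the
extension does not split or the diagonal characters differ. -/
theorem exists_normalisation_of (hns : (∃ σ, a σ ≠ d σ) ∨ ∀ v, ∃ δ, b δ ≠ v * (a δ - d δ))
    (X : B.decompositionSubgroup ℚ → M2 k)
    (hX : ∀ σ τ, X σ * (!![a τ, b τ; 0, d τ] - d τ • (1 : M2 k)) +
      (!![a σ, b σ; 0, d σ] - a σ • (1 : M2 k)) * X τ = 0)
    (htr : ∀ σ, (X σ * !![a σ⁻¹, b σ⁻¹; 0, d σ⁻¹]).trace = 0) :
    ∃ v, ∀ σ, X σ 1 0 = v * (d σ - a σ) ∧ X σ 0 0 = v * b σ ∧ X σ 1 1 = -(v * b σ) := by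
  have e10 : ∀ σ τ, X σ 1 0 * (a τ - d τ) + (d σ - a σ) * X τ 1 0 = 0 := fun σ τ => by
    simpa [Matrix.mul_apply] using congrFun (congrFun (hX σ τ) 1) 0
  have e00 : ∀ σ τ, X σ 0 0 * (a τ - d τ) + b σ * X τ 1 0 = 0 := fun σ τ => by
    simpa [Matrix.mul_apply] using congrFun (congrFun (hX σ τ) 0) 0
  have e01 : ∀ σ τ, X σ 0 0 * b τ + b σ * X τ 1 1 = 0 := fun σ τ => by
    simpa [Matrix.mul_apply] using congrFun (congrFun (hX σ τ) 0) 1
  have etr : ∀ σ, X σ 0 0 * a σ⁻¹ + X σ 1 0 * b σ⁻¹ + X σ 1 1 * d σ⁻¹ = 0 := fun σ => by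
    simpa [Matrix.trace_fin_two, Matrix.mul_apply, add_assoc, -map_inv] using htr σ
  -- normalise at an element with distinct characters, or else with a nonzero corner
  by_cases hd : ∃ σ₀, a σ₀ ≠ d σ₀
  · obtain ⟨σ₀, hσ₀⟩ := hd
    have hne : d σ₀ - a σ₀ ≠ 0 := sub_ne_zero.mpr (Ne.symm hσ₀)
    refine ⟨X σ₀ 1 0 / (d σ₀ - a σ₀), fun σ => ?_⟩
    obtain ⟨ha, hd', had⟩ := triangular_mul_inv hb σ
    have h10 : X σ 1 0 = X σ₀ 1 0 / (d σ₀ - a σ₀) * (d σ - a σ) := by
      rw [div_mul_eq_mul_div, eq_div_iff hne]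
      linear_combination -(e10 σ σ₀)
    have h00 : X σ 0 0 = X σ₀ 1 0 / (d σ₀ - a σ₀) * b σ := by
      rw [div_mul_eq_mul_div, eq_div_iff hne]
      linear_combination -(e00 σ σ₀)
    refine ⟨h10, h00, ?_⟩
    have h := etr σ
    rw [h10, h00] at h
    set v := X σ₀ 1 0 / (d σ₀ - a σ₀)
    have had' := (triangular_mul_inv hb σ⁻¹).2.2
    rw [inv_inv] at had'
    linear_combination d σ * h - v * d σ * had' + v * d σ * had - (X σ 1 1 + v * b σ) * hd'
  · replace hns := hns.resolve_left hd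
    push Not at hd
    obtain ⟨σ₀, hσ₀⟩ := hns 0
    rw [zero_mul] at hσ₀
    refine ⟨X σ₀ 0 0 / b σ₀, fun σ => ?_⟩
    have h10 : ∀ τ, X τ 1 0 = 0 := fun τ => by
      have h := e00 σ₀ τ
      rw [hd τ, sub_self, mul_zero, zero_add] at h
      exact (mul_eq_zero.mp h).resolve_left hσ₀
    have h11 : ∀ τ, X τ 1 1 = -X τ 0 0 := fun τ => by
      obtain ⟨ha, hd', -⟩ := triangular_mul_inv hb τ
      have h := etr τ
      rw [h10, zero_mul, add_zero, ← hd τ⁻¹] at h
      linear_combination a τ * h - (X τ 0 0 + X τ 1 1) * ha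
    have hv : X σ 0 0 = X σ₀ 0 0 / b σ₀ * b σ := by
      rw [div_mul_eq_mul_div, eq_div_iff hσ₀]
      linear_combination e01 σ σ₀ - b σ * h11 σ₀
    refine ⟨by rw [h10, hd σ, sub_self, mul_zero], hv, by rw [h11, hv]⟩

/-- A first order solution of the strict relation lies in the line. -/
theorem cl_mem_strictSub_of (hns : (∃ σ, a σ ≠ d σ) ∨ ∀ v, ∃ δ, b δ ≠ v * (a δ - d δ))
    (hsm : Coh.IsSmooth (glev (B.decompositionSubgroup ℚ).subtype) (locRep p r B))
    (z : Coh.Z1 (glev (B.decompositionSubgroup ℚ).subtype) (locRep p r B))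
    (hz : ∀ σ τ : B.decompositionSubgroup ℚ,
      ((z.1 σ : adZero p k) : M2 k) * r σ.1 * (r τ.1 - d τ • (1 : M2 k)) +
        (r σ.1 - a σ • (1 : M2 k)) * (((z.1 τ : adZero p k) : M2 k) * r τ.1) = 0) :
    Coh.cl₁ (glev (B.decompositionSubgroup ℚ).subtype) (locRep p r B) z ∈ strictSub p hb := by
  set T : B.decompositionSubgroup ℚ → M2 k := fun σ => !![a σ, b σ; 0, d σ] with hT
  set Zc : B.decompositionSubgroup ℚ → M2 k := fun σ =>
    (↑U⁻¹ : M2 k) * (z.1 σ).1 * (U : M2 k) with hZc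
  have hsc : ∀ (σ : B.decompositionSubgroup ℚ) (c : k),
      (↑U⁻¹ : M2 k) * (r σ.1 - c • (1 : M2 k)) * (U : M2 k) = T σ - c • (1 : M2 k) := fun σ c => by
    rw [mul_sub, sub_mul, hb, Matrix.mul_smul, mul_one, Matrix.smul_mul, U.inv_mul]
  have hX : ∀ σ τ, Zc σ * T σ * (T τ - d τ • (1 : M2 k)) +
      (T σ - a σ • (1 : M2 k)) * (Zc τ * T τ) = 0 := by
    intro σ τ
    have h := congrArg (fun M : M2 k => (↑U⁻¹ : M2 k) * M * (U : M2 k)) (hz σ τ)
    rw [Matrix.mul_zero, Matrix.zero_mul, mul_add, add_mul] at h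
    rw [← hsc, ← hsc, show T σ = _ from (hb σ).symm, show T τ = _ from (hb τ).symm, ← h]
    simp only [Zc, mul_assoc, ← mul_assoc (U : M2 k) (↑U⁻¹ : M2 k), U.mul_inv, one_mul]
  have hTT : ∀ σ : B.decompositionSubgroup ℚ, T σ * T σ⁻¹ = 1 := fun σ => by
    obtain ⟨h1, h2, h3⟩ := triangular_mul_inv hb σ
    ext i j
    fin_cases i <;> fin_cases j <;> simp [hT, Matrix.mul_apply, h1, h2, h3, -map_inv]
  -- in the triangular basis, remove the coboundary of the lower corner `v`
  obtain ⟨v, hv⟩ := exists_normalisation_of hb hns (fun σ => Zc σ * T σ) hX fun σ => by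
    rw [mul_assoc, hTT, mul_one, hZc, Matrix.trace_mul_cycle, U.mul_inv, one_mul]
    exact (z.1 σ).2
  have hV : (!![0, 0; v, 0] : M2 k).trace = 0 := by simp [Matrix.trace_fin_two]
  let W : adZero p k := ⟨(U : M2 k) * !![0, 0; v, 0] * (↑U⁻¹ : M2 k),
    by rw [mem_adZero, Matrix.trace_units_conj, hV]⟩
  let z' : Coh.Z1 (glev (B.decompositionSubgroup ℚ).subtype) (locRep p r B) :=
    z - ⟨Coh.d₀ _ W, Coh.mem_Z1.mpr ⟨Coh.isLC₁_d₀ hsm W, Coh.d₁_d₀ _ W⟩⟩
  set f : B.decompositionSubgroup ℚ → k := fun σ =>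
    ((↑U⁻¹ : M2 k) * (z'.1 σ).1 * (U : M2 k)) 0 1
  -- what is left is the upper right corner
  have hz' : ∀ σ, z'.1 σ = lineEmb p U (f σ) := by
    intro σ
    have h1 : ((z'.1 σ : adZero p k) : M2 k) = (z.1 σ).1 -
        ((U : M2 k) * (T σ * !![0, 0; v, 0] * T σ⁻¹) * (↑U⁻¹ : M2 k) - W.1) := by
      change (z.1 σ).1 - ((locRep p r B σ W).1 - W.1) = _
      rw [← locRep_conj (p := p) hb σ _ hV]
    have h2 : (↑U⁻¹ : M2 k) * (z'.1 σ).1 * (U : M2 k) =
        (Zc σ * T σ - (T σ * !![0, 0; v, 0] - !![0, 0; v, 0] * T σ)) * T σ⁻¹ := by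
      have hc : ∀ M : M2 k, (↑U⁻¹ : M2 k) * ((U : M2 k) * M * (↑U⁻¹ : M2 k)) * (U : M2 k) = M :=
        fun M => by simp [← mul_assoc]
      rw [h1, mul_sub, mul_sub, sub_mul, sub_mul, hc, hc]
      simp only [sub_mul, mul_assoc, hTT, mul_one]
      rw [hZc]
      simp only [mul_assoc]
    obtain ⟨v1, v2, v3⟩ := hv σ
    have h3 : (↑U⁻¹ : M2 k) * (z'.1 σ).1 * (U : M2 k) = !![0, f σ; 0, 0] := by
      ext i j
      fin_cases i <;> fin_cases j
      · rw [h2]
        simp [hT, Matrix.mul_apply, Fin.sum_univ_two, -map_inv] at v1 v2 v3 ⊢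
        exact Or.inl (by linear_combination v2)
      · rfl
      · rw [h2]
        simp [hT, Matrix.mul_apply, Fin.sum_univ_two, -map_inv] at v1 v2 v3 ⊢
        exact Or.inl (by linear_combination v1)
      · rw [h2]
        simp [hT, Matrix.mul_apply, Fin.sum_univ_two, -map_inv] at v1 v2 v3 ⊢
        rw [v1, v3]; ring
    refine Subtype.ext ?_
    rw [coe_lineEmb, ← h3]
    simp only [← mul_assoc, U.mul_inv, one_mul]
    rw [mul_assoc, U.mul_inv, mul_one]
  have hf : f ∈ Coh.Z1 (glev (B.decompositionSubgroup ℚ).subtype) (lineRep p a d) :=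
    mem_Z1_of_lineEmb hb (by rw [← funext hz']; exact z'.2)
  refine ⟨Coh.cl₁ (glev (B.decompositionSubgroup ℚ).subtype) (lineRep p a d) ⟨f, hf⟩, ?_⟩
  rw [Coh.map₁_cl₁, Coh.cl₁_eq_iff]
  refine ⟨-W, funext fun σ => ?_⟩
  rw [map_neg, Pi.neg_apply, Pi.sub_apply, Coh.mapZ1_apply, MonoidHom.id_apply, ← hz' σ]
  change -(Coh.d₀ (locRep p r B) W σ) = z.1 σ - Coh.d₀ (locRep p r B) W σ - z.1 σ
  abel

/-- **The count**: the strict classes times `|k|` are at most the first cohomology of the line. -/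
theorem card_strictSub_mul_le (h2 : (2 : k) ≠ 0)
    (hns : ∀ v, ∃ δ, b δ ≠ v * (a δ - d δ))
    (hsm : Coh.IsSmooth (glev (B.decompositionSubgroup ℚ).subtype) (locRep p r B))
    [Finite (Coh.H1 (glev (B.decompositionSubgroup ℚ).subtype) (lineRep p a d))] :
    Finite (strictSub p hb) ∧ Nat.card (strictSub p hb) * Nat.card k ≤
      Nat.card (Coh.H1 (glev (B.decompositionSubgroup ℚ).subtype) (lineRep p a d)) := by
  set F := Coh.map₁ (Coh.IsLevelsHom.id (glev (B.decompositionSubgroup ℚ).subtype))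
    (lineEmb_equivariant (p := p) hb)
  have hfin : Finite (strictSub p hb) :=
    Finite.of_surjective _ (LinearMap.surjective_rangeRestrict F)
  refine ⟨hfin, ?_⟩
  have key : ∀ v : k, ∃ hv : (fun δ : B.decompositionSubgroup ℚ => -2 * v * (b δ * d δ⁻¹)) ∈
      Coh.Z1 (glev (B.decompositionSubgroup ℚ).subtype) (lineRep p a d),
      Coh.cl₁ (glev (B.decompositionSubgroup ℚ).subtype) (lineRep p a d) ⟨_, hv⟩ ∈
        LinearMap.ker F := by
    intro v
    have hV : (!![v, 0; 0, -v] : M2 k).trace = 0 := by simp [Matrix.trace_fin_two]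
    let W : adZero p k := ⟨(U : M2 k) * !![v, 0; 0, -v] * (↑U⁻¹ : M2 k),
      by rw [mem_adZero, Matrix.trace_units_conj, hV]⟩
    have hW : ∀ δ, Coh.d₀ (locRep p r B) W δ = lineEmb p U (-2 * v * (b δ * d δ⁻¹)) := by
      intro δ
      refine Subtype.ext ?_
      rw [Coh.d₀_apply, Submodule.coe_sub, locRep_conj hb δ _ hV, coe_lineEmb, ← sub_mul, ← mul_sub]
      congr 2
      obtain ⟨h1, h2, h3⟩ := triangular_mul_inv hb δ
      ext i j
      fin_cases i <;> fin_cases j <;>
        simp [-map_inv]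
      · linear_combination v * h1
      · linear_combination v * h3
      · linear_combination -v * h2
    have hv : (fun δ : B.decompositionSubgroup ℚ => -2 * v * (b δ * d δ⁻¹)) ∈
        Coh.Z1 (glev (B.decompositionSubgroup ℚ).subtype) (lineRep p a d) :=
      mem_Z1_of_lineEmb hb (by
        rw [← funext hW]
        exact Coh.mem_Z1.mpr ⟨Coh.isLC₁_d₀ hsm W, Coh.d₁_d₀ _ W⟩)
    refine ⟨hv, ?_⟩
    rw [LinearMap.mem_ker, Coh.map₁_cl₁, Coh.cl₁_eq_zero]
    exact ⟨W, funext hW⟩
  -- so `k` embeds in the kernel of the map from the line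
  choose hv hvker using key
  let g : k → LinearMap.ker F := fun v => ⟨_, hvker v⟩
  have hg : Function.Injective g := by
    intro v w h
    obtain ⟨m, hm⟩ := Coh.cl₁_eq_iff.mp (congrArg Subtype.val h)
    by_contra hne
    obtain ⟨δ, hδ⟩ := hns (m / (-2 * (v - w)))
    refine hδ ?_
    have hm' := congrFun hm δ
    rw [Coh.d₀_apply, lineRep_apply, Pi.sub_apply] at hm'
    change a δ * d δ⁻¹ * m - m = -2 * v * (b δ * d δ⁻¹) - -2 * w * (b δ * d δ⁻¹) at hm'
    rw [div_mul_eq_mul_div, eq_div_iff (mul_ne_zero (neg_ne_zero.mpr h2) (sub_ne_zero.mpr hne))]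
    obtain ⟨-, h22, -⟩ := triangular_mul_inv hb δ
    linear_combination -(d δ) * hm' + (2 * (v - w) * b δ + a δ * m) * h22
  have hcard : Nat.card (Coh.H1 (glev (B.decompositionSubgroup ℚ).subtype) (lineRep p a d)) =
      Nat.card (LinearMap.ker F) * Nat.card (LinearMap.range F) := by
    rw [← Nat.card_congr F.quotKerEquivRange.toEquiv]
    exact Submodule.card_eq_card_quotient_mul_card (LinearMap.ker F)
  rw [hcard, mul_comm (Nat.card (LinearMap.ker F))]
  exact Nat.mul_le_mul_left _ (Nat.card_le_card_of_injective g hg)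

/-- At `q ≠ p` the strict classes are at most the invariants of the adjoint representation. -/
theorem card_strictSub_le_of_ne [Finite k] (h2 : (2 : k) ≠ 0)
    (hns : ∀ v, ∃ δ, b δ ≠ v * (a δ - d δ))
    (hsm : Coh.IsSmooth (glev (B.decompositionSubgroup ℚ).subtype) (locRep p r B)) {q : ℕ}
    (h : IsPlace B q) (hne : p ≠ q) (hI : ∀ σ : B.inertiaSubgroupIn ℚ, a (inD σ) = d (inD σ))
    {φ : Γℚ} (hφ : B.IsFrobeniusAt φ q) :
    Finite (strictSub p hb) ∧
      Nat.card (strictSub p hb) ≤ Nat.card (Coh.H0 (locRep p r B)) := by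
  have : Finite (adZero p k) := Subtype.finite
  have : Finite (Coh.H0 (locRep p r B)) := Subtype.finite
  obtain ⟨hfin, hle⟩ := card_H1_unramified_le h hne (isSmooth_lineRep hb hsm) (fun σ =>
    LinearMap.ext fun x => by
      rw [lineRep_apply, hI σ, (triangular_mul_inv hb _).2.1, one_mul]
      rfl) hφ
  obtain ⟨hfin', hle'⟩ := card_strictSub_mul_le (p := p) hb h2 hns hsm
  refine ⟨hfin', Nat.le_of_mul_le_mul_right (hle'.trans (hle.trans ?_)) (Nat.card_pos (α := k))⟩
  rw [mul_comm (Nat.card (Coh.H0 (locRep p r B)))]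
  refine Nat.mul_le_mul (Nat.card_le_card_of_injective _ Subtype.val_injective) ?_
  have : Finite (Coh.H0 (lineRep p a d)) := Subtype.finite
  exact Nat.card_le_card_of_injective _
    (fun x y hxy => Subtype.ext (lineEmb_injective (congrArg Subtype.val hxy)) :
      Function.Injective (Coh.map₀ (lineEmb_equivariant (p := p) hb)))

/-- At `p`, from the Euler characteristic bound for the line. -/
theorem card_strictSub_le [Finite k] (h2 : (2 : k) ≠ 0) (hns : ∀ v, ∃ δ, b δ ≠ v * (a δ - d δ))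
    (hsm : Coh.IsSmooth (glev (B.decompositionSubgroup ℚ).subtype) (locRep p r B))
    [Finite (Coh.H1 (glev (B.decompositionSubgroup ℚ).subtype) (lineRep p a d))]
    (hH1 : Nat.card (Coh.H1 (glev (B.decompositionSubgroup ℚ).subtype) (lineRep p a d)) ≤
      Nat.card k ^ 2) :
    Finite (strictSub p hb) ∧
      Nat.card (strictSub p hb) ≤ Nat.card (Coh.H0 (locRep p r B)) * Nat.card k := by
  obtain ⟨hfin', hle'⟩ := card_strictSub_mul_le (p := p) hb h2 hns hsm
  refine ⟨hfin', ?_⟩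
  have : Finite (adZero p k) := Subtype.finite
  have : Finite (Coh.H0 (locRep p r B)) := Subtype.finite
  refine le_trans ?_ (Nat.le_mul_of_pos_left _ Nat.card_pos)
  refine Nat.le_of_mul_le_mul_right (hle'.trans (hH1.trans ?_)) (Nat.card_pos (α := k))
  rw [pow_two]

omit hb in
/-- The first order form of a relation whose entries the derivation kills. -/
theorem strict_first_order_of_deriv {R : Type} [CommRing R] {π : R →+* k} {rep : Γℚ →* M2 R}
    {dd : R → k} (hd : IsDeriv π dd) {σ τ : Γℚ} {A₁ D₁ : R} (hA : dd A₁ = 0) (hD : dd D₁ = 0)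
    (h : ∀ i j, dd (((rep σ - A₁ • (1 : M2 R)) * (rep τ - D₁ • (1 : M2 R))) i j) = 0) :
    tcoc π rep dd σ * resHom π rep σ * (resHom π rep τ - π D₁ • (1 : M2 k)) +
      (resHom π rep σ - π A₁ • (1 : M2 k)) * (tcoc π rep dd τ * resHom π rep τ) = 0 := by
  have hs : ∀ (X : M2 R) (c : R), dd c = 0 →
      (X - c • (1 : M2 R)).map dd = X.map dd ∧
        (X - c • (1 : M2 R)).map π = X.map π - π c • (1 : M2 k) := by
    intro X c hc
    constructor
    · ext i j
      rw [Matrix.map_apply, Matrix.map_apply, Matrix.sub_apply, Matrix.smul_apply, hd.sub,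
        Matrix.one_apply, smul_eq_mul]
      split_ifs
      · rw [mul_one, hc, sub_zero]
      · rw [mul_zero, hd.zero, sub_zero]
    · ext i j
      simp [Matrix.one_apply, apply_ite π]
  have h' : ((rep σ - A₁ • (1 : M2 R)) * (rep τ - D₁ • (1 : M2 R))).map dd = 0 :=
    Matrix.ext h
  rw [hd.map_mul, (hs _ _ hA).1, (hs _ _ hA).2, (hs _ _ hD).1, (hs _ _ hD).2] at h'
  rw [← map_eq_tcoc_mul (d := dd), ← map_eq_tcoc_mul (d := dd), resHom_apply, resHom_apply, ← h']
  abel

omit hb in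
/-- The first order form of the strict relation for a derivation. -/
theorem strict_first_order {R : Type} [CommRing R] {π : R →+* k} {rep : Γℚ →* M2 R} {dd : R → k}
    (hd : IsDeriv π dd) {σ τ : Γℚ} {A₁ D₁ : R} (hA : dd A₁ = 0) (hD : dd D₁ = 0)
    (h : (rep σ - A₁ • (1 : M2 R)) * (rep τ - D₁ • (1 : M2 R)) = 0) :
    tcoc π rep dd σ * resHom π rep σ * (resHom π rep τ - π D₁ • (1 : M2 k)) +
      (resHom π rep σ - π A₁ • (1 : M2 k)) * (tcoc π rep dd τ * resHom π rep τ) = 0 := by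
  refine strict_first_order_of_deriv hd hA hD fun i j => ?_
  rw [h]
  exact hd.zero

end Fermat.GR.RT
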