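import Mathlib
import Fermat.Agent.GR.RT.Steinberg
import Fermat.Agent.GR.RT.Strict
import Fermat.Agent.GR.RT.Targets
import Fermat.Agent.CFT.Global.Recip
import Fermat.Agent.CFT.Global.Setup

/-!
# The residual representation at a ramified prime away from `p`

The local condition there: a space of classes no bigger than the invariants, containing the classes
of all liftings with the Steinberg relation.
-/

set_option autoImplicit false

noncomputable section

open IsLocalRing Fermat.CFT ExtCitation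
open scoped Pointwise

namespace Fermat.GR.RT

local notation "ℚbar" => AlgebraicClosure ℚ
local notation "Γℚ" => (AlgebraicClosure ℚ ≃ₐ[ℚ] AlgebraicClosure ℚ)
local notation "M2" R => Matrix (Fin 2) (Fin 2) R

/-- In the Steinberg shape, multiplying the unipotent element scales its nilpotent part. -/
private theorem sub_one_mul_of_shape {R : Type} [CommRing R] {U : (M2 R)ˣ} {X Y : M2 R} {a b e : R}
    (hX : (↑U⁻¹ : M2 R) * X * (U : M2 R) = !![1, 1; 0, 1])
    (hY : (↑U⁻¹ : M2 R) * Y * (U : M2 R) = !![a, b; 0, e]) : (X - 1) * Y = e • (X - 1) := by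
  have hback : ∀ M : M2 R, (U : M2 R) * ((↑U⁻¹ : M2 R) * M * (U : M2 R)) * (↑U⁻¹ : M2 R) = M := by
    intro M
    simp only [← mul_assoc, U.mul_inv, one_mul]
    rw [mul_assoc, U.mul_inv, mul_one]
  rw [← hback ((X - 1) * Y), ← hback (e • (X - 1))]
  refine congrArg (fun M => (U : M2 R) * M * (↑U⁻¹ : M2 R)) ?_
  have hsplit : (↑U⁻¹ : M2 R) * ((X - 1) * Y) * (U : M2 R) =
      ((↑U⁻¹ : M2 R) * X * (U : M2 R) - 1) * ((↑U⁻¹ : M2 R) * Y * (U : M2 R)) := by
    rw [sub_mul, sub_mul, mul_sub, sub_mul, one_mul, one_mul]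
    simp only [mul_assoc]
    rw [← mul_assoc (U : M2 R) (↑U⁻¹ : M2 R), U.mul_inv, one_mul]
  have hR : (↑U⁻¹ : M2 R) * (e • (X - 1)) * (U : M2 R) =
      e • ((↑U⁻¹ : M2 R) * X * (U : M2 R) - 1) := by
    rw [Matrix.mul_smul, Matrix.smul_mul, mul_sub, sub_mul, mul_one, U.inv_mul]
  rw [hsplit, hR, hY, hX]
  ext i j; fin_cases i <;> fin_cases j <;> simp [Matrix.mul_apply]

/-- The coordinate-free form of the Steinberg shape. -/
theorem exists_steinberg_relation {p : ℕ} [Fact p.Prime] {R : Type} [CommRing R] [IsLocalRing R]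
    [IsDomain R] [IsNoetherianRing R] [IsHausdorff (maximalIdeal R) R] {r : Γℚ →* M2 R}
    (hr : MatCont r) (hpR : (p : R) ∈ maximalIdeal R) {q : ℕ} (hq : q.Prime) (hqp : q ≠ p)
    {B : ValuationSubring ℚbar} (hB : B.LiesOverPrime q)
    (hun : ∀ σ ∈ B.inertiaSubgroupIn ℚ, (r σ - 1) * (r σ - 1) = 0) {φ : Γℚ}
    (hφ : B.IsFrobeniusAt φ q) (hdet : (r φ).det = (q : R)) {σ₀ : Γℚ}
    (hσ₀ : σ₀ ∈ B.inertiaSubgroupIn ℚ) (hne : ∃ a b, (r σ₀ - 1) a b ∉ maximalIdeal R) :
    ∃ e : B.decompositionSubgroup ℚ →* R, (∀ δ, e δ * e δ = 1) ∧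
      (∀ δ, (r σ₀ - 1) * r δ.1 = e δ • (r σ₀ - 1)) ∧
      ∀ σ τ : B.decompositionSubgroup ℚ,
        (r σ.1 - ((r σ.1).det * e σ) • (1 : M2 R)) * (r τ.1 - e τ • (1 : M2 R)) = 0 := by
  obtain ⟨U, e, h0, he, -, hT⟩ := exists_steinberg hr hpR hq hqp hB hun hφ hdet hσ₀ hne
  have hback : ∀ M : M2 R, (U : M2 R) * ((↑U⁻¹ : M2 R) * M * (U : M2 R)) * (↑U⁻¹ : M2 R) = M := by
    intro M
    simp only [← mul_assoc, U.mul_inv, one_mul]
    rw [mul_assoc, U.mul_inv, mul_one]
  have hconj : ∀ X Y : M2 R, (↑U⁻¹ : M2 R) * (X * Y) * (U : M2 R) =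
      ((↑U⁻¹ : M2 R) * X * (U : M2 R)) * ((↑U⁻¹ : M2 R) * Y * (U : M2 R)) := fun X Y => by
    simp only [mul_assoc]
    rw [← mul_assoc (U : M2 R) (↑U⁻¹ : M2 R), U.mul_inv, one_mul]
  have hsub : ∀ (X : M2 R) (c : R), (↑U⁻¹ : M2 R) * (X - c • (1 : M2 R)) * (U : M2 R) =
      (↑U⁻¹ : M2 R) * X * (U : M2 R) - c • (1 : M2 R) := fun X c => by
    rw [mul_sub, sub_mul, Matrix.mul_smul, mul_one, Matrix.smul_mul, U.inv_mul]
  refine ⟨e, he, fun δ => ?_, fun σ τ => ?_⟩
  · obtain ⟨b, hb⟩ := hT δ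
    exact sub_one_mul_of_shape h0 hb
  · rw [← hback ((r σ.1 - _) * _), hconj, hsub, hsub]
    obtain ⟨b, hb⟩ := hT σ
    obtain ⟨b', hb'⟩ := hT τ
    rw [hb, hb']
    suffices h : (!![(r σ.1).det * e σ, b; 0, e σ] - ((r σ.1).det * e σ) • (1 : M2 R)) *
        (!![(r τ.1).det * e τ, b'; 0, e τ] - e τ • (1 : M2 R)) = 0 by
      rw [h, mul_zero, zero_mul]
    ext i j; fin_cases i <;> fin_cases j <;> simp [Matrix.mul_apply]

variable {p : ℕ} [hp : Fact p.Prime] (rb : Γℚ →* GL (Fin 2) (ZMod p))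
  (O : Type) [CommRing O] [IsLocalRing O] [Algebra (ZMod p) (ResidueField O)]

/-- The residual representation over the residue field. -/
def resRep : Γℚ →* M2 (ResidueField O) :=
  (algebraMap (ZMod p) (ResidueField O)).mapMatrix.toMonoidHom.comp
    ((Units.coeHom (Matrix (Fin 2) (Fin 2) (ZMod p))).comp rb)

/-- `resRep` is `rb` with entries mapped into the residue field. -/
theorem resRep_apply (σ : Γℚ) :
    resRep rb O σ = (rb σ : Matrix (Fin 2) (Fin 2) (ZMod p)).map (algebraMap _ _) := rfl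

variable {rb}

/-- The determinant of `resRep` is cyclotomic. -/
theorem det_resRep (hrb : IsSemistableResidual p rb) (σ : Γℚ) :
    (resRep rb O σ).det =
      algebraMap (ZMod p) (ResidueField O) ((cycloChar p σ : (ZMod p)ˣ) : ZMod p) := by
  rw [resRep_apply, ← RingHom.mapMatrix_apply, ← RingHom.map_det, hrb.det_eq]
  rfl

/-- `resRep` is trivial where `rb` is. -/
theorem resRep_eq_one {σ : Γℚ} (h : rb σ = 1) : resRep rb O σ = 1 := by
  rw [resRep_apply, h, Units.val_one, Matrix.map_one _ (map_zero _) (map_one _)]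

/-- `resRep` is continuous. -/
theorem matCont_resRep (hrb : IsSemistableResidual p rb) : MatCont (resRep rb O) := by
  intro n
  obtain ⟨L, hL, -, hLU⟩ := exists_normal_fixingSubgroup_le hrb.isOpen_ker
  refine ⟨L, hL, fun σ hσ i j => ?_⟩
  rw [resRep_eq_one O (MonoidHom.mem_ker.mp
    (hLU ((IntermediateField.mem_fixingSubgroup_iff L σ).mpr hσ))), sub_self, Matrix.zero_apply]
  exact zero_mem _

/-- Inertia at the chosen place lies in its decomposition group. -/
theorem inertia_le_decAt {v : Nat.Primes} {σ : Γℚ} (h : σ ∈ (placeAt v).inertiaSubgroupIn ℚ) :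
    σ ∈ decAt v := by
  obtain ⟨x, -, rfl⟩ := h
  exact x.2

/-- A ramified prime has inertia acting nontrivially at the chosen place. -/
theorem exists_inertia_ne_one {v : Nat.Primes} (h : ¬ IsResUnramified p rb v) :
    ∃ σ ∈ (placeAt v).inertiaSubgroupIn ℚ, rb σ ≠ 1 := by
  by_contra hcon
  push Not at hcon
  refine h fun B hB σ hσ => ?_
  obtain ⟨g, rfl⟩ := exists_smul_place v.2 (placeAt_spec v) hB
  have h1 := mem_inertiaSubgroupIn_smul v.2 hB hσ g⁻¹
  rw [inv_smul_smul, inv_inv] at h1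
  have h2 := hcon _ h1
  rw [map_mul, map_mul, map_inv] at h2
  rwa [mul_assoc, inv_mul_eq_one, eq_comm, mul_eq_right] at h2

variable {O} in
/-- A nontrivial residual element has an entry off the maximal ideal after subtracting `1`. -/
private theorem exists_entry_notMem {σ : Γℚ} (hne₀ : rb σ ≠ 1) :
    ∃ a b, (resRep rb O σ - 1) a b ∉ maximalIdeal (ResidueField O) := by
  have hker : (maximalIdeal (ResidueField O)) = ⊥ := IsLocalRing.maximalIdeal_eq_bot
  by_contra hcon
  push Not at hcon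
  simp only [hker, Ideal.mem_bot] at hcon
  refine hne₀ (Units.ext ?_)
  have h1 : resRep rb O σ = 1 := sub_eq_zero.mp (Matrix.ext hcon)
  rw [resRep_apply] at h1
  refine Matrix.ext fun i j => (algebraMap (ZMod p) (ResidueField O)).injective ?_
  have h2 := congrFun (congrFun h1 i) j
  rw [Matrix.map_apply] at h2
  rw [h2, Units.val_one, Matrix.one_apply, Matrix.one_apply]
  split_ifs <;> simp

variable [Finite (ResidueField O)]

/-- What a lifting must satisfy at a ramified prime `v`, relative to a sign character `e`. -/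
def StrictRel (v : Nat.Primes) (e : decAt v → O) {R : Type} [CommRing R] [Algebra O R]
    (rep : Γℚ →* M2 R) : Prop :=
  ∀ σ τ : decAt v, (rep σ.1 - ((rep σ.1).det * algebraMap O R (e σ)) • (1 : M2 R)) *
    (rep τ.1 - algebraMap O R (e τ) • (1 : M2 R)) = 0

/-- `S` contains the classes at `v` of the first-order deformations of the residual representation
with fixed determinant that satisfy the strict relation of `e`. -/
def StrictClassesIn (v : Nat.Primes) (e : decAt v → O)
    (S : Submodule (ZMod p) (LH1 v (adRep p (resRep rb O)))) : Prop :=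
  ∀ (R : Type) [CommRing R] [Algebra O R] (rep : Γℚ →* M2 R) (π : R →+* ResidueField O)
    (d : R → ResidueField O), IsDeriv π d → π.comp (algebraMap O R) = residue O →
    (∀ o, d (algebraMap O R o) = 0) → (∀ σ, d (rep σ).det = 0) →
    resHom π rep = resRep rb O → StrictRel O v e rep →
    ∀ z : Coh.Z1 (glev (decAt v).subtype) (repAt v (adRep p (resRep rb O))),
      (∀ δ, ((z.1 δ : adZero p (ResidueField O)) : M2 (ResidueField O)) = tcoc π rep d δ.1) →
        Coh.cl₁ (glev (decAt v).subtype) (repAt v (adRep p (resRep rb O))) z ∈ S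

/-- **The local condition at a ramified prime.** -/
theorem exists_strictCond (hrb : IsSemistableResidual p rb) (h2 : 2 < p)
    (hO : (p : O) ∈ maximalIdeal O) {T : Set Nat.Primes}
    (hsm : Coh.IsSmooth (galLevels T) (adRep p (resRep rb O))) {v : Nat.Primes} (hvp : (v : ℕ) ≠ p)
    (hram : ¬ IsResUnramified p rb v) :
    ∃ (e : decAt v → O) (σ₀ : Γℚ) (S : Submodule (ZMod p) (LH1 v (adRep p (resRep rb O)))),
      σ₀ ∈ (placeAt v).inertiaSubgroupIn ℚ ∧ rb σ₀ ≠ 1 ∧
      (∀ δ, e δ = 1 ∨ e δ = -1) ∧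
      (∀ δ, (resRep rb O σ₀ - 1) * resRep rb O δ.1 = residue O (e δ) • (resRep rb O σ₀ - 1)) ∧
      Nat.card S ≤ Nat.card (Coh.H0 (repAt v (adRep p (resRep rb O)))) ∧
      StrictClassesIn O v e S := by
  classical
  obtain ⟨σ₀, hσ₀, hne₀⟩ := exists_inertia_ne_one hram
  have hker : (maximalIdeal (ResidueField O)) = ⊥ := IsLocalRing.maximalIdeal_eq_bot
  have : IsHausdorff (maximalIdeal (ResidueField O)) (ResidueField O) := by
    rw [hker]; infer_instance
  have hpk : (p : ResidueField O) ∈ maximalIdeal (ResidueField O) := by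
    rw [hker, Ideal.mem_bot, ← map_natCast (residue O), residue_eq_zero_iff]
    exact hO
  have hB := placeAt_spec v
  have hun : ∀ σ ∈ (placeAt v).inertiaSubgroupIn ℚ,
      (resRep rb O σ - 1) * (resRep rb O σ - 1) = 0 := by
    intro σ hσ
    have h := hrb.unipotent v v.2 hvp _ hB σ hσ
    rw [resRep_apply, ← RingHom.mapMatrix_apply,
      ← map_one (algebraMap (ZMod p) (ResidueField O)).mapMatrix, ← map_sub, ← map_mul, h, map_zero]
  obtain ⟨φ, hφ⟩ := exists_isFrobeniusAt v.2 hB
  have hdet : (resRep rb O φ).det = ((v : ℕ) : ResidueField O) := by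
    have := Fact.mk v.2
    rw [det_resRep O hrb, ← map_natCast (algebraMap (ZMod p) (ResidueField O))]
    exact congrArg _ (cycChar_frobenius v.2 hvp hB hφ)
  have hne := exists_entry_notMem (O := O) hne₀
  -- the decomposition group is triangular, with a sign on the diagonal
  obtain ⟨U, e, h0, he, heI, hT⟩ := exists_steinberg (matCont_resRep O hrb) hpk v.2 hvp hB hun hφ
    hdet hσ₀ hne
  choose b hb using hT
  let detD : decAt v →* ResidueField O :=
    (Matrix.detMonoidHom.comp (resRep rb O)).comp (decAt v).subtype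
  let a : decAt v →* ResidueField O := detD * e
  have hb' : ∀ δ : (placeAt v).decompositionSubgroup ℚ,
      (↑U⁻¹ : M2 _) * resRep rb O δ.1 * (U : M2 _) = !![a δ, b δ; 0, e δ] := hb
  have h20 : (2 : ResidueField O) ≠ 0 := by
    intro h
    rw [← map_ofNat (algebraMap (ZMod p) (ResidueField O)) 2, map_eq_zero] at h
    have := Nat.le_of_dvd two_pos ((ZMod.natCast_eq_zero_iff 2 p).mp h)
    omega
  -- it is non-split
  let σd : (placeAt v).decompositionSubgroup ℚ :=
    ⟨σ₀, inertia_le_decAt hσ₀⟩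
  have hbσ : b σd = 1 ∧ a σd = e σd := by
    have h := (hb' σd).symm.trans h0
    have h01 := congrFun (congrFun h 0) 1
    have h00 := congrFun (congrFun h 0) 0
    have h11 := congrFun (congrFun h 1) 1
    simp at h01 h00 h11
    exact ⟨h01, h00.trans h11.symm⟩
  have hns : ∀ w, ∃ δ, b δ ≠ w * (a δ - e δ) := fun w =>
    ⟨σd, by rw [hbσ.1, hbσ.2, sub_self, mul_zero]; exact one_ne_zero⟩
  have hsm' : Coh.IsSmooth (glev ((placeAt v).decompositionSubgroup ℚ).subtype)
      (locRep p (resRep rb O) (placeAt v)) := Coh.IsSmooth.comp (locHom T v) hsm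
  obtain ⟨-, hcard⟩ := card_strictSub_le_of_ne (p := p) hb' h20 hns hsm' (q := (v : ℕ))
    ⟨v.2, hB⟩ (Ne.symm hvp) (fun σ => by
      change detD (inD σ) * e (inD σ) = e (inD σ)
      rw [show detD (inD σ) = (resRep rb O σ.1).det from rfl, det_resRep O hrb,
        show cycloChar p σ.1 = 1 from cycChar_eq_one_of_mem_inertia v.2 hvp hB σ.2, Units.val_one,
        map_one, one_mul]) hφ
  -- lift the sign; the strict classes lie in the strict subspace
  let eL : decAt v → O := fun δ => if e δ = 1 then 1 else -1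
  have heL : ∀ δ, residue O (eL δ) = e δ := fun δ => by
    simp only [eL]
    split_ifs with h
    · rw [h, map_one]
    · rw [map_neg, map_one]
      exact ((mul_self_eq_one_iff.mp (he δ)).resolve_left h).symm
  refine ⟨eL, σ₀, strictSub p hb', hσ₀, hne₀, fun δ => ?_, fun δ => ?_, hcard,
    fun R _ _ rep π d hd hπ hdO hddet hres hrel z hz => ?_⟩
  · simp only [eL]; split_ifs <;> simp
  · rw [heL]
    exact sub_one_mul_of_shape h0 (hb' δ)
  · refine cl_mem_strictSub_of hb' (Or.inr hns) hsm' z fun σ τ => ?_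
    have hA : ∀ δ : decAt v, d ((rep δ.1).det * algebraMap O R (eL δ)) = 0 := fun δ => by
      rw [hd.mul, hddet, hdO, mul_zero, mul_zero, add_zero]
    have h := strict_first_order hd (hA σ) (hdO (eL τ)) (hrel σ τ)
    have hπo : ∀ o, π (algebraMap O R o) = residue O o := fun o => RingHom.congr_fun hπ o
    rw [hres] at h
    rw [hz σ, hz τ]
    have ha : π ((rep σ.1).det * algebraMap O R (eL σ)) = a σ := by
      rw [map_mul, hπo, heL, RingHom.map_det, RingHom.mapMatrix_apply]
      change (resHom π rep σ.1).det * e σ = _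
      rw [hres]
      rfl
    rw [ha, hπo, heL] at h
    exact h

end Fermat.GR.RT

end
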