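import Mathlib
import Fermat.Agent.GR.RT.LowerPoints
import Fermat.Agent.GR.RT.ResidualLocal

/-!
# The congruent systems at the ramified primes

`PtData.strictRel`: the congruent systems satisfy the strict relation at the ramified primes.
-/

set_option autoImplicit false
set_option linter.unusedSectionVars false

noncomputable section

open IsLocalRing Fermat.CFT

namespace Fermat.GR.RT

local notation "Γℚ" => (AlgebraicClosure ℚ ≃ₐ[ℚ] AlgebraicClosure ℚ)
local notation "M2" R => Matrix (Fin 2) (Fin 2) R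

variable {p : ℕ} [hp : Fact p.Prime] {rb : Γℚ →* GL (Fin 2) (ZMod p)}

/-- A basis in which the reduction is `rb`. -/
theorem exists_conj_residual {B : Type} [CommRing B] [IsLocalRing B]
    (hs : Function.Surjective rb) (c : ZMod p →+* ResidueField B) (r : Γℚ →* M2 B)
    (htr : ∀ σ, residue B (r σ).trace = c (rb σ : Matrix (Fin 2) (Fin 2) (ZMod p)).trace) :
    ∃ P : (M2 B)ˣ, ∀ σ, (residue B).mapMatrix (conjHom P r σ) =
      (rb σ : Matrix (Fin 2) (Fin 2) (ZMod p)).map c := by
  obtain ⟨P, hP⟩ := exists_isRed (O := B) hs c r htr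
  refine ⟨P, fun σ => ?_⟩
  rw [← barOf_map rb (residue B) c σ]
  refine Matrix.ext fun i j => sub_eq_zero.mp ?_
  rw [RingHom.mapMatrix_apply, Matrix.map_apply, Matrix.map_apply, ← map_sub,
    residue_eq_zero_iff]
  exact hP σ i j

variable {O : Type} [CommRing O] [IsLocalRing O]

/-- The strict relation does not depend on the basis. -/
theorem StrictRel.conj {R : Type} [CommRing R] [Algebra O R] {v : Nat.Primes} {e : decAt v → O}
    {rep rep' : Γℚ →* M2 R} {P : (M2 R)ˣ}
    (hP : ∀ σ, rep' σ * (P : M2 R) = (P : M2 R) * rep σ) (h : StrictRel O v e rep) :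
    StrictRel O v e rep' := by
  intro σ τ
  have hd : ∀ σ, (rep' σ).det = (rep σ).det := fun σ => (trace_det_of_conj P (hP σ)).2
  have hs : ∀ σ (c : R), (rep' σ - c • (1 : M2 R)) * (P : M2 R) =
      (P : M2 R) * (rep σ - c • (1 : M2 R)) := fun σ c => by
    rw [sub_mul, mul_sub, hP, Matrix.smul_mul, Matrix.mul_smul, one_mul, mul_one]
  rw [← P.mul_left_inj, zero_mul, mul_assoc, hs, ← mul_assoc, hd, hs, mul_assoc, h σ τ, mul_zero]

/-- The strict relation holds if it holds at jointly injective specialisations. -/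
theorem StrictRel.of_injective {R : Type} [CommRing R] [Algebra O R] {v : Nat.Primes}
    {e : decAt v → O} {rep : Γℚ →* M2 R} {ι : Type} {B : ι → Type} [∀ i, CommRing (B i)]
    [∀ i, Algebra O (B i)] (pr : ∀ i, R →ₐ[O] B i)
    (hpr : ∀ x y, (∀ i, pr i x = pr i y) → x = y)
    (h : ∀ i, StrictRel O v e ((pr i : R →+* B i).mapMatrix.toMonoidHom.comp rep)) :
    StrictRel O v e rep := by
  intro σ τ
  refine Matrix.ext fun a b => hpr _ _ fun i => ?_
  set f : (M2 R) →+* (M2 (B i)) := (pr i : R →+* B i).mapMatrix (m := Fin 2)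
  have hsm : ∀ (c : R), f (c • (1 : M2 R)) = pr i c • (1 : M2 (B i)) := fun c => by
    refine Matrix.ext fun x y => ?_
    rw [RingHom.mapMatrix_apply, Matrix.map_apply, Matrix.smul_apply, Matrix.smul_apply,
      smul_eq_mul, smul_eq_mul, map_mul]
    congr 1
    rw [Matrix.one_apply, Matrix.one_apply]
    split_ifs <;> simp
  have e1 : f ((rep σ.1 - ((rep σ.1).det * algebraMap O R (e σ)) • (1 : M2 R)) *
      (rep τ.1 - algebraMap O R (e τ) • (1 : M2 R))) = 0 := by
    rw [map_mul, map_sub, map_sub, hsm, hsm, map_mul, AlgHom.commutes, AlgHom.commutes]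
    refine Eq.trans ?_ (h i σ τ)
    rw [show pr i (rep σ.1).det = (f (rep σ.1)).det from
      (RingHom.map_det (pr i : R →+* B i) _)]
    rfl
  have e2 := congrFun (congrFun e1 a) b
  rw [Matrix.zero_apply] at e2 ⊢
  rw [map_zero]
  exact e2

/-- **The strict relation of a lifting with unipotent inertia at a ramified prime.** -/
theorem strictRel_of_unipotent [Algebra (ZMod p) (ResidueField O)] (hs : Function.Surjective rb)
    (hp2 : p ≠ 2)
    (hO : (p : O) ∈ maximalIdeal O) {B : Type} [CommRing B] [IsDomain B]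
    [IsDiscreteValuationRing B] [IsAdicComplete (maximalIdeal B) B]
    [Algebra O B] [IsLocalHom (algebraMap O B)] (hB : (p : B) ∈ maximalIdeal B)
    {ρ : Γℚ →* M2 B} (hρ : MatCont ρ) (hdetρ : ∀ σ, (ρ σ).det = cycO hB σ)
    (htrρ : ∀ σ, residue B (ρ σ).trace = ((ResidueField.map (algebraMap O B)).comp (resCast hO))
      (rb σ : Matrix (Fin 2) (Fin 2) (ZMod p)).trace)
    {v : Nat.Primes} (hvp : (v : ℕ) ≠ p)
    (hun : ∀ σ ∈ (placeAt v).inertiaSubgroupIn ℚ, (ρ σ - 1) * (ρ σ - 1) = 0)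
    {e : decAt v → O} (he : ∀ δ, e δ = 1 ∨ e δ = -1) {σ₀ : Γℚ}
    (hσ₀ : σ₀ ∈ (placeAt v).inertiaSubgroupIn ℚ) (hne : rb σ₀ ≠ 1)
    (hrel : ∀ δ : decAt v, (resRep rb O σ₀ - 1) * resRep rb O δ.1 =
      residue O (e δ) • (resRep rb O σ₀ - 1)) :
    StrictRel O v e ρ := by
  have hA := placeAt_spec v
  set c := (ResidueField.map (algebraMap O B)).comp (resCast hO) with hc'
  obtain ⟨Q, hQ⟩ := exists_conj_residual hs c ρ htrρ
  set ρ' := conjHom Q ρ with hρ'
  have hconj : ∀ σ, ρ σ * (↑Q⁻¹ : M2 B) = (↑Q⁻¹ : M2 B) * ρ' σ := fun σ => by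
    change _ = _ * ((Q : M2 B) * ρ σ * (↑Q⁻¹ : M2 B))
    rw [← mul_assoc, ← mul_assoc, Q.inv_mul, one_mul]
  refine StrictRel.conj (P := Q⁻¹) hconj ?_
  have hdet : ∀ σ, (ρ' σ).det = (ρ σ).det := fun σ =>
    ((trace_det_of_conj (Q⁻¹) (hconj σ)).2).symm
  obtain ⟨φ, hφ⟩ := exists_isFrobeniusAt v.2 hA
  have hun' : ∀ σ ∈ (placeAt v).inertiaSubgroupIn ℚ, (ρ' σ - 1) * (ρ' σ - 1) = 0 := by
    intro σ hσ
    have h1 : ρ' σ - 1 = (Q : M2 B) * (ρ σ - 1) * (↑Q⁻¹ : M2 B) := by
      rw [mul_sub, sub_mul, mul_one, Q.mul_inv]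
      rfl
    rw [h1]
    calc _ = (Q : M2 B) * ((ρ σ - 1) * (ρ σ - 1)) * (↑Q⁻¹ : M2 B) := by
          simp only [mul_assoc]
          rw [← mul_assoc (↑Q⁻¹ : M2 B) (Q : M2 B), Q.inv_mul, one_mul]
      _ = 0 := by rw [hun σ hσ, mul_zero, zero_mul]
  have hbar : ∀ σ, (ρ' σ).map (residue B) =
      (resRep rb O σ).map (ResidueField.map (algebraMap O B)) := fun σ => by
    rw [← RingHom.mapMatrix_apply, hQ σ, resRep_apply, Matrix.map_map]
    refine congrArg _ ?_
    rw [← RingHom.coe_comp]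
    exact congrArg (fun f : ZMod p →+* _ => (f : ZMod p → _)) (RingHom.ext_zmod _ _)
  have hne' : ∃ a b, (ρ' σ₀ - 1) a b ∉ maximalIdeal B := by
    by_contra hcon
    push Not at hcon
    refine hne (Units.ext (Matrix.ext fun a b => c.injective ?_))
    have h := hcon a b
    rw [← residue_eq_zero_iff, Matrix.sub_apply, map_sub, sub_eq_zero] at h
    have h2 := congrFun (congrFun (hQ σ₀) a) b
    rw [RingHom.mapMatrix_apply, Matrix.map_apply, Matrix.map_apply, h] at h2
    rw [← h2, Units.val_one, Matrix.one_apply, Matrix.one_apply]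
    split_ifs <;> simp
  -- the Steinberg relation, with a sign `e'` which is `e` as both are signs with the same residue
  obtain ⟨e', he', hrel', hsr⟩ := exists_steinberg_relation (p := p) (r := ρ')
    (matCont_conjHom hρ Q) hB v.2 hvp hA hun' hφ
    (by rw [hdet, hdetρ, cycO_frobenius hB v.2 hvp hA hφ]) hσ₀ hne'
  obtain ⟨a, b, hab⟩ := hne'
  have h2k : (2 : ResidueField B) ≠ 0 := by
    simpa only [map_ofNat] using ((isUnit_two_of_mem hp2 hB).map (residue B)).ne_zero
  have hee : ∀ δ, e' δ = algebraMap O B (e δ) := by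
    intro δ
    have h1 := congrFun (congrFun (congrArg (residue B).mapMatrix (hrel' δ)) a) b
    have h2 := congrFun (congrFun (congrArg (ResidueField.map (algebraMap O B)).mapMatrix
      (hrel δ)) a) b
    rw [map_mul, map_sub, map_one, RingHom.mapMatrix_apply, RingHom.mapMatrix_apply, hbar,
      hbar] at h1
    rw [map_mul, map_sub, map_one, RingHom.mapMatrix_apply, RingHom.mapMatrix_apply] at h2
    rw [h2] at h1
    simp only [RingHom.mapMatrix_apply, Matrix.map_apply, Matrix.smul_apply, smul_eq_mul, map_mul,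
      ResidueField.map_residue] at h1
    have h3 : ResidueField.map (algebraMap O B) ((resRep rb O σ₀ - 1) a b) =
        residue B ((ρ' σ₀ - 1) a b) := by
      have h := congrFun (congrFun (hbar σ₀) a) b
      rw [Matrix.map_apply, Matrix.map_apply] at h
      rw [Matrix.sub_apply, Matrix.sub_apply, map_sub, map_sub, h, Matrix.one_apply,
        Matrix.one_apply]
      split_ifs <;> simp
    rw [h3] at h1
    have h4 := mul_right_cancel₀ (fun h => hab ((residue_eq_zero_iff _).mp h)) h1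
    by_contra hcon
    rcases he δ with h | h <;> rw [h] at h4 hcon <;>
      rcases mul_self_eq_one_iff.mp (he' δ) with h' | h' <;> rw [h'] at h4 hcon <;>
      simp at h4 hcon
    all_goals exact h2k (by first | linear_combination h4 | linear_combination -h4)
  intro σ τ
  rw [← hee σ, ← hee τ]
  exact hsr σ τ

namespace LowerData

variable {N : ℕ} {A : Finset ℕ} {D : LowerData p rb N A} {n : ℕ} {L : List (GoodIx (N * p))}
  {hL : TWList p rb n L} {O : Type} [CommRing O] [IsDomain O] [IsDiscreteValuationRing O]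
  [IsAdicComplete (maximalIdeal O) O] [Finite (ResidueField O)] [CharZero O] {ζ : O}
  {hc : CoeffData p O ζ} [NeZero N] {x : MvPolynomial (Nat.Primes ⊕ (ZMod (D.levK L))ˣ) ℤ →+*
    AlgebraicClosure (FractionRing O)}

/-- **The strict relation at a ramified prime.** -/
theorem PtData.strictRel [Algebra (ZMod p) (ResidueField O)] (P : D.PtData hL hc x)
    (hN : NewInput p) {v : Nat.Primes} (hvp : (v : ℕ) ≠ p) (hram : ¬ IsResUnramified p rb v)
    {e : decAt v → O} (he : ∀ δ, e δ = 1 ∨ e δ = -1) {σ₀ : Γℚ}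
    (hσ₀ : σ₀ ∈ (placeAt v).inertiaSubgroupIn ℚ) (hne : rb σ₀ ≠ 1)
    (hrel : ∀ δ : decAt v, (resRep rb O σ₀ - 1) * resRep rb O δ.1 =
      residue O (e δ) • (resRep rb O σ₀ - 1)) :
    StrictRel O v e P.ρ := by
  have := D.neZero_levK (L := L)
  have hq := v.2
  have hqN : (v : ℕ) ∣ N := D.ram v hq hvp hram
  have hqA : (v : ℕ) ∉ A := fun h => hram (D.unr _ h)
  obtain ⟨K', hK⟩ := D.dvd_levK (L := L) hqN
  rw [mul_comm] at hK
  have hqK' : ¬ (v : ℕ) ∣ K' := D.not_dvd_of_mul_eq hL hq hK.symm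
  have hB := placeAt_spec v
  obtain ⟨hun, -⟩ := hN _ _ (D.neg_mem_grpL hL) v hq hvp K' hK.symm hqK'
    (fun u hu => D.mem_grpL_of_one hL hq hqN hqA hK.symm hu) P.O' P.res.mem P.y P.res.point P.r
    P.attached (placeAt v) hB
  have hρI : ∀ σ ∈ (placeAt v).inertiaSubgroupIn ℚ, P.ρ σ = P.r σ := by
    intro σ hσ
    have hdK : K' ∣ D.levK L := ⟨v, hK⟩
    have : NeZero K' := ⟨fun h => NeZero.ne (D.levK L) (by rw [hK, h, zero_mul])⟩
    have hu : ((cycK (D.levK L) σ : ZMod (D.levK L)).val : ZMod K') = 1 := by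
      rw [ZMod.natCast_val, ← ZMod.unitsMap_val hdK, unitsMap_cycK hdK,
        cycK_inertia hq (hq.coprime_iff_not_dvd.mpr hqK') hB hσ, Units.val_one]
    rw [P.rho_eq, twistChar_apply, diaVal_apply,
      P.res.point.dia_eq_one (D.mem_grpL_of_one hL hq hqN hqA hK.symm hu), one_pow, one_smul]
  refine strictRel_of_unipotent D.semi.surjective D.p_ne_two hc.mem P.res.mem P.cont P.det P.trace
    hvp (fun σ hσ => ?_) he hσ₀ hne hrel
  rw [hρI σ hσ]
  exact hun σ hσ

end LowerData

end Fermat.GR.RT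

end
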