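import Fermat.Agent.GR.RT.OrdStatement
import Fermat.Agent.GR.RT.FlatProofCocycle
import Fermat.Agent.FLAT.Residual

/-!
# Ordinary liftings satisfy the strict relation

An unramified quotient character whose square is one at Frobenius has square one; it is the sign
lift of the residual unramified character, as inertia is ramified on the other one.
-/

set_option autoImplicit false

noncomputable section

open IsLocalRing Fermat.CFT Fermat.EC.Val

namespace Fermat.GR.RT

local notation "ℚbar" => AlgebraicClosure ℚ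
local notation "Γℚ" => (AlgebraicClosure ℚ ≃ₐ[ℚ] AlgebraicClosure ℚ)
local notation "M2" R => Matrix (Fin 2) (Fin 2) R

/-- Lower-left zero makes the lower-right entry multiplicative. -/
theorem entry11_mul {R : Type*} [CommRing R] {X Y : M2 R} (hX : X 1 0 = 0) :
    (X * Y) 1 1 = X 1 1 * Y 1 1 := by
  rw [Matrix.mul_apply, Fin.sum_univ_two, hX, zero_mul, zero_add]

/-- On the decomposition group a character of finite level trivial on inertia whose Frobenius
value has square one has square one. -/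
theorem sq_eq_one_of_frob {p : ℕ} [Fact p.Prime] {B : ValuationSubring ℚbar} (h : IsPlace B p)
    {k : Type} [CommRing k] (χ : Γℚ → k) (h1 : χ 1 = 1)
    (hmul : ∀ σ ∈ B.decompositionSubgroup ℚ, ∀ τ, χ (σ * τ) = χ σ * χ τ)
    (hI : ∀ σ ∈ B.inertiaSubgroupIn ℚ, χ σ = 1) (F : IntermediateField ℚ ℚbar)
    [FiniteDimensional ℚ F] [Normal ℚ F] (hF : ∀ s ∈ F.fixingSubgroup, χ s = 1) {φ : Γℚ}
    (hφ : B.IsFrobeniusAt φ p) (hφsq : χ φ * χ φ = 1) {δ : Γℚ}
    (hδ : δ ∈ B.decompositionSubgroup ℚ) : χ δ * χ δ = 1 := by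
  obtain ⟨i, τ, hτ, s, hs, rfl⟩ := exists_frob_pow_level h hφ hδ F
  have hφD := hφ.mem_decompositionSubgroup
  rw [hmul _ (mul_mem (pow_mem hφD i) (Fermat.FLAT.inertia_le_decomposition B hτ)),
    hmul _ (pow_mem hφD i), hI τ hτ, hF s hs, mul_one, mul_one]
  clear hδ
  induction i with
  | zero => rw [pow_zero, h1, mul_one]
  | succ i ih => rw [pow_succ, hmul _ (pow_mem hφD i), mul_mul_mul_comm, ih, hφsq, mul_one]

variable (p : ℕ) [hp : Fact p.Prime]

/-- A quotient character, unramified with square one at Frobenius, has square one on the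
decomposition group. -/
theorem lowerRight_sq {B : Type} [CommRing B] [IsLocalRing B]
    [IsHausdorff (maximalIdeal B) B] {ρ : Γℚ →* M2 B} (hρ : MatCont ρ) {A : ValuationSubring ℚbar}
    (h : IsPlace A p) {P : (M2 B)ˣ}
    (hlow : ∀ σ ∈ A.decompositionSubgroup ℚ, ((P : M2 B) * ρ σ * (↑P⁻¹ : M2 B)) 1 0 = 0)
    (hI : ∀ σ ∈ A.inertiaSubgroupIn ℚ, ((P : M2 B) * ρ σ * (↑P⁻¹ : M2 B)) 1 1 = 1)
    (hφsq : ∀ φ : Γℚ, A.IsFrobeniusAt φ p → ((P : M2 B) * ρ φ * (↑P⁻¹ : M2 B)) 1 1 ^ 2 = 1)
    {σ : Γℚ} (hσ : σ ∈ A.decompositionSubgroup ℚ) :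
    ((P : M2 B) * ρ σ * (↑P⁻¹ : M2 B)) 1 1 * ((P : M2 B) * ρ σ * (↑P⁻¹ : M2 B)) 1 1 = 1 := by
  classical
  set χ : Γℚ → B := fun σ => ((P : M2 B) * ρ σ * (↑P⁻¹ : M2 B)) 1 1 with hχ
  change χ σ * χ σ = 1
  -- `χ` is multiplicative on the decomposition group
  have hχmul : ∀ σ ∈ A.decompositionSubgroup ℚ, ∀ τ, χ (σ * τ) = χ σ * χ τ := fun σ hσ τ => by
    simp only [hχ]
    rw [← entry11_mul (hlow σ hσ)]
    simp only [map_mul, mul_assoc, Units.inv_mul_cancel_left]
  obtain ⟨φ, hφ⟩ := Fermat.CFT.exists_isFrobeniusAt h.1 h.2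
  rw [← sub_eq_zero]
  -- modulo each `𝔪 ^ n` it factors through a finite level
  refine IsHausdorff.haus' (I := maximalIdeal B) _ fun n => ?_
  rw [SModEq.zero, smul_eq_mul, Ideal.mul_top]
  obtain ⟨L, hL, hLρ⟩ := hρ n
  have : FiniteDimensional ℚ L := hL
  have : Normal ℚ (IntermediateField.normalClosure ℚ L ℚbar) := normalClosure.normal ℚ L ℚbar
  set q := Ideal.Quotient.mk (maximalIdeal B ^ n)
  rw [← Ideal.Quotient.eq_zero_iff_mem, map_sub, map_one, sub_eq_zero, map_mul]
  -- where it is trivial on inertia with square `1` at Frobenius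
  refine sq_eq_one_of_frob h (fun σ => q (χ σ)) ?_ (fun σ hσ τ => by rw [hχmul σ hσ, map_mul])
    (fun σ hσ => by rw [show χ σ = 1 from hI σ hσ, map_one])
    (IntermediateField.normalClosure ℚ L ℚbar) (fun s hs => ?_) hφ ?_ hσ
  · simp only [hχ, map_one, mul_one, Units.mul_inv, Matrix.one_apply_eq]
  · have hs0 := hLρ s fun x hx => (IntermediateField.mem_fixingSubgroup_iff _ _).mp hs x
      (IntermediateField.le_normalClosure L hx)
    rw [← map_one q, Ideal.Quotient.eq, show χ s - 1 =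
        ((P : M2 B) * (ρ s - 1) * (↑P⁻¹ : M2 B)) 1 1 by
      rw [mul_sub, sub_mul, mul_one, Units.mul_inv, Matrix.sub_apply, Matrix.one_apply_eq]]
    simp only [Matrix.mul_apply, Finset.sum_mul]
    exact Ideal.sum_mem _ fun a _ => Ideal.sum_mem _ fun b _ =>
      Ideal.mul_mem_right _ _ (Ideal.mul_mem_left _ _ (hs0 b a))
  · rw [← map_mul, ← pow_two, show χ φ ^ 2 = 1 from hφsq φ hφ, map_one]

/-- Upper triangular matrices with equal trace and determinant share their diagonal entries. -/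
private theorem diag_root_of_upper {k : Type*} [CommRing k] {X Y : M2 k} (hX : X 1 0 = 0)
    (hY : Y 1 0 = 0) (htr : X.trace = Y.trace) (hdet : X.det = Y.det) :
    (Y 1 1 - X 0 0) * (Y 1 1 - X 1 1) = 0 := by
  rw [Matrix.trace_fin_two, Matrix.trace_fin_two] at htr
  rw [Matrix.det_fin_two, Matrix.det_fin_two, hX, hY, mul_zero, sub_zero, mul_zero, sub_zero]
    at hdet
  linear_combination (-(Y 1 1)) * htr + hdet

/-- A character which is everywhere one of the multiplicative functions `a`, `c` equals `c`, if it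
agrees with `c` at an element where `a` differs from it. -/
private theorem eq_right_of_mul_sub_eq_zero {G k : Type*} [Group G] [Field k] {a c d : G → k}
    (ha : ∀ g g', a (g * g') = a g * a g') (hc : ∀ g g', c (g * g') = c g * c g')
    (hd : ∀ g g', d (g * g') = d g * d g') (hd1 : d 1 = 1)
    (hroot : ∀ g, (d g - a g) * (d g - c g) = 0) {s : G} (hds : d s = 1) (hcs : c s = 1)
    (has : a s ≠ 1) (g : G) : d g = c g := by
  by_contra hne
  have h0 := sub_eq_zero.mp ((mul_eq_zero.mp (hroot g)).resolve_right (sub_ne_zero.mpr hne))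
  have h1 := hroot (g * s)
  rw [hd, hds, mul_one, ha, hc, hcs, mul_one] at h1
  rcases mul_eq_zero.mp h1 with h2 | h2
  · rw [sub_eq_zero, ← h0] at h2
    have hd0 : d g ≠ 0 := by
      intro hz
      have h3 := hd g g⁻¹
      rw [mul_inv_cancel, hz, zero_mul, hd1] at h3
      exact one_ne_zero h3
    exact has (mul_left_cancel₀ hd0 (h2.symm.trans (mul_one _).symm))
  · exact hne (sub_eq_zero.mp h2)

/-- The strict relation for upper triangular matrices. -/
theorem sub_smul_mul_sub_smul_eq_zero {R : Type*} [CommRing R] {X Y : M2 R} (hX : X 1 0 = 0)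
    (hY : Y 1 0 = 0) : (X - X 0 0 • (1 : M2 R)) * (Y - Y 1 1 • (1 : M2 R)) = 0 := by
  rw [Matrix.eta_fin_two X, Matrix.eta_fin_two Y, hX, hY]
  ext i j
  fin_cases i <;> fin_cases j <;> simp [Matrix.mul_apply, Fin.sum_univ_two]

/-- **Ordinary liftings satisfy the strict relation** in the sense of `OrdStrictStatement`. -/
theorem ordStrictStatement : OrdStrictStatement p := by
  classical
  intro hp2 B _ _ _ _ _ _ hB ρ hρ hdet A hA P hlow hI hφsq U d e he hed hd hdI
  have h : IsPlace A p := ⟨hp.out, hA⟩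
  have : NeZero p := ⟨hp.out.ne_zero⟩
  -- in the basis `P` the lifting is triangular and its lower right entry `χ` squares to one
  set t : Γℚ → M2 B := fun σ => (P : M2 B) * ρ σ * (↑P⁻¹ : M2 B) with ht
  have htmul : ∀ σ τ, t (σ * τ) = t σ * t τ := fun σ τ => by
    simp only [ht, map_mul, mul_assoc, Units.inv_mul_cancel_left]
  have hlow' : ∀ σ ∈ A.decompositionSubgroup ℚ, t σ 1 0 = 0 := hlow
  have htdet : ∀ σ, (t σ).det = cycO hB σ := fun σ => by
    simp only [ht, Matrix.det_units_conj, hdet]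
  set χ : Γℚ → B := fun σ => t σ 1 1 with hχ
  have hχmul : ∀ σ ∈ (A.decompositionSubgroup ℚ), ∀ τ, χ (σ * τ) = χ σ * χ τ := fun σ hσ τ => by
    simp only [hχ, htmul]; exact entry11_mul (hlow' σ hσ)
  have hIle := Fermat.FLAT.inertia_le_decomposition A
  have hsq : ∀ σ ∈ (A.decompositionSubgroup ℚ), χ σ * χ σ = 1 := fun σ hσ =>
    lowerRight_sq p hρ h hlow hI hφsq hσ
  -- the residual characters
  set π := residue B
  have : CharP (ResidueField B) p := (CharP.charP_iff_prime_eq_zero hp.out).mpr (by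
    rw [← map_natCast π, residue_eq_zero_iff]; exact hB)
  set rU : Γℚ → M2 (ResidueField B) := fun σ =>
    (↑U⁻¹ : M2 (ResidueField B)) * (ρ σ).map π * (U : M2 (ResidueField B)) with hrU
  have hrmul : ∀ σ τ, rU (σ * τ) = rU σ * rU τ := fun σ τ => by
    simp only [hrU, map_mul, Matrix.map_mul, mul_assoc, Units.mul_inv_cancel_left]
  have hdmul : ∀ σ τ : (A.decompositionSubgroup ℚ), d (σ * τ) = d σ * d τ := fun σ τ => by
    rw [← (hd (σ * τ)).2, ← (hd σ).2, ← (hd τ).2]
    change rU (σ.1 * τ.1) 1 1 = _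
    rw [hrmul]
    exact entry11_mul (hd σ).1
  -- each `d δ` is a root of the reduced characteristic polynomial of `t δ`
  have hroot : ∀ δ : (A.decompositionSubgroup ℚ),
      (d δ - π (t δ.1 0 0)) * (d δ - π (χ δ.1)) = 0 := by
    intro δ
    have hU : (ρ δ.1).map π = (U : M2 (ResidueField B)) * rU δ.1 *
        (↑U⁻¹ : M2 (ResidueField B)) := by
      simp only [hrU, mul_assoc, Units.mul_inv, mul_one, Units.mul_inv_cancel_left]
    have htr : π (t δ.1).trace = (rU δ.1).trace := by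
      simp only [ht]
      rw [Matrix.trace_mul_cycle, Units.inv_mul, one_mul,
        show π (ρ δ.1).trace = ((ρ δ.1).map π).trace by
          simp [Matrix.trace_fin_two], hU, Matrix.trace_mul_cycle, Units.inv_mul, one_mul]
    have hde : π (t δ.1).det = (rU δ.1).det := by
      rw [htdet, ← hdet]
      simp only [hrU, Matrix.det_units_conj']
      exact RingHom.map_det π _
    have hr := diag_root_of_upper (X := (t δ.1).map π) (Y := rU δ.1)
      (by rw [Matrix.map_apply, hlow' δ.1 δ.2, map_zero]) (hd δ).1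
      (by rw [← htr]; simp [Matrix.trace_fin_two])
      (by rw [← hde]; exact (RingHom.map_det π _).symm)
    rw [show rU δ.1 1 1 = d δ from (hd δ).2] at hr
    exact hr
  -- some element of inertia moves the upper left character, so `d` is the reduction of `χ`
  obtain ⟨σ, hσ, hns⟩ := Fermat.FLAT.exists_cycChar_not_square h (by omega)
  have hσ1 : π (t σ 0 0) ≠ 1 := by
    intro h1
    refine hns 1 ?_
    rw [one_pow]
    have h2 : π (t σ).det = 1 := by
      rw [Matrix.det_fin_two, hlow' σ (hIle hσ), mul_zero, sub_zero, map_mul, h1,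
        show t σ 1 1 = 1 from hI σ hσ, map_one, mul_one]
    rw [htdet, show π (cycO hB σ) = π ((((cycChar p σ : (ZMod p)ˣ) : ZMod p).val : B)) from
      (Ideal.Quotient.eq.mpr (cycO_sub_cycChar_mem hB σ)), map_natCast,
      ← map_natCast (ZMod.castHom (dvd_refl p) (ResidueField B)), ZMod.natCast_zmod_val] at h2
    exact (ZMod.castHom (dvd_refl p) (ResidueField B)).injective (h2.trans (map_one _).symm)
  have ht00 : ∀ δ ∈ (A.decompositionSubgroup ℚ), ∀ τ ∈ (A.decompositionSubgroup ℚ), t (δ * τ) 0 0 =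
      t δ 0 0 * t τ 0 0 := fun δ _ τ hτ => by
    rw [htmul, Matrix.mul_apply, Fin.sum_univ_two, hlow' τ hτ, mul_zero, add_zero]
  have hdχ : ∀ δ : (A.decompositionSubgroup ℚ), d δ = π (χ δ.1) :=
    eq_right_of_mul_sub_eq_zero (a := fun δ : A.decompositionSubgroup ℚ => π (t δ.1 0 0))
      (c := fun δ : A.decompositionSubgroup ℚ => π (χ δ.1))
      (fun δ δ' => by rw [Subgroup.coe_mul, ht00 _ δ.2 _ δ'.2, map_mul])
      (fun δ δ' => by rw [Subgroup.coe_mul, hχmul _ δ.2, map_mul]) hdmul (hdI 1 (one_mem _)) hroot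
      (s := ⟨σ, hIle hσ⟩) (hdI _ hσ) (by rw [show χ σ = 1 from hI σ hσ, map_one]) hσ1
  -- both are signs and `p` is odd, so `e = χ`
  have heχ : ∀ δ : (A.decompositionSubgroup ℚ), e δ = χ δ.1 := by
    intro δ
    have h2 : (1 : ResidueField B) ≠ -1 := by
      have : Fact (2 < p) := ⟨hp2⟩
      exact (CharP.neg_one_ne_one (ResidueField B) p).symm
    have h3 := hed δ
    rw [hdχ] at h3
    rcases he δ with h4 | h4 <;> rcases mul_self_eq_one_iff.mp (hsq δ.1 δ.2) with h5 | h5 <;>
      rw [h4, h5] at h3 ⊢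
    · rw [map_neg, map_one] at h3; exact absurd h3 h2
    · rw [map_neg, map_one] at h3; exact absurd h3.symm h2
  -- the strict relation holds in the triangular basis, hence in the given one
  intro σ₁ τ₁
  have key : ((P : M2 B) * ((ρ σ₁.1 - ((ρ σ₁.1).det * e σ₁) • (1 : M2 B)) *
      (ρ τ₁.1 - e τ₁ • (1 : M2 B))) * (↑P⁻¹ : M2 B)) = 0 := by
    rw [show (P : M2 B) * ((ρ σ₁.1 - ((ρ σ₁.1).det * e σ₁) • (1 : M2 B)) *
        (ρ τ₁.1 - e τ₁ • (1 : M2 B))) * (↑P⁻¹ : M2 B) =
        (t σ₁.1 - ((ρ σ₁.1).det * e σ₁) • (1 : M2 B)) * (t τ₁.1 - e τ₁ • (1 : M2 B)) by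
      simp only [ht, mul_sub, sub_mul, mul_assoc, Units.inv_mul_cancel_left, smul_mul_assoc,
        mul_smul_comm, one_mul, mul_one, Units.mul_inv],
      show (ρ σ₁.1).det = (t σ₁.1).det by rw [htdet, hdet], Matrix.det_fin_two,
      hlow' σ₁.1 σ₁.2, mul_zero, sub_zero, mul_assoc, heχ σ₁,
      show t σ₁.1 1 1 * χ σ₁.1 = 1 from hsq σ₁.1 σ₁.2, mul_one, heχ τ₁]
    exact sub_smul_mul_sub_smul_eq_zero (hlow' σ₁.1 σ₁.2) (hlow' τ₁.1 τ₁.2)
  simpa [mul_assoc] using congrArg (fun X : M2 B => (↑P⁻¹ : M2 B) * X * (P : M2 B)) key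

end Fermat.GR.RT

end
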