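import Mathlib
import Fermat.Agent.GR.RT.ModularPoint
import Fermat.Agent.GR.RT.PointRep
import Fermat.Agent.GR.RT.Coeff
import Fermat.Agent.HM.Neat
import Fermat.Agent.HM.Package

/-!
# A congruent system with diamonds of `p`-power order

Its localised module is free over the group ring of the diamonds, so that the part of trivial
character is nonzero and gives a congruent system of the full level subgroup.
-/

set_option autoImplicit false

noncomputable section

open MvPolynomial IsLocalRing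

namespace Fermat.GR.RT

open Fermat.HM Fermat.MC.Lvl

local notation "Γℚ" => (AlgebraicClosure ℚ ≃ₐ[ℚ] AlgebraicClosure ℚ)

variable {p : ℕ} [hp : Fact p.Prime]

/-- The full level subgroup gives a good level. -/
theorem goodLevel_top {O : Type} [CommRing O] [IsLocalRing O] (hO : (p : O) ∈ maximalIdeal O)
    (hp2 : p ≠ 2) {K : ℕ} [NeZero K] (hneat : p = 3 → IsNeat K) :
    GoodLevel O (GammaH K ⊤) := by
  have h2 : IsUnit (2 : O) := isUnit_two_of_mem hp2 hO
  by_cases h3 : p = 3
  · exact GoodLevel.of_neat h2 (Subgroup.mem_top _) (hneat h3)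
  exact ⟨neg_one_mem_GammaH (Subgroup.mem_top _), Subgroup.finite_quotient_of_finiteIndex, h2,
    Or.inl (by exact_mod_cast isUnit_natCast_of_prime_ne hO Nat.prime_three (Ne.symm h3))⟩

/-- A nonzero free module over a group ring has nonzero coinvariants. -/
theorem exists_not_mem_coinvSub {O : Type} [CommRing O] [Nontrivial O] {G : Type} [CommGroup G]
    {M : Type} [AddCommGroup M] [Module (MonoidAlgebra O G) M]
    [Module.Free (MonoidAlgebra O G) M] {x : M} (hx : x ≠ 0) :
    ∃ z : M, z ∉ coinvSub O G M := by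
  let b := Module.Free.chooseBasis (MonoidAlgebra O G) M
  obtain ⟨i, hi⟩ : ∃ i, b.repr x i ≠ 0 := by
    by_contra hall
    push Not at hall
    exact hx (b.repr.map_eq_zero_iff.mp (Finsupp.ext hall))
  refine ⟨b i, fun hmem => ?_⟩
  let aug : MonoidAlgebra O G →ₐ[O] O := MonoidAlgebra.lift O O G 1
  have key : ∀ z ∈ coinvSub O G M, aug (b.repr z i) = 0 := by
    intro z hz'
    refine Submodule.smul_induction_on hz' (fun r hr w _ => ?_) fun a a' ha ha' => by
      rw [map_add, Finsupp.add_apply, map_add, ha, ha', add_zero]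
    rw [map_smul, Finsupp.smul_apply, smul_eq_mul, map_mul]
    suffices aug r = 0 by rw [this, zero_mul]
    refine Submodule.span_induction (fun r hr => ?_) (map_zero aug)
      (fun a a' _ _ ha ha' => by rw [map_add, ha, ha', add_zero])
      (fun a r _ ha => by rw [smul_eq_mul, map_mul, ha, mul_zero]) hr
    obtain ⟨δ, rfl⟩ := hr
    change aug (MonoidAlgebra.of O _ δ - 1) = 0
    rw [map_sub, map_one]
    simp [aug]
  have h1 := key _ hmem
  rw [b.repr_self, Finsupp.single_eq_same, map_one] at h1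
  exact one_ne_zero h1

variable {rb : Γℚ →* GL (Fin 2) (ZMod p)}

/-- **A congruent system with diamond values of `p`-power order makes `rb` modular of its
level.** -/
theorem modularOf_of_resPoint (hrb : IsSemistableResidual p rb) (h2 : 2 < p) (hA : AttachInput p)
    {K : ℕ} [NeZero K] {H : Subgroup (ZMod K)ˣ} {B e : ℕ} (hB : B ≠ 0)
    (hunr : ∀ i : GoodIx B, IsResUnramified p rb (goodPr B i)) (hneat : p = 3 → IsNeat K)
    {O : Type} [CommRing O] [IsDomain O] [IsDiscreteValuationRing O]
    [IsAdicComplete (maximalIdeal O) O] [Finite (ResidueField O)] [CharZero O]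
    {c : ZMod p →+* ResidueField O} {y : MvPolynomial (Nat.Primes ⊕ (ZMod K)ˣ) ℤ →+* O}
    (h : IsResPoint p rb B c e H y) : ModularOf p rb K := by
  classical
  have hp2 : p ≠ 2 := by omega
  -- the quotient by the level subgroup
  have : Finite ((ZMod K)ˣ ⧸ H) := Quotient.finite _
  have hΔ : IsPGroup p ((ZMod K)ˣ ⧸ H) := fun a => by
    induction a using QuotientGroup.induction_on with
    | H u =>
      exact ⟨e, by rw [← QuotientGroup.mk_pow, QuotientGroup.eq_one_iff]; exact h.pow_mem u⟩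
  let D : DiamondQuot K ⊤ H ((ZMod K)ˣ ⧸ H) :=
    { le := le_top
      chi := (QuotientGroup.mk' H).comp (Subgroup.subtype ⊤)
      surj := fun a => by
        obtain ⟨u, rfl⟩ := QuotientGroup.mk'_surjective H a
        exact ⟨⟨u, Subgroup.mem_top u⟩, rfl⟩
      ker_iff := fun x => QuotientGroup.eq_one_iff _ }
  have hneg : -1 ∈ H := neg_one_mem_of_chiTop D hp2 hΔ
  have hΓ₀ : GoodLevel O (GammaH K ⊤) := goodLevel_top h.mem hp2 hneat
  have hΓ : GoodLevel O (GammaH K H) := hΓ₀.gammaH dvd_rfl le_top hneg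
  have := hΓ.moduleFinite
  have := hΓ₀.moduleFinite
  set m : Ideal (MvPolynomial (GoodIx B) O) := sysIdeal (resSys rb c B)
  have hne : NonEisenstein (goodPr B) m := nonEisenstein_resSys hrb h2 c hB hunr
  -- the module is nonzero
  have hinj := algClosure_algebraMap_injective O
  have hcy : CongruentTo (goodPr B) m y := congruentTo_of_residue fun i => by
    have := h.trace_eq i
    rw [tVal, dif_pos i.1.2] at this
    refine this.trans ?_
    exact (ResidueField.map_id_apply _).symm
  let x : MvPolynomial (Nat.Primes ⊕ (ZMod K)ˣ) ℤ →+* AlgebraicClosure (FractionRing O) :=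
    (algebraMap O _).comp y
  have hx : IsPoint K H x := ⟨fun P hP => by rw [RingHom.comp_apply, h.point.kills P hP, map_zero]⟩
  have hxc : CongruentTo (goodPr B) m x := fun P hP => hcy P (hinj (by
    rw [map_zero, ← hP, aeval_def, aeval_def, eval₂_comp_left, Algebra.algebraMap_self,
      RingHom.comp_id]
    rfl))
  obtain ⟨φ, hφ, hφ0⟩ := exists_mem_locPart_ne_zero hx hinj hxc
  -- the coinvariants are nonzero
  obtain ⟨hfree, hfin, -, hker⟩ := D.free_locPart h.mem hΔ hΓ₀ hΓ (m := m) hne
  obtain ⟨φ₀, hφ₀, hφ₀0⟩ :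
      ∃ φ₀ ∈ locPart m (heckeAct O O K (⊤ : Subgroup (ZMod K)ˣ) (goodPr B)), φ₀ ≠ 0 := by
    by_contra hcon
    push Not at hcon
    let := D.locModule (p := goodPr B) m
    have := hfree
    have := hfin
    obtain ⟨z, hz⟩ := exists_not_mem_coinvSub (O := O) (G := (ZMod K)ˣ ⧸ H)
      (M := locPart m (heckeAct O O K H (goodPr B))) (x := ⟨φ, hφ⟩)
      fun e => hφ0 (congrArg Subtype.val e)
    exact hz (hker z (Subtype.ext (hcon _ (Subtype.coe_prop _))))
  -- a congruent system of the full level subgroup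
  have : NegMem (⊤ : Subgroup (ZMod K)ˣ) := ⟨Subgroup.mem_top _⟩
  obtain ⟨u, hu⟩ := exists_embedding_complex O
  obtain ⟨x₀, hx₀, hx₀c⟩ := exists_congruent_point hne hu hφ₀ hφ₀0
  obtain ⟨⟨O₀, _⟩, y₀, hy₀, j₀, hj₀, hjy₀⟩ :=
    exists_dvr_point K ⊤ O hx₀
  have h₀ := isResPoint_of_congruent h.mem c (e := 0)
    (fun v => Subgroup.mem_top _) hx₀c hy₀ j₀ hjy₀
  obtain ⟨r₀, ρ₀, -, -, -, -, -, htr, hfrob⟩ :=
    h₀.exists_rep_of_det hrb.isOpen_ker hrb.det_eq hp2 hA (Subgroup.mem_top _) hB hunr
  refine modularOf_of_point hy₀ h₀.mem ((ResidueField.map (algebraMap O O₀)).comp c)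
    fun ℓ hℓ hℓM hℓp _ P hP φ' hφ' => ?_
  have hℓK : ¬ ℓ ∣ K * p := fun h => (hℓ.dvd_mul.mp h).elim hℓM
    fun e => hℓp ((Nat.prime_dvd_prime_iff_eq hℓ hp.out).mp e)
  rw [← htr φ', ((hfrob ℓ hℓ hℓK P hP).2 φ' hφ').1, trLabel,
    dif_pos ⟨hℓ, hℓ.coprime_iff_not_dvd.mpr hℓM⟩, map_mul, map_mul, h₀.residue_dia, mul_one, tVal,
    dif_pos hℓ]

end Fermat.GR.RT

end
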