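import Mathlib
import Fermat.Agent.GR.RT.LowerStrict
import Fermat.Agent.GR.RT.ResModular
import Fermat.Agent.GR.RT.OrdProofStrict
import Fermat.Agent.GR.RT.Lift.OrdTwist

/-!
# Level lowering with `p` in the level

If `rb` is modular of no squarefree level prime to `p` then every congruent system is new at `p`, so
that it is ordinary and satisfies the strict relation there.
-/

set_option autoImplicit false
set_option linter.unusedSectionVars false

noncomputable section

open MvPolynomial IsLocalRing Fermat.CFT ExtCitation Fermat.EC.Val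

namespace Fermat.GR.RT

local notation "ℚbar" => AlgebraicClosure ℚ
local notation "Γℚ" => (AlgebraicClosure ℚ ≃ₐ[ℚ] AlgebraicClosure ℚ)
local notation "M2" R => Matrix (Fin 2) (Fin 2) R

/-- Conjugating does not change the span. -/
theorem span_conj_eq_top {k : Type} [Field k] {G : Type} {a b : G → M2 k} (Q : (M2 k)ˣ)
    (h : ∀ σ, b σ = (Q : M2 k) * a σ * (↑Q⁻¹ : M2 k))
    (ha : Submodule.span k (Set.range a) = ⊤) : Submodule.span k (Set.range b) = ⊤ := by
  let f : (M2 k) →ₗ[k] (M2 k) :=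
    (LinearMap.mulLeft k (Q : M2 k)).comp (LinearMap.mulRight k (↑Q⁻¹ : M2 k))
  have hf : LinearMap.range f = ⊤ := LinearMap.range_eq_top.mpr fun X =>
    ⟨(↑Q⁻¹ : M2 k) * X * (Q : M2 k), by
      change (Q : M2 k) * (((↑Q⁻¹ : M2 k) * X * (Q : M2 k)) * (↑Q⁻¹ : M2 k)) = X
      simp only [← mul_assoc, Q.mul_inv, one_mul]
      rw [mul_assoc, Q.mul_inv, mul_one]⟩
  rw [show b = f ∘ a from funext fun σ => (h σ).trans (mul_assoc _ _ _), Set.range_comp,
    Submodule.span_image, ha, Submodule.map_top, hf]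

/-- An idempotent of trace one in a basis. -/
theorem exists_basis_idempotent {k : Type} [Field k] {E : M2 k} (hE : E * E = E)
    (ht : E.trace = 1) : ∃ U : (M2 k)ˣ, (↑U⁻¹ : M2 k) * E * (U : M2 k) = !![1, 0; 0, 0] := by
  have ht' : E 1 1 = 1 - E 0 0 := by rw [Matrix.trace_fin_two] at ht; linear_combination ht
  have h00 : E 0 0 * E 0 0 + E 0 1 * E 1 0 = E 0 0 := by
    have := congrFun (congrFun hE 0) 0
    rwa [Matrix.mul_apply, Fin.sum_univ_two] at this
  obtain ⟨V, hV, hEV⟩ : ∃ V : M2 k, V.det ≠ 0 ∧ E * V = V * !![1, 0; 0, 0] := by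
    by_cases h : E 0 0 = 0
    · refine ⟨!![E 0 1, 1; 1, -E 1 0], ?_, ?_⟩
      · rw [h, mul_zero, zero_add] at h00
        simp only [Matrix.det_fin_two_of, mul_neg, h00, neg_zero, mul_one, zero_sub]
        exact neg_ne_zero.mpr one_ne_zero
      · rw [h, mul_zero, zero_add] at h00
        have h00' : E 1 0 * E 0 1 = 0 := (mul_comm _ _).trans h00
        ext i j
        fin_cases i <;> fin_cases j <;>
          simp [Matrix.mul_apply, Fin.sum_univ_two, h, ht', h00, h00', -mul_eq_zero]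
    · refine ⟨!![E 0 0, -E 0 1; E 1 0, E 0 0], ?_, ?_⟩
      · simp only [Matrix.det_fin_two_of, neg_mul, sub_neg_eq_add, h00]
        exact h
      · ext i j
        fin_cases i <;> fin_cases j <;>
          simp [Matrix.mul_apply, Fin.sum_univ_two, ht'] <;>
          first
            | linear_combination h00
            | linear_combination -h00
            | linear_combination (0 : k) * h00
  have hu : IsUnit V := (Matrix.isUnit_iff_isUnit_det V).mpr (isUnit_iff_ne_zero.mpr hV)
  refine ⟨hu.unit, ?_⟩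
  rw [mul_assoc, IsUnit.unit_spec, hEV, ← mul_assoc]
  nth_rewrite 2 [← hu.unit_spec]
  rw [hu.unit.inv_mul, one_mul]

/-- **Triangular forms descend**: distinct eigenvalues at one element determine the line. -/
theorem exists_triangular_descent {k k' : Type} [Field k] [Field k'] (f : k →+* k') {G : Type}
    (s : G → M2 k) (U' : (M2 k')ˣ) (ε : G → k)
    (hlow : ∀ g, ((↑U'⁻¹ : M2 k') * (s g).map f * (U' : M2 k')) 1 0 = 0)
    (hdia : ∀ g, ((↑U'⁻¹ : M2 k') * (s g).map f * (U' : M2 k')) 1 1 = f (ε g))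
    (g₁ : G) (hε : ε g₁ = 1) (htr : (s g₁).trace ≠ 2) :
    ∃ U : (M2 k)ˣ, ∀ g, ((↑U⁻¹ : M2 k) * s g * (U : M2 k)) 1 0 = 0 ∧
      ((↑U⁻¹ : M2 k) * s g * (U : M2 k)) 1 1 = ε g := by
  let C : (M2 k) →+* (M2 k') :=
    { toFun := fun M => (↑U'⁻¹ : M2 k') * f.mapMatrix M * (U' : M2 k')
      map_one' := by rw [map_one, mul_one, U'.inv_mul]
      map_zero' := by rw [map_zero, mul_zero, zero_mul]
      map_mul' := fun X Y => by simp [map_mul, mul_assoc]
      map_add' := fun X Y => by rw [map_add, mul_add, add_mul] }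
  have hCinj : Function.Injective C := fun X Y h => by
    have h1 : (↑U'⁻¹ : M2 k') * f.mapMatrix X * (U' : M2 k') =
        (↑U'⁻¹ : M2 k') * f.mapMatrix Y * (U' : M2 k') := h
    rw [Units.mul_left_inj, Units.mul_right_inj] at h1
    exact Matrix.map_injective f.injective h1
  have hCsmul : ∀ (c : k) (M : M2 k), C (c • M) = f c • C M := fun c M => by
    change (↑U'⁻¹ : M2 k') * f.mapMatrix (c • M) * (U' : M2 k') = _
    rw [RingHom.mapMatrix_apply, Matrix.map_smul' _ _ _ (map_mul f), Matrix.mul_smul,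
      Matrix.smul_mul]
    rfl
  have hCs : ∀ g, C (s g) = (↑U'⁻¹ : M2 k') * (s g).map f * (U' : M2 k') := fun g => rfl
  set w := (s g₁).trace - 2 with hw
  have hw0 : w ≠ 0 := sub_ne_zero.mpr htr
  have hfw : f w ≠ 0 := f.injective.ne_iff' (map_zero f) |>.mpr hw0
  have hT11 : C (s g₁) 1 1 = 1 := by rw [hCs, hdia, hε, map_one]
  have hT00 : C (s g₁) 0 0 = f w + 1 := by
    have h1 : (C (s g₁)).trace = f (s g₁).trace := by
      change ((↑U'⁻¹ : M2 k') * f.mapMatrix (s g₁) * (U' : M2 k')).trace = _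
      rw [Matrix.trace_mul_cycle, U'.mul_inv, one_mul]
      exact (AddMonoidHom.map_trace f.toAddMonoidHom _).symm
    rw [Matrix.trace_fin_two, hT11] at h1
    rw [hw, map_sub, map_ofNat]
    linear_combination h1
  -- `E`, the projection from the line, over `k`
  set E := w⁻¹ • (s g₁ - 1) with hEdef
  have hCE : C E 0 0 = 1 ∧ C E 1 0 = 0 ∧ C E 1 1 = 0 := by
    rw [hEdef, hCsmul, map_sub, map_one, map_inv₀]
    refine ⟨?_, ?_, ?_⟩
    · rw [Matrix.smul_apply, Matrix.sub_apply, Matrix.one_apply_eq, hT00, add_sub_cancel_right,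
        smul_eq_mul, inv_mul_cancel₀ hfw]
    · rw [Matrix.smul_apply, Matrix.sub_apply, Matrix.one_apply_ne (by decide), hCs, hlow,
        sub_zero, smul_zero]
    · rw [Matrix.smul_apply, Matrix.sub_apply, Matrix.one_apply_eq, hT11, sub_self, smul_zero]
  obtain ⟨h0, h1, h2⟩ := hCE
  have hE2 : E * E = E := hCinj (by
    rw [map_mul]
    ext i j
    fin_cases i <;> fin_cases j <;> simp [Matrix.mul_apply, Fin.sum_univ_two, h0, h1, h2])
  have hEt : E.trace = 1 := by
    rw [hEdef, Matrix.trace_smul, Matrix.trace_sub, Matrix.trace_one, Fintype.card_fin,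
      Nat.cast_ofNat, smul_eq_mul, ← hw, inv_mul_cancel₀ hw0]
  obtain ⟨U, hU⟩ := exists_basis_idempotent hE2 hEt
  -- in a basis adapted to `E`
  refine ⟨U, fun g => ?_⟩
  have e1 : (1 - E) * s g * E = 0 := hCinj (by
    rw [map_zero, map_mul, map_mul, map_sub, map_one]
    have hl : C (s g) 1 0 = 0 := by rw [hCs]; exact hlow g
    ext i j
    fin_cases i <;> fin_cases j <;>
      simp [Matrix.mul_apply, Fin.sum_univ_two, h0, h1, h2, hl])
  have e2 : (1 - E) * s g * (1 - E) = ε g • (1 - E) := hCinj (by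
    rw [hCsmul, map_mul, map_mul, map_sub, map_one]
    have hl : C (s g) 1 0 = 0 := by rw [hCs]; exact hlow g
    have hd : C (s g) 1 1 = f (ε g) := by rw [hCs]; exact hdia g
    ext i j
    fin_cases i <;> fin_cases j <;>
      simp [Matrix.mul_apply, Fin.sum_univ_two, h0, h1, h2, hl, hd]; ring)
  have hT : ∀ X Y : M2 k, (↑U⁻¹ : M2 k) * (X * Y) * (U : M2 k) =
      ((↑U⁻¹ : M2 k) * X * (U : M2 k)) * ((↑U⁻¹ : M2 k) * Y * (U : M2 k)) := fun X Y => by
    simp only [mul_assoc, Units.mul_inv_cancel_left]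
  have hU' : (↑U⁻¹ : M2 k) * (1 - E) * (U : M2 k) = !![0, 0; 0, 1] := by
    rw [mul_sub, mul_one, sub_mul, U.inv_mul, hU, Matrix.one_fin_two]
    ext i j
    fin_cases i <;> (fin_cases j <;> simp)
  have f1 := congrArg (fun M => ((↑U⁻¹ : M2 k) * M * (U : M2 k)) 1 0) e1
  have f2 := congrArg (fun M => ((↑U⁻¹ : M2 k) * M * (U : M2 k)) 1 1) e2
  simp only [hT, hU, hU', Matrix.mul_smul, Matrix.smul_mul] at f1 f2
  generalize (↑U⁻¹ : M2 k) * s g * (U : M2 k) = S at f1 f2 ⊢
  rw [Matrix.eta_fin_two S] at f1 f2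
  exact ⟨by simpa using f1, by simpa using f2⟩

variable {p : ℕ} [hp : Fact p.Prime] {rb : Γℚ →* GL (Fin 2) (ZMod p)}

namespace LowerData

variable {N : ℕ} {A : Finset ℕ} {D : LowerData p rb N A} {n : ℕ} {L : List (GoodIx (N * p))}
  {hL : TWList p rb n L} {O : Type} [CommRing O] [IsDomain O] [IsDiscreteValuationRing O]
  [IsAdicComplete (maximalIdeal O) O] [Finite (ResidueField O)] [CharZero O] {ζ : O}
  {hc : CoeffData p O ζ} [NeZero N] {x : MvPolynomial (Nat.Primes ⊕ (ZMod (D.levK L))ˣ) ℤ →+*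
    AlgebraicClosure (FractionRing O)}

/-- **The systems are new at `p`.** When `p` divides the level no system of the auxiliary level is
old at `p`. -/
theorem PtData.not_old_atP [NeZero (D.levK L)] (P : D.PtData hL hc x) (hA : AttachInput p)
    (hpN : p ∣ N) :
    ¬ IsOldAt (D.levK L) (D.grpL hL) P.y p := by
  intro hold
  obtain ⟨K', hK'0, hd, hK, y', h', -, -⟩ := P.res.exists_old (D.dvd_badL hpN) hold
  have hsq : Squarefree K' := (D.squarefree_levK hL).squarefree_of_dvd hd
  have hpK' : ¬ p ∣ K' := D.not_dvd_of_mul_eq hL hp.out hK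
  refine D.atp hpN K' hsq hpK' (modularOf_of_resPoint D.semi D.two_lt hA D.badL_ne_zero D.resUnrL
    (fun h3 => ?_) h')
  rcases D.neat h3 with ⟨l, hl, hl3, hlN⟩ | h9
  · refine Or.inl ⟨l, hl, hl3, ?_⟩
    have hlK : l ∣ D.levK L := D.dvd_levK hlN
    rw [← hK] at hlK
    refine (hl.dvd_mul.mp hlK).resolve_right fun e => ?_
    have := (Nat.prime_dvd_prime_iff_eq hl hp.out).mp e
    omega
  · exact absurd (Nat.isUnit_iff.mp (D.squarefree 3 h9)) (by decide)

/-- The reduction spans all matrices. -/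
theorem PtData.span_residue (P : D.PtData hL hc x) :
    Submodule.span (ResidueField P.O')
      (Set.range fun σ => (P.r σ).map (residue P.O')) = ⊤ := by
  obtain ⟨Q, hQ⟩ := exists_conj_residual D.semi.surjective _ P.r P.trace_r
  let Qb : (M2 (ResidueField P.O'))ˣ := Units.map (residue P.O').mapMatrix.toMonoidHom Q
  refine span_conj_eq_top Qb⁻¹ (fun σ => ?_) (span_range_map_eq_top D.semi.surjective
    ((ResidueField.map (algebraMap O P.O')).comp (resCast hc.mem)))
  rw [← hQ σ, inv_inv]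
  change _ = (residue P.O').mapMatrix (↑Q⁻¹ : M2 P.O') *
    (residue P.O').mapMatrix ((Q : M2 P.O') * P.r σ * (↑Q⁻¹ : M2 P.O')) *
      (residue P.O').mapMatrix (Q : M2 P.O')
  rw [← map_mul, ← map_mul, ← mul_assoc, ← mul_assoc, Q.inv_mul, one_mul, mul_assoc, Q.inv_mul,
    mul_one]
  rfl

/-- **Ordinary at `p`, with unramified quotient of square one at Frobenius.** -/
theorem PtData.exists_ordBasis (P : D.PtData hL hc x) (hA : AttachInput p) (hO : OrdInput p)
    (hpN : p ∣ N) {B : ValuationSubring ℚbar} (hB : B.LiesOverPrime p) :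
    ∃ Pm : (M2 P.O')ˣ, IsOrdBasis B P.ρ Pm ∧
      ∀ φ : Γℚ, B.IsFrobeniusAt φ p →
        ((Pm : M2 P.O') * P.ρ φ * (↑Pm⁻¹ : M2 P.O')) 1 1 ^ 2 = 1 := by
  have := D.neZero_levK (L := L)
  obtain ⟨K', hK⟩ := (D.dvd_levK (L := L) hpN : p ∣ D.levK L)
  rw [mul_comm] at hK
  have hpK' : ¬ p ∣ K' := D.not_dvd_of_mul_eq hL hp.out hK.symm
  have hone : ∀ u : (ZMod (D.levK L))ˣ, ((u : ZMod (D.levK L)).val : ZMod K') = 1 → u ∈ D.grpL hL :=
    fun u hu => D.mem_grpL_of_one hL hp.out hpN D.not_mem hK.symm hu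
  have hdK : K' ∣ D.levK L := ⟨p, hK⟩
  have : NeZero K' := ⟨fun h => NeZero.ne (D.levK L) (by rw [hK, h, zero_mul])⟩
  obtain ⟨Pm, h1, h2, h3⟩ := hO (D.levK L) (D.grpL hL) (D.neg_mem_grpL hL) D.p_ne_two K' hK.symm
    hpK' hone P.O' P.res.mem P.y P.res.point (P.not_old_atP hA hpN) P.r P.attached
      P.span_residue B hB
  have hρ : ∀ σ, (Pm : M2 P.O') * P.ρ σ * (↑Pm⁻¹ : M2 P.O') =
      twistChar P.res.point (p ^ n) σ • ((Pm : M2 P.O') * P.r σ * (↑Pm⁻¹ : M2 P.O')) := fun σ => by
    rw [P.rho_eq, Matrix.mul_smul, Matrix.smul_mul]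
  refine ⟨Pm, ⟨fun σ hσ => ?_, fun σ hσ => ?_⟩, fun φ hφ => ?_⟩
  · rw [hρ, Matrix.smul_apply, h1 σ hσ, smul_zero]
  · have hu : ((cycK (D.levK L) σ : ZMod (D.levK L)).val : ZMod K') = 1 := by
      rw [ZMod.natCast_val, ← ZMod.unitsMap_val hdK, unitsMap_cycK hdK,
        cycK_inertia hp.out (hp.out.coprime_iff_not_dvd.mpr hpK') hB hσ, Units.val_one]
    rw [hρ, Matrix.smul_apply, h2 σ hσ, twistChar_apply, diaVal_apply,
      P.res.point.dia_eq_one (hone _ hu), one_pow, one_smul]
  · have hu : ((cycK (D.levK L) φ : ZMod (D.levK L)).val : ZMod K') = (p : ZMod K') := by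
      rw [ZMod.natCast_val, ← ZMod.unitsMap_val hdK, unitsMap_cycK hdK,
        cycK_frobenius hp.out (hp.out.coprime_iff_not_dvd.mpr hpK') hB hφ,
        ZMod.coe_unitOfCoprime]
    rw [hρ, Matrix.smul_apply, smul_eq_mul, mul_pow, h3 φ hφ _ hu, ← diaVal_apply P.res.point]
    exact twistChar_sq_mul P.res.point (Odd.pow (hp.out.odd_of_ne_two D.p_ne_two)) P.res.pow_mem φ

/-- In a suitable basis the reduction of the representation of a system is `rb`. -/
theorem PtData.exists_residual_basis [Algebra (ZMod p) (ResidueField O)] (P : D.PtData hL hc x) :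
    ∃ Q : (M2 (ResidueField P.O'))ˣ, ∀ σ, (P.ρ σ).map (residue P.O') =
      (↑Q⁻¹ : M2 (ResidueField P.O')) *
        (resRep rb O σ).map (ResidueField.map (algebraMap O P.O')) * (Q : M2 (ResidueField P.O')) ∧
      (resRep rb O σ).map (ResidueField.map (algebraMap O P.O')) =
        (rb σ : M2 (ZMod p)).map ((ResidueField.map (algebraMap O P.O')).comp
          (resCast hc.mem)) := by
  obtain ⟨Q, hQ⟩ := exists_conj_residual D.semi.surjective
    ((ResidueField.map (algebraMap O P.O')).comp (resCast hc.mem)) P.ρ P.trace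
  refine ⟨Units.map (residue P.O').mapMatrix.toMonoidHom Q, fun σ => ?_⟩
  have hbar : (resRep rb O σ).map (ResidueField.map (algebraMap O P.O')) =
      (rb σ : M2 (ZMod p)).map ((ResidueField.map (algebraMap O P.O')).comp (resCast hc.mem)) := by
    rw [resRep_apply, Matrix.map_map]
    refine congrArg _ ?_
    rw [← RingHom.coe_comp]
    exact congrArg (fun f : ZMod p →+* _ => (f : ZMod p → _)) (RingHom.ext_zmod _ _)
  refine ⟨?_, hbar⟩
  rw [hbar, ← hQ σ]
  change _ = (residue P.O').mapMatrix (↑Q⁻¹ : M2 P.O') *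
    (residue P.O').mapMatrix ((Q : M2 P.O') * P.ρ σ * (↑Q⁻¹ : M2 P.O')) *
      (residue P.O').mapMatrix (Q : M2 P.O')
  rw [← map_mul, ← map_mul]
  simp only [mul_assoc, Q.inv_mul, mul_one, Units.inv_mul_cancel_left]
  rfl

variable [Algebra (ZMod p) (ResidueField O)]

/-- **The residual representation is ordinary at `p`.** -/
theorem PtData.nonempty_ordRes (P : D.PtData hL hc x) (hA : AttachInput p) (hO : OrdInput p)
    (hpN : p ∣ N) {B : ValuationSubring ℚbar} (hB : B.LiesOverPrime p) :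
    Nonempty (OrdRes B (resRep rb O)) := by
  classical
  have h : IsPlace B p := ⟨hp.out, hB⟩
  obtain ⟨Pm, hord, hφsq⟩ := P.exists_ordBasis hA hO hpN hB
  obtain ⟨Q, hQ⟩ := P.exists_residual_basis
  set c := (ResidueField.map (algebraMap O P.O')).comp (resCast hc.mem)
  set Pb : (M2 (ResidueField P.O'))ˣ := Units.map (residue P.O').mapMatrix.toMonoidHom Pm
  set U' : (M2 (ResidueField P.O'))ˣ := Q * Pb⁻¹
  set t : Γℚ → M2 (ResidueField P.O') := fun σ =>
    (↑U'⁻¹ : M2 _) * (rb σ : M2 (ZMod p)).map c * (U' : M2 _)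
  have ht : ∀ σ, t σ = ((Pm : M2 P.O') * P.ρ σ * (↑Pm⁻¹ : M2 P.O')).map (residue P.O') := by
    intro σ
    rw [Matrix.map_mul, Matrix.map_mul, (hQ σ).1, (hQ σ).2]
    simp only [t, U', _root_.mul_inv_rev, inv_inv, Units.val_mul, mul_assoc]
    rfl
  have htmul : ∀ σ τ, t (σ * τ) = t σ * t τ := fun σ τ => by
    simp only [t, map_mul, Units.val_mul, Matrix.map_mul, mul_assoc, Units.mul_inv_cancel_left]
  have hlow : ∀ σ ∈ B.decompositionSubgroup ℚ, t σ 1 0 = 0 := fun σ hσ => by
    rw [ht, Matrix.map_apply, hord.low σ hσ, map_zero]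
  have hI : ∀ σ ∈ B.inertiaSubgroupIn ℚ, t σ 1 1 = 1 := fun σ hσ => by
    rw [ht, Matrix.map_apply, hord.inertia σ hσ, map_one]
  -- the square of the quotient character
  obtain ⟨φ, hφ⟩ := Fermat.CFT.exists_isFrobeniusAt hp.out hB
  have hmul11 : ∀ σ ∈ B.decompositionSubgroup ℚ, ∀ τ, t (σ * τ) 1 1 = t σ 1 1 * t τ 1 1 :=
    fun σ hσ τ => by rw [htmul]; exact entry11_mul (hlow σ hσ)
  have ht1 : t 1 = 1 := by
    simp only [t, map_one, Units.val_one, Matrix.map_one _ (map_zero _) (map_one _), mul_one,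
      Units.inv_mul]
  have hsq : ∀ δ : B.decompositionSubgroup ℚ, t δ.1 1 1 = 1 ∨ t δ.1 1 1 = -1 := by
    intro δ
    refine mul_self_eq_one_iff.mp ?_
    obtain ⟨F, hFfin, hFn, hF⟩ := exists_normal_fixingSubgroup_le D.semi.isOpen_ker
    have := hFfin
    have := hFn
    refine sq_eq_one_of_frob h (fun σ => t σ 1 1) (by simp only [ht1, Matrix.one_apply_eq])
      hmul11 hI F (fun s hs => ?_) hφ ?_ δ.2
    · have h1 : rb s = 1 := MonoidHom.mem_ker.mp (hF hs)
      simp only [t, h1, Units.val_one, Matrix.map_one _ (map_zero _) (map_one _), mul_one,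
        Units.inv_mul, Matrix.one_apply_eq]
    · change t φ 1 1 * t φ 1 1 = 1
      rw [← pow_two, ht, Matrix.map_apply, ← map_pow, hφsq φ hφ, map_one]
  let ε : B.decompositionSubgroup ℚ → ZMod p := fun δ => if t δ.1 1 1 = 1 then 1 else -1
  have hε : ∀ δ : B.decompositionSubgroup ℚ, t δ.1 1 1 = c (ε δ) := fun δ => by
    simp only [ε]
    split_ifs with h1
    · rw [h1, map_one]
    · rw [(hsq δ).resolve_left h1, map_neg, map_one]
  -- an inertia element with distinct eigenvalues
  obtain ⟨σ, hσ, hns⟩ := Fermat.FLAT.exists_cycChar_not_square h D.p_ne_two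
  obtain ⟨U, hU⟩ := exists_triangular_descent c
    (fun δ : B.decompositionSubgroup ℚ => (rb δ.1 : M2 (ZMod p))) U' ε
    (fun δ => hlow δ.1 δ.2) hε ⟨σ, Fermat.FLAT.inertia_le_decomposition B hσ⟩
    (if_pos (hI σ hσ)) (fun htr => by
      refine hns 1 ?_
      rw [one_pow]
      have h1 : (t σ).trace = c (rb σ : M2 (ZMod p)).trace := by
        simp only [t]
        rw [Matrix.trace_mul_cycle, U'.mul_inv, one_mul]
        exact (AddMonoidHom.map_trace c.toAddMonoidHom _).symm
      have h2 : (t σ).det = c (rb σ : M2 (ZMod p)).det := by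
        simp only [t]
        rw [Matrix.det_units_conj']
        exact (c.map_det _).symm
      rw [htr, map_ofNat, Matrix.trace_fin_two, hI σ hσ] at h1
      rw [Matrix.det_fin_two, hlow σ (Fermat.FLAT.inertia_le_decomposition B hσ), mul_zero,
        sub_zero, hI σ hσ, mul_one, show t σ 0 0 = 1 by linear_combination h1, D.semi.det_eq] at h2
      exact c.injective (h2.symm.trans (map_one c).symm))
  -- the data over the residue field
  set al := algebraMap (ZMod p) (ResidueField O)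
  set s : B.decompositionSubgroup ℚ → M2 (ZMod p) := fun δ =>
    (↑U⁻¹ : M2 (ZMod p)) * (rb δ.1 : M2 (ZMod p)) * (U : M2 (ZMod p)) with hs
  have hsmul : ∀ δ δ', s (δ * δ') = s δ * s δ' := fun δ δ' => by
    simp only [hs, Subgroup.coe_mul, map_mul, Units.val_mul, mul_assoc, Units.mul_inv_cancel_left]
  have hs1 : s 1 = 1 := by simp [hs]
  replace hU : ∀ δ, s δ 1 0 = 0 ∧ s δ 1 1 = ε δ := hU
  refine ⟨{
    U := Units.map al.mapMatrix.toMonoidHom U
    a := { toFun := fun δ => al (s δ 0 0)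
           map_one' := by rw [hs1, Matrix.one_apply_eq, map_one]
           map_mul' := fun δ δ' => by
             rw [hsmul, Matrix.mul_apply, Fin.sum_univ_two, show s δ' 1 0 = 0 from (hU δ').1,
               mul_zero, add_zero, map_mul] }
    d := { toFun := fun δ => al (s δ 1 1)
           map_one' := by rw [hs1, Matrix.one_apply_eq, map_one]
           map_mul' := fun δ δ' => by
             rw [hsmul, entry11_mul (show s δ 1 0 = 0 from (hU δ).1), map_mul] }
    b := fun δ => al (s δ 0 1)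
    tri := fun δ => ?_
    sq := fun δ => ?_
    inertia := fun δ hδ => ?_ }⟩
  · change al.mapMatrix (↑U⁻¹ : M2 (ZMod p)) * resRep rb O δ.1 * al.mapMatrix (U : M2 (ZMod p)) = _
    rw [resRep_apply, ← RingHom.mapMatrix_apply, ← map_mul, ← map_mul]
    change (s δ).map al = !![al (s δ 0 0), al (s δ 0 1); 0, al (s δ 1 1)]
    ext i j
    fin_cases i <;> fin_cases j <;> simp [(hU δ).1]
  · change al (s δ 1 1) * al (s δ 1 1) = 1
    rw [(hU δ).2, ← map_mul]
    simp only [ε]
    split_ifs <;> simp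
  · change al (s δ 1 1) = 1
    rw [(hU δ).2, show ε δ = 1 from if_pos (hI δ.1 hδ), map_one]

/-- **The strict relation at `p`.** When `p` divides the level the twisted representation of a
system has the strict ordinary shape at `p`, with the signs lifting the residual ones. -/
theorem PtData.strictRel_atP (P : D.PtData hL hc x) (hA : AttachInput p) (hO : OrdInput p)
    (hpN : p ∣ N) (o : OrdRes (placeAt (pPrime p)) (resRep rb O)) {e : decAt (pPrime p) → O}
    (he : ∀ δ, e δ = 1 ∨ e δ = -1) (hed : ∀ δ, residue O (e δ) = o.d δ) :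
    StrictRel O (pPrime p) e P.ρ := by
  have := D.neZero_levK (L := L)
  obtain ⟨Pm, hord, hφsq⟩ := P.exists_ordBasis hA hO hpN (placeAt_spec (pPrime p))
  obtain ⟨Q, hQ⟩ := P.exists_residual_basis
  set g := ResidueField.map (algebraMap O P.O')
  intro σ τ
  refine ordStrictStatement p D.two_lt P.O' P.res.mem P.ρ P.cont P.det (placeAt (pPrime p))
    (placeAt_spec _) Pm hord.low hord.inertia hφsq (Q⁻¹ * Units.map g.mapMatrix.toMonoidHom o.U)
    (fun δ => g (o.d δ)) (fun δ => algebraMap O P.O' (e δ))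
    (fun δ => by rcases he δ with h | h <;> rw [h] <;> simp)
    (fun δ => by rw [← hed δ]; exact (ResidueField.map_residue _ _).symm) (fun δ => ?_)
    (fun δ hδ => by rw [o.inertia δ hδ, map_one]) σ τ
  have htri : (↑(Q⁻¹ * Units.map g.mapMatrix.toMonoidHom o.U)⁻¹ : M2 (ResidueField P.O')) *
      (P.ρ δ.1).map (residue P.O') *
      ((Q⁻¹ * Units.map g.mapMatrix.toMonoidHom o.U : (M2 (ResidueField P.O'))ˣ) : M2 _) =
      (!![o.a δ, o.b δ; 0, o.d δ] : M2 (ResidueField O)).map g := by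
    rw [← o.tri δ, (hQ δ.1).1, _root_.mul_inv_rev, inv_inv, Units.val_mul, Units.val_mul]
    simp only [mul_assoc, Units.mul_inv_cancel_left]
    simp only [← mul_assoc]
    change g.mapMatrix (↑o.U⁻¹ : M2 _) * (resRep rb O δ.1).map g * g.mapMatrix (o.U : M2 _) = _
    rw [← RingHom.mapMatrix_apply, ← map_mul, ← map_mul]
    rfl
  rw [htri]
  constructor <;> simp

omit [NeZero N] in
/-- The residual representation is ordinary at `p` if `p` is in the level. -/
theorem nonempty_ordRes_base (D : LowerData p rb N A) [NeZero N] (hA : AttachInput p)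
    (hO : OrdInput p) (hc : CoeffData p O ζ) (hpN : p ∣ N) {B : ValuationSubring ℚbar}
    (hB : B.LiesOverPrime p) : Nonempty (OrdRes B (resRep rb O)) := by
  obtain ⟨hnil, x, P, -⟩ := D.exists_basePtData hc hA
  exact P.nonempty_ordRes hA hO hpN hB

end LowerData

end Fermat.GR.RT

end
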