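import Mathlib
import Fermat.Agent.GR.RT.Count
import Fermat.Agent.GR.RT.TraceFrob

/-!
# Selmer groups along an isomorphism of residue fields, and levels of representations

An isomorphism `e : k ≅ k'` carries the adjoint representation of `r` to the one of its image and
Selmer groups to Selmer groups.
-/

set_option autoImplicit false

noncomputable section

open Fermat.CFT IsLocalRing

namespace Fermat.GR.RT

local notation "ℚbar" => AlgebraicClosure ℚ
local notation "Γℚ" => (AlgebraicClosure ℚ ≃ₐ[ℚ] AlgebraicClosure ℚ)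
local notation "M2" R => Matrix (Fin 2) (Fin 2) R

/-- An open subgroup containing inertia outside `S` contains a level. -/
theorem exists_level_le_of_isOpen {S : Set Nat.Primes} (U : Subgroup Γℚ)
    (hU : IsOpen (U : Set Γℚ))
    (hI : ∀ q : Nat.Primes, q ∉ S → ∀ A : ValuationSubring ℚbar, A.LiesOverPrime (q : ℕ) →
      A.inertiaSubgroupIn ℚ ≤ U) : ∃ N, (galLevels S).IsLevel N ∧ N ≤ U := by
  obtain ⟨L, hL, -, hLU⟩ := exists_normal_fixingSubgroup_le hU
  have := hL
  let V : ClosedSubgroup Γℚ := ⟨U, U.isClosed_of_isOpen hU⟩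
  have hfix : (IntermediateField.fixedField U).fixingSubgroup = U :=
    InfiniteGalois.fixingSubgroup_fixedField V
  have hle : IntermediateField.fixedField U ≤ L := by
    refine (IntermediateField.fixedField_antitone hLU).trans (le_of_eq ?_)
    exact InfiniteGalois.fixedField_fixingSubgroup L
  have : FiniteDimensional ℚ (IntermediateField.fixedField U) :=
    FiniteDimensional.of_injective (IntermediateField.inclusion hle).toLinearMap
      (IntermediateField.inclusion hle).injective
  obtain ⟨N, hN, hNU⟩ := exists_galLevel_le (T := S) (IntermediateField.fixedField U)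
    fun q hq A hA => by rw [hfix]; exact hI q hq A hA
  exact ⟨N, hN, hNU.trans (le_of_eq hfix)⟩

/-- A representation unramified outside `S` modulo `m ^ n` is trivial modulo `m ^ n` on a level. -/
theorem exists_level_modPow {R : Type} [CommRing R] [IsLocalRing R] {rep : Γℚ →* M2 R}
    (hc : MatCont rep) (n : ℕ) {S : Set Nat.Primes}
    (hI : ∀ q : Nat.Primes, q ∉ S → ∀ A : ValuationSubring ℚbar, A.LiesOverPrime (q : ℕ) →
      ∀ σ ∈ A.inertiaSubgroupIn ℚ, ∀ a b, rep σ a b - (1 : M2 R) a b ∈ maximalIdeal R ^ n) :
    ∃ N, (galLevels S).IsLevel N ∧ ∀ s ∈ N, ∀ a b,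
      rep s a b - (1 : M2 R) a b ∈ maximalIdeal R ^ n := by
  let mk := (Ideal.Quotient.mk (maximalIdeal R ^ n)).mapMatrix (m := Fin 2)
  let f := (mk.toMonoidHom.comp rep).toHomUnits
  obtain ⟨N, hN, hle⟩ := exists_level_le_of_isOpen (S := S) f.ker (isOpen_ker_modPow hc n)
    fun q hq A hA σ hσ => MonoidHom.mem_ker.mpr (Units.ext (by
      change mk (rep σ) = 1
      rw [← map_one mk]
      exact Matrix.ext fun a b => Ideal.Quotient.eq.mpr (hI q hq A hA σ hσ a b)))
  refine ⟨N, hN, fun s hs a b => Ideal.Quotient.eq.mp ?_⟩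
  have h : mk (rep s) = mk 1 := by
    rw [map_one]
    exact congrArg Units.val (MonoidHom.mem_ker.mp (hle hs))
  exact congrFun (congrFun h a) b

variable {p : ℕ} [hp : Fact p.Prime] {k k' : Type} [Field k] [Field k'] [Algebra (ZMod p) k]
  [Algebra (ZMod p) k'] (e : k ≃+* k') {r : Γℚ →* M2 k} {r' : Γℚ →* M2 k'}

/-- An isomorphism of fields respects the images of `𝔽_p`. -/
theorem map_algebraMap_zmod (x : ZMod p) :
    e (algebraMap (ZMod p) k x) = algebraMap (ZMod p) k' x :=
  RingHom.congr_fun (RingHom.ext_zmod ((e : k →+* k').comp (algebraMap (ZMod p) k)) _) x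

variable (p) in
/-- Trace zero matrices along an isomorphism of fields. -/
def adBack : adZero p k' →ₗ[ZMod p] adZero p k where
  toFun X := ⟨X.1.map e.symm, by
    have h : (X.1).trace = 0 := X.2
    rw [mem_adZero, ← RingEquiv.coe_toRingHom, ← RingHom.mapMatrix_apply]
    rw [Matrix.trace_fin_two] at h ⊢
    rw [RingHom.mapMatrix_apply, Matrix.map_apply, Matrix.map_apply, ← map_add, h, map_zero]⟩
  map_add' X Y := Subtype.ext (Matrix.ext fun i j => map_add e.symm _ _)
  map_smul' c X := Subtype.ext (Matrix.ext fun i j => by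
    change e.symm (c • X.1 i j) = c • e.symm (X.1 i j)
    rw [Algebra.smul_def, Algebra.smul_def, map_mul, map_algebraMap_zmod e.symm])

/-- `adBack` maps the entries by the inverse isomorphism. -/
theorem coe_adBack (X : adZero p k') :
    ((adBack p e X : adZero p k) : M2 k) = X.1.map e.symm := rfl

/-- `adBack` is injective. -/
theorem adBack_injective : Function.Injective (adBack p e) := fun _ _ h =>
  Subtype.ext (Matrix.ext fun i j =>
    e.symm.injective (congrFun (congrFun (congrArg Subtype.val h) i) j))

/-- The two transports are inverse. -/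
theorem adBack_adBack (X : adZero p k) : adBack p e (adBack p e.symm X) = X :=
  Subtype.ext (Matrix.ext fun _ _ => e.symm_apply_apply _)

variable (hr : ∀ σ, r' σ = (r σ).map e)
include hr

/-- The inverse isomorphism carries conjugation by `r'` to conjugation by `r`. -/
theorem map_symm_conj (σ : Γℚ) (Y : M2 k') :
    (r' σ * Y * r' σ⁻¹).map e.symm = r σ * Y.map e.symm * r σ⁻¹ := by
  rw [← RingEquiv.coe_toRingHom, ← RingHom.mapMatrix_apply, map_mul, map_mul, hr, hr]
  congr 1
  · congr 1
    exact Matrix.ext fun i j => e.symm_apply_apply _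
  · exact Matrix.ext fun i j => e.symm_apply_apply _

/-- `adBack` is equivariant. -/
theorem adBack_equivariant :
    Coh.IsEquivariant (adRep p r') (adRep p r) (MonoidHom.id _) (adBack p e) := fun σ X =>
  Subtype.ext (by
    rw [coe_adBack]
    exact map_symm_conj e hr σ X.1)

/-- The transport along the inverse isomorphism is equivariant. -/
theorem adBack_symm_equivariant :
    Coh.IsEquivariant (adRep p r) (adRep p r') (MonoidHom.id _) (adBack p e.symm) := fun σ X => by
  refine adBack_injective (p := p) e ?_
  have h := adBack_equivariant e hr σ (adBack p e.symm X)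
  simp only [MonoidHom.id_apply] at h ⊢
  rw [adBack_adBack, h, adBack_adBack]

/-- `adBack` is equivariant at a place. -/
theorem adBack_equivariant_local (A : ValuationSubring ℚbar) :
    Coh.IsEquivariant (locRep p r' A) (locRep p r A) (MonoidHom.id _) (adBack p e) :=
  fun δ X => adBack_equivariant e hr δ.1 X

/-- Local classes along the isomorphism. -/
def locBack (A : ValuationSubring ℚbar) : locH1 p r' A →ₗ[ZMod p] locH1 p r A :=
  Coh.map₁ (Coh.IsLevelsHom.id _) (adBack_equivariant_local e hr A)

/-- The class of a derivation over `k'` lands in `S` if those of derivations over `k` do. -/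
theorem locBack_cl₁_mem {R : Type} [CommRing R] {π' : R →+* k'} {rep : Γℚ →* M2 R}
    (hrep : resHom π' rep = r') {d : R → k'} (hd : IsDeriv π' d) (A : ValuationSubring ℚbar)
    {S : Submodule (ZMod p) (locH1 p r A)}
    (h : IsDeriv ((e.symm : k' →+* k).comp π') (fun a => e.symm (d a)) →
      resHom ((e.symm : k' →+* k).comp π') rep = r →
      ∀ z₀ : Coh.Z1 (glev (A.decompositionSubgroup ℚ).subtype) (locRep p r A),
        (∀ δ, ((z₀.1 δ : adZero p k) : M2 k) =
          tcoc ((e.symm : k' →+* k).comp π') rep (fun a => e.symm (d a)) δ.1) →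
        Coh.cl₁ (glev (A.decompositionSubgroup ℚ).subtype) (locRep p r A) z₀ ∈ S)
    (z : Coh.Z1 (glev (A.decompositionSubgroup ℚ).subtype) (locRep p r' A))
    (hz : ∀ δ, ((z.1 δ : adZero p k') : M2 k') = tcoc π' rep d δ.1) :
    locBack e hr A (Coh.cl₁ (glev (A.decompositionSubgroup ℚ).subtype) (locRep p r' A) z) ∈ S := by
  refine h ⟨fun a b => by simp only [hd.add, map_add],
      fun a b => by simp only [hd.mul, map_add, map_mul]; rfl⟩ ?_
    (Coh.mapZ1 (Coh.IsLevelsHom.id _) (adBack_equivariant_local e hr A) z) fun δ => ?_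
  · refine MonoidHom.ext fun σ => ?_
    have h1 := congrArg (fun M : M2 k' => M.map e.symm) (hrep ▸ hr σ)
    refine Eq.trans ?_ (h1.trans (Matrix.ext fun a b => e.symm_apply_apply _))
    rfl
  · change ((z.1 δ : adZero p k') : M2 k').map e.symm = _
    rw [hz δ, tcoc, tcoc, ← RingEquiv.coe_toRingHom, ← RingHom.mapMatrix_apply, map_mul]
    rfl

/-- The transported representation has no more local invariants than the original one. -/
theorem card_H0_le [Finite k] (A : ValuationSubring ℚbar) :
    Nat.card (Coh.H0 (locRep p r' A)) ≤ Nat.card (Coh.H0 (locRep p r A)) := by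
  have : Finite (adZero p k) := Subtype.finite
  have : Finite (Coh.H0 (locRep p r A)) := Subtype.finite
  refine Nat.card_le_card_of_injective (fun X => ⟨adBack p e X.1, Coh.mem_ker_d₀.mpr fun δ => ?_⟩)
    fun X Y h => Subtype.ext (adBack_injective e (congrArg Subtype.val h))
  exact ((adBack_equivariant e hr δ.1 X.1).symm).trans
    (congrArg (adBack p e) (Coh.H0_fixed X δ))

/-- **Selmer groups along the isomorphism**: no larger than the original one when the conditions
transport. -/
theorem selmer_back {S : Finset Nat.Primes}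
    (L : ∀ v : Nat.Primes, Submodule (ZMod p) (LH1 v (adRep p r)))
    [Finite (selAt S (adRep p r) L)] {V : Type} (pl : V → ValuationSubring ℚbar)
    (L' : ∀ i, Submodule (ZMod p) (locH1 p r' (pl i)))
    (himp : ∀ x : Coh.H1 (galLevels (S : Set Nat.Primes)) (adRep p r'),
      (∀ i, loc p (S : Set Nat.Primes) r' (pl i) x ∈ L' i) →
      ∀ v ∈ S, locBack (p := p) e hr (placeAt v)
      (loc p (S : Set Nat.Primes) r' (placeAt v) x) ∈ L v) :
    Finite (selmer p (S : Set Nat.Primes) r' pl L') ∧
      Nat.card (selmer p (S : Set Nat.Primes) r' pl L') ≤ Nat.card (selAt S (adRep p r) L) := by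
  let Φ : Coh.H1 (galLevels (S : Set Nat.Primes)) (adRep p r') →ₗ[ZMod p]
      Coh.H1 (galLevels (S : Set Nat.Primes)) (adRep p r) :=
    Coh.map₁ (Coh.IsLevelsHom.id _) (adBack_equivariant e hr)
  have hΦ : Function.Injective Φ := by
    refine Function.LeftInverse.injective
      (g := Coh.map₁ (Coh.IsLevelsHom.id _) (adBack_symm_equivariant e hr)) fun x => ?_
    obtain ⟨z, rfl⟩ := Coh.cl₁_surjective x
    exact congrArg (fun w => Coh.cl₁ _ (adRep p r') w)
      (Subtype.ext (funext fun δ => adBack_adBack e.symm (z.1 δ)))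
  have hloc : ∀ (v : Nat.Primes) x, locAt (S : Set Nat.Primes) (adRep p r) v (Φ x) =
      locBack (p := p) e hr (placeAt v) (loc p (S : Set Nat.Primes) r' (placeAt v) x) :=
        fun v x => by
    obtain ⟨z, rfl⟩ := Coh.cl₁_surjective x
    rfl
  let f : selmer p (S : Set Nat.Primes) r' pl L' → selAt S (adRep p r) L := fun x =>
    ⟨Φ x.1, mem_selAt.mpr fun v hv => by
      rw [hloc]
      exact himp x.1 (mem_selmer.mp x.2) v hv⟩
  have hf : Function.Injective f := fun x y h => Subtype.ext (hΦ (congrArg Subtype.val h))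
  exact ⟨Finite.of_injective f hf, Nat.card_le_card_of_injective f hf⟩

end Fermat.GR.RT

end
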