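import Fermat.Agent.GR.RT.OrdStatement
import Fermat.Agent.GR.RT.Transfer
import Fermat.Agent.GR.RT.Strict
import Fermat.Agent.CFT.Global.CycLine
import Fermat.Agent.FLAT.Residual

/-!
# The strict classes at `p`

The line of the strict condition is cyclotomic, so its `H¹` has at most `|k| ^ 2` elements; when the
extension splits the invariants of the adjoint representation contain a copy of `k`.
-/

set_option autoImplicit false

noncomputable section

open Fermat.CFT Fermat.EC.Val

namespace Fermat.GR.RT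

local notation "ℚbar" => AlgebraicClosure ℚ
local notation "Γℚ" => (AlgebraicClosure ℚ ≃ₐ[ℚ] AlgebraicClosure ℚ)
local notation "M2" R => Matrix (Fin 2) (Fin 2) R

variable (p : ℕ) [hp : Fact p.Prime]

/-- An open kernel makes the local adjoint representation smooth. -/
theorem isSmooth_locRep_of_isOpen {k : Type} [Field k] [Algebra (ZMod p) k] {r : Γℚ →* M2 k}
    (hopen : IsOpen {σ : Γℚ | r σ = 1}) (A : ValuationSubring ℚbar) :
    Coh.IsSmooth (glev (A.decompositionSubgroup ℚ).subtype) (locRep p r A) := by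
  have hker : {σ : Γℚ | r σ = 1} = (r.toHomUnits.ker : Set Γℚ) := by
    ext σ
    simp [MonoidHom.mem_ker]
  rw [hker] at hopen
  obtain ⟨N, hN, hle⟩ := exists_level_le_of_isOpen (S := Set.univ) r.toHomUnits.ker hopen
    fun q hq => absurd (Set.mem_univ q) hq
  refine fun X => ⟨N.comap (A.decompositionSubgroup ℚ).subtype, ⟨N, hN, rfl⟩, fun s hs => ?_⟩
  have h1 : r s.1 = 1 := congrArg Units.val (MonoidHom.mem_ker.mp (hle hs))
  have h2 : r (s.1)⁻¹ = 1 := congrArg Units.val (MonoidHom.mem_ker.mp (hle (inv_mem hs)))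
  refine Subtype.ext ?_
  change r s.1 * X.1 * r (s.1)⁻¹ = X.1
  rw [h1, h2, one_mul, mul_one]

/-- **The bound on the strict classes at `p`.** -/
theorem strictAtPBound : StrictAtPBound p := by
  intro hp2 k _ _ _ r hopen A hA U a d b hb hd hdI hdet
  have : CharP k p := charP_of_injective_algebraMap (algebraMap (ZMod p) k).injective p
  have : NeZero p := ⟨hp.out.ne_zero⟩
  have h : IsPlace A p := ⟨hp.out, hA⟩
  have hsm := isSmooth_locRep_of_isOpen p hopen A
  set ω : A.decompositionSubgroup ℚ → k := fun δ =>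
    algebraMap (ZMod p) k ((cycChar p δ.1 : (ZMod p)ˣ) : ZMod p) with hω
  -- the diagonal ratio is the cyclotomic character
  have had : ∀ δ, a δ = ω δ * d δ := fun δ => by
    have h1 : a δ * d δ = ω δ := by
      have h2 := hdet δ
      rw [conj_triangular hb δ, Matrix.det_mul, Matrix.det_mul, mul_right_comm, ← Matrix.det_mul,
        U.mul_inv, Matrix.det_one, one_mul, Matrix.det_fin_two_of] at h2
      simpa [hω] using h2
    rw [← h1, mul_assoc, hd, mul_one]
  have hratio : ∀ δ, a δ * d δ⁻¹ = ω δ := fun δ => by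
    rw [had, mul_assoc, (triangular_mul_inv hb δ).2.1, mul_one]
  obtain ⟨hfinH, hH1⟩ := natCard_H1_cycLine_le (A := A) hp2 hA (σ := lineRep p a d) fun g m => by
    rw [lineRep_apply, hratio, Algebra.smul_def]
    rfl
  have := hfinH
  -- it is nontrivial on inertia
  obtain ⟨σ₀, hσ₀, hne⟩ : ∃ σ : A.decompositionSubgroup ℚ,
      σ.1 ∈ A.inertiaSubgroupIn ℚ ∧ a σ ≠ d σ := by
    obtain ⟨σ, hσ, hns⟩ := Fermat.FLAT.exists_cycChar_not_square h (by omega)
    refine ⟨⟨σ, Fermat.FLAT.inertia_le_decomposition A hσ⟩, hσ, fun e => hns 1 ?_⟩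
    rw [had, hdI _ hσ, mul_one] at e
    rw [one_pow]
    exact (algebraMap (ZMod p) k).injective (e.trans (map_one _).symm)
  have : Finite (adZero p k) := Subtype.finite
  have : Finite (Coh.H0 (locRep p r A)) := Subtype.finite
  have h20 : (2 : k) ≠ 0 := by
    rw [← Nat.cast_two, Ne, CharP.cast_eq_zero_iff k p]
    exact fun hdvd => absurd (Nat.le_of_dvd two_pos hdvd) (by omega)
  have hfin : Finite (strictSub p hb) :=
    Finite.of_surjective _ (LinearMap.surjective_rangeRestrict _)
  refine ⟨strictSub p hb, hfin, ?_, fun z hz =>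
    cl_mem_strictSub_of hb (Or.inl ⟨σ₀, hne⟩) hsm z hz⟩
  -- non-split: the general bound; split: a copy of `k` among the invariants
  by_cases hns : ∀ v, ∃ δ, b δ ≠ v * (a δ - d δ)
  · exact (card_strictSub_le hb h20 hns hsm hH1).2
  push Not at hns
  obtain ⟨w, hw⟩ := hns
  have hmem : ∀ v : k, (U : M2 k) * !![v, 2 * w * v; 0, -v] * (↑U⁻¹ : M2 k) ∈
      adZero p k := fun v => by
    rw [mem_adZero, Matrix.trace_units_conj, Matrix.trace_fin_two]
    simp
  have hinv : ∀ v : k, (⟨_, hmem v⟩ : adZero p k) ∈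
        LinearMap.ker (Coh.d₀ (locRep p r A)) := fun v =>
      Coh.mem_ker_d₀.mpr fun g => by
    refine Subtype.ext ?_
    refine (locRep_conj hb g !![v, 2 * w * v; 0, -v] (by simp [Matrix.trace_fin_two])).trans ?_
    change _ = (U : M2 k) * _ * _
    congr 2
    obtain ⟨h1, h2, h3⟩ := triangular_mul_inv hb g
    have h4 : (!![a g, b g; 0, d g] : M2 k) * !![v, 2 * w * v; 0, -v] =
        !![v, 2 * w * v; 0, -v] * !![a g, b g; 0, d g] := by
      ext i j
      fin_cases i <;> fin_cases j <;> simp [Matrix.mul_apply, Fin.sum_univ_two, hw g] <;> ring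
    rw [h4, mul_assoc]
    suffices (!![a g, b g; 0, d g] : M2 k) * !![a g⁻¹, b g⁻¹; 0, d g⁻¹] = 1 by rw [this, mul_one]
    ext i j
    fin_cases i <;> fin_cases j <;> simp [Matrix.mul_apply, h1, h2, h3, -map_inv]
  have hcard : Nat.card k ≤ Nat.card (Coh.H0 (locRep p r A)) := by
    refine Nat.card_le_card_of_injective
      (fun v : k => (⟨⟨_, hmem v⟩, hinv v⟩ : Coh.H0 (locRep p r A))) fun v v' e => ?_
    have e1 : ((U : M2 k) * !![v, 2 * w * v; 0, -v] * (↑U⁻¹ : M2 k)) =
        (U : M2 k) * !![v', 2 * w * v'; 0, -v'] * (↑U⁻¹ : M2 k) :=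
      congrArg (fun X : Coh.H0 (locRep p r A) => ((X.1 : adZero p k) : M2 k)) e
    exact congrFun (congrFun (U.isUnit.mul_left_cancel
      ((U⁻¹).isUnit.mul_right_cancel e1)) 0) 0
  refine le_trans ?_ (Nat.mul_le_mul_right _ hcard)
  refine le_trans ?_ (hH1.trans (le_of_eq (pow_two _)))
  exact Nat.card_le_card_of_surjective _ (LinearMap.surjective_rangeRestrict _)

end Fermat.GR.RT

end
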