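import Mathlib
import Fermat.Agent.GR.Patch.Frames
import Fermat.Agent.GR.RT.Adjoint

/-!
# The tangent bound from a Selmer group

Tangent vectors of `R⟦T⟧` killing the framed matrices give classes in the Selmer group with zero
condition at the framed primes; the fibres are governed by the centralisers at these primes.
-/

set_option autoImplicit false
set_option linter.unusedSectionVars false

noncomputable section

open Fermat.CFT IsLocalRing Matrix

namespace Fermat.GR.RT

open Fermat.GR.Patch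

local notation "ℚbar" => AlgebraicClosure ℚ
local notation "Γℚ" => (AlgebraicClosure ℚ ≃ₐ[ℚ] AlgebraicClosure ℚ)
local notation "M2" R => Matrix (Fin 2) (Fin 2) R

variable {p : ℕ} [Fact p.Prime] {A : Type} [Fintype A] [DecidableEq A] {q₀ : A}
  {𝒪 : Type} [CommRing 𝒪] {R : Type} [CommRing R] [IsLocalRing R] [Algebra 𝒪 R]

local notation "W" => MvPowerSeries (FrameVar A q₀) R
local notation "kW" => ResidueField (MvPowerSeries (FrameVar A q₀) R)

variable (q₀) in
/-- Reduction of the base into the residue field of the framed ring. -/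
def redW : R →+* ResidueField (MvPowerSeries (FrameVar A q₀) R) :=
  (residue _).comp MvPowerSeries.C

/-- The reduction `redW` kills the maximal ideal. -/
theorem redW_eq_zero {a : R} (ha : a ∈ maximalIdeal R) : redW q₀ a = 0 :=
  (residue_eq_zero_iff _).mpr (C_mem_maximalIdeal ha)

/-- A tangent vector restricts to a derivation. -/
theorem isDeriv_comp_C {l : W → kW} (hl : l ∈ tangentSpace 𝒪 W) :
    IsDeriv (redW q₀) (fun a : R => l (MvPowerSeries.C a)) where
  add a b := by simp only [map_add, hl.1]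
  mul a b := by simp only [map_mul, hl.2.1]; rfl

/-- A tangent vector is determined on the base and the variables. -/
theorem tangent_eq_zero {l : W → kW} (hl : l ∈ tangentSpace 𝒪 W)
    (hC : ∀ a : R, l (MvPowerSeries.C a) = 0) (hX : ∀ v, l (MvPowerSeries.X v) = 0) : l = 0 := by
  funext w
  have hm : w - MvPowerSeries.C (MvPowerSeries.constantCoeff w) ∈
      Ideal.span (Set.range (MvPowerSeries.X : FrameVar A q₀ → W)) :=
    mem_spanX_of_constantCoeff_eq_zero (by simp)
  have h0 : ∀ z ∈ Ideal.span (Set.range (MvPowerSeries.X : FrameVar A q₀ → W)), l z = 0 := by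
    intro z hz
    induction hz using Submodule.span_induction with
    | mem z hz => obtain ⟨v, rfl⟩ := hz; exact hX v
    | zero => simpa using hl.1 0 0
    | add x y _ _ hx hy => rw [hl.1, hx, hy, add_zero]
    | smul a x hxI hx =>
      rw [smul_eq_mul, hl.2.1, hx, mul_zero, zero_add]
      have hxm : x ∈ maximalIdeal W := Ideal.span_le.mpr
        (by rintro _ ⟨v, rfl⟩; exact X_mem_maximalIdeal v) hxI
      rw [(residue_eq_zero_iff x).mpr hxm, zero_mul]
  have := h0 _ hm
  rwa [tangent_sub hl, hC, sub_zero] at this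

/-- The values of a tangent vector on the frame at `q`. -/
def frameVal (l : W → kW) (q : A) : M2 kW :=
  Matrix.of fun i j => if h : (q, i, j) ≠ (q₀, 0, 0) then l (MvPowerSeries.X ⟨(q, i, j), h⟩) else 0

/-- A tangent vector sends the frame at `q` to its values on the variables. -/
theorem map_tangent_frameMat {l : W → kW} (hl : l ∈ tangentSpace 𝒪 W) (q : A) :
    (frameMat q₀ R q).map l = frameVal l q := by
  ext i j
  have h1 : ∀ a b : Fin 2, l ((1 : M2 W) a b) = 0 := fun a b => by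
    rw [Matrix.one_apply]
    split_ifs
    · simpa using hl.2.2 1
    · simpa using hl.2.2 0
  rw [Matrix.map_apply, frameMat, Matrix.add_apply, hl.1, h1, zero_add]
  simp only [frameVal, Matrix.of_apply]
  split_ifs
  · rfl
  · simpa using hl.2.2 0

/-- A tangent vector on a framed matrix. -/
theorem map_tangent_framed {l : W → kW} (hl : l ∈ tangentSpace 𝒪 W) (q : A) (M : M2 R) :
    (framed q₀ q M).map l = frameVal l q * M.map (redW q₀) - M.map (redW q₀) * frameVal l q +
      M.map fun a : R => l (MvPowerSeries.C a) := by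
  have hd : IsDeriv (residue W) l := ⟨hl.1, hl.2.1⟩
  have hF : (frameMat q₀ R q).map (residue W) = 1 := by
    ext i j
    rw [Matrix.map_apply, frameMat, Matrix.add_apply, map_add, Matrix.of_apply, Matrix.one_apply,
      Matrix.one_apply]
    have hX : ∀ v, residue W (MvPowerSeries.X v) = 0 := fun v =>
      (residue_eq_zero_iff _).mpr (X_mem_maximalIdeal v)
    split_ifs <;> simp [hX]
  have hFi : ((frameMat q₀ R q)⁻¹).map (residue W) = 1 := by
    have := congrArg (fun X : M2 W => X.map (residue W)) (frameMat_mul_inv q₀ (R := R) q)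
    simpa [Matrix.map_mul, hF] using this
  have hdi : ((frameMat q₀ R q)⁻¹).map l = -frameVal l q := by
    have := congrArg (fun X : M2 W => X.map l) (frameMat_mul_inv q₀ (R := R) q)
    simp only [hd.map_mul, hd.map_one, hF, hFi, one_mul, mul_one, map_tangent_frameMat hl] at this
    exact eq_neg_of_add_eq_zero_left this
  have hM : (M.map MvPowerSeries.C).map (residue W) = M.map (redW q₀) := by
    rw [Matrix.map_map]; rfl
  rw [framed, hd.map_mul, hd.map_mul, Matrix.map_mul, hF, hFi, hM, hdi, map_tangent_frameMat hl,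
    Matrix.map_map, one_mul, mul_one, mul_neg]
  rw [show (l ∘ MvPowerSeries.C (σ := FrameVar A q₀) (R := R)) =
    fun a : R => l (MvPowerSeries.C a) from rfl]
  simp only [Matrix.one_mul]
  abel

variable {rep : Γℚ →* M2 R} {l : MvPowerSeries (FrameVar A q₀) R →
  ResidueField (MvPowerSeries (FrameVar A q₀) R)}

/-- The frame value, in the coordinates of `rep`. -/
def frameCoord (P : (M2 𝒪)ˣ) (l : W → kW) (q : A) : M2 kW :=
  ((↑P⁻¹ : M2 𝒪).map (algebraMap 𝒪 R)).map (redW q₀) * frameVal l q *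
    ((P : M2 𝒪).map (algebraMap 𝒪 R)).map (redW q₀)

/-- The reductions of a unit and of its inverse multiply to one. -/
theorem red_mul_inv (P : (M2 𝒪)ˣ) : ((P : M2 𝒪).map (algebraMap 𝒪 R)).map (redW q₀) *
    ((↑P⁻¹ : M2 𝒪).map (algebraMap 𝒪 R)).map (redW q₀) = 1 := by
  simp only [← Matrix.map_mul, P.mul_inv, Matrix.map_one _ (map_zero _) (map_one _)]

/-- The reductions of the inverse of a unit and of the unit multiply to one. -/
theorem red_inv_mul (P : (M2 𝒪)ˣ) : ((↑P⁻¹ : M2 𝒪).map (algebraMap 𝒪 R)).map (redW q₀) *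
    ((P : M2 𝒪).map (algebraMap 𝒪 R)).map (redW q₀) = 1 := by
  simp only [← Matrix.map_mul, P.inv_mul, Matrix.map_one _ (map_zero _) (map_one _)]

/-- Killing a framed matrix says that the cochain is a coboundary there. -/
theorem tcoc_eq_of_framed (hl : l ∈ tangentSpace 𝒪 W) (q : A) (P : (M2 𝒪)ˣ) (γ : Γℚ)
    (h : ∀ i j, l (framed q₀ q (((P : M2 𝒪).map (algebraMap 𝒪 R)) * rep γ *
      ((↑P⁻¹ : M2 𝒪).map (algebraMap 𝒪 R))) i j) = 0) :
    tcoc (redW q₀) rep (fun a => l (MvPowerSeries.C a)) γ =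
      resHom (redW q₀) rep γ * frameCoord P l q * resHom (redW q₀) rep γ⁻¹ - frameCoord P l q := by
  set rb := resHom (redW q₀) rep
  set d : R → kW := fun a => l (MvPowerSeries.C a)
  have hd : IsDeriv (redW q₀) d := isDeriv_comp_C hl
  -- the derivation kills constant matrices
  have hconst : ∀ X : M2 𝒪, (X.map (algebraMap 𝒪 R)).map d = 0 := fun X =>
    Matrix.ext fun i j => by
      have := hl.2.2 (X i j)
      rwa [MvPowerSeries.algebraMap_apply] at this
  set M := ((P : M2 𝒪).map (algebraMap 𝒪 R)) * rep γ * ((↑P⁻¹ : M2 𝒪).map (algebraMap 𝒪 R))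
  set Pb := ((P : M2 𝒪).map (algebraMap 𝒪 R)).map (redW q₀)
  set Qb := ((↑P⁻¹ : M2 𝒪).map (algebraMap 𝒪 R)).map (redW q₀)
  have hQP : Qb * Pb = 1 := red_inv_mul P
  -- apply `l` to the framed relation
  have h1 : (framed q₀ q M).map l = 0 := Matrix.ext h
  rw [map_tangent_framed hl] at h1
  have hMr : M.map (redW q₀) = Pb * rb γ * Qb := by rw [Matrix.map_mul, Matrix.map_mul]; rfl
  have hMd : M.map d = Pb * (rep γ).map d * Qb := by
    simp only [M, hd.map_mul, hconst, Matrix.mul_zero, Matrix.zero_mul, add_zero, zero_add]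
    rfl
  rw [hMr, show (M.map fun a : R => l (MvPowerSeries.C a)) = M.map d from rfl, hMd,
    map_eq_tcoc_mul (d := d)] at h1
  -- and conjugate back by `P`
  have h2 := congrArg (fun Y : M2 kW => Qb * Y * Pb * rb γ⁻¹) h1
  simp only [mul_add, add_mul, mul_sub, sub_mul, Matrix.mul_zero, Matrix.zero_mul,
    ← mul_assoc, hQP, one_mul] at h2
  simp only [mul_assoc, hQP, mul_one] at h2
  simp only [← mul_assoc] at h2
  rw [mul_assoc (tcoc (redW q₀) rep d γ), hom_mul_inv, mul_one] at h2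
  rw [mul_assoc (Qb * frameVal l q * Pb), hom_mul_inv, mul_one] at h2
  rw [eq_sub_iff_add_eq, ← sub_eq_zero, ← h2]
  change _ + Qb * frameVal l q * Pb - rb γ * (Qb * frameVal l q * Pb) * rb γ⁻¹ = _
  simp only [← mul_assoc]
  abel

/-- Being a coboundary spreads to what `φ` and `τ` generate. -/
theorem tcoc_eq_of_generated {d : R → kW} (hd : IsDeriv (redW q₀) d) (V₀ : M2 kW) {φ τ δ : Γℚ}
    (hφ : tcoc (redW q₀) rep d φ =
      resHom (redW q₀) rep φ * V₀ * resHom (redW q₀) rep φ⁻¹ - V₀)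
    (hτ : tcoc (redW q₀) rep d τ =
      resHom (redW q₀) rep τ * V₀ * resHom (redW q₀) rep τ⁻¹ - V₀)
    (hij : ∃ i j : ℕ, ∀ a b, rep δ a b - rep (φ ^ i * τ ^ j) a b ∈ maximalIdeal R ^ 2) :
    tcoc (redW q₀) rep d δ = resHom (redW q₀) rep δ * V₀ * resHom (redW q₀) rep δ⁻¹ - V₀ := by
  set rb := resHom (redW q₀) rep
  have hI : ∀ a ∈ maximalIdeal R, redW q₀ a = 0 := fun a ha => redW_eq_zero ha
  have hmul : ∀ σ σ', tcoc (redW q₀) rep d σ = rb σ * V₀ * rb σ⁻¹ - V₀ →
      tcoc (redW q₀) rep d σ' = rb σ' * V₀ * rb σ'⁻¹ - V₀ →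
      tcoc (redW q₀) rep d (σ * σ') = rb (σ * σ') * V₀ * rb (σ * σ')⁻¹ - V₀ := by
    intro σ σ' h h'
    rw [tcoc_mul hd, h, h', _root_.mul_inv_rev, map_mul, map_mul]
    simp only [mul_sub, sub_mul, ← mul_assoc]
    abel
  have hpow : ∀ γ, tcoc (redW q₀) rep d γ = rb γ * V₀ * rb γ⁻¹ - V₀ → ∀ n : ℕ,
      tcoc (redW q₀) rep d (γ ^ n) = rb (γ ^ n) * V₀ * rb (γ ^ n)⁻¹ - V₀ := by
    intro γ h n
    induction n with
    | zero => simp [tcoc, hd.map_one, rb]
    | succ n ih => rw [pow_succ]; exact hmul _ _ ih h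
  obtain ⟨i, j, hij⟩ := hij
  have hres : rb δ = rb (φ ^ i * τ ^ j) := Matrix.ext fun a b => by
    change redW q₀ (rep δ a b) = redW q₀ (rep _ a b)
    rw [← sub_eq_zero, ← map_sub]
    exact hI _ (Ideal.pow_le_self two_ne_zero (hij a b))
  have hres' : rb δ⁻¹ = rb (φ ^ i * τ ^ j)⁻¹ :=
    left_inv_eq_right_inv (hom_inv_mul rb δ) (by rw [hres]; exact hom_mul_inv _ _)
  rw [tcoc_congr hd hI hij, hres, hres']
  exact hmul _ _ (hpow _ hφ i) (hpow _ hτ j)

section Classes

variable [Algebra (ZMod p) (ResidueField (MvPowerSeries (FrameVar A q₀) R))]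

/-- The class-level cocycle of a derivation. -/
def tcocZ (S : Set Nat.Primes) {d : R → kW} (hd : IsDeriv (redW q₀) d)
    (hdet : ∀ σ, d (rep σ).det = 0)
    (hlev : ∃ N, (galLevels S).IsLevel N ∧ ∀ s ∈ N, ∀ a b,
      rep s a b - (1 : M2 R) a b ∈ maximalIdeal R ^ 2) :
    Coh.Z1 (galLevels S) (adRep p (resHom (redW q₀) rep)) :=
  ⟨fun σ => ⟨tcoc (redW q₀) rep d σ, trace_tcoc hd hdet σ⟩, by
    have hI : ∀ a ∈ maximalIdeal R, redW q₀ a = 0 := fun a ha => redW_eq_zero ha
    refine Coh.mem_Z1.mpr ⟨?_, ?_⟩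
    · obtain ⟨N, hN, hN'⟩ := hlev
      refine ⟨N, hN, fun γ s hs => Subtype.ext (tcoc_congr hd hI fun a b => ?_)⟩
      rw [map_mul, Matrix.mul_apply, Fin.sum_univ_two]
      have h0 := hN' s hs 0 b
      have h1 := hN' s hs 1 b
      have e : rep γ a b = rep γ a 0 * (1 : M2 R) 0 b + rep γ a 1 * (1 : M2 R) 1 b := by
        conv_lhs => rw [← mul_one (rep γ), Matrix.mul_apply, Fin.sum_univ_two]
      rw [e, add_sub_add_comm, ← mul_sub, ← mul_sub]
      exact add_mem (Ideal.mul_mem_left _ _ h0) (Ideal.mul_mem_left _ _ h1)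
    · funext σ σ'
      refine Subtype.ext ?_
      simp only [Coh.d₁_apply, Submodule.coe_add, AddSubgroupClass.coe_sub, coe_adRep,
        Pi.zero_apply, ZeroMemClass.coe_zero]
      rw [tcoc_mul hd]
      abel⟩

/-- A centralising matrix is a scalar and an invariant of trace zero. -/
theorem card_centraliser_le [Finite kW] (h2 : (2 : kW) ≠ 0) (B : ValuationSubring ℚbar) :
    Nat.card {Y : M2 kW // ∀ δ ∈ B.decompositionSubgroup ℚ,
        resHom (redW q₀) rep δ * Y * resHom (redW q₀) rep δ⁻¹ = Y} ≤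
      Nat.card kW * Nat.card (Coh.H0 (locRep p (resHom (redW q₀) rep) B)) := by
  have : Finite (adZero p kW) := Subtype.finite
  have : Finite (Coh.H0 (locRep p (resHom (redW q₀) rep) B)) := Subtype.finite
  rw [← Nat.card_prod]
  refine Nat.card_le_card_of_injective (fun Y => ((Y.1).trace,
    (⟨⟨Y.1 - ((Y.1).trace / 2) • 1, by
      rw [mem_adZero, Matrix.trace_sub, Matrix.trace_smul, Matrix.trace_one, Fintype.card_fin,
        Nat.cast_two, smul_eq_mul, div_mul_cancel₀ _ h2, sub_self]⟩,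
      Coh.mem_ker_d₀.mpr fun δ => Subtype.ext (by
        change resHom (redW q₀) rep δ.1 * (Y.1 - _) * resHom (redW q₀) rep δ.1⁻¹ = _
        rw [mul_sub, sub_mul, Y.2 δ.1 δ.2, Matrix.mul_smul, mul_one, Matrix.smul_mul,
          hom_mul_inv])⟩ : Coh.H0 (locRep p (resHom (redW q₀) rep) B)))) fun Y Y' h => ?_
  have h1 : (Y.1).trace = (Y'.1).trace := congrArg Prod.fst h
  have h3 : Y.1 - ((Y.1).trace / 2) • (1 : M2 kW) = Y'.1 - ((Y'.1).trace / 2) • (1 : M2 kW) :=
    congrArg (fun z => ((z.2.1 : adZero p kW) : M2 kW)) h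
  rw [h1] at h3
  exact Subtype.ext (sub_left_injective h3)

/-- A local cocycle which is the coboundary of a matrix has class zero, the scalar part being
invariant. -/
theorem cl₁_eq_zero_of_coboundary (h2 : (2 : kW) ≠ 0) (B : ValuationSubring ℚbar)
    (z : Coh.Z1 (glev (B.decompositionSubgroup ℚ).subtype) (locRep p (resHom (redW q₀) rep) B))
    (V₀ : M2 kW) (hz : ∀ δ, ((z.1 δ : adZero p kW) : M2 kW) =
      resHom (redW q₀) rep δ.1 * V₀ * resHom (redW q₀) rep δ.1⁻¹ - V₀) :
    Coh.cl₁ (glev (B.decompositionSubgroup ℚ).subtype) (locRep p (resHom (redW q₀) rep) B) z =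
      0 := by
  rw [Coh.cl₁_eq_zero]
  have htr : (V₀ - (Matrix.trace V₀ / 2) • (1 : M2 kW)).trace = 0 := by
    rw [Matrix.trace_sub, Matrix.trace_smul, Matrix.trace_one, Fintype.card_fin,
      Nat.cast_two, smul_eq_mul, div_mul_cancel₀ _ h2, sub_self]
  refine ⟨⟨_, htr⟩, funext fun δ => Subtype.ext ?_⟩
  change (resHom (redW q₀) rep) δ.1 * (V₀ - _) * (resHom (redW q₀) rep) δ.1⁻¹ - (V₀ - _) =
    ((z.1 δ : adZero p kW) : M2 kW)
  rw [hz, mul_sub, sub_mul, Matrix.mul_smul, mul_one, Matrix.smul_mul, hom_mul_inv]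
  abel

end Classes

/-- A derivation whose cochain is a coboundary vanishes on the algebra generated by the traces. -/
theorem deriv_eq_zero_of_coboundary (rep : Γℚ →* M2 R)
    (hadj : Algebra.adjoin 𝒪 (Set.range fun σ => (rep σ).trace) = ⊤) {d : R → kW}
    (hd : IsDeriv (redW q₀) d) (hdO : ∀ o, d (algebraMap 𝒪 R o) = 0) {X : M2 kW}
    (hco : ∀ σ, tcoc (redW q₀) rep d σ =
      resHom (redW q₀) rep σ * X * resHom (redW q₀) rep σ⁻¹ - X) (a : R) : d a = 0 := by
  have ha : a ∈ Algebra.adjoin 𝒪 (Set.range fun σ => (rep σ).trace) := hadj ▸ Algebra.mem_top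
  induction ha using Algebra.adjoin_induction with
  | mem x hx =>
    obtain ⟨σ, rfl⟩ := hx
    exact trace_eq_zero_of_coboundary hd hco σ
  | algebraMap o => exact hdO o
  | add x y _ _ hx hy => rw [hd.add, hx, hy, add_zero]
  | mul x y _ _ hx hy => rw [hd.mul, hx, hy, mul_zero, mul_zero, add_zero]

/-- Counting along a homomorphism. -/
theorem finite_and_card_le {K T : Type} [AddCommGroup K] [AddCommGroup T] [Finite T] (f : K →+ T)
    {P Z : Type} [Finite Z] [Nonempty P] (emb : f.ker × P → Z) (hemb : Function.Injective emb) :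
    Finite K ∧ Nat.card K * Nat.card P ≤ Nat.card Z * Nat.card T := by
  have : Finite (f.ker × P) := Finite.of_injective emb hemb
  have : Finite P := Finite.prod_right f.ker
  have : Finite f.ker := Finite.prod_left P
  have hcardK : Nat.card K = Nat.card f.ker * Nat.card f.range := by
    rw [← Nat.card_congr (QuotientAddGroup.quotientKerEquivRange f).toEquiv, mul_comm]
    exact AddSubgroup.card_eq_card_quotient_mul_card_addSubgroup f.ker
  have : Finite f.range := Subtype.finite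
  refine ⟨Nat.finite_of_card_ne_zero (by
    rw [hcardK]; exact (Nat.mul_pos Nat.card_pos Nat.card_pos).ne'), ?_⟩
  calc Nat.card K * Nat.card P = Nat.card (f.ker × P) * Nat.card f.range := by
        rw [hcardK, Nat.card_prod]; ring
    _ ≤ Nat.card Z * Nat.card T := Nat.mul_le_mul (Nat.card_le_card_of_injective emb hemb)
        (Nat.card_le_card_of_injective _ Subtype.val_injective)

variable [Algebra (ZMod p) (ResidueField (MvPowerSeries (FrameVar A q₀) R))]

/-- Tangent vectors vanishing on the base whose frames centralise at the framed primes. -/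
def FrameKer (rep : Γℚ →* M2 R) (pl : A → ValuationSubring ℚbar) (P : A → (M2 𝒪)ˣ) : Type :=
  {l : W → kW // l ∈ tangentSpace 𝒪 W ∧ (∀ a : R, l (MvPowerSeries.C a) = 0) ∧
    ∀ q, ∀ δ ∈ (pl q).decompositionSubgroup ℚ,
      resHom (redW q₀) rep δ * frameCoord (P q) l q * resHom (redW q₀) rep δ⁻¹ =
        frameCoord (P q) l q}

/-- Adding a scalar keeps a centralising matrix centralising. -/
theorem add_smul_one_centralises (rep : Γℚ →* M2 R) (δ : Γℚ) (Y : M2 kW) (c : kW)
    (hY : resHom (redW q₀) rep δ * Y * resHom (redW q₀) rep δ⁻¹ = Y) :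
    resHom (redW q₀) rep δ * (Y + c • (1 : M2 kW)) * resHom (redW q₀) rep δ⁻¹ =
      Y + c • (1 : M2 kW) := by
  rw [Matrix.mul_add, Matrix.add_mul, hY, Matrix.mul_smul, Matrix.mul_one, Matrix.smul_mul,
    hom_mul_inv]

/-- With one more scalar they embed in the centralisers. -/
theorem exists_frame_embedding (rep : Γℚ →* M2 R) (pl : A → ValuationSubring ℚbar)
    (P : A → (M2 𝒪)ˣ) :
    ∃ emb : FrameKer (q₀ := q₀) rep pl P × kW →
      ((q : A) → {Y : M2 kW // ∀ δ ∈ (pl q).decompositionSubgroup ℚ,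
        resHom (redW q₀) rep δ * Y * resHom (redW q₀) rep δ⁻¹ = Y}),
      Function.Injective emb := by
  refine ⟨fun lt q => ⟨frameCoord (P q) lt.1.1 q + (if q = q₀ then lt.2 else 0) • (1 : M2 kW),
    fun δ hδ => add_smul_one_centralises rep δ _ _ (lt.1.2.2.2 q δ hδ)⟩, fun a b hab => ?_⟩
  have hV' : ∀ q, frameVal a.1.1 q + (if q = q₀ then a.2 else 0) • (1 : M2 kW) =
      frameVal b.1.1 q + (if q = q₀ then b.2 else 0) • (1 : M2 kW) := by
    intro q
    have h := congrArg Subtype.val (congrFun hab q)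
    have hPQ := red_mul_inv (q₀ := q₀) (R := R) (P q)
    have h' := congrArg (fun Y : M2 kW => ((P q : M2 𝒪).map (algebraMap 𝒪 R)).map (redW q₀) * Y *
      ((↑(P q)⁻¹ : M2 𝒪).map (algebraMap 𝒪 R)).map (redW q₀)) h
    simp only [frameCoord, mul_add, add_mul, ← mul_assoc, hPQ, one_mul, Matrix.mul_smul,
      Matrix.smul_mul, mul_one] at h'
    simpa only [mul_assoc, hPQ, mul_one] using h'
  have ht : a.2 = b.2 := by
    have h := congrFun (congrFun (hV' q₀) 0) 0
    simp [frameVal] at h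
    exact h
  refine Prod.ext (Subtype.ext (sub_eq_zero.mp ?_)) ht
  refine tangent_eq_zero ((tangentSpace 𝒪 W).sub_mem a.1.2.1 b.1.2.1) (fun x => ?_) fun v => ?_
  · rw [Pi.sub_apply, a.1.2.2.1, b.1.2.2.1, sub_zero]
  · obtain ⟨⟨q, i, j⟩, hv⟩ := v
    have h := congrFun (congrFun (hV' q) i) j
    rw [ht] at h
    simp only [Matrix.add_apply, add_left_inj, frameVal, Matrix.of_apply, dif_pos hv] at h
    rw [Pi.sub_apply]
    exact sub_eq_zero.mpr h

/-- **The tangent bound** for tangent vectors killing a set `J` of the base: the local conditions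
are needed only for derivations killing `J`. -/
theorem card_tangent_le_of_kills [Finite kW] (h2 : (2 : kW) ≠ 0) {g r : ℕ}
    (hg : g + 1 = r + Fintype.card A) (rep : Γℚ →* M2 R) (S : Set Nat.Primes)
    (pl : A → ValuationSubring ℚbar) {V : Type} (plV : V → ValuationSubring ℚbar)
    (L : ∀ v, Submodule (ZMod p) (locH1 p (resHom (redW q₀) rep) (plV v)))
    (φ τ : A → Γℚ) (P : A → (M2 𝒪)ˣ)
    (hgen : ∀ q, ∀ δ ∈ (pl q).decompositionSubgroup ℚ, ∃ i j : ℕ, ∀ a b,
      rep δ a b - rep (φ q ^ i * τ q ^ j) a b ∈ maximalIdeal R ^ 2)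
    (hdet : ∀ σ, ∃ o : 𝒪, algebraMap 𝒪 R o = (rep σ).det)
    (hlev : ∃ N, (galLevels S).IsLevel N ∧ ∀ s ∈ N, ∀ a b,
      rep s a b - (1 : M2 R) a b ∈ maximalIdeal R ^ 2)
    (hadj : Algebra.adjoin 𝒪 (Set.range fun σ => (rep σ).trace) = ⊤)
    (J : Set R)
    (hV : ∀ v, ∀ d : R → kW, IsDeriv (redW q₀) d → (∀ o, d (algebraMap 𝒪 R o) = 0) →
      (∀ y ∈ J, d y = 0) →
      ∀ z : Coh.Z1 (glev ((plV v).decompositionSubgroup ℚ).subtype)
        (locRep p (resHom (redW q₀) rep) (plV v)),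
        (∀ δ, ((z.1 δ : adZero p kW) : M2 kW) = tcoc (redW q₀) rep d δ.1) →
          Coh.cl₁ (glev ((plV v).decompositionSubgroup ℚ).subtype)
            (locRep p (resHom (redW q₀) rep) (plV v)) z ∈ L v)
    [Finite (selmer p S (resHom (redW q₀) rep) (Sum.elim plV pl)
      (Sum.rec L fun _ => ⊥))]
    (hsel : Nat.card (selmer p S (resHom (redW q₀) rep) (Sum.elim plV pl)
        (Sum.rec L fun _ => ⊥)) *
      ∏ q, Nat.card (Coh.H0 (locRep p (resHom (redW q₀) rep) (pl q))) ≤ Nat.card kW ^ r)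
    (K : Submodule kW (W → kW))
    (hK : ∀ l ∈ K, l ∈ tangentSpace 𝒪 W ∧ (∀ y ∈ J, l (MvPowerSeries.C y) = 0) ∧
      (∀ q i j, l (framed q₀ q (((P q : M2 𝒪).map (algebraMap 𝒪 R)) * rep (φ q) *
        ((↑(P q)⁻¹ : M2 𝒪).map (algebraMap 𝒪 R))) i j) = 0) ∧
      ∀ q i j, l (framed q₀ q (((P q : M2 𝒪).map (algebraMap 𝒪 R)) * rep (τ q) *
        ((↑(P q)⁻¹ : M2 𝒪).map (algebraMap 𝒪 R))) i j) = 0) :
    Finite K ∧ Nat.card K ≤ Nat.card kW ^ g := by
  classical
  -- a tangent vector gives a derivation of the base, whose cochain is a coboundary at the frames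
  let cC : (W → kW) → R → kW := fun l a => l (MvPowerSeries.C a)
  have hdd : ∀ l : K, IsDeriv (redW q₀) (cC l.1) := fun l => isDeriv_comp_C (hK l.1 l.2).1
  have hdO : ∀ (l : K) o, cC l.1 (algebraMap 𝒪 R o) = 0 := fun l o => by
    have := (hK l.1 l.2).1.2.2 o
    rwa [MvPowerSeries.algebraMap_apply] at this
  have hdetd : ∀ (l : K) σ, cC l.1 (rep σ).det = 0 := fun l σ => by
    obtain ⟨o, ho⟩ := hdet σ
    rw [← ho]; exact hdO l o
  have hframe : ∀ (l : K) q, ∀ δ ∈ (pl q).decompositionSubgroup ℚ,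
      tcoc (redW q₀) rep (cC l.1) δ =
        (resHom (redW q₀) rep) δ * frameCoord (P q) l.1 q * (resHom (redW q₀) rep) δ⁻¹ - frameCoord
          (P q) l.1 q := fun l q δ hδ =>
    tcoc_eq_of_generated (hdd l) (frameCoord (P q) l.1 q)
      (tcoc_eq_of_framed (hK l.1 l.2).1 q (P q) (φ q) ((hK l.1 l.2).2.2.1 q))
      (tcoc_eq_of_framed (hK l.1 l.2).1 q (P q) (τ q) ((hK l.1 l.2).2.2.2 q)) (hgen q δ hδ)
  -- so its class is a Selmer class
  let zc : K → Coh.Z1 (galLevels S) (adRep p (resHom (redW q₀) rep)) :=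
    fun l => tcocZ S (hdd l) (hdetd l) hlev
  let cls : K → Coh.H1 (galLevels S) (adRep p (resHom (redW q₀) rep)) := fun l =>
    Coh.cl₁ (galLevels S) (adRep p (resHom (redW q₀) rep)) (zc l)
  have hcls : ∀ l : K, cls l ∈ selmer p S (resHom (redW q₀) rep) (Sum.elim plV pl)
      (Sum.rec L fun _ => ⊥) := by
    intro l
    refine mem_selmer.mpr ?_
    rintro (v | q)
    · exact hV v (cC l.1) (hdd l) (hdO l) (hK l.1 l.2).2.1
        (Coh.mapZ1 (isLevelsHom_decomposition S (plV v))
          (Coh.IsEquivariant.restrict (adRep p (resHom (redW q₀) rep))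
            ((plV v).decompositionSubgroup ℚ).subtype)
          (zc l)) fun δ => rfl
    · refine (Submodule.mem_bot _).mpr ?_
      exact cl₁_eq_zero_of_coboundary h2 (pl q) _ (frameCoord (P q) l.1 q) fun δ =>
        hframe l q δ.1 δ.2
  have hadd : ∀ a b : K, cls (a + b) = cls a + cls b := fun a b => by
    simp only [cls, ← map_add]
    refine congrArg _ (Subtype.ext (funext fun σ => Subtype.ext ?_))
    change tcoc (redW q₀) rep (cC (a.1 + b.1)) σ =
      tcoc (redW q₀) rep (cC a.1) σ + tcoc (redW q₀) rep (cC b.1) σ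
    rw [tcoc, tcoc, tcoc, ← add_mul]
    congr 1
  let f : K →+ selmer p S (resHom (redW q₀) rep) (Sum.elim plV pl) (Sum.rec L fun _ => ⊥) :=
    AddMonoidHom.mk' (fun l => ⟨cls l, hcls l⟩) fun a b => Subtype.ext (hadd a b)
  -- the kernel consists of frames centralising at the framed primes
  have hker0 : ∀ l : f.ker, (∀ a, cC l.1.1 a = 0) ∧ ∀ q, ∀ δ ∈ (pl q).decompositionSubgroup ℚ,
      (resHom (redW q₀) rep) δ * frameCoord (P q) l.1.1 q * (resHom (redW q₀) rep) δ⁻¹ =
        frameCoord (P q) l.1.1 q := by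
    intro l
    have h0 : cls l.1 = 0 := congrArg Subtype.val (AddMonoidHom.mem_ker.mp l.2)
    obtain ⟨X, hX⟩ := Coh.cl₁_eq_zero.mp h0
    have hco : ∀ σ, tcoc (redW q₀) rep (cC l.1.1) σ = (resHom (redW q₀) rep) σ * X.1 *
        (resHom (redW q₀) rep) σ⁻¹ - X.1 := fun σ =>
      (congrArg Subtype.val (congrFun hX σ)).symm
    have hzero : ∀ a, cC l.1.1 a = 0 :=
      deriv_eq_zero_of_coboundary rep hadj (hdd l.1) (hdO l.1) hco
    refine ⟨hzero, fun q δ hδ => ?_⟩
    have := hframe l.1 q δ hδ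
    have e : tcoc (redW q₀) rep (cC l.1.1) δ = 0 := by
      rw [tcoc, show (rep δ).map (cC l.1.1) = 0 from Matrix.ext fun i j => hzero _, zero_mul]
    exact sub_eq_zero.mp (this.symm.trans e)
  let toKer : f.ker → FrameKer (q₀ := q₀) rep pl P := fun l =>
    ⟨l.1.1, (hK l.1.1 l.1.2).1, (hker0 l).1, (hker0 l).2⟩
  obtain ⟨emb', hemb'⟩ := exists_frame_embedding (q₀ := q₀) rep pl P
  let emb : f.ker × kW → _ := fun lt => emb' (toKer lt.1, lt.2)
  have hemb : Function.Injective emb := fun a b h => by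
    have h' := hemb' h
    refine Prod.ext (Subtype.ext (Subtype.ext ?_)) (Prod.mk.inj h').2
    exact congrArg (fun z : FrameKer (q₀ := q₀) rep pl P => z.1) (Prod.mk.inj h').1
  obtain ⟨hfin, hcard⟩ := finite_and_card_le f emb hemb
  refine ⟨hfin, Nat.le_of_mul_le_mul_right ?_ (Nat.card_pos (α := kW))⟩
  refine hcard.trans ?_
  rw [Nat.card_pi]
  refine (Nat.mul_le_mul_right _ (Finset.prod_le_prod' fun q _ =>
    card_centraliser_le (p := p) (rep := rep) h2 (pl q))).trans ?_
  rw [Finset.prod_mul_distrib, Finset.prod_const, Finset.card_univ, mul_assoc,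
    mul_comm (∏ q, Nat.card _)]
  refine (Nat.mul_le_mul_left _ hsel).trans (le_of_eq ?_)
  rw [← pow_add, ← pow_succ, hg, add_comm]

end Fermat.GR.RT
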