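import Mathlib
import Fermat.Agent.GR.RT.LowerStrict
import Fermat.Agent.GR.RT.LowerAtP
import Fermat.Agent.GR.RT.OrdProofBound
import Fermat.Agent.GR.RT.Transfer
import Fermat.Agent.GR.RT.Tangent
import Fermat.Agent.GR.RT.FlatStatement
import Fermat.Agent.CFT.Global.GW

/-!
# Level lowering: the local conditions and the tangent bound

Zero condition at the primes being lowered, the strict condition at the ramified primes, the flat
or (`p` in the level) strict condition at `p`; the auxiliary primes are chosen to make the Selmer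
group small.
-/

set_option autoImplicit false

noncomputable section

open IsLocalRing Fermat.CFT ExtCitation

namespace Fermat.GR.RT

local notation "Γℚ" => (AlgebraicClosure ℚ ≃ₐ[ℚ] AlgebraicClosure ℚ)
local notation "M2" R => Matrix (Fin 2) (Fin 2) R

variable {p : ℕ} [hp : Fact p.Prime] {rb : Γℚ →* GL (Fin 2) (ZMod p)} {N : ℕ} {A : Finset ℕ}
  {O : Type} [CommRing O] [IsLocalRing O] [Algebra (ZMod p) (ResidueField O)]

/-- The residual representation is the reduction of the integral residual matrices. -/
theorem resRep_eq_bar (hs : Function.Surjective rb) (σ : Γℚ) :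
    ((normDataOf hs O).bar σ).map (residue O) = resRep rb O σ := by
  rw [normDataOf_bar, barOf_map rb (residue O) (algebraMap (ZMod p) (ResidueField O)) σ]
  rfl

namespace LowerData

/-- The prime of an element of `A`. -/
def primeA (D : LowerData p rb N A) (q : A) : Nat.Primes := ⟨q, D.prime q q.2⟩

/-- `primeA` is injective. -/
theorem primeA_injective (D : LowerData p rb N A) : Function.Injective D.primeA := fun _ _ h =>
  Subtype.ext (congrArg (fun v : Nat.Primes => (v : ℕ)) h)

/-- The primes being lowered. -/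
def setA (D : LowerData p rb N A) : Finset Nat.Primes := Finset.univ.image D.primeA

/-- Membership in the primes being lowered. -/
theorem mem_setA {D : LowerData p rb N A} {v : Nat.Primes} : v ∈ D.setA ↔ (v : ℕ) ∈ A := by
  simp only [setA, Finset.mem_image, Finset.mem_univ, true_and]
  exact ⟨fun ⟨q, h⟩ => h ▸ q.2, fun h => ⟨⟨v, h⟩, Subtype.ext rfl⟩⟩

open scoped Classical in
/-- The primes with a condition: `p`, the primes being lowered and the ramified primes. -/
def lowT (_D : LowerData p rb N A) : Finset Nat.Primes :=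
  ((N * p).primeFactors.attach.image fun q : (N * p).primeFactors =>
      (⟨q, Nat.prime_of_mem_primeFactors q.2⟩ : Nat.Primes)).filter
    fun v => (v : ℕ) = p ∨ (v : ℕ) ∈ A ∨ ¬ IsResUnramified p rb v

variable (D : LowerData p rb N A)

/-- Membership in the primes with a condition. -/
theorem mem_lowT {v : Nat.Primes} :
    v ∈ D.lowT ↔ (v : ℕ) = p ∨ (v : ℕ) ∈ A ∨ ¬ IsResUnramified p rb v := by
  classical
  refine ⟨fun h => (Finset.mem_filter.mp h).2, fun h => Finset.mem_filter.mpr ⟨?_, h⟩⟩
  have hdvd : (v : ℕ) ∣ N * p := by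
    rcases h with h | h | h
    · rw [h]; exact dvd_mul_left p N
    · exact (D.dvd _ h).mul_right p
    · by_cases hvp : (v : ℕ) = p
      · rw [hvp]; exact dvd_mul_left p N
      · exact (D.ram v v.2 hvp h).mul_right p
  exact Finset.mem_image.mpr
    ⟨⟨v, Nat.mem_primeFactors.mpr ⟨v.2, hdvd, D.bad_ne_zero⟩⟩, Finset.mem_attach _ _, rfl⟩

/-- `p` has a condition. -/
theorem pPrime_mem_lowT : pPrime p ∈ D.lowT := D.mem_lowT.mpr (Or.inl rfl)

/-- The primes being lowered have a condition. -/
theorem setA_subset : D.setA ⊆ D.lowT := fun _ h => D.mem_lowT.mpr (Or.inr (Or.inl (mem_setA.mp h)))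

/-- `p` is not being lowered. -/
theorem pPrime_not_mem_setA : pPrime p ∉ D.setA := fun h => D.not_mem (mem_setA.mp h)

/-- The residual representation is trivial on a level unramified outside `lowT`. -/
theorem exists_level_resRep :
    ∃ N', (galLevels (D.lowT : Set Nat.Primes)).IsLevel N' ∧ ∀ s ∈ N', resRep rb O s = 1 := by
  obtain ⟨N', hN', hle⟩ := exists_level_le_of_isOpen (S := (D.lowT : Set Nat.Primes)) rb.ker
    D.semi.isOpen_ker fun q hq B hB σ hσ => MonoidHom.mem_ker.mpr (by
      have h : IsResUnramified p rb q := by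
        by_contra h
        exact hq (D.mem_lowT.mpr (Or.inr (Or.inr h)))
      exact h B hB σ hσ)
  exact ⟨N', hN', fun s hs => resRep_eq_one O (MonoidHom.mem_ker.mp (hle hs))⟩

/-- The adjoint of the residual representation is smooth for the primes with a condition. -/
theorem isSmooth_resRep :
    Coh.IsSmooth (galLevels (D.lowT : Set Nat.Primes)) (adRep p (resRep rb O)) := fun X => by
  obtain ⟨N', hN', h⟩ := D.exists_level_resRep (O := O)
  exact ⟨N', hN', fun s hs => Subtype.ext (by
    rw [coe_adRep, h s hs, h _ (inv_mem hs), one_mul, mul_one])⟩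

/-- The local conditions `L v` with their bound: zero at `A`, containing the strict classes (for
the sign characters `e v`) at the ramified primes and at `p` if `p ∣ N`, and the flat classes at `p`
otherwise. -/
structure Conds (D : LowerData p rb N A) (O : Type) [CommRing O] [IsLocalRing O]
    [Algebra (ZMod p) (ResidueField O)] : Type where
  /-- The local conditions. -/
  L : ∀ v : Nat.Primes, Submodule (ZMod p) (LH1 v (adRep p (resRep rb O)))
  /-- The condition at a lowered prime is zero. -/
  bot : ∀ v ∈ D.setA, L v = ⊥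
  /-- At the other primes of `lowT` the invariants bound the condition, times `#k` at `p`. -/
  card_le : ∀ v ∈ D.lowT, v ∉ D.setA → Nat.card (L v) ≤
    Nat.card (Coh.H0 (repAt v (adRep p (resRep rb O)))) *
      if v = pPrime p then Nat.card (ResidueField O) else 1
  /-- The sign character at each prime. -/
  e : ∀ v : Nat.Primes, decAt v → O
  /-- A ramified inertia element at each prime. -/
  σ₀ : Nat.Primes → Γℚ
  /-- Each ramified prime is strict for its sign, with classes in the condition. -/
  strict : ∀ v : Nat.Primes, (v : ℕ) ≠ p → ¬ IsResUnramified p rb v →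
    σ₀ v ∈ (placeAt v).inertiaSubgroupIn ℚ ∧ rb (σ₀ v) ≠ 1 ∧
      (∀ δ, e v δ = 1 ∨ e v δ = -1) ∧
      (∀ δ : decAt v, (resRep rb O (σ₀ v) - 1) * resRep rb O δ.1 =
        residue O (e v δ) • (resRep rb O (σ₀ v) - 1)) ∧
      StrictClassesIn O v (e v) (L v)
  /-- At `p ∤ N` the flat classes lie in the condition. -/
  flat : ¬ p ∣ N → ∀ (c : Γℚ → M2 (ResidueField O))
    (z : Coh.Z1 (glev (decAt (pPrime p)).subtype) (repAt (pPrime p) (adRep p (resRep rb O)))),
    (∀ δ, ((z.1 δ : adZero p (ResidueField O)) : M2 (ResidueField O)) = c δ.1) →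
      (haveI : CharP (ResidueField O) p :=
        charP_of_injective_algebraMap (algebraMap (ZMod p) (ResidueField O)).injective p
      Fermat.FLAT.IsFlatCocycle (placeAt (pPrime p)) (resRep rb O) c) →
      Coh.cl₁ (glev (decAt (pPrime p)).subtype) (repAt (pPrime p) (adRep p (resRep rb O))) z ∈
        L (pPrime p)
  /-- At `p ∣ N` the sign lifts an ordinary quotient, and its strict classes lie in the condition.
  -/
  strictP : p ∣ N → ∃ o : OrdRes (placeAt (pPrime p)) (resRep rb O),
      (∀ δ, e (pPrime p) δ = 1 ∨ e (pPrime p) δ = -1) ∧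
      (∀ δ, residue O (e (pPrime p) δ) = o.d δ) ∧
      StrictClassesIn O (pPrime p) (e (pPrime p)) (L (pPrime p))

open scoped Classical in
/-- The lift of a sign character. -/
def signLift (O : Type) [CommRing O] {k : Type} [Field k] {G : Type} (d : G → k) (δ : G) : O :=
  if d δ = 1 then 1 else -1

omit [Algebra (ZMod p) (ResidueField O)] in
/-- The lift of a sign character is a sign lifting it. -/
theorem signLift_spec {G : Type} (d : G → ResidueField O) (hd : ∀ δ, d δ * d δ = 1) (δ : G) :
    (signLift O d δ = 1 ∨ signLift O d δ = -1) ∧ residue O (signLift O d δ) = d δ := by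
  unfold signLift
  split_ifs with h
  · exact ⟨Or.inl rfl, by rw [h, map_one]⟩
  · exact ⟨Or.inr rfl, by rw [(mul_self_eq_one_iff.mp (hd δ)).resolve_left h, map_neg, map_one]⟩

include D in
/-- A condition at `p` of small size containing the flat classes, or the strict ones if `p ∣ N`. -/
theorem exists_cond_atP [Finite (ResidueField O)] (hopen : IsOpen {σ : Γℚ | resRep rb O σ = 1})
    (hFB : FlatBoundStatement p)
    (hform : p ∣ N → Nonempty (OrdRes (placeAt (pPrime p)) (resRep rb O))) :
    ∃ (S : Submodule (ZMod p) (LH1 (pPrime p) (adRep p (resRep rb O))))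
      (e₁ : decAt (pPrime p) → O),
      Nat.card S ≤ Nat.card (Coh.H0 (repAt (pPrime p) (adRep p (resRep rb O)))) *
        Nat.card (ResidueField O) ∧
      (¬ p ∣ N → ∀ (c : Γℚ → M2 (ResidueField O))
        (z : Coh.Z1 (glev (decAt (pPrime p)).subtype) (repAt (pPrime p) (adRep p (resRep rb O)))),
        (∀ δ, ((z.1 δ : adZero p (ResidueField O)) : M2 (ResidueField O)) = c δ.1) →
          (haveI : CharP (ResidueField O) p :=
            charP_of_injective_algebraMap (algebraMap (ZMod p) (ResidueField O)).injective p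
          Fermat.FLAT.IsFlatCocycle (placeAt (pPrime p)) (resRep rb O) c) →
          Coh.cl₁ (glev (decAt (pPrime p)).subtype) (repAt (pPrime p) (adRep p (resRep rb O))) z ∈
            S) ∧
      (p ∣ N → ∃ o : OrdRes (placeAt (pPrime p)) (resRep rb O),
        (∀ δ, e₁ δ = 1 ∨ e₁ δ = -1) ∧ (∀ δ, residue O (e₁ δ) = o.d δ) ∧
        StrictClassesIn O (pPrime p) e₁ S) := by
  by_cases hpN : p ∣ N
  -- `p ∣ N`: the strict condition of the ordinary form; otherwise the flat one
  · obtain ⟨o⟩ := hform hpN
    obtain ⟨S, -, hSle, hS⟩ := strictAtPBound p D.two_lt (ResidueField O) (resRep rb O) hopen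
      (placeAt (pPrime p)) (placeAt_spec _) o.U o.a o.d o.b o.tri o.sq o.inertia
      fun δ => det_resRep O D.semi δ.1
    refine ⟨S, signLift O o.d, hSle, fun h => absurd hpN h, fun _ => ⟨o,
      fun δ => (signLift_spec _ o.sq δ).1, fun δ => (signLift_spec _ o.sq δ).2,
      fun R _ _ rep π d hd hπ hdO hddet hres hrel z hz => hS z fun σ τ => ?_⟩⟩
    have hA : ∀ δ : decAt (pPrime p),
        d ((rep δ.1).det * algebraMap O R (signLift O o.d δ)) = 0 := fun δ => by
      rw [hd.mul, hddet, hdO, mul_zero, mul_zero, add_zero]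
    have h := strict_first_order hd (hA σ) (hdO (signLift O o.d τ)) (hrel σ τ)
    have hπo : ∀ o, π (algebraMap O R o) = residue O o := fun o => RingHom.congr_fun hπ o
    rw [hres] at h
    rw [hz σ, hz τ]
    have ha : π ((rep σ.1).det * algebraMap O R (signLift O o.d σ)) = o.a σ := by
      rw [map_mul, hπo, (signLift_spec _ o.sq σ).2, RingHom.map_det]
      change (resHom π rep σ.1).det * o.d σ = _
      rw [hres, o.det_eq, mul_assoc, o.sq, mul_one]
    rw [ha, hπo, (signLift_spec _ o.sq τ).2] at h
    exact h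
  · obtain ⟨S, -, hSle, hS⟩ := hFB D.two_lt (ResidueField O) (resRep rb O) hopen
      (placeAt (pPrime p)) (placeAt_spec _) fun σ _ => det_resRep O D.semi σ
    exact ⟨S, fun _ => 1, hSle, fun _ => hS, fun h => absurd h hpN⟩

/-- The local conditions of level lowering exist, given the flat bound and, for `p ∣ N`, an
ordinary residual form. -/
theorem nonempty_conds [Finite (ResidueField O)] (hO : (p : O) ∈ maximalIdeal O)
    (hFB : FlatBoundStatement p)
    (hform : p ∣ N → Nonempty (OrdRes (placeAt (pPrime p)) (resRep rb O))) :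
    Nonempty (D.Conds O) := by
  classical
  obtain ⟨N', hN', hN1⟩ := D.exists_level_resRep (O := O)
  have hopen : IsOpen {σ : Γℚ | resRep rb O σ = 1} := by
    have hker : {σ : Γℚ | resRep rb O σ = 1} = ((resRep rb O).toHomUnits.ker : Set Γℚ) := by
      ext σ
      simp [MonoidHom.mem_ker]
    rw [hker]
    exact Subgroup.isOpen_mono (H₁ := rb.ker) (fun σ hσ => MonoidHom.mem_ker.mpr
      (Units.ext (resRep_eq_one O (MonoidHom.mem_ker.mp hσ)))) D.semi.isOpen_ker
  -- the condition at `p`, those at the ramified primes, zero elsewhere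
  obtain ⟨S, e₁, hSle, hS, hSP⟩ := D.exists_cond_atP hopen hFB hform
  have hex : ∀ v : Nat.Primes, (v : ℕ) ≠ p ∧ ¬ IsResUnramified p rb v →
      _ := fun v h => exists_strictCond (T := (D.lowT : Set Nat.Primes)) O D.semi D.two_lt hO
    D.isSmooth_resRep h.1 h.2
  choose e σ₀ Sv hσ₀ hne he hrel hcard hclass using hex
  let L : ∀ v : Nat.Primes, Submodule (ZMod p) (LH1 v (adRep p (resRep rb O))) := fun v =>
    if hv : v = pPrime p then hv ▸ S
    else if h : (v : ℕ) ≠ p ∧ ¬ IsResUnramified p rb v then Sv v h else ⊥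
  have hLp : L (pPrime p) = S := dif_pos rfl
  have hLs : ∀ (v : Nat.Primes) (h : (v : ℕ) ≠ p ∧ ¬ IsResUnramified p rb v),
      L v = Sv v h := fun v h => by
    have hv : v ≠ pPrime p := fun e => h.1 (congrArg (fun w : Nat.Primes => (w : ℕ)) e)
    simp only [L]
    rw [dif_neg hv, dif_pos h]
  refine ⟨{ L := L
            e := fun v => if hv : v = pPrime p then hv ▸ e₁
              else if h : (v : ℕ) ≠ p ∧ ¬ IsResUnramified p rb v then e v h else 1
            σ₀ := fun v => if h : (v : ℕ) ≠ p ∧ ¬ IsResUnramified p rb v then σ₀ v h else 1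
            bot := fun v hv => ?_
            card_le := fun v hv hvA => ?_
            strict := fun v hvp hram => ?_
            flat := fun hpN c z hz hc => ?_
            strictP := fun hpN => ?_ }⟩
  · have hvA := mem_setA.mp hv
    have hvp : v ≠ pPrime p := fun e => D.pPrime_not_mem_setA (e ▸ hv)
    simp only [L]
    rw [dif_neg hvp, dif_neg fun h => h.2 (D.unr _ hvA)]
  · by_cases hvp : v = pPrime p
    · subst hvp
      rw [hLp, if_pos rfl]
      exact hSle
    · have h : (v : ℕ) ≠ p ∧ ¬ IsResUnramified p rb v := by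
        have hvp' : (v : ℕ) ≠ p := fun e => hvp (Subtype.ext e)
        exact ⟨hvp', ((D.mem_lowT.mp hv).resolve_left hvp').resolve_left
          fun e => hvA (mem_setA.mpr e)⟩
      rw [hLs v h, if_neg hvp, mul_one]
      exact hcard v h
  · have h : (v : ℕ) ≠ p ∧ ¬ IsResUnramified p rb v := ⟨hvp, hram⟩
    have hv : v ≠ pPrime p := fun e => hvp (congrArg (fun w : Nat.Primes => (w : ℕ)) e)
    simp only [dif_pos h, dif_neg hv, hLs v h]
    exact ⟨hσ₀ v h, hne v h, he v h, hrel v h, hclass v h⟩
  · rw [hLp]
    exact hS hpN c z hz hc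
  · simp only [hLp]
    exact hSP hpN

/-- The auxiliary primes of a level, as primes. -/
def setL (L : List (GoodIx (N * p))) : Finset Nat.Primes := (L.map Subtype.val).toFinset

variable {D}

/-- The Selmer group of the conditions is small. -/
def Conds.SelBound (C : D.Conds O) (L : List (GoodIx (N * p))) (R : ℕ) : Prop :=
  Finite (selAt (D.lowT ∪ setL L) (adRep p (resRep rb O))
      fun v => if v ∈ D.lowT then C.L v else ⊤) ∧
    Nat.card (selAt (D.lowT ∪ setL L) (adRep p (resRep rb O))
        fun v => if v ∈ D.lowT then C.L v else ⊤) *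
      ∏ v ∈ D.setA, Nat.card (Coh.H0 (repAt v (adRep p (resRep rb O)))) ≤
        Nat.card (ResidueField O) ^ R

/-- **The auxiliary primes.** There are Taylor–Wiles lists of a fixed length `R`, one for each `n`,
for which the Selmer group of the conditions is as small as patching needs. -/
theorem Conds.exists_twList [Finite (ResidueField O)] (C : D.Conds O) :
    ∃ R : ℕ, ∀ n : ℕ, 1 ≤ n → ∃ L : List (GoodIx (N * p)),
      TWList p rb n L ∧ L.length = R ∧ C.SelBound L R := by
  classical
  obtain ⟨R, hR⟩ := exists_twPrimes_selmer_le (r := resRep rb O)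
    (fun σ => det_resRep O D.semi σ) (fun σ => ⟨_, resRep_apply rb O σ⟩)
    (fun g hg => by
      obtain ⟨σ, hσ⟩ := exists_preimage rb D.semi.surjective g
        (isUnit_iff_ne_zero.mp ((Matrix.isUnit_iff_isUnit_det g).mp
          ((Matrix.isUnit_iff_isUnit_det g).mpr hg)))
      exact ⟨σ, by rw [resRep_apply, hσ]⟩)
    D.two_lt Fermat.CFT.gwBound D.pPrime_mem_lowT D.isSmooth_resRep D.exists_level_resRep D.setA
    D.setA_subset D.pPrime_not_mem_setA C.L C.bot C.card_le (N * p).primeFactors
  refine ⟨R, fun n hn => ?_⟩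
  -- Taylor–Wiles primes with the Selmer bound
  obtain ⟨vs, hinj, hvs, hfin, hle⟩ := hR n
  have hgood : ∀ i, ¬ ((vs i : Nat.Primes) : ℕ) ∣ N * p := fun i h =>
    (hvs i).1 (Nat.mem_primeFactors.mpr ⟨(vs i).2, h, D.bad_ne_zero⟩)
  let ix : Fin R → GoodIx (N * p) := fun i => ⟨vs i, hgood i⟩
  -- they form a list with the required properties
  have hset : setL (List.ofFn ix) = Finset.univ.image vs := by
    ext v
    simp only [setL, List.map_ofFn, List.mem_toFinset, List.mem_ofFn, Finset.mem_image,
      Finset.mem_univ, true_and, Function.comp_apply]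
    rfl
  refine ⟨List.ofFn ix, ⟨hn, List.nodup_ofFn.mpr fun a b h => hinj (congrArg Subtype.val h),
    fun i hi => ?_, fun i hi => ?_⟩, List.length_ofFn, ?_⟩
  · obtain ⟨j, rfl⟩ := List.mem_ofFn.mp hi
    exact (hvs j).2.2.2.1
  · obtain ⟨j, rfl⟩ := List.mem_ofFn.mp hi
    obtain ⟨-, -, -, φ, hφ, ht, -⟩ := (hvs j).2.2
    rw [trace_frobenius_eq (vs j).2 (D.resUnr (ix j)) (placeAt_spec _) (placeAt_spec _) hφ
      (frobOf_spec _)]
    refine (algebraMap (ZMod p) (ResidueField O)).injective ?_
    rw [map_zero, ← ht, resRep_apply, Matrix.trace_fin_two, Matrix.trace_fin_two, Matrix.map_apply,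
      Matrix.map_apply, map_add]
  · rw [SelBound, hset]
    exact ⟨hfin, hle⟩

end LowerData

end Fermat.GR.RT

end
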