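import Mathlib
import Fermat.Agent.GR.RT.LowerTangent
import Fermat.Agent.GR.RT.Framing

/-!
# Level lowering: the tangent bound at an auxiliary level

`Conds.tangent_le` bounds the tangent space of a family of specialisations (`IsPtFam`) by the
Selmer bound.
-/

set_option autoImplicit false
set_option linter.unusedSectionVars false

noncomputable section

open IsLocalRing Fermat.CFT ExtCitation

namespace Fermat.GR.RT

open Fermat.HM Fermat.GR.Patch

local notation "ℚbar" => AlgebraicClosure ℚ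
local notation "Γℚ" => (AlgebraicClosure ℚ ≃ₐ[ℚ] AlgebraicClosure ℚ)
local notation "M2" R => Matrix (Fin 2) (Fin 2) R

section Field

variable {A : Type} [Fintype A] [DecidableEq A] {q₀ : A} {O : Type} [CommRing O] [IsLocalRing O]
  {R : Type} [CommRing R] [IsLocalRing R] [Algebra O R] [IsLocalHom (algebraMap O R)]

/-- The residue field of the base ring maps onto the one of a framed ring. -/
theorem exists_equiv_redW (hres : Function.Surjective (residue R ∘ algebraMap O R)) :
    ∃ e : ResidueField O ≃+* ResidueField (MvPowerSeries (FrameVar A q₀) R),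
      ∀ o, e (residue O o) = redW q₀ (algebraMap O R o) := by
  let f : ResidueField O →+* ResidueField (MvPowerSeries (FrameVar A q₀) R) :=
    Ideal.Quotient.lift (maximalIdeal O) ((redW q₀).comp (algebraMap O R)) fun o ho =>
      redW_eq_zero (map_nonunit (algebraMap O R) _ ho)
  have hsurj : Function.Surjective f := fun y => by
    obtain ⟨w, rfl⟩ := residue_surjective y
    obtain ⟨o, ho⟩ := hres (residue R (MvPowerSeries.constantCoeff w))
    refine ⟨residue O o, ?_⟩
    change redW q₀ (algebraMap O R o) = _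
    have h1 : algebraMap O R o - MvPowerSeries.constantCoeff w ∈ maximalIdeal R :=
      Ideal.Quotient.eq.mp ho
    have h2 : w - MvPowerSeries.C (MvPowerSeries.constantCoeff w) ∈
        maximalIdeal (MvPowerSeries (FrameVar A q₀) R) := by
      rw [IsLocalRing.mem_maximalIdeal, mem_nonunits_iff, MvPowerSeries.isUnit_iff_constantCoeff]
      rw [map_sub, MvPowerSeries.constantCoeff_C, sub_self]
      exact not_isUnit_zero
    have h3 := redW_eq_zero (q₀ := q₀) h1
    rw [map_sub, sub_eq_zero] at h3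
    rw [h3]
    exact ((Ideal.Quotient.eq).mpr h2).symm
  exact ⟨RingEquiv.ofBijective f ⟨f.injective, hsurj⟩, fun o => rfl⟩

end Field

namespace LowerData

variable {p : ℕ} [hp : Fact p.Prime] {rb : Γℚ →* GL (Fin 2) (ZMod p)} {N : ℕ} {A : Finset ℕ}
  {D : LowerData p rb N A} {n : ℕ} {L : List (GoodIx (N * p))} {hL : TWList p rb n L}
  {O : Type} [CommRing O] [IsDomain O] [IsDiscreteValuationRing O]
  [IsAdicComplete (maximalIdeal O) O] [Finite (ResidueField O)] [CharZero O] {ζ : O}
  {hc : CoeffData p O ζ} [NeZero N] {x : MvPolynomial (Nat.Primes ⊕ (ZMod (D.levK L))ˣ) ℤ →+*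
    AlgebraicClosure (FractionRing O)}

/-- A prime neither in `N` nor auxiliary is prime to the auxiliary level. -/
theorem not_dvd_levK_of_not {q : ℕ} (hq : q.Prime) (hqN : ¬ q ∣ N)
    (hqL : ∀ i ∈ L, goodPr (N * p) i ≠ q) : ¬ q ∣ D.levK L := by
  intro h
  rw [levK, levN_eq] at h
  rcases hq.dvd_mul.mp h with h | h
  · exact hqN h
  · obtain ⟨a, ha, hqa⟩ := (Prime.dvd_prod_iff hq.prime).mp h
    obtain ⟨i, hi, rfl⟩ := List.mem_map.mp ha
    exact hqL i hi ((Nat.prime_dvd_prime_iff_eq hq i.1.2).mp hqa).symm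

/-- If `p` is prime to `N` it is prime to the auxiliary level. -/
theorem p_not_dvd_levK (hpN : ¬ p ∣ N) : ¬ p ∣ D.levK L :=
  D.not_dvd_levK_of_not hp.out hpN fun i _ e =>
  i.2 (by rw [show ((i.1 : Nat.Primes) : ℕ) = p from e]; exact dvd_mul_left p N)

/-- Unramified outside the conditions and the auxiliary primes. -/
theorem PtData.inertia_eq_one (P : D.PtData hL hc x) (hA : AttachInput p) (hN : NewInput p)
    {v : Nat.Primes} (hv : v ∉ D.lowT) (hvL : v ∉ setL L) {B : ValuationSubring ℚbar}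
    (hB : B.LiesOverPrime (v : ℕ)) {σ : Γℚ} (hσ : σ ∈ B.inertiaSubgroupIn ℚ) : P.ρ σ = 1 := by
  rw [D.mem_lowT, not_or, not_or, not_not] at hv
  by_cases hvN : (v : ℕ) ∣ N
  · exact P.rho_inertia_aux_prime hA hN v.2 hvN hv.2.1 hv.1 hv.2.2 hB hσ
  refine (P.frob v v.2 ?_ B hB).1 σ hσ
  intro h
  rcases v.2.dvd_mul.mp h with h | h
  · exact D.not_dvd_levK_of_not v.2 hvN (fun i hi e => hvL (List.mem_toFinset.mpr
      (List.mem_map.mpr ⟨i, hi, Subtype.ext e⟩))) h
  · exact hv.1 ((Nat.prime_dvd_prime_iff_eq v.2 hp.out).mp h)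

/-- What the tangent bound uses about a jointly injective family of specialisations. -/
structure IsPtFam {R : Type} [CommRing R] [Algebra O R] {ι : Type}
    {xs : ι → (MvPolynomial (Nat.Primes ⊕ (ZMod (D.levK L))ˣ) ℤ →+*
      AlgebraicClosure (FractionRing O))}
    (P : ∀ i, D.PtData hL hc (xs i)) (pr : ∀ i, R →ₐ[O] (P i).O') (rep : Γℚ →* M2 R) : Prop where
  /-- The specialisations are jointly injective. -/
  inj : ∀ a b, (∀ i, pr i a = pr i b) → a = b
  /-- Each specialisation of `rep` is conjugate to the representation of its point. -/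
  conj : ∀ i, ∃ Q : (M2 (P i).O')ˣ, ∀ σ,
    (pr i : R →+* (P i).O').mapMatrix (rep σ) * (Q : M2 (P i).O') = (Q : M2 (P i).O') * (P i).ρ σ

section Family

variable {R : Type} [CommRing R] [Algebra O R] {ι : Type}
  {xs : ι → (MvPolynomial (Nat.Primes ⊕ (ZMod (D.levK L))ˣ) ℤ →+*
    AlgebraicClosure (FractionRing O))}
  {P : ∀ i, D.PtData hL hc (xs i)} {pr : ∀ i, R →ₐ[O] (P i).O'} {rep : Γℚ →* M2 R}

/-- The determinants specialise to those of the systems. -/
theorem IsPtFam.pr_det (h : D.IsPtFam (hL := hL) (hc := hc) P pr rep) (i : ι) (σ : Γℚ) :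
    pr i (rep σ).det = ((P i).ρ σ).det := by
  obtain ⟨Q, hQ⟩ := h.conj i
  rw [← (trace_det_of_conj Q (hQ σ)).2, AlgHom.map_det]
  rfl

/-- A family is unramified outside the conditions and the auxiliary primes. -/
theorem IsPtFam.inertia_eq_one (h : D.IsPtFam (hL := hL) (hc := hc) P pr rep) (hA : AttachInput p)
    (hN : NewInput p) {v : Nat.Primes} (hv : v ∉ D.lowT ∪ setL L) {B : ValuationSubring ℚbar}
    (hB : B.LiesOverPrime (v : ℕ)) {σ : Γℚ} (hσ : σ ∈ B.inertiaSubgroupIn ℚ) : rep σ = 1 := by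
  refine Matrix.ext fun a b => h.inj _ _ fun i => ?_
  obtain ⟨Q, hQ⟩ := h.conj i
  have h1 := hQ σ
  rw [(P i).inertia_eq_one hA hN (fun e => hv (Finset.mem_union_left _ e))
    (fun e => hv (Finset.mem_union_right _ e)) hB hσ, mul_one] at h1
  refine (congrFun (congrFun (Q.mul_left_inj.mp (h1.trans (one_mul _).symm)) a) b).trans ?_
  rw [Matrix.one_apply, Matrix.one_apply]
  split_ifs <;> simp

/-- The determinant of a family is the cyclotomic character. -/
theorem IsPtFam.det_eq [IsLocalRing R] [IsNoetherianRing R] [Finite (ResidueField R)]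
    [IsHausdorff (maximalIdeal R) R] [IsLocalHom (algebraMap O R)]
    (h : D.IsPtFam (hL := hL) (hc := hc) P pr rep) (hcont : MatCont rep) (σ : Γℚ) :
    (rep σ).det = algebraMap O R (cycO hc.mem σ) := by
  have := D.neZero_levK (L := L)
  refine det_eq_cycO hc.mem hcont (D.levK L * p).primeFactors (fun ℓ hℓ hbad B hB φ' hφ' =>
    h.inj _ _ fun i => ?_) σ
  rw [h.pr_det, map_natCast]
  exact (((P i).frob ℓ hℓ (fun e => hbad (Nat.mem_primeFactors.mpr
    ⟨hℓ, e, mul_ne_zero (NeZero.ne _) hp.out.ne_zero⟩)) B hB).2 φ' hφ').2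

variable [Algebra (ZMod p) (ResidueField O)]

/-- **The classes of tangent vectors satisfy the conditions.** -/
theorem Conds.cl_mem [IsLocalRing R] [Module.Finite O R] [Finite ι]
    (C : D.Conds O) (h : D.IsPtFam (hL := hL) (hc := hc) P pr rep) (hcont : MatCont rep)
    (hA : AttachInput p) (hN : NewInput p) (hF : ¬ p ∣ N → FlatInput p) (hOrd : p ∣ N → OrdInput p)
    (hFC : FlatCocycleStatement p) {v : Nat.Primes}
    (hvT : v ∈ D.lowT) (hvA : v ∉ D.setA) {π : R →+* ResidueField O}
    (hπm : ∀ a ∈ maximalIdeal R, π a = 0) (hπO : π.comp (algebraMap O R) = residue O)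
    (hresπ : resHom π rep = resRep rb O) {d : R → ResidueField O} (hd : IsDeriv π d)
    (hdO : ∀ o, d (algebraMap O R o) = 0) (hdet : ∀ σ, d (rep σ).det = 0)
    (z : Coh.Z1 (glev (decAt v).subtype) (repAt v (adRep p (resRep rb O))))
    (hz : ∀ δ, ((z.1 δ : adZero p (ResidueField O)) : M2 (ResidueField O)) = tcoc π rep d δ.1) :
    Coh.cl₁ (glev (decAt v).subtype) (repAt v (adRep p (resRep rb O))) z ∈ C.L v := by
  have := D.neZero_levK (L := L)
  by_cases hvp : (v : ℕ) = p
  -- at `p`, strict or flat; at a ramified prime, strict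
  · obtain rfl : v = pPrime p := Subtype.ext hvp
    by_cases hpN : p ∣ N
    · obtain ⟨o, he, hed, hcl⟩ := C.strictP hpN
      refine hcl R rep π d hd hπO hdO hdet hresπ ?_ z hz
      refine StrictRel.of_injective pr h.inj fun i => ?_
      obtain ⟨Q, hQ⟩ := h.conj i
      exact StrictRel.conj (P := Q) hQ ((P i).strictRel_atP hA (hOrd hpN) hpN o he hed)
    refine C.flat hpN _ z hz ?_
    have : CharP (ResidueField O) p :=
      charP_of_injective_algebraMap (algebraMap (ZMod p) (ResidueField O)).injective p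
    rw [← hresπ]
    refine hFC D.two_lt O hc.mem ι (fun i => (P i).O') R pr
      (fun a ha => h.inj a 0 fun i => by rw [ha i, map_zero]) rep hcont
      (fun i => (P i).r) (fun i => (P i).attached.cont) (fun i => ?_) (placeAt (pPrime p))
      (placeAt_spec _) (fun i => twistChar (P i).res.point (p ^ n))
      (fun i σ => ⟨n, (P i).res.twistChar_pow σ⟩) (fun i σ hσ => ?_) (fun i => ?_)
      (ResidueField O) π d hπm hd hdO hdet
    · exact hF hpN (D.levK L) (D.grpL hL) (D.neg_mem_grpL hL)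
        (D.p_not_dvd_levK hpN) D.p_ne_two (P i).O'
        (P i).res.mem (P i).y (P i).res.point (P i).r (P i).attached (P i).span_residue
    · rw [twistChar_apply, cycK_inertia hp.out
        (hp.out.coprime_iff_not_dvd.mpr (D.p_not_dvd_levK hpN)) (placeAt_spec (pPrime p)) hσ,
        map_one, one_pow]
    · obtain ⟨Q, hQ⟩ := h.conj i
      refine ⟨Q, fun σ => ?_⟩
      rw [← (P i).rho_eq, ← hQ σ, mul_assoc, Q.mul_inv, mul_one]
      rfl
  · have hram : ¬ IsResUnramified p rb v :=
      ((D.mem_lowT.mp hvT).resolve_left hvp).resolve_left fun e => hvA (mem_setA.mpr e)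
    obtain ⟨hσ₀, hne, hee, hrel, hcl⟩ := C.strict v hvp hram
    refine hcl R rep π d hd hπO hdO hdet hresπ ?_ z hz
    refine StrictRel.of_injective pr h.inj fun i => ?_
    obtain ⟨Q, hQ⟩ := h.conj i
    exact StrictRel.conj (P := Q) hQ ((P i).strictRel hN hvp hram hee hσ₀ hne hrel)

end Family

variable [Algebra (ZMod p) (ResidueField O)]

/-- The classes of tangent vectors over an isomorphic field. -/
theorem Conds.cl_mem_back {R : Type} [CommRing R] [IsLocalRing R] [Algebra O R]
    [Module.Finite O R] [IsLocalHom (algebraMap O R)] {ι : Type} [Finite ι]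
    {xs : ι → (MvPolynomial (Nat.Primes ⊕ (ZMod (D.levK L))ˣ) ℤ →+*
      AlgebraicClosure (FractionRing O))}
    {P : ∀ i, D.PtData hL hc (xs i)} {pr : ∀ i, R →ₐ[O] (P i).O'} {rep : Γℚ →* M2 R}
    (C : D.Conds O) (h : D.IsPtFam (hL := hL) (hc := hc) P pr rep) (hcont : MatCont rep)
    (hA : AttachInput p) (hN : NewInput p) (hF : ¬ p ∣ N → FlatInput p) (hOrd : p ∣ N → OrdInput p)
    (hFC : FlatCocycleStatement p) {k' : Type} [Field k']
    [Algebra (ZMod p) k'] (e : ResidueField O ≃+* k') {π' : R →+* k'}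
    (hπm : ∀ a ∈ maximalIdeal R, π' a = 0) (he : ∀ o, e (residue O o) = π' (algebraMap O R o))
    (hr : ∀ σ, resHom π' rep σ = (resRep rb O σ).map e)
    {v : Nat.Primes} (hvT : v ∈ D.lowT) (hvA : v ∉ D.setA) {d : R → k'} (hd : IsDeriv π' d)
    (hdO : ∀ o, d (algebraMap O R o) = 0) (hdet : ∀ σ, d (rep σ).det = 0)
    (z : Coh.Z1 (glev ((placeAt v).decompositionSubgroup ℚ).subtype)
      (locRep p (resHom π' rep) (placeAt v)))
    (hz : ∀ δ, ((z.1 δ : adZero p k') : M2 k') = tcoc π' rep d δ.1) :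
    locBack (p := p) e hr (placeAt v) (Coh.cl₁ (glev ((placeAt v).decompositionSubgroup ℚ).subtype)
      (locRep p (resHom π' rep) (placeAt v)) z) ∈ C.L v := by
  refine locBack_cl₁_mem e hr rfl hd (placeAt v) (fun hd' hres z₀ hz₀ => ?_) z hz
  exact C.cl_mem h hcont hA hN hF hOrd hFC hvT hvA (fun a ha => by simp [hπm a ha])
    (RingHom.ext fun o => by simp [← he]) hres hd' (fun o => by simp [hdO])
    (fun σ => by simp [hdet])
    z₀ hz₀

/-- The Selmer group of the conditions over an isomorphic field is small. -/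
theorem Conds.selmer_le (C : D.Conds O) {R : ℕ} (hR : C.SelBound L R) {k' : Type} [Field k']
    [Algebra (ZMod p) k'] (e : ResidueField O ≃+* k') {r' : Γℚ →* M2 k'}
    (hr : ∀ σ, r' σ = (resRep rb O σ).map e) :
    let L' : ∀ v : {v : Nat.Primes // v ∈ D.lowT ∧ v ∉ D.setA},
        Submodule (ZMod p) (locH1 p r' (placeAt v.1)) :=
      fun v => (C.L v.1).comap (locBack (p := p) e hr (placeAt v.1))
    let sel := selmer p ((D.lowT ∪ setL L : Finset Nat.Primes) : Set Nat.Primes) r'
      (Sum.elim (fun v : {v : Nat.Primes // v ∈ D.lowT ∧ v ∉ D.setA} => placeAt v.1)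
        fun q : A => placeAt (D.primeA q)) (Sum.rec L' fun _ => ⊥)
    Finite sel ∧ Nat.card sel *
      ∏ q : A, Nat.card (Coh.H0 (locRep p r' (placeAt (D.primeA q)))) ≤ Nat.card k' ^ R := by
  classical
  intro L' sel
  obtain ⟨hfinS, hcardS⟩ := hR
  have := hfinS
  obtain ⟨hfin, hcard⟩ := selmer_back (p := p) e hr (S := D.lowT ∪ setL L)
    (fun v => if v ∈ D.lowT then C.L v else ⊤)
    (Sum.elim (fun v : {v : Nat.Primes // v ∈ D.lowT ∧ v ∉ D.setA} => placeAt v.1)
      fun q : A => placeAt (D.primeA q)) (Sum.rec L' fun _ => ⊥) fun y hy v _ => by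
      by_cases hvT : v ∈ D.lowT
      · rw [if_pos hvT]
        by_cases hvA : v ∈ D.setA
        · obtain ⟨q, -, rfl⟩ := Finset.mem_image.mp hvA
          have h := hy (Sum.inr q)
          rw [Submodule.mem_bot] at h
          have h0 := (congrArg (locBack (p := p) e hr (placeAt (D.primeA q))) h).trans (map_zero _)
          exact h0.symm ▸ zero_mem (C.L (D.primeA q))
        · exact hy (Sum.inl ⟨v, hvT, hvA⟩)
      · rw [if_neg hvT]; exact Submodule.mem_top
  refine ⟨hfin, ?_⟩
  rw [← Nat.card_congr e.toEquiv]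
  refine (Nat.mul_le_mul hcard ?_).trans hcardS
  rw [setA, Finset.prod_image fun a _ b _ h => D.primeA_injective h]
  exact Finset.prod_le_prod' fun q _ => card_H0_le e hr _

/-- **The tangent bound at an auxiliary level.** -/
theorem Conds.tangent_le (C : D.Conds O) {R : ℕ} (hR : C.SelBound L R) (hA : AttachInput p)
    (hN : NewInput p) (hF : ¬ p ∣ N → FlatInput p) (hOrd : p ∣ N → OrdInput p)
    (hFC : FlatCocycleStatement p)
    {ι : Type} [Fintype ι]
    {xs : ι → (MvPolynomial (Nat.Primes ⊕ (ZMod (D.levK L))ˣ) ℤ →+*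
      AlgebraicClosure (FractionRing O))}
    (P : ∀ i, D.PtData hL hc (xs i))
    (T : TraceRep (normDataOf D.semi.surjective O) (fun i => (P i).O') (fun i => (P i).ρ))
    (q₀ : A) (φ τ : A → Γℚ) (Pq : A → (M2 O)ˣ)
    (hgen : ∀ q : A, ∀ δ ∈ (placeAt (D.primeA q)).decompositionSubgroup ℚ, ∃ i j : ℕ, ∀ a b,
      T.rep δ a b - T.rep (φ q ^ i * τ q ^ j) a b ∈ maximalIdeal T.R ^ 2)
    {g : ℕ} (hg : g + 1 = R + Fintype.card A)
    (K : Submodule (ResidueField (MvPowerSeries (FrameVar A q₀) T.R))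
      (MvPowerSeries (FrameVar A q₀) T.R → ResidueField (MvPowerSeries (FrameVar A q₀) T.R)))
    (hK : ∀ l ∈ K, l ∈ tangentSpace O (MvPowerSeries (FrameVar A q₀) T.R) ∧
      (∀ q i j, l (framed q₀ q (frameAt T Pq φ q) i j) = 0) ∧
        ∀ q i j, l (framed q₀ q (frameAt T Pq τ q) i j) = 0) :
    Finite K ∧
      Nat.card K ≤ Nat.card (ResidueField (MvPowerSeries (FrameVar A q₀) T.R)) ^ g := by
  classical
  obtain ⟨e, he⟩ := exists_equiv_redW (q₀ := q₀) T.hres
  let : Algebra (ZMod p) (ResidueField (MvPowerSeries (FrameVar A q₀) T.R)) :=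
    ((e : ResidueField O →+* _).comp (algebraMap (ZMod p) (ResidueField O))).toAlgebra
  have : Finite (ResidueField (MvPowerSeries (FrameVar A q₀) T.R)) :=
    Finite.of_equiv _ e.toEquiv
  have : Finite (ResidueField T.R) := Finite.of_surjective
    (ResidueField.map (algebraMap O T.R)) fun y => by
      obtain ⟨o, ho⟩ := T.hres y
      exact ⟨residue O o, ho⟩
  have hP : D.IsPtFam (hL := hL) (hc := hc) P T.pr T.rep := ⟨T.pr_injective, T.pr_rep⟩
  have hr : ∀ σ, resHom (redW q₀) T.rep σ = (resRep rb O σ).map e := fun σ => by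
    rw [← resRep_eq_bar D.semi.surjective σ, Matrix.map_map]
    refine Matrix.ext fun a b => ?_
    have h := redW_eq_zero (q₀ := q₀) (T.normal.red σ a b)
    rw [map_sub, sub_eq_zero] at h
    exact h.trans (he _).symm
  have h2 : (2 : ResidueField (MvPowerSeries (FrameVar A q₀) T.R)) ≠ 0 := by
    rw [← map_ofNat e 2, map_ne_zero]
    intro h
    have h' : algebraMap (ZMod p) (ResidueField O) 2 = 0 := by rw [map_ofNat]; exact h
    rw [map_eq_zero] at h'
    have := Nat.le_of_dvd two_pos ((ZMod.natCast_eq_zero_iff 2 p).mp h')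
    have := D.two_lt
    omega
  -- the tangent vectors give classes in the Selmer group of the conditions
  obtain ⟨hfin, hsel⟩ := C.selmer_le hR e hr
  have := hfin
  have hlev : ∃ N', (galLevels ((D.lowT ∪ setL L : Finset Nat.Primes) :
    Set Nat.Primes)).IsLevel N' ∧
      ∀ s ∈ N', ∀ a b, T.rep s a b - (1 : M2 T.R) a b ∈ maximalIdeal T.R ^ 2 :=
    exists_level_modPow T.cont 2 fun v hv B hB σ hσ a b => by
      rw [hP.inertia_eq_one hA hN hv hB hσ, sub_self]; exact zero_mem _
  exact card_tangent_le_of_kills (p := p) (r := R) h2 hg T.rep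
    ((D.lowT ∪ setL L : Finset Nat.Primes) : Set Nat.Primes) (fun q => placeAt (D.primeA q))
    (fun v : {v : Nat.Primes // v ∈ D.lowT ∧ v ∉ D.setA} => placeAt v.1)
    (fun v => (C.L v.1).comap (locBack (p := p) e hr (placeAt v.1))) φ τ Pq hgen
    (fun σ => ⟨_, (hP.det_eq T.cont σ).symm⟩) hlev T.adjoin_traces ∅
    (fun v d hd hdO _ z hz => C.cl_mem_back hP T.cont hA hN hF hOrd hFC e
      (fun a ha => redW_eq_zero ha) he hr v.2.1 v.2.2 hd hdO
      (fun σ => by rw [hP.det_eq T.cont, hdO]) z hz) hsel K fun l hl =>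
      ⟨(hK l hl).1, fun y hy => absurd hy (Set.notMem_empty y), (hK l hl).2⟩

end LowerData

end Fermat.GR.RT

end
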