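import Mathlib
import Fermat.Agent.GR.RT.LowerDiamond
import Fermat.Agent.GR.RT.LowerTangentBound
import Fermat.Agent.GR.RT.LevelPair
import Fermat.Agent.GR.RT.FlatProofBound
import Fermat.Agent.GR.RT.FlatProofCocycle

/-!
# Level lowering: the patching argument

For `p` odd there is no `LowerData`: no squarefree level which cannot be lowered at a nonempty set
of unramified primes congruent to one modulo `p`, under the side conditions of `LowerData`.
-/

set_option autoImplicit false
set_option linter.unusedSectionVars false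

noncomputable section

open MvPolynomial IsLocalRing

namespace Fermat.GR.RT

open Fermat.HM Fermat.GR.Patch

local notation "Γℚ" => (AlgebraicClosure ℚ ≃ₐ[ℚ] AlgebraicClosure ℚ)
local notation "M2" R => Matrix (Fin 2) (Fin 2) R

variable {p : ℕ} [hp : Fact p.Prime] {rb : Γℚ →* GL (Fin 2) (ZMod p)} {N : ℕ} {A : Finset ℕ}
  {O : Type} [CommRing O] [IsDomain O] [IsDiscreteValuationRing O]
  [IsAdicComplete (maximalIdeal O) O] [Finite (ResidueField O)] [CharZero O] {ζ : O}

/-- The group of the characters at `A` is killed by `p`. -/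
theorem deltaA_pow (g : DeltaA p A) : g ^ p = 1 :=
  funext fun r => Multiplicative.toAdd.injective (by
  rw [Pi.pow_apply, toAdd_pow, nsmul_eq_mul,
    show (p : ZMod (p ^ 1)) = 0 from (ZMod.natCast_eq_zero_iff p (p ^ 1)).mpr (by rw [pow_one]),
    zero_mul]
  rfl)

namespace LowerData

variable {D : LowerData p rb N A} [Algebra (ZMod p) (ResidueField O)]

/-- Each diamond parameter acts by a scalar which specialises to the symmetric parameter. -/
private theorem exists_parElt [NeZero N] (hN : NewInput p) (hCh : CharInput p)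
    {hc : CoeffData p O ζ} {n n' : ℕ} {L : List (GoodIx (N * p))} {hL : TWList p rb n' L}
    [NeZero (D.levK L)]
    (P : ∀ i : D.ptsL hL hc, D.PtData hL hc i.1) {d : ℕ} (vs : Fin L.length → Fin d)
    (isY : Fin d → Prop) [DecidablePred isY]
    {χd : DeltaQ p (fun _ : Fin L.length => n') →*
      MvPowerSeries (Fin d) O ⧸ maximalIdeal (MvPowerSeries (Fin d) O) ^ n}
    (hχd : ∀ δ, χd δ = ∏ k, Ideal.Quotient.mk (maximalIdeal (MvPowerSeries (Fin d) O) ^ n)
      (1 + MvPowerSeries.X (vs k)) ^ (Multiplicative.toAdd (δ k)).val)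
    (k : Fin L.length) (hY : isY (vs k)) :
    ∃ (σ : Γℚ) (h : D.HRing O L) (a : GRing O p A n' L.length),
      (∀ i, (P i).evalL h = ((P i).ρ σ).trace - 2) ∧ (∀ x, D.actL hL hc h x = a • x) ∧
      ∀ χ : DeltaA p A →* O,
        (MonoidAlgebra.lift O _ (DeltaQ p (fun _ : Fin L.length => n')) χd)
          (chiAlgProd (DeltaQ p (fun _ : Fin L.length => n')) χ a) =
          Ideal.Quotient.mk _ (symmHom (𝒪 := O) isY (MvPowerSeries.X (vs k))) := by
  classical
  have : NeZero p := ⟨hp.out.ne_zero⟩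
  have := D.finite_homsL hL hc
  set gR := MonoidAlgebra.lift O _ (DeltaQ p (fun _ : Fin L.length => n')) χd
  obtain ⟨τk, hτk, hχk⟩ := exists_inertia_chiL (D := D) (hL := hL) k
  set v := cycK (D.levK L) τk
  set δ : DeltaQ p (fun _ : Fin L.length => n') :=
    Pi.mulSingle k (Multiplicative.ofAdd (1 : ZMod (p ^ n')))
  -- the square of inertia acts by `v + v⁻¹ - 2`, which specialises to the symmetrised parameter
  refine ⟨τk * τk, X (Sum.inr v) + X (Sum.inr v⁻¹) - 2,
    MonoidAlgebra.of O _ ((D.quotL hL).chiTop v) +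
      MonoidAlgebra.of O _ ((D.quotL hL).chiTop v⁻¹) - 2,
    fun i => ?_, fun x => ?_, ?_⟩
  · rw [(P i).trace_sq_inertia hN hCh k hτk, map_sub, map_add, map_ofNat, PtData.evalL, aeval_X,
      aeval_X]
    rfl
  · have e : D.actL hL hc (X (Sum.inr v) + X (Sum.inr v⁻¹) - 2) =
        (MonoidAlgebra.of O _ ((D.quotL hL).chiTop v) +
          MonoidAlgebra.of O _ ((D.quotL hL).chiTop v⁻¹) - 2) • 1 := by
      rw [map_sub, map_add, map_ofNat, sub_smul, add_smul, two_smul, one_add_one_eq_two, actL,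
        AlgHom.comp_apply, AlgHom.comp_apply, rename_X, rename_X, Sum.map_inr, id_eq, Sum.map_inr,
        id_eq, labelAct_dia, labelAct_dia]
    rw [e]
    rfl
  · have hval : ∀ (χ : DeltaA p A →* O) (z : DeltaQ p (fun _ : Fin L.length => n')),
        gR (chiAlgProd _ χ (MonoidAlgebra.of O _ ((1 : DeltaA p A), z))) = χd z := fun χ z => by
      simp [gR, chiAlgProd, MonoidAlgebra.of_apply]
    have hδ : χd δ = Ideal.Quotient.mk _ (1 + MvPowerSeries.X (vs k)) := by
      have : Fact (1 < p ^ n') := ⟨Nat.one_lt_pow (by have := hL.pos; omega) hp.out.one_lt⟩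
      rw [hχd, Finset.prod_eq_single k]
      · rw [show δ k = Multiplicative.ofAdd (1 : ZMod (p ^ n')) from
          Pi.mulSingle_eq_same _ _, toAdd_ofAdd, ZMod.val_one, pow_one]
      · intro j _ hj
        rw [show δ j = 1 from Pi.mulSingle_eq_of_ne hj _, toAdd_one,
          ZMod.val_zero, pow_zero]
      · exact fun h => absurd (Finset.mem_univ _) h
    have hboth : ∀ χ : DeltaA p A →* O,
        gR (chiAlgProd _ χ (MonoidAlgebra.of O _ ((D.quotL hL).chiTop v) +
          MonoidAlgebra.of O _ ((D.quotL hL).chiTop v⁻¹) - 2)) =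
        Ideal.Quotient.mk _ (symmHom (𝒪 := O) isY (MvPowerSeries.X (vs k))) := fun χ => by
      rw [map_inv, hχk, Prod.inv_mk, inv_one, map_sub, map_add, map_ofNat, map_sub, map_add,
        map_ofNat, hval, hval, symmHom_X_of isY hY]
      exact mk_symm_eq _ n hδ (by rw [← map_mul, mul_inv_cancel, map_one])
    exact hboth

/-- **One level of the patching tower.** A Taylor–Wiles list with the Selmer bound gives the
`FramedCore` of its level. -/
theorem exists_core [NeZero N] (hA : AttachInput p) (hN : NewInput p) (hCh : CharInput p)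
    (hF : ¬ p ∣ N → FlatInput p) (hOrd : p ∣ N → OrdInput p) (hc : CoeffData p O ζ) {u : O →+* ℂ}
    (hu : Function.Injective u)
    (C : D.Conds O) {R : ℕ} {n n' : ℕ} (hn : n ≤ n') {L : List (GoodIx (N * p))}
    (hL : TWList p rb n' L) (hlen : L.length = R) (hR : C.SelBound L R) (LD : LocalData O A)
    (Pq : A → (M2 O)ˣ) (φ : A → Γℚ)
    (hφ : ∀ q : A, (Fermat.CFT.placeAt ⟨q, D.prime q q.2⟩).IsFrobeniusAt (φ q) q)
    (hLN : ∀ q, LD.N q = (q : ℕ)) (hκ : ∀ q, 2 * LD.κ q = zEig p ζ + zEig p ζ ^ (p - 1))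
    (hfr : ∀ q i j, ((Pq q : M2 O) * (normDataOf D.semi.surjective O).bar (φ q) *
      (↑(Pq q)⁻¹ : M2 O) - phi0 LD q) i j ∈ maximalIdeal O)
    {m : ℕ} (hm : Module.finrank (MonoidAlgebra O (DeltaA p A))
      (D.quot.LocMod (goodPr (N * p)) (sysIdeal (theta rb hc.mem (N * p)))) = m)
    {ϖ : O} (hϖ : Irreducible ϖ) {d g : ℕ} (q₀ : A) (hg : g + 1 = R + Fintype.card A)
    (emb : Fin R ⊕ FrameVar A q₀ ≃ Fin d) (isY : Fin d → Prop) [DecidablePred isY]
    (hY : ∀ k, isY (emb (Sum.inl k))) :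
    ∃ F : FramedCore (m := m) LD ϖ q₀ g (symmHom (𝒪 := O) isY) emb n,
      F.α₁ ((F.Phi q₀).trace ^ 2 - (1 + (LD.N q₀ : F.R)) ^ 2) = 0 := by
  classical
  have := D.neZero_levK (L := L)
  have : NeZero p := ⟨hp.out.ne_zero⟩
  have := D.finite_homsL hL hc
  have := (D.finite_ptsL hL hc).to_subtype
  let : Fintype (D.ptsL hL hc) := Fintype.ofFinite _
  have := (D.nonempty_ptsL hL hc hu).to_subtype
  let fam : ∀ x ∈ D.ptsL hL hc, D.PtData hL hc x := fun x hx =>
    Classical.choice (D.nonempty_ptData hL hc hA hx)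
  let P : ∀ i : D.ptsL hL hc, D.PtData hL hc i.1 := fun i => fam i.1 i.2
  -- the trace ring
  choose Q hQ using fun i => exists_isRed (O := O) D.semi.surjective _ (P i).ρ (P i).trace
  obtain ⟨T'⟩ := nonempty_traceRep (normDataOf D.semi.surjective O) (D.isUnit_two hc.mem)
    (exists_isUnit_bar D.semi.surjective) (fun i => conjHom (Q i) (P i).ρ)
    (fun i => matCont_conjHom (P i).cont (Q i)) hQ
  obtain ⟨T⟩ := TraceRep.nonempty_of_conj (r := fun i => (P i).ρ) T' Q fun i σ => rfl
  -- inertia at the primes being lowered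
  have hres : ∀ q : A, ∀ σ ∈ (Fermat.CFT.placeAt ⟨q, D.prime q q.2⟩).inertiaSubgroupIn ℚ,
      ∀ i j, (T.rep σ - 1) i j ∈ maximalIdeal T.R := fun q σ hσ i j => by
    have h := T.normal.red σ i j
    rw [normDataOf_bar_eq_one _ (D.unr q q.2 _ (Fermat.CFT.placeAt_spec _) σ hσ),
      Matrix.one_apply] at h
    rw [Matrix.sub_apply, Matrix.one_apply]
    split_ifs at h ⊢ <;> simpa using h
  have hpR : (p : T.R) ∈ maximalIdeal T.R := by
    have := map_nonunit (algebraMap O T.R) _ hc.mem
    rwa [map_natCast] at this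
  choose τ hτI hτg hτgen using fun q : A => exists_generator_of_char T.cont hpR (D.prime q q.2)
    (D.ne_p q.2)
    (Fermat.CFT.placeAt_spec _) (hres q) D.charA D.isOpen_ker_charA deltaA_pow (hφ q)
    (genA_ne_one q) (D.exists_inertia_genA q (Fermat.CFT.placeAt_spec _))
  -- the specialisations
  obtain ⟨χd, hχd⟩ := exists_diamondHom (𝒪 := O) (d := d) (Δ := DeltaQ p
    (fun _ : Fin L.length => n'))
    hc.mem (fun _ : Fin L.length => n') (fun _ => hn) (MulEquiv.refl _)
    fun k => emb (Sum.inl (Fin.cast hlen k))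
  let gR := MonoidAlgebra.lift O _ (DeltaQ p (fun _ : Fin L.length => n')) χd
  let φ₁ := gR.comp (chiAlgProd (DeltaQ p (fun _ : Fin L.length => n')) (1 : DeltaA p A →* O))
  let φχ := gR.comp (chiAlgProd (DeltaQ p (fun _ : Fin L.length => n')) (chiVal hc A))
  obtain ⟨hfree, hfinX, hrank⟩ := D.free_and_finrank hL hc
  let b : Module.Basis (Fin m) (GRing O p A n' L.length) (D.XL hL hc) :=
    Module.finBasisOfFinrankEq _ _ (hrank.trans hm)
  let setup : PairSetup LD (normDataOf D.semi.surjective O) (fun i => (P i).O') (fun i => (P i).ρ)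
      (Γ := GRing O p A n' L.length) (D.XL hL hc) (D.HRing O L) :=
    { fr := φ, tm := τ, Pq := Pq, fr_red := hfr
      tm_red := fun q i j => by
        rw [normDataOf_bar_eq_one _ (D.unr q q.2 _ (Fermat.CFT.placeAt_spec _) _ (hτI q)), mul_one,
          Units.mul_inv, sub_self, Matrix.zero_apply]
        exact zero_mem _
      pt := fun i => (P i).evalL
      act := D.actL hL hc
      s₁ := {i | (P i).IsSide 1}
      sχ := {i | (P i).IsSide (chiVal hc A)}
      tl := D.tlL O L n'
      dl := fun ℓ => (ℓ : D.HRing O L)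
      bad := (D.levK L * p).primeFactors
      frob := fun ℓ hℓ hbad B hB φ' hφ' i => (P i).frobL hℓ hbad hB hφ' }
  -- the relations at the primes being lowered, and the parameters at the auxiliary primes
  have hqp : ∀ q : A, (q : ℕ) ≠ p := fun q => D.ne_p q.2
  have hdet : ∀ i (q : A), ((P i).ρ (φ q)).det = (LD.N q : (P i).O') := fun i q => by
    rw [(P i).det, cycO_frobenius (P i).res.mem (D.prime q q.2) (hqp q) (Fermat.CFT.placeAt_spec _)
      (hφ q), hLN]
  have hmul : ∀ i (q : A), (P i).ρ (φ q) * (P i).ρ (τ q) = (P i).ρ (τ q) ^ (q : ℕ) *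
      (P i).ρ (φ q) :=
    fun i q => (P i).frob_mul (D.prime q q.2) (hqp q) (D.unr q q.2) (Fermat.CFT.placeAt_spec _)
      (hφ q) (hτI q)
  have hpar : ∀ k : Fin R, ∃ (σ : Γℚ) (h : D.HRing O L) (a : GRing O p A n' L.length),
      (∀ i, (P i).evalL h = ((P i).ρ σ).trace - 2) ∧ (∀ x, D.actL hL hc h x = a • x) ∧
      φ₁ a = Ideal.Quotient.mk _ (symmHom (𝒪 := O) isY (MvPowerSeries.X (emb (Sum.inl k)))) ∧
      φχ a = Ideal.Quotient.mk _ (symmHom (𝒪 := O) isY (MvPowerSeries.X (emb (Sum.inl k)))) := by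
    intro k
    obtain ⟨σ, h, a, hh, hsc, ha⟩ := exists_parElt hN hCh P
      (fun l => emb (Sum.inl (Fin.cast hlen l))) isY hχd (Fin.cast hlen.symm k) (hY _)
    exact ⟨σ, h, a, hh, hsc, ha 1, ha _⟩
  -- the framed core, with the new relation on the trivial side
  obtain ⟨F, hFq⟩ := exists_framedCore (n := n) (g := g) (ψ := symmHom (𝒪 := O) isY) (emb := emb)
    (ϖ := ϖ) (q₀ := q₀) (m := m) setup T b φ₁ φχ
    (fun a => lift_chiAlgProd_congr hϖ (chiVal hc A) (chiVal_sub_one_mem hc) gR a)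
    (fun h hh => D.matAct_eq_zero_side hL hc hu fam b 1 gR h fun x hx hs => hh ⟨x, hx⟩ hs)
    (fun h hh => D.matAct_eq_zero_side hL hc hu fam b (chiVal hc A) gR h
      fun x hx hs => hh ⟨x, hx⟩ hs)
    (fun K hK => C.tangent_le hR hA hN hF hOrd flatCocycleStatement P T q₀ φ τ Pq hτgen hg K hK)
    (fun i hi q => ⟨hdet i q, ((P i).inertia_sideOne hN hCh (PtData.isSideOne_of_side hi) q.2
        (Fermat.CFT.placeAt_spec _) (hτI q)).2,
      ((P i).inertia_sideOne hN hCh (PtData.isSideOne_of_side hi) q.2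
        (Fermat.CFT.placeAt_spec _) (hτI q)).1, by rw [hLN]; exact hmul i q⟩)
    (fun i hi q => by
      obtain ⟨h1, h2, h3⟩ := (P i).inertia_sideChi hN hCh hi q (Fermat.CFT.placeAt_spec _) (hτI q)
        (hτg q)
      refine ⟨hdet i q, by rw [hκ]; exact h2, h1, ?_⟩
      have h := hmul i q
      rw [h3] at h
      exact h)
    hpar
  exact ⟨F, hFq q₀ fun i hi => by
    rw [hLN]
    exact (P i).trace_sq hA hN hu (PtData.isSideOne_of_side hi) q₀.2
      (Fermat.CFT.placeAt_spec _) (hφ q₀)⟩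

omit [Algebra (ZMod p) (ResidueField O)] in
/-- **Lowering**: the minimal situation is impossible. -/
theorem false_of_inputs (D : LowerData p rb N A) (hA : AttachInput p) (hN : NewInput p)
    (hCh : CharInput p) (hF : ¬ p ∣ N → FlatInput p) (hOrd : p ∣ N → OrdInput p) : False := by
  classical
  have : NeZero N := ⟨D.ne_zero⟩
  obtain ⟨O, i1, i2, i3, i4, i5, i6, hpO, ζ, hζ⟩ := exists_coeffRing p
  obtain ⟨u, hu⟩ := exists_embedding_complex O
  have hc : CoeffData p O ζ := ⟨hpO, hζ⟩
  let : Algebra (ZMod p) (ResidueField O) := (resCast hpO).toAlgebra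
  -- the local conditions, their auxiliary primes and the frames at `A`
  obtain ⟨C⟩ := D.nonempty_conds (O := O) hpO flatBoundStatement
    fun hpN => D.nonempty_ordRes_base hA (hOrd hpN) hc hpN
      (Fermat.CFT.placeAt_spec (ExtCitation.pPrime p))
  obtain ⟨R, hR⟩ := C.exists_twList
  choose φ hφ using fun q : A =>
    Fermat.CFT.exists_isFrobeniusAt (D.prime q q.2)
      (Fermat.CFT.placeAt_spec (⟨q, D.prime q q.2⟩ : Nat.Primes))
  obtain ⟨LD, Pq, hLN, hκ, hfr⟩ := D.exists_localData hA hN hc hu φ hφ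
  obtain ⟨ϖ, hϖ⟩ := IsDiscreteValuationRing.exists_irreducible O
  obtain ⟨q₀, hq₀⟩ := D.nonempty
  let e₀ : A := ⟨q₀, hq₀⟩
  let emb := Fintype.equivFin (Fin R ⊕ FrameVar A e₀)
  let isY : Fin (Fintype.card (Fin R ⊕ FrameVar A e₀)) → Prop := fun v => ∃ k, emb (Sum.inl k) = v
  have B := D.baseData hc.mem
  have := B.free.1
  have := B.free.2
  have hpos : 0 < Module.finrank (MonoidAlgebra O (DeltaA p A))
      (D.quot.LocMod (goodPr (N * p)) (sysIdeal (theta rb hc.mem (N * p)))) := by
    obtain ⟨i⟩ := B.nonempty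
    exact i.pos
  have hcard : 0 < Fintype.card A := Fintype.card_pos_iff.mpr ⟨e₀⟩
  -- a core at every depth, which the patching argument forbids
  have hlev : ∀ n, ∃ F : FramedCore (m := Module.finrank (MonoidAlgebra O (DeltaA p A))
      (D.quot.LocMod (goodPr (N * p)) (sysIdeal (theta rb hc.mem (N * p))))) LD ϖ e₀
      (R + Fintype.card A - 1) (symmHom (𝒪 := O) isY) emb n,
      F.α₁ ((F.Phi e₀).trace ^ 2 - (1 + (LD.N e₀ : F.R)) ^ 2) = 0 := fun n => by
    obtain ⟨L, hL, hlen, hsel⟩ := hR (n + 1) (Nat.le_add_left 1 n)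
    exact exists_core hA hN hCh hF hOrd hc hu C (Nat.le_succ n) hL hlen hsel LD Pq φ hφ
      hLN hκ hfr rfl hϖ
      e₀ (by omega) emb isY fun k => ⟨k, rfl⟩
  choose F hF' using hlev
  refine false_of_framedCores_new (D.isUnit_two hc.mem) hϖ hpos (by omega) (finite_symmHom isY)
    (injective_symmHom isY) (fun v => symmHom_X_of_not isY ?_) (fun P hP h k => ?_) F e₀ hF'
  · rintro ⟨k, hk⟩
    exact Sum.inl_ne_inr (emb.injective hk)
  · exact X_mem_of_symmHom_mem isY hP (h k)

end LowerData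

end Fermat.GR.RT

end
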