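import Mathlib
import Fermat.Agent.GR.RT.LowerEngine
import Fermat.Agent.BAD.AtQ.Step

/-!
# Level lowering, from its inputs

A modular residual representation is unramified away from the level and `p`. For `p ≥ 5` and a
squarefree level prime to `p`, a least level can then not contain an unramified prime, as Mazur's
principle trades the primes which are not `1` modulo `p` for auxiliary ones which are, and the
patching argument removes those.
-/

set_option autoImplicit false

noncomputable section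

open IsLocalRing

namespace Fermat.GR.RT

local notation "Γℚ" => (AlgebraicClosure ℚ ≃ₐ[ℚ] AlgebraicClosure ℚ)

variable {p : ℕ} [hp : Fact p.Prime] {rb : Γℚ →* GL (Fin 2) (ZMod p)} {M : ℕ}

/-- **Ramified primes divide the level.** A prime `ℓ ≠ p` where the residual representation ramifies
divides every level at which it is modular. -/
theorem dvd_of_ramified (hrb : IsSemistableResidual p rb) (h2 : 2 < p) (hA : AttachInput p)
    (h : ModularOf p rb M) {ℓ : ℕ} (hℓ : ℓ.Prime) (hℓp : ℓ ≠ p)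
    (hram : ¬ IsResUnramified p rb ℓ) : ℓ ∣ M := by
  by_contra hℓM
  refine hram ?_
  classical
  -- a congruent eigen system, its representation, and a basis reducing it to `rb`
  have : NeZero M := ⟨h.1.ne'⟩
  obtain ⟨T, hT⟩ := Fermat.CFT.exists_finset_map_inertia_eq_one rb hrb.isOpen_ker
  set B : ℕ := M * p * ∏ r ∈ T.filter Nat.Prime, r with hBdef
  have hB : B ≠ 0 := mul_ne_zero (mul_ne_zero h.1.ne' hp.out.ne_zero)
    (Finset.prod_ne_zero_iff.mpr fun r hr => (Finset.mem_filter.mp hr).2.ne_zero)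
  have hunr : ∀ i : GoodIx B, IsResUnramified p rb (goodPr B i) := fun i P hP σ hσ =>
    hT _ i.1.2 (fun hmem => i.2 (Dvd.dvd.mul_left
      (Finset.dvd_prod_of_mem _ (Finset.mem_filter.mpr ⟨hmem, i.1.2⟩)) _)) P hP σ hσ
  obtain ⟨O, i1, i2, i3, i4, i5, i6, hpO, -, -⟩ := exists_coeffRing p
  obtain ⟨x, hx, hxc⟩ := exists_congruent_of_modularOf (σ := GoodIx B) (pr := goodPr B) hpO h
    (fun i => ⟨fun hd => i.2 ((hd.mul_right p).mul_right _),
      fun e : ((i.1 : Nat.Primes) : ℕ) = p => i.2 (by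
        rw [e]; exact (dvd_mul_left p M).mul_right _),
      hunr i⟩) (theta rb hpO B) (resCast hpO)
    (fun i P hP φ hφ => resSys_eq (resCast hpO) i (hunr i) P hP φ hφ)
    fun i => ⟨_, Fermat.CFT.placeAt_spec i.1, frobOf i.1, frobOf_spec i.1⟩
  obtain ⟨⟨O', _⟩, y, hy, j, -, hjy⟩ :=
    exists_dvr_point M ⊤ O hx
  have hres := isResPoint_of_congruent hpO (resCast hpO) (e := 0)
    (fun u => Subgroup.mem_top _) hxc hy j hjy
  obtain ⟨r, -, hr, -, -, -, htr, -, -⟩ :=
    hres.exists_rep_of_det hrb.isOpen_ker hrb.det_eq (by omega) hA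
    (Subgroup.mem_top _) hB hunr
  set c : ZMod p →+* ResidueField O' := (ResidueField.map (algebraMap O O')).comp (resCast hpO)
  have : IsLocalHom (algebraMap O' O') := ⟨fun a ha => by simpa using ha⟩
  obtain ⟨P, hP⟩ := exists_isRed (O := O') hrb.surjective c r htr
  -- the representation is unramified at `ℓ`
  intro A hA' σ hσ
  have h1 : r σ = 1 := hr.unramified ℓ hℓ
    (fun hd => (hℓ.dvd_mul.mp hd).elim hℓM
      fun hd => hℓp ((Nat.prime_dvd_prime_iff_eq hℓ hp.out).mp hd)) A hA' σ hσ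
  have hc : conjHom P r σ = 1 := by
    change (P : Matrix (Fin 2) (Fin 2) O') * r σ * (↑P⁻¹ : Matrix (Fin 2) (Fin 2) O') = 1
    rw [h1, mul_one, P.mul_inv]
  refine Units.ext (Matrix.ext fun a b => c.injective ?_)
  have hab := hP σ a b
  rw [hc, normDataOf_bar, Algebra.algebraMap_self_apply, ← residue_eq_zero_iff, map_sub,
    sub_eq_zero, barOf_apply, map_natCast, ← map_natCast c, ZMod.natCast_zmod_val] at hab
  rw [← hab, Units.val_one, Matrix.one_apply, Matrix.one_apply]
  split_ifs <;> simp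

/-- An auxiliary prime above any bound: `11` modulo `12`, one modulo `p`, unramified. -/
theorem exists_auxPrime (hrb : IsSemistableResidual p rb) (h5 : 4 < p) (B : ℕ) :
    ∃ r : ℕ, B < r ∧ r.Prime ∧ r % 12 = 11 ∧ (r : ZMod p) = 1 ∧ IsResUnramified p rb r := by
  obtain ⟨T, hT⟩ := Fermat.CFT.exists_finset_map_inertia_eq_one rb hrb.isOpen_ker
  have hc : Nat.Coprime 12 p := by
    rw [Nat.coprime_comm, hp.out.coprime_iff_not_dvd]
    intro h
    have hle := Nat.le_of_dvd (by norm_num) h
    have hpr := hp.out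
    interval_cases p <;> norm_num at hpr <;> omega
  have : NeZero (12 * p) := ⟨mul_ne_zero (by norm_num) hp.out.ne_zero⟩
  set e := ZMod.chineseRemainder hc
  have hu : IsUnit (e.symm ((11 : ZMod 12), (1 : ZMod p))) :=
    (IsUnit.of_mul_eq_one ((11 : ZMod 12), (1 : ZMod p)) (by
      rw [Prod.mk_mul_mk, one_mul, show (11 : ZMod 12) * 11 = 1 by decide]; rfl)).map e.symm
  obtain ⟨r, hr1, hr2, hr3⟩ := Nat.forall_exists_prime_gt_and_eq_mod hu (B + T.sup id)
  have h := congrArg e hr3
  rw [RingEquiv.apply_symm_apply, map_natCast] at h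
  refine ⟨r, by omega, hr2, ?_, ?_, hT r hr2 fun hm => ?_⟩
  · have h' : (r : ZMod 12) = 11 := congrArg Prod.fst h
    rw [← ZMod.val_natCast 12 r, h']
    rfl
  · exact congrArg Prod.snd h
  · have := Finset.le_sup (f := id) hm
    simp only [id] at this
    omega

/-- **A level all of whose primes are ramified**, below a given one with at most `n` unramified
primes which are not `1` modulo `p`. -/
theorem exists_ramified_level (h5 : 4 < p) (hrb : IsSemistableResidual p rb) (hA : AttachInput p)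
    (hN : NewInput p) (hCh : CharInput p) (hF : FlatInput p) :
    ∀ (n N : ℕ), Squarefree N → ¬ p ∣ N →
      (∀ S : Finset ℕ, (∀ r ∈ S, r.Prime ∧ r ∣ N ∧ IsResUnramified p rb r ∧ (r : ZMod p) ≠ 1) →
        S.card ≤ n) →
      ModularOf p rb N →
        ∃ d, d ∣ N ∧ ModularOf p rb d ∧ ∀ r : ℕ, r.Prime → r ∣ d → ¬ IsResUnramified p rb r := by
  intro n
  induction n using Nat.strong_induction_on with
  | _ n ih =>
  classical
  intro N hsqN hpN hn hmodN
  have hex : ∃ d : ℕ, d ∣ N ∧ ModularOf p rb d := ⟨N, dvd_rfl, hmodN⟩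
  -- a least level `d`
  set d := Nat.find hex
  obtain ⟨hdN, hmod⟩ := Nat.find_spec hex
  have hd0 : 0 < d := hmod.1
  have hmin : ∀ e, e < d → e ∣ N → ¬ ModularOf p rb e := fun e he heN h =>
    Nat.find_min hex he ⟨heN, h⟩
  have hsq : Squarefree d := hsqN.squarefree_of_dvd hdN
  have hpd : ¬ p ∣ d := fun h => hpN (h.trans hdN)
  refine ⟨d, hdN, hmod, fun q₀ hq₀ hq₀d hu₀ => ?_⟩
  set A := d.primeFactors.filter fun r => IsResUnramified p rb r
  have hmemA : ∀ r ∈ A, r.Prime ∧ r ∣ d ∧ IsResUnramified p rb r := fun r hr => by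
    obtain ⟨hr', hru⟩ := Finset.mem_filter.mp hr
    exact ⟨Nat.prime_of_mem_primeFactors hr', Nat.dvd_of_mem_primeFactors hr', hru⟩
  -- if all its unramified primes are `1` modulo `p`, patching contradicts minimality
  by_cases hone : ∀ r ∈ A, (r : ZMod p) = 1
  · exact LowerData.false_of_inputs (rb := rb) (N := d) (A := A)
      { semi := hrb
        two_lt := by omega
        squarefree := hsq
        not_mem := fun h => hpd (hmemA p h).2.1
        atp := fun h => absurd h hpd
        neat := fun h3 => absurd h3 (by omega)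
        nonempty := ⟨q₀, Finset.mem_filter.mpr
          ⟨Nat.mem_primeFactors.mpr ⟨hq₀, hq₀d, hd0.ne'⟩, hu₀⟩⟩
        prime := fun r hr => (hmemA r hr).1
        dvd := fun r hr => (hmemA r hr).2.1
        unr := fun r hr => (hmemA r hr).2.2
        one := hone
        ram := fun r hr hrp hram => dvd_of_ramified hrb (by omega) hA hmod hr hrp hram
        aux := fun r hr _ hrN hrA hru => absurd
          (Finset.mem_filter.mpr ⟨Nat.mem_primeFactors.mpr ⟨hr, hrN, hd0.ne'⟩, hru⟩) hrA
        modular := hmod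
        minimal := fun r hr => hmin _ (Nat.div_lt_self hd0 (hmemA r hr).1.one_lt)
          ((Nat.div_dvd_of_dvd (hmemA r hr).2.1).trans hdN) } hA hN hCh (fun _ => hF)
      fun h => absurd h hpd
  push Not at hone
  obtain ⟨q, hqA, hq1⟩ := hone
  obtain ⟨hq, hqd, hqu⟩ := hmemA q hqA
  -- otherwise trade such a prime `q` for an auxiliary prime `r` by Mazur's principle
  obtain ⟨r, hrB, hr, hr12, hr1, hru⟩ := exists_auxPrime hrb h5 (p + N)
  have hN0 : 0 < N := hmodN.1
  have hrN : ¬ r ∣ N := fun h => by have := Nat.le_of_dvd hN0 h; omega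
  have hrd : ¬ r ∣ d := fun h => hrN (h.trans hdN)
  have hsq' : Squarefree (d * r) :=
    (Nat.squarefree_mul (Nat.Coprime.symm (hr.coprime_iff_not_dvd.mpr hrd))).mpr
      ⟨hsq, hr.prime.squarefree⟩
  have hmod' := Fermat.BAD.AtQ.mazurStep_of_dvd (by omega) hrb hsq' hq (hqd.mul_right r)
    (fun e => hpd (e ▸ hqd)) hq1 hqu ⟨r, hr, fun e => hrd (e ▸ hqd), hr12, dvd_mul_left r d⟩
    (dvd_mul_right d r) hmod
  have hM : d * r / q = d / q * r := (Nat.div_mul_right_comm hqd r).symm
  rw [hM] at hmod'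
  have hMd : d / q * r ∣ d * r := Nat.mul_dvd_mul_right (Nat.div_dvd_of_dvd hqd) r
  have hcnt : ∀ S : Finset ℕ, (∀ s ∈ S, s.Prime ∧ s ∣ d / q * r ∧ IsResUnramified p rb s ∧
      (s : ZMod p) ≠ 1) → S.card + 1 ≤ n := by
    intro S hS
    have hsd : ∀ s ∈ S, s ∣ d / q := fun s hs => by
      obtain ⟨hsp, hsd, -, hs1⟩ := hS s hs
      refine (hsp.dvd_mul.mp hsd).resolve_right fun h => hs1 ?_
      rw [(Nat.prime_dvd_prime_iff_eq hsp hr).mp h]
      exact hr1
    have hqS : q ∉ S := fun h => by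
      have h1 := Nat.mul_dvd_mul_left q (hsd q h)
      rw [Nat.mul_div_cancel' hqd] at h1
      exact hq.ne_one (Nat.isUnit_iff.mp (hsq q h1))
    have := hn (insert q S) fun s hs => by
      rcases Finset.mem_insert.mp hs with rfl | hs
      · exact ⟨hq, hqd.trans hdN, hqu, hq1⟩
      · obtain ⟨hsp, -, hsu, hs1⟩ := hS s hs
        exact ⟨hsp, ((hsd s hs).trans (Nat.div_dvd_of_dvd hqd)).trans hdN, hsu, hs1⟩
    rwa [Finset.card_insert_of_notMem hqS] at this
  -- by induction `r` goes too, leaving a level dividing `d / q`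
  have hn1 : 1 ≤ n := le_trans (Nat.le_add_left 1 _) (hcnt ∅ (by simp))
  obtain ⟨d', hd', hmodd', hram⟩ := ih (n - 1) (by omega) (d / q * r) (hsq'.squarefree_of_dvd hMd)
    (fun h => (hp.out.dvd_mul.mp (h.trans hMd)).elim hpd fun h' => by
      have := (Nat.prime_dvd_prime_iff_eq hp.out hr).mp h'; omega)
    (fun S hS => by have := hcnt S hS; omega) hmod'
  have hrd' : ¬ r ∣ d' := fun h => hram r hr h hru
  have hd'q : d' ∣ d / q :=
    Nat.Coprime.dvd_of_dvd_mul_right (hr.coprime_iff_not_dvd.mpr hrd').symm hd'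
  exact hmin d' (lt_of_le_of_lt
    (Nat.le_of_dvd (Nat.div_pos (Nat.le_of_dvd hd0 hqd) hq.pos) hd'q)
    (Nat.div_lt_self hd0 hq.one_lt)) ((hd'q.trans (Nat.div_dvd_of_dvd hqd)).trans hdN) hmodd'

/-- **Level lowering** for `p ≥ 5`, from `AttachInput`, `NewInput`, `CharInput` and `FlatInput`. -/
theorem loweringStatement_of_inputs (h5 : 4 < p) (hA : AttachInput p) (hN : NewInput p)
    (hCh : CharInput p) (hF : FlatInput p) : LoweringStatement p := by
  intro _ rb hrb _ M q hM hpM hq hqM hunr hmod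
  obtain ⟨d, hdM, hmodd, hram⟩ := exists_ramified_level h5 hrb hA hN hCh hF M.primeFactors.card M hM
    hpM (fun S hS => Finset.card_le_card fun r hr =>
      Nat.mem_primeFactors.mpr ⟨(hS r hr).1, (hS r hr).2.1, hM.ne_zero⟩) hmod
  refine ⟨d, ?_, hmodd⟩
  refine Nat.Coprime.dvd_of_dvd_mul_left
    ((hq.coprime_iff_not_dvd.mpr fun h => hram q hq h hunr).symm) ?_
  rw [Nat.mul_div_cancel' hqM]
  exact hdM

end Fermat.GR.RT

end
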