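import Mathlib
import Fermat.Agent.GR.RT.Inputs
import Fermat.Agent.GR.RT.Cyclotomic
import Fermat.Agent.SW.TorsionRep

/-!
# What modularity lifting uses in addition to the inputs of level lowering

Statements, with the definitions they need.
-/

set_option autoImplicit false

noncomputable section

open MvPolynomial IsLocalRing

namespace Fermat.GR.RT

local notation "ℚbar" => AlgebraicClosure ℚ
local notation "Γℚ" => (AlgebraicClosure ℚ ≃ₐ[ℚ] AlgebraicClosure ℚ)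
local notation "M2" R => Matrix (Fin 2) (Fin 2) R

variable (p : ℕ) [hp : Fact p.Prime]

/-- **The sign at a prime `q ∥ K`, `q ≠ p`.**  An eigen system whose `U_q` has square the inverse of
the diamond value at `q` has trace of Frobenius given by `U_q`.
Proved from the torsion statements of `BAD/XH` by `newSignInput_of_torsion`. -/
def NewSignInput : Prop :=
  ∀ (K : ℕ) [NeZero K] (H : Subgroup (ZMod K)ˣ), -1 ∈ H →
    ∀ (q : ℕ), q.Prime → q ≠ p → ∀ K' : ℕ, K' * q = K → ¬ q ∣ K' →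
      (∀ u : (ZMod K)ˣ, ((u : ZMod K).val : ZMod K') = 1 → u ∈ H) →
    ∀ (O : Type) [CommRing O] [IsDomain O] [IsDiscreteValuationRing O]
      [IsAdicComplete (maximalIdeal O) O] [Finite (ResidueField O)]
      [CharZero O], (p : O) ∈ maximalIdeal O →
      ∀ x : MvPolynomial (Nat.Primes ⊕ (ZMod K)ˣ) ℤ →+* O, IsPoint K H x →
        ∀ (r : Γℚ →* M2 O), IsAttached p x r →
          ∀ u : (ZMod K)ˣ, ((u : ZMod K).val : ZMod K') = (q : ZMod K') →
            tVal x q ^ 2 * x (X (Sum.inr u)) = 1 →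
            ∀ A : ValuationSubring ℚbar, A.LiesOverPrime q → ∀ φ : Γℚ, A.IsFrobeniusAt φ q →
              (r φ).trace = tVal x q * x (X (Sum.inr u)) * ((q : O) + 1)

/-- **Bad reduction at `p ∥ K`, by the value of `U_p`.**  The same conclusion as `OrdInput`, for an
eigen system whose `U_p` has square the inverse of the diamond value at `p`.
Proved from `OrdTorsion` by `ordSignInput_of_torsion`. -/
def OrdSignInput : Prop :=
  ∀ (K : ℕ) [NeZero K] (H : Subgroup (ZMod K)ˣ), -1 ∈ H → p ≠ 2 →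
    ∀ K' : ℕ, K' * p = K → ¬ p ∣ K' →
      (∀ u : (ZMod K)ˣ, ((u : ZMod K).val : ZMod K') = 1 → u ∈ H) →
    ∀ (O : Type) [CommRing O] [IsDomain O] [IsDiscreteValuationRing O]
      [IsAdicComplete (maximalIdeal O) O] [Finite (ResidueField O)]
      [CharZero O], (p : O) ∈ maximalIdeal O →
      ∀ x : MvPolynomial (Nat.Primes ⊕ (ZMod K)ˣ) ℤ →+* O, IsPoint K H x →
        ∀ u₀ : (ZMod K)ˣ, ((u₀ : ZMod K).val : ZMod K') = (p : ZMod K') →
          tVal x p ^ 2 * x (X (Sum.inr u₀)) = 1 →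
        ∀ (r : Γℚ →* M2 O), IsAttached p x r →
          Submodule.span (ResidueField O) (Set.range fun σ => (r σ).map (residue O)) = ⊤ →
          ∀ A : ValuationSubring ℚbar, A.LiesOverPrime p → ∃ P : (M2 O)ˣ,
            (∀ σ ∈ A.decompositionSubgroup ℚ, ((P : M2 O) * r σ * (↑P⁻¹ : M2 O)) 1 0 = 0) ∧
            (∀ σ ∈ A.inertiaSubgroupIn ℚ, ((P : M2 O) * r σ * (↑P⁻¹ : M2 O)) 1 1 = 1) ∧
            ∀ φ : Γℚ, A.IsFrobeniusAt φ p → ∀ u : (ZMod K)ˣ,
              ((u : ZMod K).val : ZMod K') = (p : ZMod K') →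
                ((P : M2 O) * r φ * (↑P⁻¹ : M2 O)) 1 1 ^ 2 = x (X (Sum.inr u))

/-- **Good ordinary reduction at `p`.**  If the reduction spans all matrices and has an unramified
quotient, then the representation has an unramified quotient, and Frobenius acts there by a root of
`X² - T_p⟨p⟩ X + p⟨p⟩`.
Proved by `ordFlatInput`. -/
def OrdFlatInput : Prop :=
  ∀ (K : ℕ) [NeZero K] (H : Subgroup (ZMod K)ˣ), -1 ∈ H → ¬ p ∣ K → p ≠ 2 →
    ∀ (O : Type) [CommRing O] [IsDomain O] [IsDiscreteValuationRing O]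
      [IsAdicComplete (maximalIdeal O) O] [Finite (ResidueField O)]
      [CharZero O], (p : O) ∈ maximalIdeal O →
      ∀ x : MvPolynomial (Nat.Primes ⊕ (ZMod K)ˣ) ℤ →+* O, IsPoint K H x →
        ∀ (r : Γℚ →* M2 O), IsAttached p x r →
          Submodule.span (ResidueField O) (Set.range fun σ => (r σ).map (residue O)) = ⊤ →
          ∀ A : ValuationSubring ℚbar, A.LiesOverPrime p →
            ∀ U : (M2 (ResidueField O))ˣ,
              (∀ σ ∈ A.decompositionSubgroup ℚ, ((↑U⁻¹ : M2 (ResidueField O)) *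
                (r σ).map (residue O) * (U : M2 (ResidueField O))) 1 0 = 0) →
              (∀ σ ∈ A.inertiaSubgroupIn ℚ, ((↑U⁻¹ : M2 (ResidueField O)) *
                (r σ).map (residue O) * (U : M2 (ResidueField O))) 1 1 = 1) →
            ∃ P : (M2 O)ˣ,
              (∀ σ ∈ A.decompositionSubgroup ℚ, ((P : M2 O) * r σ * (↑P⁻¹ : M2 O)) 1 0 = 0) ∧
              (∀ σ ∈ A.inertiaSubgroupIn ℚ, ((P : M2 O) * r σ * (↑P⁻¹ : M2 O)) 1 1 = 1) ∧
              ∀ φ : Γℚ, A.IsFrobeniusAt φ p →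
                ((P : M2 O) * r φ * (↑P⁻¹ : M2 O)) 1 1 ^ 2 -
                  tVal x p * eVal x p * ((P : M2 O) * r φ * (↑P⁻¹ : M2 O)) 1 1 +
                  (p : O) * eVal x p = 0

variable {p}

/-- `p` lies in the maximal ideal of `ℤ_p`. -/
theorem padicInt_mem : (p : ℤ_[p]) ∈ maximalIdeal ℤ_[p] := by
  rw [PadicInt.maximalIdeal_eq_span_p]
  exact Ideal.mem_span_singleton_self _

/-- The properties of the `p`-adic representation of a semistable curve. -/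
structure IsCurveRep (W : WeierstrassCurve ℤ) (rb : Γℚ →* GL (Fin 2) (ZMod p))
    (ρ : Γℚ →* M2 ℤ_[p]) : Prop where
  /-- `ρ` is continuous. -/
  cont : MatCont ρ
  /-- The determinant is cyclotomic. -/
  det : ∀ σ, (ρ σ).det = cycO padicInt_mem σ
  /-- The trace reduces to that of `rb`. -/
  trace : ∀ σ, PadicInt.toZMod (ρ σ).trace = (rb σ : M2 (ZMod p)).trace
  /-- At good `ℓ ≠ p`: unramified, with Frobenius of trace `a_ℓ`. -/
  good : ∀ ℓ : ℕ, ℓ.Prime → ℓ ≠ p → ¬ (ℓ : ℤ) ∣ W.Δ → ∀ A : ValuationSubring ℚbar,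
    A.LiesOverPrime ℓ → (∀ σ ∈ A.inertiaSubgroupIn ℚ, ρ σ = 1) ∧
      ∀ φ : Γℚ, A.IsFrobeniusAt φ ℓ → (ρ φ).trace = ((W.apOfModel ℓ : ℤ) : ℤ_[p])
  /-- At bad `ℓ ≠ p`: unipotent inertia and Frobenius of trace `±(ℓ + 1)`. -/
  bad : ∀ ℓ : ℕ, ℓ.Prime → ℓ ≠ p → (ℓ : ℤ) ∣ W.Δ → ∃ u : ℤ_[p], u ^ 2 = 1 ∧
    ∀ A : ValuationSubring ℚbar, A.LiesOverPrime ℓ →
      (∀ σ ∈ A.inertiaSubgroupIn ℚ, (ρ σ - 1) * (ρ σ - 1) = 0) ∧
      ∀ φ : Γℚ, A.IsFrobeniusAt φ ℓ → (ρ φ).trace = u * ((ℓ : ℤ_[p]) + 1)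
  /-- Good reduction at `p` gives flatness. -/
  flat : ¬ (p : ℤ) ∣ W.Δ → (repOf ρ cont).IsFlatAt p
  /-- Bad reduction at `p` gives an ordinary triangular form with quotient sign at Frobenius. -/
  ord : (p : ℤ) ∣ W.Δ → ∀ A : ValuationSubring ℚbar, A.LiesOverPrime p → ∃ P : (M2 ℤ_[p])ˣ,
    (∀ σ ∈ A.decompositionSubgroup ℚ, ((P : M2 ℤ_[p]) * ρ σ * (↑P⁻¹ : M2 ℤ_[p])) 1 0 = 0) ∧
    (∀ σ ∈ A.inertiaSubgroupIn ℚ, ((P : M2 ℤ_[p]) * ρ σ * (↑P⁻¹ : M2 ℤ_[p])) 1 1 = 1) ∧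
    ∀ φ : Γℚ, A.IsFrobeniusAt φ p → ((P : M2 ℤ_[p]) * ρ φ * (↑P⁻¹ : M2 ℤ_[p])) 1 1 ^ 2 = 1

variable (p)

/-- **The `p`-adic representation of a semistable curve.**
Proved by `Fermat.GR.CurveRep.curveRepInput`. -/
def CurveRepInput : Prop :=
  2 < p → ∀ (W : WeierstrassCurve ℤ) (hW : W.Δ ≠ 0), W.IsSemistableModel →
    ∃ ρ : Γℚ →* M2 ℤ_[p], IsCurveRep W (Fermat.SW.Tors.tRep (p := p) W hW) ρ

end Fermat.GR.RT

end
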