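import Fermat.Agent.GR.RT.OrdFlatStatement
import Fermat.Agent.GR.RT.OrdProofBound
import Fermat.Agent.GR.RT.FlatProofBound

/-!
# The classes which are flat and strict at `p`

After a change of basis a strict class comes from the line, so its unramified diagonal entry
vanishes: only the leading residues modulo the coboundaries of diagonal matrices remain.
-/

set_option autoImplicit false

noncomputable section

open Fermat.EC.Val Matrix

namespace Fermat.FLAT

local notation "ℚbar" => AlgebraicClosure ℚ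
local notation "Γℚ" => (AlgebraicClosure ℚ ≃ₐ[ℚ] AlgebraicClosure ℚ)

variable {p : ℕ} [hp : Fact p.Prime] {A : ValuationSubring ℚbar}
  {k : Type*} [Field k] [CharP k p] [Finite k] {r : Γℚ →* Matrix (Fin 2) (Fin 2) k}

/-- **The ordinary count with vanishing unramified entry.** -/
theorem OrdData.exists_invariant_zero (D : OrdData p A r) (L : IntermediateField ℚ ℚbar)
    [FiniteDimensional ℚ L] [Normal ℚ L] (hL : ∀ σ ∈ L.fixingSubgroup, r σ = 1) :
    ∃ n : ℕ, n ≤ Nat.card (adInvariants A r) ∧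
      ∃ Θ : (Γℚ → Matrix (Fin 2) (Fin 2) k) → Fin n, ∀ c c', IsFlatCocycle A r c →
        IsFlatCocycle A r c' → D.norm c D.φ 0 0 = 0 → D.norm c' D.φ 0 0 = 0 → Θ c = Θ c' →
          IsAdCoboundary A r (c - c') := by
  classical
  have hpos : 1 ≤ Nat.card (adInvariants A r) := by
    have : Nonempty (adInvariants A r) := ⟨⟨0, by simp [adInvariants]⟩⟩
    exact Nat.card_pos
  -- without a flat cocycle there is nothing to separate
  by_cases hex : ∃ c₀, IsFlatCocycle A r c₀
  swap
  · exact ⟨1, hpos, fun _ => 0, fun c c' hc => absurd ⟨c, hc⟩ hex⟩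
  obtain ⟨c₀, hc₀⟩ := hex
  obtain ⟨hfin, hΩ⟩ := D.finite_Ω
  have := hfin
  -- `ψ x` is `omega` of the coboundary of `diagX x`, a point of `Ω`, which is no larger than `k`
  let ψ : k →+ ((k →+ ZMod p) →+ IsLocalRing.ResidueField A) :=
    AddMonoidHom.ofMapSub (fun x => D.omega (D.ordClass_diag L hL hc₀ x)) fun x y => by
      rw [← D.omega_sub]
      refine D.omega_congr _ _ ?_
      rw [← OrdData.adCob_sub]
      congr 1
      ext i j
      fin_cases i <;> fin_cases j <;> simp [diagX]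
      ring
  have hψmem : ∀ x, Φω (k := k) D.place (ψ x) = D.Tω (ψ x) := fun x =>
    D.phi_omega_eq (D.ordClass_diag L hL hc₀ x) (D.adCob_diagX_apply x D.φ_dec).1
  let ψ' : k → D.Ω := fun x => ⟨ψ x, hψmem x⟩
  have hmem : ∀ {c c'}, (hc : IsFlatCocycle A r c) → (hc' : IsFlatCocycle A r c') →
      D.norm c D.φ 0 0 = 0 → D.norm c' D.φ 0 0 = 0 →
      Φω (k := k) D.place (D.omega ((D.ordClass_norm L hL hc).sub (D.ordClass_norm L hL hc'))) =
        D.Tω (D.omega ((D.ordClass_norm L hL hc).sub (D.ordClass_norm L hL hc'))) :=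
    fun {c c'} hc hc' h h' => D.phi_omega_eq _ (by
      simp only [Pi.sub_apply, Matrix.sub_apply, h, h', sub_zero])
  -- cocycles with difference of the same `omega` as some `diagX x` differ by a coboundary
  have hdiff : ∀ c c', (hc : IsFlatCocycle A r c) → (hc' : IsFlatCocycle A r c') →
      D.norm c D.φ 0 0 = 0 → D.norm c' D.φ 0 0 = 0 →
      ∀ x : k, D.omega ((D.ordClass_norm L hL hc).sub (D.ordClass_norm L hL hc')) = ψ x →
        IsAdCoboundary A r (c - c') := by
    intro c c' hc hc' hu hu' x hx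
    have hd := ((D.ordClass_norm L hL hc).sub (D.ordClass_norm L hL hc')).sub
      (D.ordClass_diag L hL hc₀ x)
    have hu0 : (D.norm c - D.norm c' - adCob r (diagX x)) D.φ 0 0 = 0 := by
      simp only [Pi.sub_apply, Matrix.sub_apply, (D.adCob_diagX_apply x D.φ_dec).1, hu, hu',
        sub_zero]
    have h0 : D.omega hd = 0 := by
      rw [D.omega_sub ((D.ordClass_norm L hL hc).sub (D.ordClass_norm L hL hc'))
        (D.ordClass_diag L hL hc₀ x), hx]
      exact sub_self _
    refine ⟨diagX x + (D.offX (c D.γ) - D.offX (c' D.γ)), ?_, fun σ hσ => ?_⟩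
    · rw [Matrix.trace_add, Matrix.trace_sub, trace_diagX, D.trace_offX, D.trace_offX, sub_zero,
        add_zero]
    · have h1 := D.eq_zero hd.shape hu0 (D.tame_zero hd h0) σ hσ
      rw [← adCob_apply, OrdData.adCob_add, OrdData.adCob_sub]
      simp only [OrdData.norm, Pi.sub_apply, Pi.add_apply] at h1 ⊢
      rw [← sub_eq_zero, ← h1]
      abel
  have := Fintype.ofFinite k
  have := Fintype.ofFinite D.Ω
  by_cases hinj : Function.Injective ψ
  · -- non-split
    have hψ'inj : Function.Injective ψ' := fun x y e => hinj (congrArg Subtype.val e)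
    have hsurj : Function.Surjective ψ' := by
      refine ((Fintype.bijective_iff_injective_and_card ψ').mpr ⟨hψ'inj, ?_⟩).2
      rw [← Nat.card_eq_fintype_card, ← Nat.card_eq_fintype_card]
      exact le_antisymm (Nat.card_le_card_of_injective ψ' hψ'inj) hΩ
    refine ⟨1, hpos, fun _ => 0, fun c c' hc hc' hu hu' _ => ?_⟩
    obtain ⟨x, hx⟩ := hsurj ⟨_, hmem hc hc' hu hu'⟩
    exact hdiff c c' hc hc' hu hu' x (congrArg Subtype.val hx).symm
  -- split
  rw [injective_iff_map_eq_zero] at hinj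
  push Not at hinj
  obtain ⟨x₀, hx₀, hx₀0⟩ := hinj
  have h2 : (-2 : k) * x₀ ≠ 0 :=
    mul_ne_zero (neg_ne_zero.mpr (two_ne_zero_of_charP (p := p) D.odd)) hx₀0
  have hsI : ∀ τ ∈ tame A D.π, r τ 0 1 = 0 := by
    intro τ hτ
    have h1 := D.tame_zero (D.ordClass_diag L hL hc₀ x₀) hx₀ τ hτ
    rw [(D.adCob_diagX_apply x₀ (D.tame_dec hτ)).2, D.inertia_one τ hτ.1, div_one,
      mul_eq_zero] at h1
    exact h1.resolve_left h2
  have hs : ∀ σ ∈ A.decompositionSubgroup ℚ, r σ 0 1 = 0 := by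
    intro σ hσ
    have h1 := D.eq_zero (D.ordClass_diag L hL hc₀ x₀).shape (D.adCob_diagX_apply x₀ D.φ_dec).1
      (fun τ hτ => by rw [(D.adCob_diagX_apply x₀ (D.tame_dec hτ)).2, hsI τ hτ, mul_zero, zero_div])
      σ hσ
    have h3 := congrFun (congrFun h1 0) 1
    rw [(D.adCob_diagX_apply x₀ hσ).2, Matrix.zero_apply, div_eq_zero_iff,
      or_iff_left (D.diag_ne_zero hσ).2, mul_eq_zero] at h3
    exact h3.resolve_left h2
  have hinv : ∀ x : k, diagX x ∈ adInvariants A r := fun x => ⟨trace_diagX x, fun σ hσ => by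
    ext i j
    fin_cases i <;> fin_cases j <;>
      simp [diagX, Matrix.mul_apply, Fin.sum_univ_two, hs σ hσ, D.lower σ hσ, mul_comm]⟩
  -- so the diagonal matrices are invariant and `omega` separates the normalised cocycles
  let Ψ : (Γℚ → Matrix (Fin 2) (Fin 2) k) → D.Ω := fun c =>
    if h : IsFlatCocycle A r c ∧ D.norm c D.φ 0 0 = 0 then
      ⟨_, D.phi_omega_eq (D.ordClass_norm L hL h.1) h.2⟩
    else ψ' 0
  refine ⟨Nat.card D.Ω, hΩ.trans (Nat.card_le_card_of_injective
    (fun x => (⟨diagX x, hinv x⟩ : adInvariants A r))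
      fun x y e => by simpa [diagX] using congrFun (congrFun (congrArg Subtype.val e) 0) 0),
    fun c => Finite.equivFin _ (Ψ c), fun c c' hc hc' hu hu' e => ?_⟩
  have e' := (Finite.equivFin _).injective e
  simp only [Ψ, dif_pos (And.intro hc hu), dif_pos (And.intro hc' hu')] at e'
  refine hdiff c c' hc hc' hu hu' 0 ?_
  have e'' : D.omega (D.ordClass_norm L hL hc) = D.omega (D.ordClass_norm L hL hc') :=
    congrArg Subtype.val e'
  rw [D.omega_sub (D.ordClass_norm L hL hc) (D.ordClass_norm L hL hc'), e'', map_zero]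
  exact sub_self _

end Fermat.FLAT

namespace Fermat.GR.RT

open Fermat.CFT Fermat.FLAT

local notation "ℚbar" => AlgebraicClosure ℚ
local notation "Γℚ" => (AlgebraicClosure ℚ ≃ₐ[ℚ] AlgebraicClosure ℚ)
local notation "M2" R => Matrix (Fin 2) (Fin 2) R

variable {p : ℕ} [hp : Fact p.Prime] {k : Type} [Field k] [Algebra (ZMod p) k]
  {r : Γℚ →* M2 k} {A : ValuationSubring ℚbar} {U : (M2 k)ˣ}
  {a d : A.decompositionSubgroup ℚ →* k} {b : A.decompositionSubgroup ℚ → k}
  (hb : ∀ δ : A.decompositionSubgroup ℚ,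
    (↑U⁻¹ : M2 k) * r δ.1 * (U : M2 k) = !![a δ, b δ; 0, d δ])

include hb in
/-- On inertia the triangular form has diagonal the cyclotomic character and one. -/
theorem triangular_diag_inertia (hdI : ∀ δ, δ.1 ∈ A.inertiaSubgroupIn ℚ → d δ = 1)
    (hdet : ∀ δ : A.decompositionSubgroup ℚ, (r δ.1).det =
      algebraMap (ZMod p) k ((cycChar p δ.1 : (ZMod p)ˣ) : ZMod p))
    {σ : Γℚ} (hσ : σ ∈ A.inertiaSubgroupIn ℚ) :
    ((↑U⁻¹ : M2 k) * r σ * (U : M2 k)) 1 1 = 1 ∧
      ((↑U⁻¹ : M2 k) * r σ * (U : M2 k)) 0 0 = (cycNat p σ : k) := by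
  set δ : A.decompositionSubgroup ℚ := ⟨σ, Fermat.FLAT.inertia_le_decomposition A hσ⟩
  have h1 := hb δ
  have h2 : a δ * d δ = algebraMap (ZMod p) k ((cycChar p σ : (ZMod p)ˣ) : ZMod p) := by
    have h3 := congrArg Matrix.det h1
    rw [Matrix.det_units_conj', hdet, Matrix.det_fin_two_of] at h3
    simpa [δ] using h3.symm
  rw [hdI δ hσ, mul_one] at h2
  rw [show r σ = r δ.1 from rfl, h1]
  refine ⟨by simp [hdI δ hσ], ?_⟩
  rw [cycNat, ← map_natCast (algebraMap (ZMod p) k), ZMod.natCast_zmod_val]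
  simpa using h2

variable [CharP k p] [Finite k]

include hb in
/-- A unipotent change of the triangular basis carries ordinary data. -/
theorem exists_ordData_triangular (h : IsPlace A p) (hp2 : p ≠ 2)
    (hdI : ∀ δ, δ.1 ∈ A.inertiaSubgroupIn ℚ → d δ = 1)
    (hdet : ∀ δ : A.decompositionSubgroup ℚ, (r δ.1).det =
      algebraMap (ZMod p) k ((cycChar p δ.1 : (ZMod p)ˣ) : ZMod p)) :
    ∃ (t : k) (hPQ : (U : M2 k) * !![1, t; 0, 1] * (!![1, -t; 0, 1] * (↑U⁻¹ : M2 k)) = 1)
      (hQP : !![1, -t; 0, 1] * (↑U⁻¹ : M2 k) * ((U : M2 k) * !![1, t; 0, 1]) = 1),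
      Nonempty (OrdData p A (Fermat.FLAT.conjHom r hPQ hQP)) := by
  obtain ⟨t, ht⟩ := exists_ordData r h hp2 (U : M2 k) (↑U⁻¹ : M2 k)
    (fun σ hσ => by
      have h1 := hb ⟨σ, hσ⟩
      simp only at h1
      rw [h1]
      simp) fun σ hσ => triangular_diag_inertia hb hdI hdet hσ
  have hPQ := unipotent_basis U.mul_inv t
  exact ⟨t, hPQ, mul_eq_one_comm.mp hPQ, ht hPQ (mul_eq_one_comm.mp hPQ)⟩

/-- The first order strict relation. -/
def IsStrictRel (r : Γℚ →* M2 k) (a d : A.decompositionSubgroup ℚ → k)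
    (z : A.decompositionSubgroup ℚ → adZero p k) : Prop :=
  ∀ σ τ : A.decompositionSubgroup ℚ,
    ((z σ : adZero p k) : M2 k) * r σ.1 * (r τ.1 - d τ • (1 : M2 k)) +
      (r σ.1 - a σ • (1 : M2 k)) * (((z τ : adZero p k) : M2 k) * r τ.1) = 0

/-- The cocycles which are zero or flat, and satisfy the strict relation. -/
def flatStrictCocycles (h : IsPlace A p) (r : Γℚ →* M2 k) (a d : A.decompositionSubgroup ℚ → k) :
    Submodule (ZMod p) (Coh.Z1 (glev (A.decompositionSubgroup ℚ).subtype) (locRep p r A)) :=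
  AddSubgroup.toZModSubmodule p
    { carrier := {z | (z = 0 ∨ IsFlatCocycle A r (decExt z.1)) ∧ IsStrictRel r a d z.1}
      zero_mem' := ⟨Or.inl rfl, fun σ τ => by simp⟩
      add_mem' := by
        rintro x y ⟨hx, hx'⟩ ⟨hy, hy'⟩
        refine ⟨?_, fun σ τ => ?_⟩
        · rcases hx with rfl | hx
          · simpa using hy
          rcases hy with rfl | hy
          · exact Or.inr (by simpa using hx)
          exact Or.inr (by rw [Submodule.coe_add, decExt_add]; exact hx.add h hy)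
        · have e : ∀ ρ, (((x + y).1 ρ : adZero p k) : M2 k) = (x.1 ρ).1 + (y.1 ρ).1 := fun ρ => rfl
          have h1 := hx' σ τ
          have h2 := hy' σ τ
          rw [e, e, add_mul, add_mul, add_mul, mul_add, add_add_add_comm, h1, h2, add_zero]
      neg_mem' := by
        rintro x ⟨hx, hx'⟩
        refine ⟨?_, fun σ τ => ?_⟩
        · rcases hx with rfl | hx
          · simp
          exact Or.inr (by rw [Submodule.coe_neg, decExt_neg]; exact hx.neg)
        · have e : ∀ ρ, (((-x).1 ρ : adZero p k) : M2 k) = -(x.1 ρ).1 := fun ρ => rfl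
          rw [e, e, neg_mul, neg_mul, neg_mul, mul_neg, ← neg_add, hx' σ τ, neg_zero] }

section NormalForm

variable {P Q : M2 k} (hPQ : P * Q = 1) (hQP : Q * P = 1) (L : IntermediateField ℚ ℚbar)
  [FiniteDimensional ℚ L] [Normal ℚ L] (hL : ∀ σ ∈ L.fixingSubgroup, r σ = 1)

include hb hL in
/-- A flat strict class has a representative from the line, with vanishing unramified entry. -/
theorem exists_strict_normalForm {t : k} (hP : P = (U : M2 k) * !![1, t; 0, 1])
    (hQ : Q = !![1, -t; 0, 1] * (↑U⁻¹ : M2 k))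
    (D : OrdData p A (Fermat.FLAT.conjHom r hPQ hQP)) (hns : ∃ σ, a σ ≠ d σ)
    (hsm : Coh.IsSmooth (glev (A.decompositionSubgroup ℚ).subtype) (locRep p r A))
    (z : Coh.Z1 (glev (A.decompositionSubgroup ℚ).subtype) (locRep p r A))
    (hz : IsFlatCocycle A r (decExt z.1)) (hz' : IsStrictRel r a d z.1) :
    ∃ X : M2 k, X.trace = 0 ∧
      IsFlatCocycle A (Fermat.FLAT.conjHom r hPQ hQP)
        ((fun σ => Q * decExt z.1 σ * P) - adCob (Fermat.FLAT.conjHom r hPQ hQP) X) ∧
      D.norm ((fun σ => Q * decExt z.1 σ * P) - adCob (Fermat.FLAT.conjHom r hPQ hQP) X)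
        D.φ 0 0 = 0 := by
  have hL' : ∀ σ ∈ L.fixingSubgroup, (Fermat.FLAT.conjHom r hPQ hQP) σ = 1 := fun σ hσ => by
    rw [Fermat.FLAT.conjHom_apply, hL σ hσ, mul_one, hQP]
  -- the class comes from the line, up to the coboundary of some `m`
  obtain ⟨y, hy⟩ := LinearMap.mem_range.mp
    (cl_mem_strictSub_of hb (Or.inl hns) hsm z hz')
  obtain ⟨f, rfl⟩ := Coh.cl₁_surjective y
  rw [Coh.map₁_cl₁, eq_comm, Coh.cl₁_eq_iff] at hy
  obtain ⟨m, hm⟩ := hy
  have htr : (Q * (m : M2 k) * P).trace = 0 := by rw [trace_QXP hPQ]; exact m.2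
  -- subtract that coboundary in the new basis
  refine ⟨Q * (m : M2 k) * P, htr, (hz.conj hPQ hQP).sub_adCob L hL' _, ?_⟩
  set c'' := (fun σ => Q * decExt z.1 σ * P) -
    adCob (Fermat.FLAT.conjHom r hPQ hQP) (Q * (m : M2 k) * P) with hc''
  -- on the decomposition group only the upper right entry is left
  have hform : ∀ σ ∈ A.decompositionSubgroup ℚ, c'' σ 1 0 = 0 ∧ c'' σ 0 0 = 0 := by
    intro σ hσ
    have h1 : r σ * (m : M2 k) * r σ⁻¹ - m = ((z.1 ⟨σ, hσ⟩ : adZero p k) : M2 k) -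
        (U : M2 k) * !![0, f.1 ⟨σ, hσ⟩; 0, 0] * (↑U⁻¹ : M2 k) :=
      congrArg Subtype.val (congrFun hm ⟨σ, hσ⟩)
    have h2 : c'' σ = !![1, -t; 0, 1] * !![0, f.1 ⟨σ, hσ⟩; 0, 0] * !![1, t; 0, 1] := by
      have hconj : Fermat.FLAT.conjHom r hPQ hQP σ * (Q * (m : M2 k) * P) *
          Fermat.FLAT.conjHom r hPQ hQP σ⁻¹ = Q * (r σ * m * r σ⁻¹) * P := by
        simp only [Fermat.FLAT.conjHom_apply]
        calc Q * r σ * P * (Q * (m : M2 k) * P) * (Q * r σ⁻¹ * P)
            = Q * r σ * (P * Q) * m * (P * Q) * r σ⁻¹ * P := by simp [mul_assoc]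
          _ = Q * (r σ * m * r σ⁻¹) * P := by rw [hPQ]; simp [mul_assoc]
      rw [hc'', Pi.sub_apply, adCob_apply, hconj, ← sub_mul, ← mul_sub, ← sub_mul, ← mul_sub,
        decExt_apply z.1 hσ, h1, sub_sub_cancel, hQ, hP]
      simp only [← mul_assoc]
      rw [mul_assoc (!![1, -t; 0, 1] : M2 k) (↑U⁻¹ : M2 k) (U : M2 k), U.inv_mul, mul_one,
        mul_assoc _ (↑U⁻¹ : M2 k) (U : M2 k), U.inv_mul, mul_one]
    rw [h2]
    constructor <;> simp [Matrix.mul_apply, Fin.sum_univ_two]
  -- so normalising keeps the corner zero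
  have hoff : D.offX (c'' D.γ) 1 0 = 0 := by simp [OrdData.offX, (hform _ D.γ_dec).1]
  rw [OrdData.norm, Pi.sub_apply, Matrix.sub_apply, (hform _ D.φ_dec).2, adCob_apply,
    Matrix.sub_apply, (D.conj_apply D.φ_dec hoff).2.1, sub_self, sub_zero]

omit [CharP k p] in
/-- Cocycles differing by coboundaries in a new basis have the same class. -/
theorem cl₁_eq_of_conj_coboundary
    (z w : Coh.Z1 (glev (A.decompositionSubgroup ℚ).subtype) (locRep p r A)) {X Y : M2 k}
    (hX : X.trace = 0) (hY : Y.trace = 0)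
    (h : IsAdCoboundary A (Fermat.FLAT.conjHom r hPQ hQP)
      ((fun σ => Q * decExt z.1 σ * P) - adCob (Fermat.FLAT.conjHom r hPQ hQP) X -
        ((fun σ => Q * decExt w.1 σ * P) - adCob (Fermat.FLAT.conjHom r hPQ hQP) Y))) :
    Coh.cl₁ (glev (A.decompositionSubgroup ℚ).subtype) (locRep p r A) z =
      Coh.cl₁ (glev (A.decompositionSubgroup ℚ).subtype) (locRep p r A) w := by
  obtain ⟨V, hV, hVe⟩ := h
  rw [Coh.cl₁_eq_iff]
  set V' := V + X - Y
  refine ⟨⟨P * V' * Q, ?_⟩, funext fun g => Subtype.ext ?_⟩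
  · rw [mem_adZero, trace_QXP hQP, Matrix.trace_sub, Matrix.trace_add, hV, hX, hY, add_zero,
      sub_zero]
  change r g.1 * (P * V' * Q) * r (g.1)⁻¹ - P * V' * Q = _
  have h1 := hVe g.1 g.2
  simp only [Pi.sub_apply, adCob_apply] at h1
  have h2 : Fermat.FLAT.conjHom r hPQ hQP g.1 * V' * Fermat.FLAT.conjHom r hPQ hQP (g.1)⁻¹ - V' =
      Q * (decExt z.1 g.1 - decExt w.1 g.1) * P := by
    rw [mul_sub Q, sub_mul]
    simp only [V', mul_add, mul_sub, add_mul, sub_mul]
    linear_combination (norm := abel) -h1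
  have hback : ∀ M : M2 k, P * (Q * M * P) * Q = M := fun M => by
    calc P * (Q * M * P) * Q = P * Q * M * (P * Q) := by simp [mul_assoc]
      _ = M := by rw [hPQ, one_mul, mul_one]
  have h3 := congrArg (fun Z => P * Z * Q) h2
  rw [hback, mul_sub P, sub_mul, decExt_apply _ g.2, decExt_apply _ g.2] at h3
  refine Eq.trans ?_ h3
  congr 1
  simp only [Fermat.FLAT.conjHom_apply]
  calc r g.1 * (P * V' * Q) * r (g.1)⁻¹
      = P * Q * r g.1 * (P * V' * Q) * r (g.1)⁻¹ * (P * Q) := by rw [hPQ, one_mul, mul_one]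
    _ = _ := by simp [mul_assoc]

include hb hL in
/-- The flat strict classes are at most as many as the invariants. -/
theorem card_flatStrictClasses_le (h : IsPlace A p) {t : k} (hP : P = (U : M2 k) * !![1, t; 0, 1])
    (hQ : Q = !![1, -t; 0, 1] * (↑U⁻¹ : M2 k))
    (D : OrdData p A (Fermat.FLAT.conjHom r hPQ hQP)) (hns : ∃ σ, a σ ≠ d σ)
    (hsm : Coh.IsSmooth (glev (A.decompositionSubgroup ℚ).subtype) (locRep p r A)) :
    Finite ((flatStrictCocycles h r a d).map
        (Coh.cl₁ (glev (A.decompositionSubgroup ℚ).subtype) (locRep p r A))) ∧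
      Nat.card ((flatStrictCocycles h r a d).map
        (Coh.cl₁ (glev (A.decompositionSubgroup ℚ).subtype) (locRep p r A))) ≤
      Nat.card (Coh.H0 (locRep p r A)) := by
  have hL' : ∀ σ ∈ L.fixingSubgroup, (Fermat.FLAT.conjHom r hPQ hQP) σ = 1 := fun σ hσ => by
    rw [Fermat.FLAT.conjHom_apply, hL σ hσ, mul_one, hQP]
  -- `Θ` has few values and separates normalised flat cocycles up to coboundaries
  obtain ⟨n, hn, Θ, hΘ⟩ := D.exists_invariant_zero L hL'
  set lv := glev (A.decompositionSubgroup ℚ).subtype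
  set S := (flatStrictCocycles h r a d).map (Coh.cl₁ lv (locRep p r A))
  by_cases hex : ∃ z : Coh.Z1 lv (locRep p r A), IsFlatCocycle A r (decExt z.1)
  · obtain ⟨z₀, hz₀⟩ := hex
    have hflat : ∀ z ∈ flatStrictCocycles h r a d, IsFlatCocycle A r (decExt z.1) := by
      rintro z ⟨rfl | hz, -⟩
      · exact isFlatCocycle_decExt_zero h hz₀
      · exact hz
    have hpre : ∀ x : S, ∃ z ∈ flatStrictCocycles h r a d, Coh.cl₁ lv (locRep p r A) z = x.1 :=
      fun x => x.2
    -- a cocycle in each class, brought to normal form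
    choose zf hzW hzf using hpre
    choose X hXtr hXflat hXu using fun x : S => exists_strict_normalForm hb hPQ hQP L hL hP hQ D
      hns hsm (zf x) (hflat _ (hzW x)) (hzW x).2
    -- so its invariant is injective on classes
    have hinj : Function.Injective fun x : S =>
        Θ ((fun σ => Q * decExt (zf x).1 σ * P) - adCob (Fermat.FLAT.conjHom r hPQ hQP) (X x)) :=
      fun x y hxy => by
      refine Subtype.ext ?_
      rw [← hzf x, ← hzf y]
      exact cl₁_eq_of_conj_coboundary hPQ hQP _ _ (hXtr x) (hXtr y)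
        (hΘ _ _ (hXflat x) (hXflat y) (hXu x) (hXu y) hxy)
    have := Finite.of_injective _ hinj
    refine ⟨inferInstance, (Nat.card_le_card_of_injective _ hinj).trans ?_⟩
    rw [Nat.card_fin, natCard_H0_locRep]
    exact hn.trans (Fermat.FLAT.card_adInvariants_conjHom_le r hPQ hQP)
  -- without a flat cocycle only the zero class is left
  · have hbot : S = ⊥ := by
      rw [eq_bot_iff]
      rintro _ ⟨z, ⟨rfl | hz, -⟩, rfl⟩
      · simp
      · exact absurd ⟨z, hz⟩ hex
    rw [hbot]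
    have : Finite (adZero p k) := Subtype.finite
    have : Finite (Coh.H0 (locRep p r A)) := Subtype.finite
    have : Nonempty (Coh.H0 (locRep p r A)) := ⟨0⟩
    exact ⟨inferInstance, (le_of_eq Nat.card_unique).trans Nat.card_pos⟩

end NormalForm

variable (p) in
/-- **The bound on the classes which are flat and strict.** -/
theorem flatStrictBound : FlatStrictBound p := by
  intro hp2 k _ _ _ r hopen A hA U a d b hb hd hdI hdet
  have : CharP k p := charP_of_injective_algebraMap (algebraMap (ZMod p) k).injective p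
  have : NeZero p := ⟨hp.out.ne_zero⟩
  have h : IsPlace A p := ⟨hp.out, hA⟩
  obtain ⟨L, _, _, hL⟩ := exists_normal_field_trivial hopen
  obtain ⟨t, hPQ, hQP, ⟨D⟩⟩ := exists_ordData_triangular hb h hp2.ne' hdI hdet
  have hns : ∃ σ, a σ ≠ d σ := by
    refine ⟨⟨D.γ, D.γ_dec⟩, fun e => D.χ_ne_one ?_⟩
    rw [← (triangular_diag_inertia hb hdI hdet D.γ_mem).2,
      show (↑U⁻¹ : M2 k) * r D.γ * (U : M2 k) = _ from hb ⟨_, D.γ_dec⟩]
    simpa [hdI ⟨D.γ, D.γ_dec⟩ D.γ_mem] using e
  obtain ⟨hfin, hcard⟩ := card_flatStrictClasses_le hb hPQ hQP L hL h rfl rfl D hns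
    (isSmooth_locRep_of_isOpen p hopen A)
  exact ⟨_, hfin, hcard, fun c z hzc hc hz => ⟨z, ⟨Or.inr (hc.congr_dec fun σ hσ => by
    rw [decExt_apply z.1 hσ, hzc]), hz⟩, rfl⟩⟩

end Fermat.GR.RT

end
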