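import Fermat.Agent.RED.Flat.OrdAnnihilator
import Fermat.Agent.FLAT.ORD.ConnLine
import Fermat.Agent.GR.RT.LiftInputs
import Fermat.Agent.GR.RT.Attach
import Fermat.Agent.FLAT.Residual

/-!
# Good ordinary reduction at `p`

If the reduction of the representation of an eigen system of level prime to `p` has an unramified
quotient at `p` then the connected parts of its levels are lines, and Frobenius is a root of the
Eichler polynomial on the quotient by them.
-/

set_option autoImplicit false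

noncomputable section

open IsLocalRing MvPolynomial Fermat.EC.Val

namespace Fermat.GR.RT

local notation "ℚbar" => AlgebraicClosure ℚ
local notation "Γℚ" => (AlgebraicClosure ℚ ≃ₐ[ℚ] AlgebraicClosure ℚ)
local notation "M2" R => Matrix (Fin 2) (Fin 2) R

variable {p : ℕ} [hp : Fact p.Prime]

/-- On inertia at `p ∤ K` the determinant of an attached representation is cyclotomic. -/
theorem IsAttached.det_inertia_atP {K : ℕ} [NeZero K] {H : Subgroup (ZMod K)ˣ}
    {O : Type} [CommRing O] [IsDomain O] [IsDiscreteValuationRing O]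
    [IsAdicComplete (maximalIdeal O) O]
    [Finite (ResidueField O)] (hpO : (p : O) ∈ maximalIdeal O)
    {x : MvPolynomial (Nat.Primes ⊕ (ZMod K)ˣ) ℤ →+* O} (hx : IsPoint K H x) {r : Γℚ →* M2 O}
    (hr : IsAttached p x r) (hpK : ¬ p ∣ K) {A : ValuationSubring ℚbar} (hA : A.LiesOverPrime p)
    {σ : Γℚ} (hσ : σ ∈ A.inertiaSubgroupIn ℚ) : (r σ).det = cycO hpO σ := by
  classical
  -- the determinant times the inverse diamond character, as a diagonal representation
  let χ : Γℚ →* O := diaVal hx |>.comp ((invMonoidHom : (ZMod K)ˣ →* (ZMod K)ˣ).comp (cycK K))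
  let r' : Γℚ →* M2 O := (Matrix.diagonalRingHom (Fin 2) O).toMonoidHom.comp
    { toFun := fun τ => ![(r τ).det * χ τ, 1]
      map_one' := funext fun i => by fin_cases i <;> simp
      map_mul' := fun τ τ' => funext fun i => by
        fin_cases i
        · simp [Matrix.det_mul]; ring
        · simp }
  have hdet : ∀ τ, (r' τ).det = (r τ).det * χ τ := fun τ => by
    change (Matrix.diagonal ![(r τ).det * χ τ, 1]).det = _
    simp [Fin.prod_univ_two]
  have hr' : MatCont r' := fun n => by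
    obtain ⟨L₁, hL₁, h₁⟩ := hr.cont n
    obtain ⟨L₂, hL₂, h₂⟩ := cycK_cont K
    refine ⟨L₁ ⊔ L₂, inferInstance, fun τ hτ i j => ?_⟩
    have hχ : χ τ = 1 := by
      change diaVal hx (cycK K τ)⁻¹ = 1
      rw [h₂ τ fun y hy => hτ y ((le_sup_right : L₂ ≤ L₁ ⊔ L₂) hy), inv_one, map_one]
    change (Matrix.diagonal ![(r τ).det * χ τ, 1] - 1 : M2 O) i j ∈ _
    fin_cases i <;> fin_cases j <;> simp [hχ]
    have hm := h₁ τ fun y hy => hτ y ((le_sup_left : L₁ ≤ L₁ ⊔ L₂) hy)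
    have hm0 : ∀ a b, Ideal.Quotient.mk (maximalIdeal O ^ n) (r τ a b) =
        (1 : M2 (O ⧸ maximalIdeal O ^ n)) a b := fun a b => by
      have := hm a b
      rw [← Ideal.Quotient.eq_zero_iff_mem, Matrix.sub_apply, map_sub, sub_eq_zero] at this
      rw [this, Matrix.one_apply, Matrix.one_apply]
      split_ifs <;> simp
    rw [← Ideal.Quotient.eq_zero_iff_mem, map_sub, map_one, Matrix.det_fin_two, map_sub, map_mul,
      map_mul, hm0, hm0, hm0, hm0]
    simp
  -- it is cyclotomic, and the diamond character is trivial on inertia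
  have : IsLocalHom (algebraMap O O) := ⟨fun a ha => by simpa using ha⟩
  have h := det_eq_cycO (A := O) hpO hr' (Nat.primeFactors (K * p))
    (fun ℓ hℓ hbad B hB φ hφ => ?_) σ
  · rw [Algebra.algebraMap_self, RingHom.id_apply, hdet] at h
    rw [← h]
    change _ = _ * diaVal hx (cycK K σ)⁻¹
    rw [cycK_inertia hp.out (hp.out.coprime_iff_not_dvd.mpr hpK) hA hσ, inv_one, map_one, mul_one]
  · have hℓK : ¬ ℓ ∣ K * p := fun h => hbad (Nat.mem_primeFactors.mpr
      ⟨hℓ, h, mul_ne_zero (NeZero.ne K) hp.out.ne_zero⟩)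
    have hcop : ℓ.Coprime K := hℓ.coprime_iff_not_dvd.mpr fun h => hℓK (h.mul_right p)
    rw [hdet, (hr.frobenius ℓ hℓ hℓK B hB φ hφ).2]
    change _ * diaVal hx (cycK K φ)⁻¹ = _
    rw [eVal, dif_pos hcop, ← diaVal_apply hx, cycK_frobenius hℓ hcop hB hφ, mul_assoc, ← map_mul,
      mul_inv_cancel, map_one, mul_one]

/-- Conjugation by a unit. -/
def conjHom {S : Type} [Ring S] (P : Sˣ) : S →+* S where
  toFun X := P * X * ↑P⁻¹
  map_one' := by rw [mul_one, Units.mul_inv]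
  map_mul' X Y := by simp only [mul_assoc, Units.inv_mul_cancel_left]
  map_zero' := by rw [mul_zero, zero_mul]
  map_add' X Y := by rw [mul_add, add_mul]

/-- `conjHom P X` is `P * X * P⁻¹`. -/
theorem conjHom_apply {S : Type} [Ring S] (P : Sˣ) (X : S) : conjHom P X = P * X * ↑P⁻¹ := rfl

/-- A basis in which inertia is residually unipotent above and `σ₀ - 1` reaches the first
vector. -/
private theorem exists_inertiaBasis {O : Type} [CommRing O] [IsLocalRing O] {r : Γℚ →* M2 O}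
    {U₀ : (M2 O)ˣ} {I : Subgroup Γℚ}
    (ht10 : ∀ σ ∈ I, residue O (((↑U₀⁻¹ : M2 O) * r σ * (U₀ : M2 O)) 1 0) = 0)
    (ht11 : ∀ σ ∈ I, residue O (((↑U₀⁻¹ : M2 O) * r σ * (U₀ : M2 O)) 1 1) = 1) {σ₀ : Γℚ}
    (hσ₀ : σ₀ ∈ I) (ha : IsUnit (((↑U₀⁻¹ : M2 O) * r σ₀ * (U₀ : M2 O)) 0 0 - 1)) :
    ∃ P : (M2 O)ˣ, (∀ σ ∈ I, residue O (((P : M2 O) * r σ * (↑P⁻¹ : M2 O)) 1 0) = 0 ∧
        residue O (((P : M2 O) * r σ * (↑P⁻¹ : M2 O)) 1 1) = 1) ∧
      ∃ v : Fin 2 → O, ((P : M2 O) * r σ₀ * (↑P⁻¹ : M2 O) - 1).mulVec v = ![1, 0] := by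
  classical
  set mR : (M2 O) →+* M2 (ResidueField O) := (residue O).mapMatrix with hmR
  set t : Γℚ → M2 O := fun σ => (↑U₀⁻¹ : M2 O) * r σ * (U₀ : M2 O) with ht
  -- change the basis so that the first vector spans the image of `σ₀ - 1`
  let P₁' : M2 O := !![t σ₀ 0 0 - 1, 0; t σ₀ 1 0, 1]
  obtain ⟨P₁, hP₁⟩ : IsUnit P₁' := (Matrix.isUnit_iff_isUnit_det _).mpr (by
    rw [Matrix.det_fin_two_of, mul_one, zero_mul, sub_zero]
    exact ha)
  set P : (M2 O)ˣ := P₁⁻¹ * U₀⁻¹ with hP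
  set s : Γℚ → M2 O := fun σ => (P : M2 O) * r σ * (↑P⁻¹ : M2 O) with hs
  have hst : ∀ σ, s σ = (↑P₁⁻¹ : M2 O) * t σ * (P₁ : M2 O) := fun σ => by
    simp only [hs, hP, ht, mul_inv_rev, inv_inv, Units.val_mul, mul_assoc]
  -- inertia stays residually unipotent above
  have hsI : ∀ σ ∈ I, residue O (s σ 1 0) = 0 ∧ residue O (s σ 1 1) = 1 := by
    intro σ hσ
    set E := mR (↑P₁⁻¹ : M2 O) with hE
    set X := mR (t σ) with hX
    have hED : E * mR (P₁ : M2 O) = 1 := by rw [hE, ← map_mul, Units.inv_mul, map_one]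
    have hD : mR (P₁ : M2 O) = !![residue O (t σ₀ 0 0 - 1), 0; 0, 1] := by
      rw [hP₁]
      ext i j
      fin_cases i <;> fin_cases j <;>
        simp [P₁', hmR, show residue O (t σ₀ 1 0) = 0 from ht10 σ₀ hσ₀]
    rw [hD] at hED
    have h10 := congrFun (congrFun hED 1) 0
    have h11 := congrFun (congrFun hED 1) 1
    simp [Matrix.mul_apply, Fin.sum_univ_two] at h10 h11
    have hE10 : E 1 0 = 0 := h10.resolve_right fun h0 =>
      ((residue_ne_zero_iff_isUnit _).mpr ha) (by rw [map_sub, map_one]; exact h0)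
    have e : mR (s σ) = E * X * !![residue O (t σ₀ 0 0 - 1), 0; 0, 1] := by
      rw [hst, map_mul, map_mul, ← hE, ← hX, hD]
    have hX10 : X 1 0 = 0 := ht10 σ hσ
    have hX11 : X 1 1 = 1 := ht11 σ hσ
    constructor
    · change mR (s σ) 1 0 = 0
      rw [e]
      simp [Matrix.mul_apply, Fin.sum_univ_two, hE10, hX10]
    · change mR (s σ) 1 1 = 1
      rw [e]
      simp [Matrix.mul_apply, Fin.sum_univ_two, hE10, hX11, h11]
  -- and `σ₀ - 1` reaches the first vector
  have hcol : (s σ₀ - 1).mulVec ((↑P₁⁻¹ : M2 O).mulVec ![1, 0]) = ![1, 0] := by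
    have e1 : (s σ₀ - 1) * (↑P₁⁻¹ : M2 O) = (↑P₁⁻¹ : M2 O) * (t σ₀ - 1) := by
      rw [hst, sub_mul, mul_sub, mul_one, one_mul, mul_assoc _ (P₁ : M2 O), Units.mul_inv, mul_one]
    have e2 : (t σ₀ - 1).mulVec ![1, 0] = (P₁ : M2 O).mulVec ![1, 0] := by
      rw [hP₁]
      funext i
      fin_cases i <;> simp [P₁', Matrix.mulVec, dotProduct, Fin.sum_univ_two]
    rw [Matrix.mulVec_mulVec, e1, ← Matrix.mulVec_mulVec, e2, Matrix.mulVec_mulVec, Units.inv_mul,
      Matrix.one_mulVec]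
  exact ⟨P, hsI, _, hcol⟩

/-- The `p ^ M`-torsion of the Jacobian is finite. -/
private theorem finite_pow_torsion (K : ℕ) [NeZero K] (H : Subgroup (ZMod K)ˣ)
    [Fermat.MC.Lvl.NegMem H] (M : ℕ) :
    {y : AlgebraicCurve.Pic0 ℚbar
      (Fermat.MC.Lvl.FL (Fermat.MC.Lvl.GammaH K H) ℚbar) | p ^ M • y = 0}.Finite := by
  have := Fermat.JAC.finite_torsion (K := ℚbar)
    (F := Fermat.MC.Lvl.FL (Fermat.MC.Lvl.GammaH K H) ℚbar) (p ^ M) (pow_ne_zero M hp.out.ne_zero)
  refine (Set.toFinite (AlgebraicCurve.Pic0.torsion ℚbar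
    (Fermat.MC.Lvl.FL (Fermat.MC.Lvl.GammaH K H) ℚbar) (p ^ M) : Set _)).subset
    fun y hy => AlgebraicCurve.Pic0.mem_torsion.2 ?_
  rw [natCast_zsmul]
  exact hy

/-- The class of `ϖ ^ n` spans the socle of `O ⧸ 𝔪 ^ (n + 1)`. -/
private theorem socle_quotient_pow {O : Type} [CommRing O] [IsDomain O]
    [IsDiscreteValuationRing O] {ϖ : O} (hϖ : Irreducible ϖ) (n : ℕ)
    (q : O ⧸ maximalIdeal O ^ (n + 1) →+* ResidueField O)
    (hqmk : ∀ b, q (Ideal.Quotient.mk _ b) = residue O b) :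
    (∀ b, Ideal.Quotient.mk _ (ϖ ^ n) * b = 0 ↔ q b = 0) ∧
      ∀ b : O ⧸ maximalIdeal O ^ (n + 1), b ≠ 0 → ∃ a, a * b = Ideal.Quotient.mk _ (ϖ ^ n) := by
  set mk : O →+* O ⧸ maximalIdeal O ^ (n + 1) := Ideal.Quotient.mk _ with hmk
  have hmk0 : ∀ b, mk b = 0 ↔ ϖ ^ (n + 1) ∣ b := fun b => by
    rw [hmk, Ideal.Quotient.eq_zero_iff_mem, hϖ.maximalIdeal_eq, Ideal.span_singleton_pow,
      Ideal.mem_span_singleton]
  refine ⟨fun b => ?_, fun b hb => ?_⟩
  · obtain ⟨b, rfl⟩ := Ideal.Quotient.mk_surjective b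
    rw [← map_mul, hmk0, pow_succ, mul_dvd_mul_iff_left (pow_ne_zero n hϖ.ne_zero)]
    change _ ↔ q (mk b) = 0
    rw [hqmk, residue_eq_zero_iff, hϖ.maximalIdeal_eq, Ideal.mem_span_singleton]
  · obtain ⟨b, rfl⟩ := Ideal.Quotient.mk_surjective b
    have hb0 : b ≠ 0 := fun e => hb (by rw [e, map_zero])
    obtain ⟨j, u, rfl⟩ := IsDiscreteValuationRing.eq_unit_mul_pow_irreducible hb0 hϖ
    have hj : j ≤ n := by
      by_contra hlt
      exact hb ((hmk0 _).mpr (dvd_mul_of_dvd_right (pow_dvd_pow ϖ (by omega)) _))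
    refine ⟨mk (↑u⁻¹ * ϖ ^ (n - j)), ?_⟩
    rw [← map_mul, mul_mul_mul_comm, Units.inv_mul, one_mul, ← pow_add, Nat.sub_add_cancel hj]

open Fermat.FLAT Fermat.RED.Flat in
/-- **One level**: the triangular shape and the quadratic relation of Frobenius modulo a power of
the maximal ideal. -/
theorem ordFlat_level {R J : Type} [CommRing R] [Module.Free ℤ R] [Module.Finite ℤ R]
    [AddCommGroup J] [DistribMulAction (AlgebraicClosure ℚ ≃ₐ[ℚ] AlgebraicClosure ℚ) J]
    {N : ℕ} {T ε : ℕ → R} (D : Fermat.GR.ESData R J N p T ε) {O : Type} [CommRing O] [IsDomain O]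
    [IsDiscreteValuationRing O] [Finite (ResidueField O)]
    [CharP (ResidueField O) p]
    (hpO : (p : O) ∈ maximalIdeal O) {A : ValuationSubring ℚbar} (h : IsPlace A p) (hp2 : p ≠ 2)
    {Z : AddSubgroup J} (hZ : HasModelsConn h Z) (hfin : ∀ M : ℕ, {y : J | p ^ M • y = 0}.Finite)
    (f : R →+* O) (r : Γℚ →* M2 O)
    (hkill : ∀ n, ∃ M : ℕ, ∀ c : MonoidAlgebra R Γℚ,
      (∀ y : J, p ^ M • y = 0 → heckeCombo D c y = 0) →
      ∀ a b, heckeMat f r c a b ∈ maximalIdeal O ^ n)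
    (tt ee : R) (hrel : ∀ φ : Γℚ, A.IsFrobeniusAt φ p → ∀ y : J,
      φ • φ • y - D.act tt (φ • y) + p • D.act ee y ∈ Z)
    (P : (M2 O)ˣ) (s : Γℚ → M2 O) (hs : s = fun σ => (P : M2 O) * r σ * (↑P⁻¹ : M2 O))
    (hsI : ∀ σ ∈ A.inertiaSubgroupIn ℚ, residue O (s σ 1 0) = 0 ∧ residue O (s σ 1 1) = 1)
    {σ₀ : Γℚ} (hσ₀ : σ₀ ∈ A.inertiaSubgroupIn ℚ) {v₀ : Fin 2 → O}
    (hcol : (s σ₀ - 1).mulVec v₀ = ![1, 0]) (n : ℕ) :
    (∀ σ ∈ A.decompositionSubgroup ℚ, s σ 1 0 ∈ maximalIdeal O ^ (n + 1)) ∧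
      (∀ σ ∈ A.inertiaSubgroupIn ℚ, s σ 1 1 - 1 ∈ maximalIdeal O ^ (n + 1)) ∧
      ∀ φ : Γℚ, A.IsFrobeniusAt φ p →
        (s φ * s φ - f tt • s φ + ((p : O) * f ee) • (1 : M2 O)) 1 1 ∈
          maximalIdeal O ^ (n + 1) := by
  classical
  obtain ⟨ϖ, hϖ⟩ := IsDiscreteValuationRing.exists_irreducible O
  set I : Ideal O := maximalIdeal O ^ (n + 1) with hI
  set mk : O →+* O ⧸ I := Ideal.Quotient.mk I with hmk
  have : Finite (O ⧸ I) := finite_quotient_maximalIdeal_pow O (n + 1)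
  let q : O ⧸ I →+* ResidueField O := Ideal.Quotient.factor
    (show I ≤ maximalIdeal O from Ideal.pow_le_self (Nat.succ_ne_zero n))
  have hqmk : ∀ b, q (mk b) = residue O b := fun b => Ideal.Quotient.factor_mk _ b
  have hq : Function.Surjective q := fun c => by
    obtain ⟨b, rfl⟩ := residue_surjective (R := O) c
    exact ⟨mk b, hqmk b⟩
  obtain ⟨hzq, hz⟩ := socle_quotient_pow hϖ n q hqmk
  have hpn : (p : O ⧸ I) ^ (n + 1) = 0 := by
    rw [← map_natCast mk, ← map_pow, hmk, Ideal.Quotient.eq_zero_iff_mem]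
    exact Ideal.pow_mem_pow hpO _
  -- a finite flat model modulo the power of the maximal ideal, with its connected part
  obtain ⟨M, hM⟩ := hkill (n + 1)
  let Φ := (mvHom (B := O ⧸ I)).comp (mk.mapMatrix.comp ((conjHom P).comp (heckeMat f r)))
  let ι := MonoidAlgebra.of R Γℚ
  set W : Set J := {y | p ^ M • y = 0} with hW
  obtain ⟨G, hG⟩ := exists_model_conn_of_annihilator h hZ (heckeCombo D) ι
    (fun σ y => by
      change heckeCombo D (MonoidAlgebra.single σ 1) y = _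
      rw [heckeCombo_single, map_one]; rfl)
    (hfin M) (fun c y hy => by
      change p ^ M • heckeCombo D c y = 0
      rw [← map_nsmul, hy, map_zero]) Φ (fun c hc => by
      have h0 : mk.mapMatrix (conjHom P (heckeMat f r c)) = 0 := Matrix.ext fun i j => by
        change mk (_) = 0
        rw [hmk, Ideal.Quotient.eq_zero_iff_mem, conjHom_apply]
        simp only [Matrix.mul_apply, Finset.sum_mul]
        exact Ideal.sum_mem _ fun a _ => Ideal.sum_mem _ fun b _ =>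
          Ideal.mul_mem_right _ _ (Ideal.mul_mem_left _ _ (hM c hc _ _))
      change mvHom (mk.mapMatrix (conjHom P (heckeMat f r c))) = 0
      rw [h0, map_zero])
  have hgs : ∀ σ v, Φ (ι σ) v = ((s σ).map mk).mulVec v := fun σ v => by
    change (mk.mapMatrix (conjHom P (heckeMat f r (MonoidAlgebra.single σ 1)))).mulVec v = _
    rw [heckeMat_single, map_one, one_smul, hs]
    rfl
  have hline : ∃ σ₀ ∈ A.inertiaSubgroupIn ℚ, ∃ v₀ : Fin 2 → O ⧸ I,
      ((s σ₀).map mk).mulVec v₀ - v₀ = ![1, 0] := by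
    refine ⟨σ₀, hσ₀, fun i => mk (v₀ i), funext fun i => ?_⟩
    have h1 := congrArg mk (congrFun hcol i)
    rw [Matrix.sub_mulVec, Matrix.one_mulVec, Pi.sub_apply, map_sub, RingHom.map_mulVec] at h1
    refine h1.trans ?_
    fin_cases i <;> simp
  -- the connected part is the first line
  obtain ⟨hD10, hI11, hconn⟩ := line_of_flat (k := ResidueField O) q h hp2 hq hzq hz hpn G
    (fun σ => (s σ).map mk) hgs
    (fun σ hσ => by
      simp only [Matrix.map_apply, hqmk]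
      exact hsI σ hσ) hline
  refine ⟨fun σ hσ => Ideal.Quotient.eq_zero_iff_mem.mp (hD10 σ hσ),
    fun σ hσ => Ideal.Quotient.eq_zero_iff_mem.mp ?_, fun φ hφ => ?_⟩
  · rw [map_sub, map_one, sub_eq_zero]
    exact hI11 σ hσ
  -- the Frobenius relation maps into the connected part
  set q₀ : MonoidAlgebra R Γℚ :=
    MonoidAlgebra.single (φ * φ) 1 - MonoidAlgebra.single φ tt +
      MonoidAlgebra.single 1 ((p : R) * ee) with hq₀
  have hqZ : ∀ y ∈ W, heckeCombo D q₀ y ∈ Z := fun y _ => by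
    have := hrel φ hφ y
    convert this using 1
    rw [hq₀, map_add, map_sub]
    change heckeCombo D _ y - heckeCombo D _ y + heckeCombo D _ y = _
    rw [heckeCombo_single, heckeCombo_single, heckeCombo_single, map_one, one_smul, mul_smul,
      map_mul, map_natCast]
    rfl
  have h1 := hconn _ (hG q₀ hqZ (Pi.single 1 1))
  have h2 : heckeMat f r q₀ = r φ * r φ - f tt • r φ + ((p : O) * f ee) • (1 : M2 O) := by
    rw [hq₀, map_add, map_sub, heckeMat_single, heckeMat_single, heckeMat_single, map_one,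
      map_one, one_smul, map_mul, map_mul, map_natCast]
  have h3 : conjHom P (heckeMat f r q₀) =
      s φ * s φ - f tt • s φ + ((p : O) * f ee) • (1 : M2 O) := by
    rw [h2, map_add, map_sub, map_mul]
    simp only [conjHom_apply, hs, mul_smul_comm, smul_mul_assoc, mul_one, Units.mul_inv]
  change (mk.mapMatrix (conjHom P (heckeMat f r q₀))).mulVec (Pi.single 1 1) 1 = 0 at h1
  rw [Matrix.mulVec_single_one, h3] at h1
  exact Ideal.Quotient.eq_zero_iff_mem.mp h1

variable (p)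

open Fermat.FLAT Fermat.RED.Flat in
/-- **Good ordinary reduction at `p`.** Proof of `OrdFlatInput`: a residually ordinary system of
level prime to `p` whose residual image spans all matrices is ordinary at `p`. -/
theorem ordFlatInput : OrdFlatInput p := by
  classical
  intro K _ H hneg hpK hp2 O _ _ _ _ _ _ hpO x hx r hr hres A hA U hUD hUI
  have : Fermat.MC.Lvl.NegMem H := ⟨hneg⟩
  have h : IsPlace A p := ⟨hp.out, hA⟩
  have : CharP (ResidueField O) p := by
    refine (CharP.charP_iff_prime_eq_zero hp.out).mpr ?_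
    rw [← map_natCast (residue O), residue_eq_zero_iff]
    exact hpO
  have : Fintype (ResidueField O) := Fintype.ofFinite _
  set mR : (M2 O) →+* M2 (ResidueField O) := (residue O).mapMatrix with hmR
  -- lift of `U`
  let U' : M2 O :=
    (U : M2 (ResidueField O)).map (Function.surjInv (residue_surjective (R := O)))
  have hU' : mR U' = (U : M2 (ResidueField O)) := Matrix.ext fun i j => Function.surjInv_eq _ _
  obtain ⟨U₀, hU₀⟩ : IsUnit U' := (Matrix.isUnit_iff_isUnit_det _).mpr (by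
    rw [← residue_ne_zero_iff_isUnit, RingHom.map_det, ← hmR, hU']
    exact ((Matrix.isUnit_iff_isUnit_det _).mp U.isUnit).ne_zero)
  have hUmap : Units.map (mR : (M2 O) →* M2 (ResidueField O)) U₀ = U :=
    Units.ext (by change mR (U₀ : M2 O) = _; rw [hU₀, hU'])
  have hUinv : mR (↑U₀⁻¹ : M2 O) = (↑U⁻¹ : M2 (ResidueField O)) := by
    rw [← hUmap, ← map_inv]
    rfl
  set t : Γℚ → M2 O := fun σ => (↑U₀⁻¹ : M2 O) * r σ * (U₀ : M2 O) with ht
  have htmap : ∀ σ, mR (t σ) = (↑U⁻¹ : M2 (ResidueField O)) * (r σ).map (residue O) *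
      (U : M2 (ResidueField O)) := fun σ => by
    rw [ht, map_mul, map_mul, hUinv, hU₀, hU']
    rfl
  have hID : A.inertiaSubgroupIn ℚ ≤ A.decompositionSubgroup ℚ := inertia_le_decomposition A
  have ht10 : ∀ σ ∈ A.decompositionSubgroup ℚ, mR (t σ) 1 0 = 0 := fun σ hσ => by
    rw [htmap]; exact hUD σ hσ
  have ht11 : ∀ σ ∈ A.inertiaSubgroupIn ℚ, mR (t σ) 1 1 = 1 := fun σ hσ => by
    rw [htmap]; exact hUI σ hσ
  -- the inertia element
  obtain ⟨σ₀, hσ₀, hns⟩ := exists_cycChar_not_square h hp2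
  have ha : IsUnit (t σ₀ 0 0 - 1) := by
    rw [← residue_ne_zero_iff_isUnit, map_sub, map_one, sub_ne_zero]
    intro h1
    have hd : residue O (cycO hpO σ₀) = (((Fermat.CFT.cycChar p σ₀ : (ZMod p)ˣ) : ZMod p).val :
        ResidueField O) := by
      rw [← map_natCast (residue O), ← sub_eq_zero, ← map_sub, residue_eq_zero_iff]
      exact cycO_sub_cycChar_mem hpO σ₀
    rw [← hr.det_inertia_atP hpO hx hpK hA hσ₀, ← Matrix.det_units_conj' U₀,
      show (↑U₀⁻¹ : M2 O) * r σ₀ * (U₀ : M2 O) = t σ₀ from rfl, Matrix.det_fin_two] at hd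
    simp only [map_sub, map_mul] at hd
    rw [h1, show residue O (t σ₀ 1 1) = 1 from ht11 σ₀ hσ₀,
      show residue O (t σ₀ 1 0) = 0 from ht10 σ₀ (hID hσ₀), mul_one, mul_zero, sub_zero] at hd
    have : NeZero p := ⟨hp.out.ne_zero⟩
    refine hns 1 ((ZMod.castHom (dvd_refl p) (ResidueField O)).injective ?_)
    rw [one_pow, map_one, hd, ← map_natCast (ZMod.castHom (dvd_refl p) (ResidueField O)),
      ZMod.natCast_zmod_val]
  -- the basis
  obtain ⟨P, hsI, v₀, hcol⟩ := exists_inertiaBasis (r := r) (U₀ := U₀) (I := A.inertiaSubgroupIn ℚ)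
    (fun σ hσ => ht10 σ (hID hσ)) ht11 hσ₀ ha
  set s : Γℚ → M2 O := fun σ => (P : M2 O) * r σ * (↑P⁻¹ : M2 O) with hs
  -- the eigen system
  obtain ⟨f, rfl⟩ := IsPoint.exists_factor K H hx
  obtain ⟨Z, hZ, hrel⟩ := exists_hasModelsConn_gammaH (H := H) hpK h
  set D := Fermat.RED.Full.esData K H p with hD
  have he : ∀ ℓ, ℓ.Coprime K → eVal (f.comp (Fermat.JAC.XH.ringEval K H)) ℓ =
      f (Fermat.JAC.XH.epsES K H ℓ) := fun ℓ hcop => by
    rw [eVal, dif_pos hcop, RingHom.comp_apply, Fermat.JAC.XH.ringEval_inr,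
      Fermat.JAC.XH.epsES, dif_pos hcop]
  have htv : ∀ ℓ, ℓ.Prime → ℓ.Coprime K → tVal (f.comp (Fermat.JAC.XH.ringEval K H)) ℓ *
      eVal (f.comp (Fermat.JAC.XH.ringEval K H)) ℓ = f (Fermat.JAC.XH.tES K H ℓ) :=
    fun ℓ hℓ hcop => by
      rw [tVal, dif_pos hℓ, RingHom.comp_apply, Fermat.JAC.XH.ringEval_inl, he ℓ hcop,
        Fermat.JAC.XH.tES, dif_pos hℓ, map_mul]
  have hcopp : p.Coprime K := hp.out.coprime_iff_not_dvd.mpr hpK
  set tt : (Fermat.JAC.XH.heckeGens K H).R := Fermat.JAC.XH.tES K H p with htt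
  set ee : (Fermat.JAC.XH.heckeGens K H).R := Fermat.JAC.XH.epsES K H p with hee
  have hlev := ordFlat_level D hpO h hp2 hZ (finite_pow_torsion K H) f r
    (exists_heckeMat_mem D f r hpO hr.cont (span_eq_top_of_residue hres) (K * p).primeFactors
      fun ℓ hℓ hℓS => by
        have hℓKp : ¬ ℓ ∣ K * p := fun hd => hℓS (Nat.mem_primeFactors.mpr
          ⟨hℓ, hd, mul_ne_zero (NeZero.ne K) hp.out.ne_zero⟩)
        have hcop : ℓ.Coprime K := hℓ.coprime_iff_not_dvd.mpr fun hd => hℓKp (hd.mul_right p)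
        refine ⟨hℓKp, fun B hB φ hφ => ?_⟩
        obtain ⟨h1, h2⟩ := hr.frobenius ℓ hℓ hℓKp B hB φ hφ
        exact ⟨by rw [h1, htv ℓ hℓ hcop], by rw [h2, he ℓ hcop, map_mul, map_natCast]⟩)
    tt ee hrel P s rfl hsI hσ₀ hcol
  have haus : ∀ y : O, (∀ n : ℕ, y ∈ maximalIdeal O ^ (n + 1)) → y = 0 := fun y hy =>
    IsHausdorff.haus' (I := maximalIdeal O) _ fun n => by
      rw [SModEq.zero, smul_eq_mul, Ideal.mul_top]
      exact Ideal.pow_le_pow_right (Nat.le_succ n) (hy n)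
  refine ⟨P, fun σ hσ => haus _ fun n => (hlev n).1 σ hσ,
    fun σ hσ => sub_eq_zero.mp (haus _ fun n => (hlev n).2.1 σ hσ), fun φ hφ => ?_⟩
  have h10 : s φ 1 0 = 0 := haus _ fun n => (hlev n).1 φ hφ.mem_decompositionSubgroup
  have h11 := haus _ fun n => (hlev n).2.2 φ hφ
  simp only [Matrix.add_apply, Matrix.sub_apply, Matrix.mul_apply, Fin.sum_univ_two, h10,
    Matrix.smul_apply, Matrix.one_apply_eq, smul_eq_mul, zero_mul, zero_add, mul_one] at h11
  rw [htv p hp.out hcopp, he p hcopp]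
  change s φ 1 1 ^ 2 - _ * s φ 1 1 + _ = 0
  linear_combination h11

end Fermat.GR.RT

end
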