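import Fermat.Agent.BAD.XH.Hecke
import Fermat.Agent.GR.ES.DVRExt
import Fermat.Agent.GR.RT.Inputs
import Fermat.Agent.GR.RT.Attach
import Fermat.Agent.JAC.XH.HeckeS2

/-!
# A system of level `Γ_H(M q)`: old at `q`, or seen off the pushforwards

The Hecke algebra of level `M q` acts on the two pushforwards to level `M` through the quadratic
algebra of `U_q` over the one of level `M`; a point either kills its kernel, and so comes from
level `M`, or some operator killing both pushforwards has nonzero value.
-/

set_option autoImplicit false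
set_option linter.unusedSectionVars false

noncomputable section

open AlgebraicCurve Fermat.MC.Lvl Fermat.JAC Fermat.JAC.XH

namespace Fermat.GR.RT

-- these fail only after long searches, and are not the instances used below
attribute [-instance] IntermediateField.algebra' Subalgebra.toCommSemiring Subalgebra.toCommRing
  AdjoinRoot.instField

local notation "Qb" => AlgebraicClosure ℚ

variable (M q : ℕ) [NeZero M] [NeZero q] [Fact q.Prime] (H : Subgroup (ZMod M)ˣ) [NegMem H]

local notation "JK" => Pic0 Qb (FL (GammaH (M * q) (upH M H q)) Qb)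
local notation "JM" => Pic0 Qb (FL (GammaH M H) Qb)
local notation "RM" => HeckeGens.R (heckeGens M H)

-- the instances found by searches of seconds, now found at once
/-- The Hecke algebra of level `M` is a ring. -/
local instance (priority := high) ringHeckeR : Ring RM :=
  (Algebra.adjoin ℤ (heckeGens M H).gens).toRing

/-- The Hecke algebra of level `M` is a semiring. -/
local instance (priority := high) semiringHeckeR : Semiring RM :=
  (Algebra.adjoin ℤ (heckeGens M H).gens).toSemiring

/-- The Hecke algebra of level `M` is a commutative semiring. -/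
local instance (priority := high) commSemiringHeckeR : CommSemiring RM :=
  (heckeGens M H).commRing.toCommSemiring

/-- Sums of endomorphisms act pointwise. -/
theorem addEnd_add_apply {A : Type} [AddCommGroup A] (f g : AddMonoid.End A) (x : A) :
    (f + g) x = f x + g x := rfl

/-- The product of endomorphisms is composition. -/
theorem addEnd_mul_apply {A : Type} [AddCommGroup A] (f g : AddMonoid.End A) (x : A) :
    (f * g) x = f (g x) := rfl

/-- Intertwining at the variables gives intertwining everywhere. -/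
theorem intertwine_of_X {A B σ : Type} [AddCommGroup A] [AddCommGroup B] (π : A →+ B)
    (φ : MvPolynomial σ ℤ →+* AddMonoid.End A) (ψ : MvPolynomial σ ℤ →+* AddMonoid.End B)
    (h : ∀ i x, π (φ (MvPolynomial.X i) x) = ψ (MvPolynomial.X i) (π x))
    (P : MvPolynomial σ ℤ) : ∀ x, π (φ P x) = ψ P (π x) := by
  induction P using MvPolynomial.induction_on with
  | C n =>
    intro x
    rw [show (MvPolynomial.C n : MvPolynomial σ ℤ) = (n : MvPolynomial σ ℤ) from
      map_intCast MvPolynomial.C n, map_intCast, map_intCast, AddMonoid.End.intCast_apply,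
      AddMonoid.End.intCast_apply, map_zsmul]
  | add P Q hP hQ =>
    intro x
    rw [map_add, map_add, addEnd_add_apply, addEnd_add_apply, map_add, hP, hQ]
  | mul_X P i hP =>
    intro x
    rw [map_mul, map_mul, addEnd_mul_apply, addEnd_mul_apply, hP, h]

/-- Equal endomorphisms are intertwined alike. -/
private theorem apply_eq_of_eq {A B : Type} [AddCommGroup A] [AddCommGroup B] (π : A →+ B)
    {a a' : AddMonoid.End A} {b b' : AddMonoid.End B} (ha : a = a') (hb : b = b') {x : A}
    (h : π (a' x) = b' (π x)) : π (a x) = b (π x) := by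
  subst ha hb
  exact h

/-- A multiple of an element acting as zero acts as zero. -/
private theorem eq_zero_of_eq_mul {S B : Type} [CommRing S] [AddCommGroup B]
    (φ : S →+* AddMonoid.End B) {c a Q : S} (hc : φ c = 0) (ha : a = c * Q) {u w : B}
    (h : u = φ a w) : u = 0 := by
  rw [h, ha, map_mul, hc, zero_mul]
  rfl

/-- Endomorphisms acting componentwise on pairs, as a ring homomorphism. -/
private def diagHom {S B : Type} [Ring S] [AddCommGroup B] (φ : S →+* AddMonoid.End B) :
    S →+* AddMonoid.End (B × B) where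
  toFun t := AddMonoidHom.prodMap (φ t) (φ t)
  map_one' := by rw [map_one]; exact DFunLike.ext _ _ fun z => rfl
  map_mul' s t := by rw [map_mul]; exact DFunLike.ext _ _ fun z => rfl
  map_zero' := by rw [map_zero]; exact DFunLike.ext _ _ fun z => rfl
  map_add' s t := by rw [map_add]; exact DFunLike.ext _ _ fun z => rfl

/-- `U² - T U + n c = 0` for `U (a, b) = (T a - c b, n a)`. -/
private theorem eval_char_eq_zero {S B : Type} [CommRing S] [AddCommGroup B]
    (φ : S →+* AddMonoid.End B) (ev : Polynomial S →+* AddMonoid.End (B × B)) {T c : S} {n : ℕ}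
    (hC : ∀ t, ev (Polynomial.C t) = diagHom φ t)
    (hU : ∀ z, ev Polynomial.X z = (φ T z.1 - φ c z.2, n • z.1)) :
    ev (Polynomial.X ^ 2 - Polynomial.C T * Polynomial.X + Polynomial.C ((n : S) * c)) = 0 := by
  refine DFunLike.ext _ _ fun z => ?_
  rw [map_add, map_sub, map_mul, pow_two, map_mul, hC, hC]
  change ev Polynomial.X (ev Polynomial.X z) - diagHom φ T (ev Polynomial.X z) +
    diagHom φ ((n : S) * c) z = 0
  have hn : ∀ b : B, φ ((n : S) * c) b = n • φ c b := fun b => by
    rw [map_mul, map_natCast]; rfl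
  have hd : ∀ (t : S) (w : B × B), diagHom φ t w = (φ t w.1, φ t w.2) := fun _ _ => rfl
  simp only [hU, hd]
  refine Prod.ext ?_ ?_
  · change _ - φ T _ + φ ((n : S) * c) _ = (0 : B)
    simp only [hn, map_sub, map_nsmul]
    abel
  · change _ - φ T _ + φ ((n : S) * c) _ = (0 : B)
    simp only [hn, map_nsmul, nsmul_sub]
    abel

/-- The two pushforwards to level `M`. -/
def pushPair : JK →+ JM × JM :=
  AddMonoidHom.prod (pushPic (Fermat.BAD.XH.al M q H)) (pushPic (Fermat.BAD.XH.be M q H))

-- `RingHom.map_mul` and the like: the search behind `map_mul` is slow on these rings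
/-- The operators of level `M` on pairs. -/
def pairAct : RM →+* AddMonoid.End (JM × JM) := diagHom (heckeGens M H).act

/-- The level `M` operators act componentwise on pairs. -/
theorem pairAct_apply (t : RM) (z : JM × JM) :
    pairAct M H t z = ((heckeGens M H).act t z.1, (heckeGens M H).act t z.2) := rfl

variable (hq : q.Prime) (hqM : ¬ q ∣ M)

/-- The inverse diamond at `q`. -/
def dInvQ : RM := dOp M H (Fermat.BAD.XH.qUnit M q hq hqM)⁻¹

/-- The operator `T_q` of level `M`. -/
def tQ : RM := tOp M H ⟨q, hq⟩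

/-- `U_q` on pairs. -/
def pairU : AddMonoid.End (JM × JM) :=
  AddMonoidHom.prod
    (((heckeGens M H).act (tQ M q H hq)).comp (AddMonoidHom.fst JM JM) -
      ((heckeGens M H).act (dInvQ M q H hq hqM)).comp (AddMonoidHom.snd JM JM))
    (q • AddMonoidHom.fst JM JM)

/-- `U_q (a, b) = (T_q a - ⟨q⟩⁻¹ b, q a)`. -/
theorem pairU_apply (z : JM × JM) :
    pairU M q H hq hqM z =
      ((heckeGens M H).act (tQ M q H hq) z.1 - (heckeGens M H).act (dInvQ M q H hq hqM) z.2,
        q • z.1) := rfl

/-- The operators of level `M` commute on classes. -/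
theorem act_comm_apply (s t : RM) (x : JM) :
    (heckeGens M H).act s ((heckeGens M H).act t x) =
      (heckeGens M H).act t ((heckeGens M H).act s x) := by
  have h := congrArg (heckeGens M H).act (mul_comm s t)
  rw [RingHom.map_mul, RingHom.map_mul] at h
  exact DFunLike.congr_fun h x

/-- `U_q` on pairs commutes with the operators of level `M`. -/
theorem commute_pairU (t : RM) : Commute (pairAct M H t) (pairU M q H hq hqM) :=
  DFunLike.ext _ _ fun z => by
    change pairAct M H t (pairU M q H hq hqM z) = pairU M q H hq hqM (pairAct M H t z)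
    simp only [pairAct_apply, pairU_apply, map_sub, map_nsmul, act_comm_apply M H t]

/-- Polynomials in `U_q` over level `M` on pairs. -/
def pairPoly : Polynomial RM →+* AddMonoid.End (JM × JM) :=
  Polynomial.eval₂RingHom' (pairAct M H) (pairU M q H hq hqM) (commute_pairU M q H hq hqM)

/-- The labels of level `M q` over level `M`. -/
def oldLabel : Nat.Primes ⊕ (ZMod (M * q))ˣ → Polynomial RM
  | Sum.inl ℓ => if (ℓ : ℕ) = q then Polynomial.X else Polynomial.C (tOp M H ℓ)
  | Sum.inr u => Polynomial.C (dOp M H (ZMod.unitsMap (dvd_mul_right M q) u))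

/-- `T_ℓ` goes to `T_ℓ` for `ℓ ≠ q`, and `U_q` to the variable. -/
theorem oldLabel_inl (ℓ : Nat.Primes) :
    oldLabel M q H (Sum.inl ℓ) =
      if (ℓ : ℕ) = q then Polynomial.X else Polynomial.C (tOp M H ℓ) := rfl

/-- A diamond goes to its image at level `M`. -/
theorem oldLabel_inr (u : (ZMod (M * q))ˣ) :
    oldLabel M q H (Sum.inr u) =
      Polynomial.C (dOp M H (ZMod.unitsMap (dvd_mul_right M q) u)) := rfl

/-- The operators of level `M q` on pairs, formally. -/
def oldEval : MvPolynomial (Nat.Primes ⊕ (ZMod (M * q))ˣ) ℤ →+* Polynomial RM :=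
  (MvPolynomial.aeval (oldLabel M q H)).toRingHom

/-- The characteristic polynomial of `U_q` on pairs. -/
def oldChar : Polynomial RM :=
  Polynomial.X ^ 2 - Polynomial.C (tQ M q H hq) * Polynomial.X +
    Polynomial.C ((q : RM) * dInvQ M q H hq hqM)

/-- The variable acts as `U_q` on pairs. -/
theorem pairPoly_X : pairPoly M q H hq hqM Polynomial.X = pairU M q H hq hqM := by
  change Polynomial.eval₂ _ _ _ = _
  rw [Polynomial.eval₂_X]

/-- Constants act by the operators of level `M`. -/
theorem pairPoly_C (t : RM) : pairPoly M q H hq hqM (Polynomial.C t) = pairAct M H t := by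
  change Polynomial.eval₂ _ _ _ = _
  rw [Polynomial.eval₂_C]

/-- The old character kills the polynomial of the two pushforwards. -/
theorem pairPoly_oldChar : pairPoly M q H hq hqM (oldChar M q H hq hqM) = 0 :=
  eval_char_eq_zero (heckeGens M H).act (pairPoly M q H hq hqM) (pairPoly_C M q H hq hqM)
    fun z => (DFunLike.congr_fun (pairPoly_X M q H hq hqM) z).trans (pairU_apply M q H hq hqM z)

/-- **The pushforwards intertwine the operators.** -/
theorem pushPair_ringEval (P : MvPolynomial (Nat.Primes ⊕ (ZMod (M * q))ˣ) ℤ) :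
    ∀ x : JK, pushPair M q H
        ((heckeGens (M * q) (upH M H q)).act (ringEval (M * q) (upH M H q) P) x) =
      pairPoly M q H hq hqM (oldEval M q H P) (pushPair M q H x) := by
  refine intertwine_of_X (pushPair M q H)
    (((heckeGens (M * q) (upH M H q)).act).comp (ringEval (M * q) (upH M H q)))
    ((pairPoly M q H hq hqM).comp (oldEval M q H)) (fun i x => ?_) P
  have hX : oldEval M q H (MvPolynomial.X i) = oldLabel M q H i := MvPolynomial.aeval_X _ _
  rcases i with ℓ | u
  · by_cases h : (ℓ : ℕ) = q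
    · -- replacing whole operators avoids slow checks of rewriting in the goal
      have e : pairPoly M q H hq hqM (oldLabel M q H (Sum.inl ℓ)) = pairU M q H hq hqM := by
        rw [oldLabel_inl, if_pos h, pairPoly_X]
      obtain rfl : ℓ = ⟨q, hq⟩ := Subtype.ext h
      exact apply_eq_of_eq (pushPair M q H)
        (congrArg (heckeGens (M * q) (upH M H q)).act (ringEval_inl _ _ _))
        ((congrArg (pairPoly M q H hq hqM) hX).trans e)
        (Prod.ext (Fermat.BAD.XH.pushPic_al_uq M q H hq hqM x)
          (Fermat.BAD.XH.pushPic_be_uq M q H hq x))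
    · have e : pairPoly M q H hq hqM (oldLabel M q H (Sum.inl ℓ)) = pairAct M H (tOp M H ℓ) := by
        rw [oldLabel_inl, if_neg h, pairPoly_C]
      exact apply_eq_of_eq (pushPair M q H)
        (congrArg (heckeGens (M * q) (upH M H q)).act (ringEval_inl _ _ _))
        ((congrArg (pairPoly M q H hq hqM) hX).trans e)
        (Prod.ext (Fermat.BAD.XH.pushPic_al_tOp M q H hq ℓ h x)
          (Fermat.BAD.XH.pushPic_be_tOp M q H hq ℓ h x))
  · exact apply_eq_of_eq (pushPair M q H)
      (congrArg (heckeGens (M * q) (upH M H q)).act (ringEval_inr _ _ _))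
      ((congrArg (pairPoly M q H hq hqM) hX).trans
        ((congrArg (pairPoly M q H hq hqM) (oldLabel_inr M q H u)).trans
          (pairPoly_C M q H hq hqM _)))
      (Prod.ext (Fermat.BAD.XH.pushPic_al_dOp M q H u x)
        (Fermat.BAD.XH.pushPic_be_dOp M q H u x))

/-- If a discrete valuation ring contains a nonzero root `U` of `X² - tX + c` and the constant
term `c`, then it contains `t`, provided that `t` is integral over it. -/
theorem exists_algebraMap_eq_of_quadratic {O : Type} [CommRing O] [IsDomain O]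
    [IsDiscreteValuationRing O] {U c : O} {t : AlgebraicClosure (FractionRing O)}
    (hU : algebraMap O (AlgebraicClosure (FractionRing O)) U ≠ 0)
    (hrel : algebraMap O (AlgebraicClosure (FractionRing O)) U ^ 2 -
      t * algebraMap O (AlgebraicClosure (FractionRing O)) U +
      algebraMap O (AlgebraicClosure (FractionRing O)) c = 0)
    (ht : IsIntegral O t) :
    ∃ o : O, algebraMap O (AlgebraicClosure (FractionRing O)) o = t := by
  set z : FractionRing O := (algebraMap O (FractionRing O) U ^ 2 +
      algebraMap O (FractionRing O) c) / algebraMap O (FractionRing O) U with hz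
  have hzT : algebraMap (FractionRing O) (AlgebraicClosure (FractionRing O)) z = t := by
    rw [hz, map_div₀, map_add, map_pow, ← IsScalarTower.algebraMap_apply,
      ← IsScalarTower.algebraMap_apply, div_eq_iff hU]
    linear_combination hrel
  obtain ⟨o, ho⟩ := IsIntegrallyClosed.isIntegral_iff.mp ((isIntegral_algHom_iff
    (IsScalarTower.toAlgHom O (FractionRing O) (AlgebraicClosure (FractionRing O)))
      (algebraMap (FractionRing O) _).injective).mp
      (by rwa [IsScalarTower.toAlgHom_apply, hzT]))
  exact ⟨o, by rw [IsScalarTower.algebraMap_apply O (FractionRing O)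
    (AlgebraicClosure (FractionRing O)), ho, hzT]⟩

/-- **A point killing the relations of the quadratic algebra over `R` comes from `R`**, with
values in `O`. -/
theorem exists_old_values {σ τ R O : Type} [CommRing R] [Module.Finite ℤ R] [CommRing O]
    [IsDomain O] [IsDiscreteValuationRing O] [CharZero O] (lab : σ → Polynomial R) (T D D' : R)
    (hD : D' * D = 1) {n : ℕ} (hn : n ≠ 0) (x : MvPolynomial σ ℤ →+* O)
    (χ : Polynomial R) (hχ : χ = Polynomial.X ^ 2 - Polynomial.C T * Polynomial.X +
      Polynomial.C ((n : R) * D'))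
    (hker : RingHom.ker ((AdjoinRoot.mk χ).comp (MvPolynomial.aeval (R := ℤ) lab).toRingHom) ≤
      RingHom.ker x)
    (i₀ : σ) (hi₀ : lab i₀ = Polynomial.X) (i₁ : σ) (hi₁ : lab i₁ = Polynomial.C D')
    (ev : MvPolynomial τ ℤ →+* R)
    (hlab : ∀ j : τ, ev (MvPolynomial.X j) = T ∨
      ∃ i, lab i = Polynomial.C (ev (MvPolynomial.X j))) :
    ∃ y : MvPolynomial τ ℤ →+* O, (∀ Q, ev Q = 0 → y Q = 0) ∧
      (∀ j i, lab i = Polynomial.C (ev (MvPolynomial.X j)) →
        y (MvPolynomial.X j) = x (MvPolynomial.X i)) ∧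
      ∀ jT jD, ev (MvPolynomial.X jT) = T → ev (MvPolynomial.X jD) = D →
        x (MvPolynomial.X i₀) * (y (MvPolynomial.X jT) - x (MvPolynomial.X i₀)) *
          y (MvPolynomial.X jD) = (n : O) := by
  classical
  let Ψ : MvPolynomial σ ℤ →+* AdjoinRoot χ :=
    (AdjoinRoot.mk χ).comp (MvPolynomial.aeval (R := ℤ) lab).toRingHom
  have hmon : χ.Monic := by rw [hχ]; monicity!
  -- `x` factors through the image in `R[X]/χ`, and extends to `G : R[X]/χ → Ω`
  let g₀ : Ψ.range →+* O :=
    Ψ.rangeRestrict.liftOfSurjective Ψ.rangeRestrict_surjective ⟨x, fun P hP => hker (by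
      rw [RingHom.mem_ker] at hP ⊢
      exact congrArg Subtype.val hP)⟩
  have hg₀ : ∀ P, g₀ (Ψ.rangeRestrict P) = x P := fun P =>
    RingHom.liftOfRightInverse_comp_apply _ _ _ _ P
  have : Module.Finite R (AdjoinRoot χ) := hmon.finite_adjoinRoot
  have : Module.Finite ℤ (AdjoinRoot χ) := Module.Finite.trans R (AdjoinRoot χ)
  have hint : (Ψ.range.subtype).IsIntegral := fun s => by
    obtain ⟨Q, hQm, hQ⟩ := Algebra.IsIntegral.isIntegral (R := ℤ) s
    refine ⟨Q.map (Int.castRingHom _), hQm.map _, ?_⟩
    rw [Polynomial.eval₂_map, ← hQ]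
    exact congrArg (fun φ : ℤ →+* AdjoinRoot χ => Polynomial.eval₂ φ s Q) (RingHom.ext_int _ _)
  set Ω := AlgebraicClosure (FractionRing O)
  have hinj : Function.Injective (algebraMap O Ω) := algClosure_algebraMap_injective O
  obtain ⟨G, hG⟩ := exists_extend_algClosed Ψ.range.subtype Subtype.coe_injective hint
    ((algebraMap O Ω).comp g₀)
  have hGΨ : ∀ i, G (AdjoinRoot.mk χ (lab i)) = algebraMap O Ω (x (MvPolynomial.X i)) := fun i => by
    rw [← hg₀ (MvPolynomial.X i)]
    refine Eq.trans (congrArg G ?_) (RingHom.congr_fun hG (Ψ.rangeRestrict (MvPolynomial.X i)))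
    exact congrArg (AdjoinRoot.mk χ) (MvPolynomial.aeval_X _ _).symm
  let g : R →+* Ω := G.comp (AdjoinRoot.of χ)
  have hgC : ∀ i t, lab i = Polynomial.C t → g t = algebraMap O Ω (x (MvPolynomial.X i)) :=
    fun i t h => by rw [← hGΨ i, h, AdjoinRoot.mk_C]; rfl
  set U := x (MvPolynomial.X i₀) with hU
  have hroot : G (AdjoinRoot.root χ) = algebraMap O Ω U := by
    rw [hU, ← hGΨ, hi₀, AdjoinRoot.mk_X]
  set e := x (MvPolynomial.X i₁) with he
  -- the root gives the quadratic relation, so the value at `T` lies in `O`, being integral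
  have hrel : algebraMap O Ω U ^ 2 - g T * algebraMap O Ω U +
      (n : Ω) * algebraMap O Ω e = 0 := by
    have h : G (AdjoinRoot.mk χ (Polynomial.X ^ 2 - Polynomial.C T * Polynomial.X +
        Polynomial.C ((n : R) * D'))) = 0 := by
      rw [← hχ, AdjoinRoot.mk_self, map_zero]
    simp only [map_add, map_sub, map_mul, map_pow, AdjoinRoot.mk_C, AdjoinRoot.mk_X, map_natCast,
      hroot] at h
    rw [he, ← hgC i₁ D' hi₁]
    exact h
  have h1 : g D * algebraMap O Ω e = 1 := by
    rw [he, ← hgC i₁ D' hi₁, ← map_mul, mul_comm, hD, map_one]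
  have hU0 : algebraMap O Ω U ≠ 0 := fun h => by
    rw [h] at hrel
    have hn0 : (n : Ω) ≠ 0 := by
      rw [← map_natCast (algebraMap O Ω), ← map_zero (algebraMap O Ω)]
      exact hinj.ne (Nat.cast_ne_zero.mpr hn)
    exact mul_ne_zero hn0 (right_ne_zero_of_mul_eq_one h1) (by linear_combination hrel)
  obtain ⟨t, ht⟩ : ∃ t : O, algebraMap O Ω t = g T := by
    have hi : IsIntegral O (g T) := by
      obtain ⟨Q, hQm, hQ⟩ := Algebra.IsIntegral.isIntegral (R := ℤ) T
      refine ⟨Q.map (Int.castRingHom O), hQm.map _, ?_⟩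
      rw [Polynomial.eval₂_map, ← map_zero g, ← hQ, Polynomial.hom_eval₂]
      exact congrArg (fun φ : ℤ →+* Ω => Polynomial.eval₂ φ (g T) Q) (RingHom.ext_int _ _)
    exact exists_algebraMap_eq_of_quadratic (c := (n : O) * e) hU0
      (by rw [map_mul, map_natCast]; exact hrel) hi
  have hval : ∀ j, ∃ o : O, algebraMap O Ω o = g (ev (MvPolynomial.X j)) := fun j => by
    rcases hlab j with h | ⟨i, hi⟩
    · exact ⟨t, by rw [h, ht]⟩
    · exact ⟨_, (hgC i _ hi).symm⟩
  -- hence all values of `ev` lie in `O`
  choose ov hov using hval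
  let y : MvPolynomial τ ℤ →+* O := (MvPolynomial.aeval (R := ℤ) ov).toRingHom
  have hy : ∀ Q, algebraMap O Ω (y Q) = g (ev Q) := fun Q =>
    RingHom.congr_fun (MvPolynomial.ringHom_ext (fun m => by simp) (fun j => by
      change algebraMap O Ω (MvPolynomial.aeval ov (MvPolynomial.X j)) = _
      rw [MvPolynomial.aeval_X]
      exact hov j) : (algebraMap O Ω).comp y = g.comp ev) Q
  refine ⟨y, fun Q hQ => hinj ?_, fun j i h => hinj ?_, fun jT jD hT hDj => hinj ?_⟩
  · rw [hy, hQ, map_zero, map_zero]
  · rw [hy, hgC i _ h]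
  · rw [map_mul, map_mul, map_sub, hy, hy, hT, hDj, map_natCast]
    linear_combination -(g D) * hrel + (n : Ω) * h1

variable {O : Type} [CommRing O] [IsDomain O] [IsDiscreteValuationRing O]
  [IsAdicComplete (IsLocalRing.maximalIdeal O) O] [Finite (IsLocalRing.ResidueField O)] [CharZero O]
  {x : MvPolynomial (Nat.Primes ⊕ (ZMod (M * q))ˣ) ℤ →+* O}

include hqM in
/-- **Either an operator killing both pushforwards has nonzero value, or the system is old.** -/
theorem exists_pushKiller_or_old (f : (heckeGens (M * q) (upH M H q)).R →+* O)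
    (hf : x = f.comp (ringEval (M * q) (upH M H q))) :
    (∃ t, f t ≠ 0 ∧ ∀ z : JK,
      pushPic (Fermat.BAD.XH.al M q H) ((heckeGens (M * q) (upH M H q)).act t z) = 0 ∧
      pushPic (Fermat.BAD.XH.be M q H) ((heckeGens (M * q) (upH M H q)).act t z) = 0) ∨
    ∃ y : MvPolynomial (Nat.Primes ⊕ (ZMod M)ˣ) ℤ →+* O, IsPoint M H y ∧
      (∀ ℓ : ℕ, ℓ.Prime → ℓ ≠ q → tVal y ℓ = tVal x ℓ) ∧
      (∀ u : (ZMod (M * q))ˣ, y (MvPolynomial.X (Sum.inr (ZMod.unitsMap (dvd_mul_right M q) u))) =
        x (MvPolynomial.X (Sum.inr u))) ∧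
      tVal x q * (tVal y q - tVal x q) *
        y (MvPolynomial.X (Sum.inr (Fermat.BAD.XH.qUnit M q hq hqM))) = (q : O) := by
  classical
  set χ := oldChar M q H hq hqM with hχ
  -- `Ψ` is evaluation on old classes modulo the characteristic polynomial of `U_q` on them
  let Ψ : MvPolynomial (Nat.Primes ⊕ (ZMod (M * q))ˣ) ℤ →+* AdjoinRoot χ :=
    (AdjoinRoot.mk χ).comp (oldEval M q H)
  by_cases hker : RingHom.ker Ψ ≤ RingHom.ker x
  swap
  -- an element of its kernel with nonzero value kills both pushforwards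
  · left
    obtain ⟨P, hP, hPx⟩ := SetLike.not_le_iff_exists.mp hker
    refine ⟨ringEval (M * q) (upH M H q) P, fun h => hPx (RingHom.mem_ker.mpr ?_), fun z => ?_⟩
    · rw [hf, RingHom.comp_apply, h]
    · obtain ⟨Q, hQ⟩ := AdjoinRoot.mk_eq_zero.mp (RingHom.mem_ker.mp hP)
      exact Prod.ext_iff.mp (eq_zero_of_eq_mul (pairPoly M q H hq hqM)
        (pairPoly_oldChar M q H hq hqM) hQ (pushPair_ringEval M q H hq hqM P z))
  right
  -- otherwise the values factor through the old quotient and give the system `y`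
  obtain ⟨u₁, hu₁⟩ :=
    ZMod.unitsMap_surjective (dvd_mul_right M q) (Fermat.BAD.XH.qUnit M q hq hqM)⁻¹
  obtain ⟨y, hy0, hyv, hyq⟩ := exists_old_values (oldLabel M q H) (tQ M q H hq)
    (dOp M H (Fermat.BAD.XH.qUnit M q hq hqM)) (dInvQ M q H hq hqM)
    (by rw [dInvQ, ← dOp_mul, inv_mul_cancel, dOp_one]) hq.ne_zero x χ hχ hker
    (Sum.inl ⟨q, hq⟩) (if_pos rfl) (Sum.inr u₁) (by rw [oldLabel_inr, hu₁]; rfl)
    (ringEval M H) (fun j => by
      rcases j with ℓ | w
      · rw [ringEval_inl]
        by_cases h : (ℓ : ℕ) = q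
        · exact Or.inl (congrArg (tOp M H) (Subtype.ext h))
        · exact Or.inr ⟨Sum.inl ℓ, if_neg h⟩
      · obtain ⟨u, rfl⟩ := ZMod.unitsMap_surjective (dvd_mul_right M q) w
        exact Or.inr ⟨Sum.inr u, by rw [ringEval_inr]; rfl⟩)
  refine ⟨y, ⟨fun Q hQ => hy0 Q ((ringEval_eq_zero_iff M H Q).mpr hQ)⟩, fun ℓ hℓ hℓq => ?_,
    fun u => hyv _ (Sum.inr u) (by rw [ringEval_inr]; rfl), ?_⟩
  · rw [tVal, tVal, dif_pos hℓ, dif_pos hℓ]
    exact hyv _ (Sum.inl ⟨ℓ, hℓ⟩)
      ((if_neg hℓq).trans (congrArg Polynomial.C (ringEval_inl M H ⟨ℓ, hℓ⟩).symm))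
  · rw [tVal, tVal, dif_pos hq, dif_pos hq]
    exact hyq _ _ (ringEval_inl M H _) (ringEval_inr M H _)

end Fermat.GR.RT

end
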