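import Fermat.Agent.GR.RT.CharInputProof
import Fermat.Agent.GR.RT.NewProofOld
import Fermat.Agent.BAD.XH.TorsionStatement
import Fermat.Agent.GR.RT.LiftInputs

/-!
# Bad reduction at `q ∥ K`, `q ≠ p`, trivial character at `q`

Inertia is unipotent.  A system off level `K / q` is seen on the classes killed by both
pushforwards, where Frobenius satisfies `φ² - (q + 1) U_q ⟨q⟩ φ + q ⟨q⟩ = 0` and `U_q² ⟨q⟩ = 1`; a
system from level `K / q` with `U_q² ⟨q⟩ = 1` has trace `U_q ⟨q⟩ (q + 1)` from that level.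
-/

set_option autoImplicit false

noncomputable section

open MvPolynomial IsLocalRing AlgebraicCurve

namespace Fermat.GR.RT

open Fermat.MC.Lvl Fermat.JAC Fermat.JAC.XH
open Fermat.JAC.X0 (embC)

local notation "ℚbar" => AlgebraicClosure ℚ
local notation "Γℚ" => (AlgebraicClosure ℚ ≃ₐ[ℚ] AlgebraicClosure ℚ)
local notation "M2" R => Matrix (Fin 2) (Fin 2) R

section Killer

variable {R J : Type} [CommRing R] [AddCommGroup J] [DistribMulAction Γℚ J] {K p : ℕ}
  {T ε : ℕ → R} (D : ESData R J K p T ε) (Kr : J → Prop) {t U E : R}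

/-- A relation `E U² = 1` on the image of `t` gives a quadratic relation in `D` for the identity. -/
theorem quadratic_one_of_killer (ht : ∀ z, Kr (D.act t z))
    (h : ∀ z, Kr z → D.act E (D.act U (D.act U z)) = z) :
    Fermat.BAD.XC.Quadratic D 1 1 t (U * U * E) 0 := fun n z _ => by
  have e : D.act t (D.act (U * U * E) z) = D.act t z := by
    rw [← addEnd_mul_apply, ← map_mul, show t * (U * U * E) = E * (U * (U * t)) by ring, map_mul,
      map_mul, map_mul, addEnd_mul_apply, addEnd_mul_apply, addEnd_mul_apply]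
    exact h _ (ht z)
  rw [one_smul, one_smul, one_smul, map_zero D.act,
    show (0 : AddMonoid.End J) z = 0 from rfl, add_zero, map_sub (D.act t), e, sub_self]

/-- A quadratic relation of a Galois element on the image of `t` gives one in `D`. -/
theorem quadratic_of_killer (ht : ∀ z, Kr (D.act t z)) {φ : Γℚ} {d q : ℕ}
    (h : ∀ (n : ℕ) (z : J), p ^ n • z = 0 → Kr z →
      d • (φ • φ • z - (q + 1) • D.act E (D.act U (φ • z)) + q • D.act E z) = 0) :
    Fermat.BAD.XC.Quadratic D φ d t (((q + 1 : ℕ) : R) * (E * U)) ((q : R) * E) := fun n z hz => by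
  have hcomm : ∀ (s : R) (w : J), D.act t (D.act s w) = D.act s (D.act t w) := fun s w => by
    rw [← addEnd_mul_apply, ← addEnd_mul_apply, ← map_mul, ← map_mul, mul_comm]
  have hn : ∀ (m : ℕ) (s : R) (w : J), D.act ((m : R) * s) w = m • D.act s w :=
    fun m s w => by rw [← nsmul_eq_mul, map_nsmul]; rfl
  rw [map_add, map_sub, hn, hn, map_nsmul, map_nsmul, map_mul D.act E U, addEnd_mul_apply,
    hcomm E, hcomm E, hcomm U, ← D.galois_act φ t, ← D.galois_act φ t]
  exact h n (D.act t z) (by rw [← map_nsmul, hz, map_zero]) (ht z)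

end Killer

section Generic

variable {J S : Type} [AddCommGroup J]

/-- Two homomorphisms applied to zero differ by zero. -/
private theorem map_sub_map_eq_zero (f g : AddMonoid.End J) {a b : J} (ha : a = 0) (hb : b = 0) :
    f a - g b = 0 := by
  rw [ha, hb, map_zero, map_zero, sub_zero]

/-- If `U` is `-w` on `z` and `U z`, `D` is `a` and `w²` is `a⁻¹` on `z`, then `D U² z = z`. -/
private theorem apply_apply_apply_eq_self [Monoid S] [DistribMulAction S J] (U D : J → J)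
    {w a b : S} (hab : a * b = 1) {z : J} (h1 : U z = -(w • z)) (h2 : U (U z) = -(w • U z))
    (hD : ∀ y, D y = a • y) (hw : w • w • z = b • z) : D (U (U z)) = z := by
  rw [h2, h1, smul_neg, neg_neg, hD, hw, ← mul_smul, hab, one_smul]

/-- The relation of `φ` with `w` in terms of `U = -w` and of a `D` with `D U² = 1`, on `K`. -/
private theorem relation_of_eq_neg [Monoid S] [DistribMulAction S J] {G : Type} [SMul G J]
    {K : J → Prop} (U D : AddMonoid.End J) (w : S) (φ : G) (hKU : ∀ x, K x → K (U x))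
    (hKφ : ∀ x, K x → K (φ • x)) (hw : ∀ x, K x → w • x = -U x)
    (hUD : ∀ x, K x → D (U (U x)) = x) {d q : ℕ} {z : J} (hz : K z)
    (h : d • (w • w • φ • φ • z + (q + 1) • w • φ • z + q • z) = 0) :
    d • (φ • φ • z - (q + 1) • D (U (φ • z)) + q • D z) = 0 := by
  have h1 := hKφ _ hz
  have h2 := hKφ _ h1
  rw [hw _ h2, hw _ h1, smul_neg w, hw _ (hKU _ h2), neg_neg, smul_neg] at h
  have h3 := congrArg D h
  rw [map_zero, map_nsmul, map_add, map_add, map_neg, map_nsmul, map_nsmul, hUD _ h2] at h3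
  rw [sub_eq_add_neg]
  exact h3

end Generic

/-- At level `Γ_H(M q)` the diamond values only depend on the classes modulo `M`. -/
theorem IsPoint.diaVal_eq_of_unitsMap_eq {M q : ℕ} [NeZero (M * q)] {H : Subgroup (ZMod M)ˣ}
    {O : Type} [CommRing O] {x : MvPolynomial (Nat.Primes ⊕ (ZMod (M * q))ˣ) ℤ →+* O}
    (hx : IsPoint (M * q) (upH M H q) x) {u v : (ZMod (M * q))ˣ}
    (h : ZMod.unitsMap (dvd_mul_right M q) u = ZMod.unitsMap (dvd_mul_right M q) v) :
    diaVal hx u = diaVal hx v := by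
  have h1 : u * v⁻¹ ∈ upH M H q := Subgroup.mem_comap.mpr (by
    rw [map_mul, map_inv, h, mul_inv_cancel]; exact one_mem H)
  rw [show u = u * v⁻¹ * v by rw [inv_mul_cancel_right], map_mul, diaVal_apply hx (_ * _),
    hx.dia_eq_one h1, one_mul]

variable (M q : ℕ) [NeZero M] [NeZero q] [Fact q.Prime] (H : Subgroup (ZMod M)ˣ) [NegMem H]

local notation "JK" => Pic0 ℚbar (FL (GammaH (M * q) (upH M H q)) ℚbar)

omit [Fact (Nat.Prime q)] in
/-- The square of the Atkin-Lehner automorphism is the inverse diamond. -/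
theorem atkinAut_atkinAut_smul (hq : q.Prime) (hqM : ¬ q ∣ M) (u : (ZMod (M * q))ˣ)
    (hu : ZMod.unitsMap (dvd_mul_right M q) u = Fermat.BAD.XH.qUnit M q hq hqM) (z : JK) :
    Fermat.BAD.XH.atkinAut M q H hq hqM • Fermat.BAD.XH.atkinAut M q H hq hqM • z =
      SemilinearAut.ofAlgAut (diamondHom (upH M H q) embC u⁻¹) • z := by
  rw [← mul_smul]
  refine congrArg (fun s : SemilinearAut ℚbar (FL (GammaH (M * q) (upH M H q)) ℚbar) => s • z) ?_
  rw [Fermat.BAD.XH.atkinAut, ← map_mul]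
  refine congrArg _ (AlgEquiv.ext fun f => ?_)
  change Fermat.BAD.XH.sqW M q H hq hqM f = _
  have hu' : ZMod.unitsMap (dvd_mul_right M q) u⁻¹ = (Fermat.BAD.XH.qUnit M q hq hqM)⁻¹ := by
    rw [map_inv, hu]
  have hdia : ∀ g : Fermat.BAD.XH.FH M H,
      Fermat.BAD.XH.dq M q H hq hqM g =
        diamondHom H embC (ZMod.unitsMap (dvd_mul_right M q) u⁻¹) g := fun g => by
    rw [hu']; rfl
  refine Fermat.BAD.XH.ringHom_ext M q H hq hqM
    (φ := (Fermat.BAD.XH.sqW M q H hq hqM).toAlgHom.toRingHom)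
    (ψ := (diamondHom (upH M H q) embC u⁻¹).toAlgHom.toRingHom) (fun g => ?_) ?_ f
  · change Fermat.BAD.XH.sqW M q H hq hqM (Fermat.BAD.XH.al M q H g) = _
    rw [Fermat.BAD.XH.sqW_al, hdia]
    exact (Fermat.BAD.XH.diamond_al M q H embC u⁻¹ g).symm
  · change Fermat.BAD.XH.sqW M q H hq hqM (Fermat.BAD.XH.be M q H (Fermat.BAD.XH.jM M H)) = _
    rw [Fermat.BAD.XH.sqW_be, hdia]
    exact (Fermat.BAD.XH.diamond_be M q H embC u⁻¹ _).symm

/-- `U_q² ⟨q⟩ = 1` on the classes killed by both pushforwards. -/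
theorem uq_uq_dOp (hq : q.Prime) (hqM : ¬ q ∣ M) (u : (ZMod (M * q))ˣ)
    (hu : ZMod.unitsMap (dvd_mul_right M q) u = Fermat.BAD.XH.qUnit M q hq hqM) (z : JK)
    (ha : pushPic (Fermat.BAD.XH.al M q H) z = 0) (hb : pushPic (Fermat.BAD.XH.be M q H) z = 0) :
    (heckeGens (M * q) (upH M H q)).act (dOp (M * q) (upH M H q) u)
      ((heckeGens (M * q) (upH M H q)).act (tOp (M * q) (upH M H q) ⟨q, hq⟩)
        ((heckeGens (M * q) (upH M H q)).act (tOp (M * q) (upH M H q) ⟨q, hq⟩) z)) = z := by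
  have hUa := (Fermat.BAD.XH.pushPic_al_uq M q H hq hqM z).trans
    (map_sub_map_eq_zero _ _ ha hb)
  refine apply_apply_apply_eq_self _ _ ?_ (Fermat.BAD.XH.uq_eq_neg_atkin M q H hq hqM ha)
    (Fermat.BAD.XH.uq_eq_neg_atkin M q H hq hqM hUa) (act_dOp (M * q) (upH M H q) u)
    (atkinAut_atkinAut_smul M q H hq hqM u hu z)
  rw [← map_mul SemilinearAut.ofAlgAut, ← map_mul (diamondHom (upH M H q) embC), mul_inv_cancel,
    map_one, map_one]

/-- The Frobenius relation in Hecke operators: `d (φ² - (q + 1) ⟨q⟩ U_q φ + q ⟨q⟩) = 0` on the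
`p`-power torsion killed by both pushforwards. -/
theorem frobenius_relation_of_torsion (hq : q.Prime) (hqM : ¬ q ∣ M)
    (hF : Fermat.BAD.XH.FrobeniusStatement M q H hq hqM) {p : ℕ} (hp : p.Prime) (hqp : q ≠ p)
    {A : ValuationSubring ℚbar} (hA : A.LiesOverPrime q) {φ : Γℚ} (hφ : A.IsFrobeniusAt φ q)
    (u : (ZMod (M * q))ˣ)
    (hu : ZMod.unitsMap (dvd_mul_right M q) u = Fermat.BAD.XH.qUnit M q hq hqM) :
    ∃ d : ℕ, d ≠ 0 ∧ ∀ (n : ℕ) (z : JK), p ^ n • z = 0 →
      pushPic (Fermat.BAD.XH.al M q H) z = 0 → pushPic (Fermat.BAD.XH.be M q H) z = 0 →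
      d • (φ • φ • z -
        (q + 1) • (heckeGens (M * q) (upH M H q)).act (dOp (M * q) (upH M H q) u)
          ((heckeGens (M * q) (upH M H q)).act (tOp (M * q) (upH M H q) ⟨q, hq⟩) (φ • z)) +
        q • (heckeGens (M * q) (upH M H q)).act (dOp (M * q) (upH M H q) u) z) = 0 := by
  obtain ⟨d, hd, hrel⟩ := hF
  refine ⟨d, hd, fun n z hz ha hb => ?_⟩
  refine relation_of_eq_neg (K := fun w => pushPic (Fermat.BAD.XH.al M q H) w = 0 ∧
      pushPic (Fermat.BAD.XH.be M q H) w = 0) _ _ _ φ (fun w hw => ⟨?_, ?_⟩) (fun w hw => ⟨?_, ?_⟩)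
    (fun w hw => neg_eq_iff_eq_neg.mp
      (Fermat.BAD.XH.uq_eq_neg_atkin M q H hq hqM hw.1).symm)
    (fun w hw => uq_uq_dOp M q H hq hqM u hu w hw.1 hw.2) ⟨ha, hb⟩
    (hrel A hA φ hφ (p ^ n) (fun h => hqp
      ((Nat.prime_dvd_prime_iff_eq hq hp).mp (hq.dvd_of_dvd_pow h))) z hz ha hb)
  -- `U_q` and Frobenius keep the classes killed by both pushforwards
  · exact (Fermat.BAD.XH.pushPic_al_uq M q H hq hqM w).trans (map_sub_map_eq_zero _ _ hw.1 hw.2)
  · exact (Fermat.BAD.XH.pushPic_be_uq M q H hq w).trans (by rw [hw.1, smul_zero])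
  · exact (Fermat.BAD.XH.pushPic_al_galois M q H φ w).trans (by
      rw [hw.1]
      exact (DistribSMul.toAddMonoidHom (Pic0 ℚbar (FL (GammaH M H) ℚbar)) φ).map_zero)
  · exact (Fermat.BAD.XH.pushPic_be_galois M q H φ w).trans (by
      rw [hw.2]
      exact (DistribSMul.toAddMonoidHom (Pic0 ℚbar (FL (GammaH M H) ℚbar)) φ).map_zero)

variable {p : ℕ} [hp : Fact p.Prime] {O : Type} [CommRing O] [IsDomain O]
  [IsDiscreteValuationRing O] [IsAdicComplete (maximalIdeal O) O] [Finite (ResidueField O)]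
  [CharZero O]

/-- A scalar killing a matrix of nonzero determinant is zero. -/
private theorem eq_zero_of_smul_eq_zero_of_det {S : Type} [CommRing S] [IsDomain S] {X : M2 S}
    (hX : X.det ≠ 0) {a : S} (h : a • X = 0) : a = 0 := by
  have h00 := congrArg Matrix.det h
  rw [Matrix.det_smul, Matrix.det_zero] at h00
  exact pow_eq_zero_iff (n := Fintype.card (Fin 2)) (by simp) |>.mp
    ((mul_eq_zero.mp h00).resolve_right hX)

/-- If `X` and `Y` have determinant one and equal traces and `(Y - 1) ^ 2 = 0`, then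
`(X - 1) ^ 2 = 0`. -/
private theorem sq_sub_one_eq_zero {S : Type} [CommRing S] [IsDomain S] {X Y : M2 S}
    (htr : X.trace = Y.trace) (hX : X.det = 1) (hY : Y.det = 1)
    (e : Y * Y - (2 : S) • Y + 1 = 0) : (X - 1) * (X - 1) = 0 := by
  have hcY := Fermat.DS.mul_self_eq Y
  rw [hY, one_smul] at hcY
  have ht2 : Y.trace = 2 := by
    have key : (Y.trace - 2) • Y = 0 := by
      rw [hcY] at e
      rw [sub_smul, ← e]
      abel
    exact sub_eq_zero.mp (eq_zero_of_smul_eq_zero_of_det (hY.symm ▸ one_ne_zero) key)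
  have hc := Fermat.DS.mul_self_eq X
  rw [hX, one_smul, htr, ht2] at hc
  rw [sub_mul, one_mul, mul_sub, mul_one, hc, two_smul]
  abel

omit [IsAdicComplete (maximalIdeal O) O] [CharZero O] in
/-- Away from `q` an eigen system and the one it comes from have the same traces. -/
private theorem trace_eq_of_old {K : ℕ} [NeZero K] {q : ℕ} [NeZero (K * q)]
    {x : MvPolynomial (Nat.Primes ⊕ (ZMod (K * q))ˣ) ℤ →+* O}
    {y : MvPolynomial (Nat.Primes ⊕ (ZMod K)ˣ) ℤ →+* O} {r s : Γℚ →* M2 O}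
    (hr : IsAttached p x r) (hs : IsAttached p y s)
    (hyT : ∀ ℓ : ℕ, ℓ.Prime → ℓ ≠ q → tVal y ℓ = tVal x ℓ)
    (hyD : ∀ u : (ZMod (K * q))ˣ, y (X (Sum.inr (ZMod.unitsMap (dvd_mul_right K q) u))) =
      x (X (Sum.inr u))) (σ : Γℚ) : (r σ).trace = (s σ).trace :=
  trace_eq_of_frobenius hr.cont hs.cont
    (Nat.primeFactors (K * q * p)) (fun ℓ hℓ hbad P hP ψ hψ => by
      have hℓK : ¬ ℓ ∣ K * q * p := fun hd' => hbad (Nat.mem_primeFactors.mpr
        ⟨hℓ, hd', mul_ne_zero (NeZero.ne _) hp.out.ne_zero⟩)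
      have hℓN : ¬ ℓ ∣ K * p := fun h => hℓK (by
        rw [mul_right_comm]; exact h.mul_right q)
      have hℓq : ℓ ≠ q := fun h => hℓK (h ▸ (dvd_mul_left ℓ K).mul_right p)
      have hcK : ℓ.Coprime (K * q) := hℓ.coprime_iff_not_dvd.mpr fun h => hℓK (h.mul_right p)
      have hcN : ℓ.Coprime K := hcK.coprime_mul_right_right
      obtain ⟨t1, d1⟩ := hr.frobenius ℓ hℓ hℓK P hP ψ hψ
      obtain ⟨t2, d2⟩ := hs.frobenius ℓ hℓ hℓN P hP ψ hψ
      have he' : eVal y ℓ = eVal x ℓ := by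
        rw [eVal, eVal, dif_pos hcK, dif_pos hcN, ← hyD]
        refine congrArg (fun w => y (X (Sum.inr w))) (Units.ext ?_)
        rw [ZMod.unitsMap_val, ZMod.coe_unitOfCoprime, ZMod.coe_unitOfCoprime]
        exact (ZMod.cast_natCast (dvd_mul_right K q) ℓ).symm
      exact ⟨by rw [t1, t2, hyT ℓ hℓ hℓq, he'], by rw [d1, d2, he']⟩) σ

/-- What the torsion relations give at level `Γ_H(M q)`, with `U` the value of `U_q` and `ε` that of
the diamond at `q`: inertia at `q` is unipotent, and either the trace of Frobenius is `U ε (q + 1)`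
and `U² ε = 1`, or the system is old at `q` and has that trace if `U² ε = 1`. -/
theorem bad_local (hq : q.Prime) (hqM : ¬ q ∣ M)
    (hI : Fermat.BAD.XH.InertiaStatement M q H)
    (hF : Fermat.BAD.XH.FrobeniusStatement M q H hq hqM) (hqp : q ≠ p)
    (hpO : (p : O) ∈ maximalIdeal O)
    {x : MvPolynomial (Nat.Primes ⊕ (ZMod (M * q))ˣ) ℤ →+* O}
    (hx : IsPoint (M * q) (upH M H q) x) {r : Γℚ →* M2 O} (hr : IsAttached p x r)
    {A : ValuationSubring ℚbar} (hA : A.LiesOverPrime q) :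
    (∀ σ ∈ A.inertiaSubgroupIn ℚ, (r σ - 1) * (r σ - 1) = 0) ∧
    ∀ φ : Γℚ, A.IsFrobeniusAt φ q → ∀ u : (ZMod (M * q))ˣ,
      ZMod.unitsMap (dvd_mul_right M q) u = Fermat.BAD.XH.qUnit M q hq hqM →
        ((r φ).trace = tVal x q * x (X (Sum.inr u)) * ((q : O) + 1) ∧
          tVal x q ^ 2 * x (X (Sum.inr u)) = 1) ∨
        (IsOldAt (M * q) (upH M H q) x q ∧
          (tVal x q ^ 2 * x (X (Sum.inr u)) = 1 →
            (r φ).trace = tVal x q * x (X (Sum.inr u)) * ((q : O) + 1))) := by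
  obtain ⟨f, hf, he, ht⟩ := hx.exists_jacPoint
  -- `D`: the Eichler–Shimura data of the level (not a divisor)
  let D := Fermat.RED.Full.esData (M * q) (upH M H q) p
  obtain ⟨r', hr'c, hr'loc, hquad⟩ := Fermat.BAD.XC.exists_rep_quadratic D hpO f
  have hr' : IsAttached p x r' :=
    ⟨hr'c, fun ℓ hℓ hd P hP => (hr'loc ℓ hℓ hd P hP).1, fun ℓ hℓ hd P hP φ hφ => by
      obtain ⟨h1, h2⟩ := (hr'loc ℓ hℓ hd P hP).2 φ hφ
      exact ⟨h1.trans (ht ℓ), h2.trans (by rw [he])⟩⟩
  have htr := trace_eq_of_attached hr hr'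
  refine ⟨fun σ hσ => ?_, fun φ hφ u hu => ?_⟩
  -- inertia: `(r' σ - 1)² = 0` and both determinants are `1`
  · obtain ⟨d, hd, hrel⟩ := hI
    have hR : Fermat.BAD.XC.Relation D σ d 1 1 := fun n z hz => by
      rw [map_one D.act]
      exact hrel A hA σ hσ (p ^ n)
        (fun h => hqp ((Nat.prime_dvd_prime_iff_eq hq hp.out).mp (hq.dvd_of_dvd_pow h))) z hz
    have e := hquad σ d 1 _ _ hd (by rw [RingHom.map_one]; exact one_ne_zero) (hR.quadratic D)
    rw [RingHom.map_add, RingHom.map_one, one_smul, one_add_one_eq_two] at e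
    have hd1 : (r' σ).det = 1 := by
      rw [hr'.det_inertia hx hpO hq hqp hA hσ, ← map_one (diaVal hx)]
      exact hx.diaVal_eq_of_unitsMap_eq (by
        rw [unitsMap_cycK, cycK_inertia hq (hq.coprime_iff_not_dvd.mpr hqM) hA hσ, map_one])
    exact sq_sub_one_eq_zero (htr σ)
      (by rw [hr.det_inertia hx hpO hq hqp hA hσ, ← hr'.det_inertia hx hpO hq hqp hA hσ, hd1]) hd1 e
  set ε := x (X (Sum.inr u)) with hε
  set U := tVal x q with hU
  have hfU : f (tOp (M * q) (upH M H q) ⟨q, hq⟩) = U := by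
    rw [hU, tVal, dif_pos hq, hf, RingHom.comp_apply]
    exact congrArg f (ringEval_inl (M * q) (upH M H q) ⟨q, hq⟩).symm
  have hfu : f (dOp (M * q) (upH M H q) u) = ε := by
    rw [hε, hf, RingHom.comp_apply, ringEval_inr]
  have hεφ : diaVal hx (cycK (M * q) φ) = ε := by
    rw [hε, ← diaVal_apply hx]
    exact hx.diaVal_eq_of_unitsMap_eq (by
      rw [unitsMap_cycK, cycK_frobenius hq (hq.coprime_iff_not_dvd.mpr hqM) hA hφ, hu])
  rcases exists_pushKiller_or_old M q H hq hqM f hf with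
    ⟨t, ht0, hkill⟩ | ⟨y, hy, hyT, hyD, hyq⟩
  -- a system seen on the classes killed by both pushforwards: `U² ε = 1` and the relation of `φ`
  · left
    let Uop := tOp (M * q) (upH M H q) ⟨q, hq⟩
    let Dop := dOp (M * q) (upH M H q) u
    let Kr : JK → Prop := fun z => pushPic (Fermat.BAD.XH.al M q H) z = 0 ∧
      pushPic (Fermat.BAD.XH.be M q H) z = 0
    have hUU : U ^ 2 * ε = 1 := by
      have e := hquad 1 1 t _ _ one_ne_zero ht0 (quadratic_one_of_killer D Kr hkill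
        (U := Uop) (E := Dop) fun z hz => uq_uq_dOp M q H hq hqM u hu z hz.1 hz.2)
      rw [map_one r', RingHom.map_zero, zero_smul, add_zero, mul_one, RingHom.map_mul,
        RingHom.map_mul, hfU, hfu] at e
      have e00 := congrFun (congrFun e 0) 0
      simp only [Matrix.sub_apply, Matrix.smul_apply, Matrix.one_apply_eq, smul_eq_mul, mul_one,
        Matrix.zero_apply] at e00
      linear_combination -e00
    refine ⟨?_, hUU⟩
    obtain ⟨d, hd, hrel⟩ :=
      frobenius_relation_of_torsion M q H hq hqM hF hp.out hqp hA hφ u hu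
    have e := hquad φ d t _ _ hd ht0 (quadratic_of_killer D Kr hkill (U := Uop) (E := Dop)
      (q := q) fun n z hz hk => hrel n z hz hk.1 hk.2)
    rw [f.map_mul _ (Dop * Uop), f.map_mul Dop Uop, f.map_mul _ Dop, map_natCast, map_natCast,
      hfU, hfu] at e
    have hdet : (r' φ).det = (q : O) * ε := by
      rw [hr'.det_eq_cyc hx hpO, cycO_frobenius hpO hq hqp hA hφ, hεφ]
    have hc := Fermat.DS.mul_self_eq (r' φ)
    rw [hdet] at hc
    rw [hc] at e
    have key : ((r' φ).trace - ((q + 1 : ℕ) : O) * (ε * U)) • r' φ = 0 := by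
      rw [sub_smul, ← e]
      abel
    have hqε : (r' φ).det ≠ 0 := hdet ▸
      mul_ne_zero (Nat.cast_ne_zero.mpr hq.ne_zero) (right_ne_zero_of_mul_eq_one hUU)
    have h := sub_eq_zero.mp (eq_zero_of_smul_eq_zero_of_det hqε key)
    rw [htr φ, h]
    push_cast
    ring
  -- a system from level `M`: compare with its representation
  · right
    have hmap : (upH M H q).map (ZMod.unitsMap (dvd_mul_right M q)) = H :=
      Subgroup.map_comap_eq_self_of_surjective (ZMod.unitsMap_surjective _) H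
    refine ⟨⟨M, inferInstance, dvd_mul_right M q, rfl, y, by rw [hmap]; exact hy, hyT, hyD⟩,
      fun hUU => ?_⟩
    obtain ⟨s, hs⟩ := attachInput p M H NegMem.neg_one_mem O hpO y hy
    have htrs : ∀ σ, (r σ).trace = (s σ).trace := trace_eq_of_old hr hs hyT hyD
    have hqMp : ¬ q ∣ M * p := fun h => (hq.dvd_mul.mp h).elim hqM fun h' =>
      hqp ((Nat.prime_dvd_prime_iff_eq hq hp.out).mp h')
    have hyε : y (X (Sum.inr (Fermat.BAD.XH.qUnit M q hq hqM))) = ε := by
      rw [hε, ← hyD u, hu]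
    rw [htrs φ, (hs.frobenius q hq hqMp A hA φ hφ).1, eVal,
      dif_pos (hq.coprime_iff_not_dvd.mpr hqM), hyε]
    rw [hyε, ← hU] at hyq
    linear_combination (U * ε) * hyq - (tVal y q * ε - U * ε) * hUU

/-- A subgroup containing the kernel of reduction modulo `K'` is the preimage of its image; so a
level `(K, H₀)` is of the form `Γ_H(M q)`. -/
theorem exists_level_eq {K : ℕ} [NeZero K] {H₀ : Subgroup (ZMod K)ˣ} {q₁ K' : ℕ}
    (hK : K' * q₁ = K) (hneg : -1 ∈ H₀)
    (hker : ∀ u : (ZMod K)ˣ, ((u : ZMod K).val : ZMod K') = 1 → u ∈ H₀) :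
    ∃ (h : K' ∣ K), (-1 : (ZMod K')ˣ) ∈ H₀.map (ZMod.unitsMap h) ∧
      H₀ = (H₀.map (ZMod.unitsMap h)).comap (ZMod.unitsMap h) := by
  have h : K' ∣ K := ⟨q₁, hK.symm⟩
  refine ⟨h, ⟨-1, hneg, Units.ext (by simp [ZMod.unitsMap])⟩,
    le_antisymm (Subgroup.le_comap_map _ _) fun u hu => ?_⟩
  obtain ⟨v, hv, hvu⟩ := Subgroup.mem_map.mp (Subgroup.mem_comap.mp hu)
  have : NeZero K' := ⟨fun e => NeZero.ne K (by rw [← hK, e, zero_mul])⟩
  have h1 : u * v⁻¹ ∈ H₀ := hker _ (by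
    rw [ZMod.natCast_val, ← ZMod.unitsMap_val h, map_mul, map_inv, hvu, mul_inv_cancel,
      Units.val_one])
  simpa using mul_mem h1 hv

/-- **`NewInput`** from the torsion relations. -/
theorem newInput_of_torsion
    (hI : ∀ (M q : ℕ) [NeZero M] [NeZero q] [Fact q.Prime] (H : Subgroup (ZMod M)ˣ) [NegMem H],
      q.Prime → ¬ q ∣ M → Fermat.BAD.XH.InertiaStatement M q H)
    (hF : ∀ (M q : ℕ) [NeZero M] [NeZero q] [Fact q.Prime] (H : Subgroup (ZMod M)ˣ) [NegMem H]
      (hq : q.Prime) (hqM : ¬ q ∣ M), Fermat.BAD.XH.FrobeniusStatement M q H hq hqM) :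
    NewInput p := by
  intro K _ H₀ hneg q₁ hq hqp M' hK hqM hker O _ _ _ _ _ _ hpO x hx r hr A hA
  obtain ⟨h, hneg', hH⟩ := exists_level_eq hK hneg hker
  subst hK
  have : NeZero M' := ⟨fun e => NeZero.ne (M' * q₁) (by rw [e, zero_mul])⟩
  have : NeZero q₁ := ⟨hq.ne_zero⟩
  have := Fact.mk hq
  have : NegMem (H₀.map (ZMod.unitsMap h)) := ⟨hneg'⟩
  rw [hH] at hx ⊢
  obtain ⟨h1, h2⟩ := bad_local M' q₁ (H₀.map (ZMod.unitsMap h)) hq hqM
    (hI M' q₁ _ hq hqM) (hF M' q₁ _ hq hqM) hqp hpO hx hr hA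
  refine ⟨h1, fun hnold φ hφ u hu => ?_⟩
  have hu' : ZMod.unitsMap (dvd_mul_right M' q₁) u = Fermat.BAD.XH.qUnit M' q₁ hq hqM :=
    Units.ext (by rw [ZMod.unitsMap_val, ← ZMod.natCast_val, hu, ZMod.coe_unitOfCoprime])
  rcases h2 φ hφ u hu' with ⟨e, hUU⟩ | ⟨hold, -⟩
  · rw [e]
    linear_combination (x (X (Sum.inr u)) * ((q₁ : O) + 1) ^ 2) * hUU
  · exact absurd hold hnold

/-- **`NewSignInput`** from the torsion relations. -/
theorem newSignInput_of_torsion
    (hI : ∀ (M q : ℕ) [NeZero M] [NeZero q] [Fact q.Prime] (H : Subgroup (ZMod M)ˣ) [NegMem H],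
      q.Prime → ¬ q ∣ M → Fermat.BAD.XH.InertiaStatement M q H)
    (hF : ∀ (M q : ℕ) [NeZero M] [NeZero q] [Fact q.Prime] (H : Subgroup (ZMod M)ˣ) [NegMem H]
      (hq : q.Prime) (hqM : ¬ q ∣ M), Fermat.BAD.XH.FrobeniusStatement M q H hq hqM) :
    NewSignInput p := by
  intro K _ H₀ hneg q₁ hq hqp M' hK hqM hker O _ _ _ _ _ _ hpO x hx r hr u hu hUU A hA φ hφ
  obtain ⟨h, hneg', hH⟩ := exists_level_eq hK hneg hker
  subst hK
  have : NeZero M' := ⟨fun e => NeZero.ne (M' * q₁) (by rw [e, zero_mul])⟩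
  have : NeZero q₁ := ⟨hq.ne_zero⟩
  have := Fact.mk hq
  have : NegMem (H₀.map (ZMod.unitsMap h)) := ⟨hneg'⟩
  rw [hH] at hx
  have hu' : ZMod.unitsMap (dvd_mul_right M' q₁) u = Fermat.BAD.XH.qUnit M' q₁ hq hqM :=
    Units.ext (by rw [ZMod.unitsMap_val, ← ZMod.natCast_val, hu, ZMod.coe_unitOfCoprime])
  obtain ⟨-, h2⟩ := bad_local M' q₁ (H₀.map (ZMod.unitsMap h)) hq hqM
    (hI M' q₁ _ hq hqM) (hF M' q₁ _ hq hqM) hqp hpO hx hr hA
  rcases h2 φ hφ u hu' with ⟨e, -⟩ | ⟨-, e⟩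
  · exact e
  · exact e hUU

end Fermat.GR.RT

end
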