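import Mathlib
import Fermat.Agent.GR.RT.FlatStatement

/-!
# The intersection of the flat and the strict condition at `p`

Statement only: for an ordinary residual representation the classes which are flat and satisfy the
first order strict relation lie in a subspace of size at most `|H⁰|`.
-/

set_option autoImplicit false

noncomputable section

namespace Fermat.GR.RT

open Fermat.CFT

local notation "ℚbar" => AlgebraicClosure ℚ
local notation "Γℚ" => (AlgebraicClosure ℚ ≃ₐ[ℚ] AlgebraicClosure ℚ)
local notation "M2" R => Matrix (Fin 2) (Fin 2) R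

variable (p : ℕ) [Fact p.Prime]

/-- **The classes which are flat and strict** lie in a subspace of size at most `|H⁰|`.
Proved by `flatStrictBound`. -/
def FlatStrictBound : Prop :=
  2 < p → ∀ (k : Type) [Field k] [Finite k] [Algebra (ZMod p) k] (r : Γℚ →* M2 k),
    IsOpen {σ : Γℚ | r σ = 1} → ∀ A : ValuationSubring ℚbar, A.LiesOverPrime p →
    ∀ (U : (M2 k)ˣ) (a d : A.decompositionSubgroup ℚ →* k) (b : A.decompositionSubgroup ℚ → k),
      (∀ δ : A.decompositionSubgroup ℚ,
        (↑U⁻¹ : M2 k) * r δ.1 * (U : M2 k) = !![a δ, b δ; 0, d δ]) →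
      (∀ δ, d δ * d δ = 1) → (∀ δ, δ.1 ∈ A.inertiaSubgroupIn ℚ → d δ = 1) →
      (∀ δ : A.decompositionSubgroup ℚ, (r δ.1).det =
        algebraMap (ZMod p) k ((cycChar p δ.1 : (ZMod p)ˣ) : ZMod p)) →
      ∃ S : Submodule (ZMod p) (locH1 p r A), Finite S ∧
        Nat.card S ≤ Nat.card (Coh.H0 (locRep p r A)) ∧
        ∀ (c : Γℚ → M2 k) (z : Coh.Z1 (glev (A.decompositionSubgroup ℚ).subtype) (locRep p r A)),
          (∀ δ, ((z.1 δ : adZero p k) : M2 k) = c δ.1) →
          (haveI : CharP k p := charP_of_injective_algebraMap (algebraMap (ZMod p) k).injective p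
           Fermat.FLAT.IsFlatCocycle A r c) →
          (∀ σ τ : A.decompositionSubgroup ℚ,
            ((z.1 σ : adZero p k) : M2 k) * r σ.1 * (r τ.1 - d τ • (1 : M2 k)) +
              (r σ.1 - a σ • (1 : M2 k)) * (((z.1 τ : adZero p k) : M2 k) * r τ.1) = 0) →
          Coh.cl₁ (glev (A.decompositionSubgroup ℚ).subtype) (locRep p r A) z ∈ S

end Fermat.GR.RT

end
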