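import Mathlib
import Fermat.Agent.GR.Deform.MatrixRep
import Fermat.Prelude.Def_GaloisRep_LocalConditions

/-!
# Gluing the ordinary property from the points of a coefficient ring

In an ordinary basis an inertia element `σ₀` with `det - 1` a unit gives the projection
`c (σ₀ - 1)` onto the stable line, and the stability of the line is an identity in the group
algebra.  Such identities pass between representations with equal traces, and from injective
families of specialisations to the coefficient ring.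
-/

set_option autoImplicit false

noncomputable section

namespace Fermat.GR.RT

local notation "ℚbar" => AlgebraicClosure ℚ
local notation "Γℚ" => (AlgebraicClosure ℚ ≃ₐ[ℚ] AlgebraicClosure ℚ)
local notation "M2" R => Matrix (Fin 2) (Fin 2) R

variable {B : Type} [CommRing B]

/-- The relations saying that `c (r σ₀ - 1)` projects on a line stable at `A` with unramified
quotient. -/
structure LineRels (A : ValuationSubring ℚbar) (r : Γℚ →* M2 B) (σ₀ : Γℚ) (c : B) : Prop where
  /-- `1` is an eigenvalue of `r σ₀`. -/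
  trace : (r σ₀).trace = 1 + (r σ₀).det
  /-- The image of the projection is stable under the decomposition group. -/
  dec : ∀ σ ∈ A.decompositionSubgroup ℚ,
    (1 - c • (r σ₀ - 1)) * r σ * (c • (r σ₀ - 1)) = 0
  /-- Inertia is trivial modulo the line. -/
  inertia : ∀ σ ∈ A.inertiaSubgroupIn ℚ, (1 - c • (r σ₀ - 1)) * (r σ - 1) = 0

/-- An ordinary basis gives the relations. -/
theorem lineRels_of_tri {A : ValuationSubring ℚbar} {r : Γℚ →* M2 B} {P : (M2 B)ˣ}
    (h10 : ∀ σ ∈ A.decompositionSubgroup ℚ, ((P : M2 B) * r σ * (↑P⁻¹ : M2 B)) 1 0 = 0)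
    (h11 : ∀ σ ∈ A.inertiaSubgroupIn ℚ, ((P : M2 B) * r σ * (↑P⁻¹ : M2 B)) 1 1 = 1)
    {σ₀ : Γℚ} (hD : σ₀ ∈ A.decompositionSubgroup ℚ) (hI : σ₀ ∈ A.inertiaSubgroupIn ℚ) {c : B}
    (hc : c * ((r σ₀).det - 1) = 1)
    (hle : ∀ σ ∈ A.inertiaSubgroupIn ℚ, σ ∈ A.decompositionSubgroup ℚ) :
    LineRels A r σ₀ c := by
  set f : (M2 B) → (M2 B) := fun X => (P : M2 B) * X * (↑P⁻¹ : M2 B) with hf
  -- conjugate into the triangular frame
  have fmul : ∀ X Y, f (X * Y) = f X * f Y := fun X Y => by
    simp only [hf, mul_assoc, Units.inv_mul_cancel_left]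
  have fsub : ∀ X Y, f (X - Y) = f X - f Y := fun X Y => by simp only [hf, mul_sub, sub_mul]
  have fsmul : ∀ (a : B) X, f (a • X) = a • f X := fun a X => by
    simp only [hf, Matrix.mul_smul, Matrix.smul_mul]
  have fone : f 1 = 1 := by simp [hf]
  have finj : ∀ X, f X = 0 → X = 0 := fun X h => by
    have := congrArg (fun Z => (↑P⁻¹ : M2 B) * Z * (P : M2 B)) h
    simpa [hf, mul_assoc] using this
  have hd : (f (r σ₀)).det = (r σ₀).det := Matrix.det_units_conj P _
  have x10 : f (r σ₀) 1 0 = 0 := h10 σ₀ hD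
  have x11 : f (r σ₀) 1 1 = 1 := h11 σ₀ hI
  have h00 : c * (f (r σ₀) 0 0 - 1) = 1 := by
    rw [← hd, Matrix.det_fin_two, x10, x11, mul_one, mul_zero, sub_zero] at hc
    exact hc
  -- there `c • (r σ₀ - 1)` is the projection on the first line
  have he : c • (f (r σ₀) - 1) = !![1, c * f (r σ₀) 0 1; 0, 0] := by
    ext i j
    fin_cases i <;> fin_cases j <;> simp [x10, x11, h00]
  refine ⟨?_, fun σ hσ => finj _ ?_, fun σ hσ => finj _ ?_⟩
  · have ht : (f (r σ₀)).trace = (r σ₀).trace := by
      simp only [hf]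
      rw [Matrix.trace_mul_cycle, P.inv_mul, one_mul]
    rw [← ht, ← hd, Matrix.trace_fin_two, Matrix.det_fin_two, x10, x11]
    ring
  · rw [fmul, fmul, fsub, fone, fsmul, fsub, fone, he]
    ext i j
    fin_cases i <;> fin_cases j <;>
      simp [Matrix.mul_apply, Fin.sum_univ_two, show f (r σ) 1 0 = 0 from h10 σ hσ]
  · rw [fmul, fsub, fone, fsmul, fsub, fone, he, fsub, fone]
    ext i j
    fin_cases i <;> fin_cases j <;>
      simp [Matrix.mul_apply, Fin.sum_univ_two, show f (r σ) 1 0 = 0 from h10 σ (hle σ hσ),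
        show f (r σ) 1 1 = 1 from h11 σ hσ]

/-- A group algebra identity passes to a spanning representation with equal traces. -/
theorem lift_eq_zero_of_trace_eq {G : Type} [Monoid G] {ρ r : G →* M2 B}
    (hspan : Submodule.span B (Set.range ρ) = ⊤) (htr : ∀ g, (ρ g).trace = (r g).trace)
    (z : MonoidAlgebra B G) (hz : MonoidAlgebra.lift B (M2 B) G r z = 0) :
    MonoidAlgebra.lift B (M2 B) G ρ z = 0 := by
  have hall : ∀ x : MonoidAlgebra B G, (MonoidAlgebra.lift B (M2 B) G ρ x).trace =
      (MonoidAlgebra.lift B (M2 B) G r x).trace := fun x => by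
    induction x using MonoidAlgebra.induction_on with
    | of g => simp [htr]
    | add x y hx hy => simp only [map_add, Matrix.trace_add, hx, hy]
    | smul a x hx => simp only [map_smul, Matrix.trace_smul, hx]
  set X := MonoidAlgebra.lift B (M2 B) G ρ z with hX
  have hX0 : ∀ Y : M2 B, (X * Y).trace = 0 := by
    intro Y
    have hY : Y ∈ Submodule.span B (Set.range ρ) := hspan ▸ Submodule.mem_top
    induction hY using Submodule.span_induction with
    | mem Y hY =>
      obtain ⟨g, rfl⟩ := hY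
      have h := hall (z * MonoidAlgebra.of B G g)
      rw [map_mul, map_mul, hz, zero_mul, Matrix.trace_zero, MonoidAlgebra.lift_of] at h
      exact h
    | zero => simp
    | add Y Y' _ _ hY hY' => rw [mul_add, Matrix.trace_add, hY, hY', add_zero]
    | smul a Y _ hY => rw [Matrix.mul_smul, Matrix.trace_smul, hY, smul_zero]
  refine Matrix.ext fun a d => ?_
  have h := hX0 (Matrix.single d a (1 : B))
  fin_cases a <;> fin_cases d <;>
    simpa [Matrix.trace_fin_two, Matrix.mul_apply, Fin.sum_univ_two, Matrix.single_apply] using h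

/-- The relations pass to a spanning representation with equal traces. -/
theorem LineRels.of_trace_eq {A : ValuationSubring ℚbar} {ρ r : Γℚ →* M2 B} {σ₀ : Γℚ} {c : B}
    (h : LineRels A r σ₀ c) (hspan : Submodule.span B (Set.range ρ) = ⊤)
    (htr : ∀ g, (ρ g).trace = (r g).trace) (hdet : (ρ σ₀).det = (r σ₀).det) :
    LineRels A ρ σ₀ c := by
  set u : MonoidAlgebra B Γℚ := c • (MonoidAlgebra.of B Γℚ σ₀ - 1)
  refine ⟨by rw [htr, hdet]; exact h.trace, fun σ hσ => ?_, fun σ hσ => ?_⟩
  · have := lift_eq_zero_of_trace_eq hspan htr ((1 - u) * MonoidAlgebra.of B Γℚ σ * u) (by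
      simp only [u, map_mul, map_sub, map_one, map_smul, MonoidAlgebra.lift_of]
      exact h.dec σ hσ)
    simpa only [u, map_mul, map_sub, map_one, map_smul, MonoidAlgebra.lift_of] using this
  · have := lift_eq_zero_of_trace_eq hspan htr ((1 - u) * (MonoidAlgebra.of B Γℚ σ - 1)) (by
      simp only [u, map_mul, map_sub, map_one, map_smul, MonoidAlgebra.lift_of]
      exact h.inertia σ hσ)
    simpa only [u, map_mul, map_sub, map_one, map_smul, MonoidAlgebra.lift_of] using this

/-- The relations hold if they hold at jointly injective specialisations. -/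
theorem LineRels.of_injective {A : ValuationSubring ℚbar} {ρ : Γℚ →* M2 B} {σ₀ : Γℚ} {c : B}
    (h : ∀ z : B, z ≠ 0 → ∃ (C : Type) (_ : CommRing C) (f : B →+* C),
      f z ≠ 0 ∧ LineRels A (mapHom f ρ) σ₀ (f c)) :
    LineRels A ρ σ₀ c := by
  refine ⟨?_, fun σ hσ => ?_, fun σ hσ => ?_⟩
  · by_contra hne
    obtain ⟨C, i, f, hf, hrel⟩ := h _ (sub_ne_zero.mpr hne)
    refine hf ?_
    have e := hrel.trace
    have ha : ∀ a b, mapHom f ρ σ₀ a b = f (ρ σ₀ a b) := fun _ _ => rfl
    rw [Matrix.trace_fin_two, Matrix.det_fin_two] at e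
    simp only [ha] at e
    rw [map_sub, map_add, map_one, Matrix.trace_fin_two, Matrix.det_fin_two]
    simp only [map_add, map_sub, map_mul]
    rw [e, sub_self]
  all_goals
    by_contra hne
    obtain ⟨i, j, hij⟩ : ∃ i j, _ ≠ (0 : M2 B) i j := by
      by_contra hcon
      push Not at hcon
      exact hne (Matrix.ext hcon)
    obtain ⟨C, inst, f, hf, hrel⟩ := h _ hij
    refine hf ?_
    have hsm : ∀ (x : B) (M : M2 B), f.mapMatrix (x • M) = f x • f.mapMatrix M := fun x M => by
      ext a b; simp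
    have hmap : ∀ τ, f.mapMatrix (ρ τ) = mapHom f ρ τ := fun τ => rfl
  · have e := congrFun (congrFun (hrel.dec σ hσ) i) j
    rw [← hmap, ← hmap, ← map_one f.mapMatrix, ← map_sub, ← hsm, ← map_sub, ← map_mul, ← map_mul,
      RingHom.mapMatrix_apply, Matrix.map_apply, Matrix.zero_apply] at e
    exact e
  · have e := congrFun (congrFun (hrel.inertia σ hσ) i) j
    rw [← hmap, ← hmap, ← map_one f.mapMatrix, ← map_sub, ← hsm, ← map_sub, ← map_sub, ← map_mul,
      RingHom.mapMatrix_apply, Matrix.map_apply, Matrix.zero_apply] at e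
    exact e

/-- Over a local ring the relations give an ordinary basis. -/
theorem exists_tri_of_lineRels [IsLocalRing B] {A : ValuationSubring ℚbar} {ρ : Γℚ →* M2 B}
    {σ₀ : Γℚ} {c : B} (h : LineRels A ρ σ₀ c) (hc : c * ((ρ σ₀).det - 1) = 1) :
    ∃ U : (M2 B)ˣ,
      (∀ σ ∈ A.decompositionSubgroup ℚ, ((↑U⁻¹ : M2 B) * ρ σ * (U : M2 B)) 1 0 = 0) ∧
      ∀ σ ∈ A.inertiaSubgroupIn ℚ, ((↑U⁻¹ : M2 B) * ρ σ * (U : M2 B)) 1 1 = 1 := by
  set e : M2 B := c • (ρ σ₀ - 1) with he
  -- `e` is an idempotent of rank one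
  have het : e 0 0 + e 1 1 = 1 := by
    have ht := h.trace
    rw [Matrix.trace_fin_two] at ht
    simp only [he, Matrix.smul_apply, Matrix.sub_apply, Matrix.one_apply_eq, smul_eq_mul]
    linear_combination c * ht + hc
  have hed : e 0 0 * e 1 1 - e 0 1 * e 1 0 = 0 := by
    have ht := h.trace
    rw [Matrix.trace_fin_two, Matrix.det_fin_two] at ht
    simp only [he, Matrix.smul_apply, Matrix.sub_apply, Matrix.one_apply_eq, smul_eq_mul,
      Matrix.one_apply_ne (zero_ne_one : (0 : Fin 2) ≠ 1),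
      Matrix.one_apply_ne (one_ne_zero : (1 : Fin 2) ≠ 0), sub_zero]
    linear_combination -(c * c) * ht
  -- diagonalise it
  obtain ⟨U, hU⟩ : ∃ U : (M2 B)ˣ, e * (U : M2 B) = (U : M2 B) * !![1, 0; 0, 0] := by
    rcases IsLocalRing.isUnit_or_isUnit_of_add_one het with hu | hu
    · obtain ⟨U, hU⟩ : IsUnit (!![e 0 0, -e 0 1; e 1 0, e 0 0] : M2 B) := by
        rw [Matrix.isUnit_iff_isUnit_det, Matrix.det_fin_two_of]
        convert hu using 1
        linear_combination (e 0 0) * het - hed
      refine ⟨U, ?_⟩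
      rw [hU]
      ext i j
      fin_cases i <;> fin_cases j <;> simp [Matrix.mul_apply, Fin.sum_univ_two] <;>
        first
          | linear_combination (e 0 0) * het - hed
          | linear_combination (e 1 0) * het
          | linear_combination hed
          | ring1
    · obtain ⟨U, hU⟩ : IsUnit (!![e 0 1, e 1 1; e 1 1, -e 1 0] : M2 B) := by
        rw [Matrix.isUnit_iff_isUnit_det, Matrix.det_fin_two_of]
        convert hu.neg using 1
        linear_combination hed - (e 1 1) * het
      refine ⟨U, ?_⟩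
      rw [hU]
      ext i j
      fin_cases i <;> fin_cases j <;> simp [Matrix.mul_apply, Fin.sum_univ_two] <;>
        first
          | linear_combination (e 0 1) * het
          | linear_combination (e 1 1) * het - hed
          | linear_combination hed
          | ring1
  -- the relations become the two vanishing entries
  set f : (M2 B) → (M2 B) := fun X => (↑U⁻¹ : M2 B) * X * (U : M2 B) with hf
  have fmul : ∀ X Y, f (X * Y) = f X * f Y := fun X Y => by
    simp only [hf, mul_assoc, Units.mul_inv_cancel_left]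
  have fsub : ∀ X Y, f (X - Y) = f X - f Y := fun X Y => by simp only [hf, mul_sub, sub_mul]
  have fone : f 1 = 1 := by simp [hf]
  have fzero : f 0 = 0 := by simp [hf]
  have fe : f e = !![1, 0; 0, 0] := by
    simp only [hf, mul_assoc, hU, Units.inv_mul_cancel_left]
  refine ⟨U, fun σ hσ => ?_, fun σ hσ => ?_⟩
  · have h1 := congrArg f (h.dec σ hσ)
    rw [fmul, fmul, fsub, fone, fzero, ← he, fe] at h1
    have h2 := congrFun (congrFun h1 1) 0
    simp [Matrix.mul_apply, Fin.sum_univ_two] at h2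
    exact h2
  · have h1 := congrArg f (h.inertia σ hσ)
    rw [fmul, fsub, fone, fzero, ← he, fe, fsub, fone] at h1
    have h2 := congrFun (congrFun h1 1) 1
    simp [Matrix.mul_apply, Fin.sum_univ_two] at h2
    exact sub_eq_zero.mp h2

variable [IsLocalRing B]

/-- A triangular form in some basis makes a representation ordinary. -/
theorem isOrdinaryAt_of_tri {ρ : GaloisRepAdic B} (b : Module.Basis (Fin 2) B ρ.V) {p : ℕ}
    (hle : ∀ A : ValuationSubring ℚbar, A.LiesOverPrime p →
      ∀ σ ∈ A.inertiaSubgroupIn ℚ, σ ∈ A.decompositionSubgroup ℚ)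
    (h : ∀ A : ValuationSubring ℚbar, A.LiesOverPrime p → ∃ U : (M2 B)ˣ,
      (∀ σ ∈ A.decompositionSubgroup ℚ, ((↑U⁻¹ : M2 B) * matOf ρ b σ * (U : M2 B)) 1 0 = 0) ∧
      ∀ σ ∈ A.inertiaSubgroupIn ℚ, ((↑U⁻¹ : M2 B) * matOf ρ b σ * (U : M2 B)) 1 1 = 1) :
    ρ.IsOrdinaryAt p := by
  intro A hA
  obtain ⟨U, h10, h11⟩ := h A hA
  -- change basis by `U`
  let E : ρ.V ≃ₗ[B] ρ.V :=
    Matrix.toLinearEquiv b (U : M2 B) ((Matrix.isUnit_iff_isUnit_det _).mp U.isUnit)
  let b' := b.map E
  have hE : ∀ v, E v = Matrix.toLin b b (U : M2 B) v := fun v => rfl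
  have key : ∀ σ j, ρ.ρ σ (b' j) =
      ∑ i, ((↑U⁻¹ : M2 B) * matOf ρ b σ * (U : M2 B)) i j • b' i := by
    intro σ j
    have h1 : ρ.ρ σ = Matrix.toLin b b (matOf ρ b σ) := by rw [matOf_apply, Matrix.toLin_toMatrix]
    simp only [b', Module.Basis.map_apply, hE]
    rw [h1, ← LinearMap.comp_apply, ← Matrix.toLin_mul b b b]
    conv_lhs => rw [show matOf ρ b σ * (U : M2 B) =
      (U : M2 B) * ((↑U⁻¹ : M2 B) * matOf ρ b σ * (U : M2 B)) by
        simp only [mul_assoc, Units.mul_inv_cancel_left]]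
    rw [Matrix.toLin_mul b b b, LinearMap.comp_apply, Matrix.toLin_self, map_sum]
    simp only [map_smul]
  -- the stable line is spanned by the first new basis vector
  refine ⟨B ∙ b' 0, ⟨b', rfl⟩, fun σ hσ v hv => ?_, fun σ hσ v => ?_⟩
  · obtain ⟨a, rfl⟩ := Submodule.mem_span_singleton.mp hv
    rw [map_smul, key, Fin.sum_univ_two, h10 σ hσ, zero_smul, add_zero]
    exact Submodule.smul_mem _ _ (Submodule.smul_mem _ _ (Submodule.mem_span_singleton_self _))
  · rw [← b'.sum_repr v, map_sum, ← Finset.sum_sub_distrib]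
    refine Submodule.sum_mem _ fun j _ => ?_
    rw [map_smul, ← smul_sub]
    refine Submodule.smul_mem _ _ ?_
    rw [key, Fin.sum_univ_two]
    fin_cases j
    · simp only [Fin.zero_eta]
      rw [h10 σ (hle A hA σ hσ), zero_smul, add_zero]
      exact sub_mem (Submodule.smul_mem _ _ (Submodule.mem_span_singleton_self _))
        (Submodule.mem_span_singleton_self _)
    · simp only [Fin.mk_one]
      rw [h11 σ hσ, one_smul, add_sub_cancel_right]
      exact Submodule.smul_mem _ _ (Submodule.mem_span_singleton_self _)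

/-- An ordinary representation is triangular in some basis, with unramified quotient. -/
theorem exists_tri_of_isOrdinaryAt {ρ : GaloisRepAdic B} (b : Module.Basis (Fin 2) B ρ.V) {p : ℕ}
    (h : ρ.IsOrdinaryAt p) {A : ValuationSubring ℚbar} (hA : A.LiesOverPrime p) :
    ∃ U : (M2 B)ˣ,
      (∀ σ ∈ A.decompositionSubgroup ℚ, ((↑U⁻¹ : M2 B) * matOf ρ b σ * (U : M2 B)) 1 0 = 0) ∧
      ∀ σ ∈ A.inertiaSubgroupIn ℚ, ((↑U⁻¹ : M2 B) * matOf ρ b σ * (U : M2 B)) 1 1 = 1 := by
  obtain ⟨L, ⟨b', rfl⟩, hdec, hine⟩ := h A hA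
  refine ⟨⟨b.toMatrix b', b'.toMatrix b, Module.Basis.toMatrix_mul_toMatrix_flip b b',
    Module.Basis.toMatrix_mul_toMatrix_flip b' b⟩, fun σ hσ => ?_, fun σ hσ => ?_⟩
  · change (b'.toMatrix b * matOf ρ b σ * b.toMatrix b') 1 0 = 0
    rw [matOf_apply, basis_toMatrix_mul_linearMap_toMatrix_mul_basis_toMatrix,
      LinearMap.toMatrix_apply]
    obtain ⟨a, ha⟩ := Submodule.mem_span_singleton.mp
      (hdec σ hσ (b' 0) (Submodule.mem_span_singleton_self _))
    rw [← ha, map_smul, Module.Basis.repr_self]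
    simp
  · change (b'.toMatrix b * matOf ρ b σ * b.toMatrix b') 1 1 = 1
    rw [matOf_apply, basis_toMatrix_mul_linearMap_toMatrix_mul_basis_toMatrix,
      LinearMap.toMatrix_apply]
    obtain ⟨a, ha⟩ := Submodule.mem_span_singleton.mp (hine σ hσ (b' 1))
    rw [← sub_add_cancel (ρ.ρ σ (b' 1)) (b' 1), ← ha, map_add, map_smul, Module.Basis.repr_self,
      Module.Basis.repr_self]
    simp

end Fermat.GR.RT

end
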