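import Fermat.Agent.HT.Descent.Ramanujan
import Fermat.Agent.JAC.XH.HeckeS2
import Fermat.Agent.GR.RT.Points
import Fermat.Agent.GR.RT.Inputs

/-!
# `T_p² ⟨u⟩` has no eigenvalue of absolute value `(p + 1)²` on cusp forms of level `Γ_H(M)`

The sum over the diamonds of `y |f|` attains a maximum; at a maximum the branch `τ ↦ p² τ` would be
maximal as well, but the sum tends to zero at `∞`.  So no eigen system takes this value.
-/

set_option autoImplicit false
set_option linter.unusedSectionVars false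

noncomputable section

open UpperHalfPlane hiding I
open Filter Topology
open scoped MatrixGroups ModularForm Manifold Pointwise

namespace Fermat.GR.RT

open Fermat.MC.Lvl

variable {M : ℕ} [NeZero M] {H : Subgroup (ZMod M)ˣ} [NegMem H]

local notation "SH" => CuspForm (GammaH M H) 2

/-- `y |f|`. -/
def imNorm (f : ℍ → ℂ) (τ : ℍ) : ℝ := ‖f τ‖ * τ.im

/-- `y |f|` is not negative. -/
theorem imNorm_nonneg (f : ℍ → ℂ) (τ : ℍ) : 0 ≤ imNorm f τ :=
  mul_nonneg (norm_nonneg _) τ.im_pos.le

/-- `y |f|` of a slashed function is the composite with the fractional linear map. -/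
theorem imNorm_slash (f : ℍ → ℂ) {g : GL (Fin 2) ℝ} (hg : 0 < g.det.val) (τ : ℍ) :
    imNorm (f ∣[(2 : ℤ)] g) τ = imNorm f (g • τ) := by
  rw [imNorm, imNorm, ModularForm.slash_apply, UpperHalfPlane.im_smul_eq_div_normSq,
    Complex.normSq_eq_norm_sq]
  simp only [UpperHalfPlane.σ, if_pos hg, ContinuousAlgEquiv.refl_apply, norm_mul, norm_zpow,
    Complex.norm_real, Real.norm_eq_abs, abs_abs, zpow_neg, norm_inv]
  rw [show ((2 : ℤ) - 1) = 1 by norm_num, zpow_one, zpow_ofNat]
  have : ‖denom g τ‖ ≠ 0 := norm_ne_zero_iff.mpr (denom_ne_zero g τ)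
  field_simp

/-- `y |f|` tends to zero at every cusp. -/
theorem isZeroAtImInfty_imNorm (g : SH) (γ : SL(2, ℤ)) :
    IsZeroAtImInfty fun τ => imNorm (⇑g) (γ • τ) := by
  have h := (Real.continuous_sqrt.tendsto 0).comp
    (Fermat.HT.Descent.isZeroAtImInfty_norm_petersson g γ)
  rw [Real.sqrt_zero] at h
  refine h.congr fun τ => ?_
  change Real.sqrt ‖petersson 2 g g (γ • τ)‖ = _
  rw [Fermat.MF.Petersson.norm_petersson, imNorm, Real.sqrt_mul_self
    (mul_nonneg (norm_nonneg _) (γ • τ).im_pos.le)]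

/-- The sum over the diamonds. -/
def diaNorm (f : SH) (τ : ℍ) : ℝ := ∑ u, imNorm (⇑(HM.formDia M H u f)) τ

/-- The sum over the diamonds is not negative. -/
theorem diaNorm_nonneg (f : SH) (τ : ℍ) : 0 ≤ diaNorm f τ :=
  Finset.sum_nonneg fun _ _ => imNorm_nonneg _ _

/-- The sum is invariant under the diamonds. -/
theorem diaNorm_formDia (v : (ZMod M)ˣ) (f : SH) (τ : ℍ) :
    diaNorm (HM.formDia M H v f) τ = diaNorm f τ :=
  Fintype.sum_equiv (Equiv.mulRight v) _ _ fun u => by rw [HM.formDia_mul]; rfl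

/-- The sum is absolutely homogeneous. -/
theorem diaNorm_smul (c : ℂ) (f : SH) (τ : ℍ) : diaNorm (c • f) τ = ‖c‖ * diaNorm f τ := by
  rw [diaNorm, diaNorm, Finset.mul_sum]
  refine Finset.sum_congr rfl fun u _ => ?_
  rw [map_smul, imNorm, imNorm, smul_apply, norm_smul, mul_assoc]

/-- **One application of `T_p`**: the norm of the image is at most the sum over representatives. -/
theorem diaNorm_hecke_le {p : ℕ} [hp : Fact p.Prime] (hpM : ¬ p ∣ M) (f : SH) (τ : ℍ) :
    diaNorm (HM.formHecke M H p f) τ ≤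
      (∑ j ∈ Finset.range p, diaNorm f (ModularForm.heckeMatrix p j • τ)) +
        diaNorm f (ModularForm.heckeDiagMatrix p • τ) := by
  have : NeZero p := ⟨hp.out.ne_zero⟩
  have hdm : ∀ j, 0 < (ModularForm.heckeMatrix p j).det.val := fun j => by
    rw [Matrix.GeneralLinearGroup.val_det_apply, ModularForm.val_heckeMatrix hp.out.ne_zero,
      Matrix.det_fin_two_of]
    simp [hp.out.pos]
  have hdd : 0 < (ModularForm.heckeDiagMatrix p).det.val := by
    rw [Matrix.GeneralLinearGroup.val_det_apply, ModularForm.val_heckeDiagMatrix hp.out.ne_zero,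
      Matrix.det_fin_two_of]
    simp [hp.out.pos]
  set w := (Fermat.JAC.XH.unitOf M hp.out hpM)⁻¹
  have hterm : ∀ u : (ZMod M)ˣ, imNorm (⇑(HM.formDia M H u (HM.formHecke M H p f))) τ ≤
      (∑ j ∈ Finset.range p,
        imNorm (⇑(HM.formDia M H u f)) (ModularForm.heckeMatrix p j • τ)) +
        imNorm (⇑(HM.formDia M H (u * w) f)) (ModularForm.heckeDiagMatrix p • τ) := by
    intro u
    have hc := Fermat.JAC.XH.coe_formHecke_of_not_dvd M H hpM (HM.formDia M H u f)
    rw [HM.formDia_mul, mul_comm w u, ModularForm.heckeT, add_comm _ (_ ∣[(2 : ℤ)] _),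
      ← add_assoc] at hc
    have hc' := add_right_cancel hc
    rw [HM.formDia_formHecke, imNorm, hc', Pi.add_apply, ModularForm.heckeU, Finset.sum_apply]
    refine (mul_le_mul_of_nonneg_right ((norm_add_le _ _).trans
      (add_le_add (norm_sum_le _ _) le_rfl)) τ.im_pos.le).trans (le_of_eq ?_)
    rw [add_mul, Finset.sum_mul]
    exact congrArg₂ (· + ·) (Finset.sum_congr rfl fun j _ => imNorm_slash _ (hdm j) τ)
      (imNorm_slash _ hdd τ)
  refine (Finset.sum_le_sum fun u _ => hterm u).trans (le_of_eq ?_)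
  rw [Finset.sum_add_distrib, Finset.sum_comm]
  exact congrArg₂ (· + ·) rfl (Fintype.sum_equiv (Equiv.mulRight w) _ _ fun u => rfl)

/-- **No eigenvalue of absolute value at least `(p + 1)²`.** -/
theorem eq_zero_of_hecke_sq {p : ℕ} [hp : Fact p.Prime] (hpM : ¬ p ∣ M) (u : (ZMod M)ˣ) {c : ℂ}
    (hc : ((p : ℝ) + 1) ^ 2 ≤ ‖c‖) (f : SH)
    (hf : HM.formHecke M H p (HM.formHecke M H p (HM.formDia M H u f)) = c • f) : f = 0 := by
  have : NeZero p := ⟨hp.out.ne_zero⟩
  obtain ⟨τ₀, hτ₀⟩ := Fermat.HT.Descent.exists_max (f := diaNorm f) (Γ := GammaH M H)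
    (continuous_finsetSum _ fun v _ =>
      (CuspFormClass.holo (HM.formDia M H v f)).continuous.norm.mul
        UpperHalfPlane.continuous_im)
    (diaNorm_nonneg f)
    (fun γ => by
      have h := tendsto_finsetSum (s := (Finset.univ : Finset (ZMod M)ˣ))
        fun v _ => isZeroAtImInfty_imNorm (HM.formDia M H v f) γ
      simp only [Finset.sum_const_zero] at h
      exact h)
    (fun γ hγ τ => Finset.sum_congr rfl fun v _ => by
      have h := SlashInvariantFormClass.norm_petersson_smul (k := 2) (f := HM.formDia M H v f)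
        (f' := HM.formDia M H v f) (g := (γ : GL (Fin 2) ℝ)) (τ := τ)
        (Subgroup.mem_map_of_mem _ hγ)
      rw [Fermat.MF.Petersson.norm_petersson, Fermat.MF.Petersson.norm_petersson, ← sq, ← sq] at h
      exact (sq_eq_sq₀ (imNorm_nonneg _ _) (imNorm_nonneg _ _)).mp h)
  -- the maximum is attained again further towards the cusp
  set m := diaNorm f τ₀
  set g := HM.formDia M H u f
  have hg : ∀ τ, diaNorm g τ = diaNorm f τ := diaNorm_formDia u f
  have h1 : ∀ τ, diaNorm (HM.formHecke M H p g) τ ≤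
      (p : ℝ) * m + diaNorm f (ModularForm.heckeDiagMatrix p • τ) := fun τ => by
    refine (diaNorm_hecke_le hpM g τ).trans (add_le_add ?_ (hg _).le)
    refine (Finset.sum_le_sum fun j _ => (hg _).le.trans (hτ₀ _)).trans_eq ?_
    simp
  set S : ℍ → ℍ :=
    fun τ => ModularForm.heckeDiagMatrix p • ModularForm.heckeDiagMatrix p • τ with hS
  have step : ∀ τ, diaNorm f τ = m → diaNorm f (S τ) = m := by
    intro τ hτ
    refine le_antisymm (hτ₀ _) ?_
    have e := congrArg (fun F => diaNorm F τ) hf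
    simp only [diaNorm_smul, hτ] at e
    have h2 := diaNorm_hecke_le hpM (HM.formHecke M H p g) τ
    have h3 : ∑ j ∈ Finset.range p,
        diaNorm (HM.formHecke M H p g) (ModularForm.heckeMatrix p j • τ) ≤
          (p : ℝ) * (((p : ℝ) + 1) * m) := by
      refine (Finset.sum_le_sum fun j _ => (h1 _).trans ?_).trans_eq
        (by rw [Finset.sum_const, Finset.card_range, nsmul_eq_mul])
      have := hτ₀ (ModularForm.heckeDiagMatrix p • ModularForm.heckeMatrix p j • τ)
      linarith
    have h4 := h1 (ModularForm.heckeDiagMatrix p • τ)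
    have h5 : ((p : ℝ) + 1) ^ 2 * m ≤ ‖c‖ * m :=
      mul_le_mul_of_nonneg_right hc (diaNorm_nonneg f τ₀)
    change m ≤ diaNorm f (S τ)
    rw [hS]
    nlinarith
  set seq : ℕ → ℍ := fun k => S^[k] τ₀ with hseqdef
  have hseq : ∀ k, diaNorm f (seq k) = m ∧ (seq k).im = ((p : ℝ) ^ 2) ^ k * τ₀.im := by
    intro k
    induction k with
    | zero => simp [seq, m]
    | succ k ih =>
      have e : seq (k + 1) = S (seq k) := Function.iterate_succ_apply' _ _ _
      rw [e]
      refine ⟨step _ ih.1, ?_⟩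
      rw [hS, ← UpperHalfPlane.coe_im (ModularForm.heckeDiagMatrix p • _),
        ModularForm.coe_heckeDiagMatrix_smul hp.out.ne_zero, Complex.mul_im,
        ModularForm.coe_heckeDiagMatrix_smul hp.out.ne_zero]
      simp [ih.2, pow_succ]
      ring
  -- so the maximum is the limit at the cusp, zero
  have htend : Tendsto seq atTop atImInfty := by
    rw [atImInfty, tendsto_comap_iff]
    refine ((tendsto_pow_atTop_atTop_of_one_lt ?_).atTop_mul_const τ₀.im_pos).congr
      fun k => (hseq k).2.symm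
    have : (2 : ℝ) ≤ p := by exact_mod_cast hp.out.two_le
    nlinarith
  have h6 : Tendsto (fun k => diaNorm f (seq k)) atTop (𝓝 0) := by
    have h := tendsto_finsetSum (s := (Finset.univ : Finset (ZMod M)ˣ))
      fun v _ => isZeroAtImInfty_imNorm (HM.formDia M H v f) 1
    simp only [Finset.sum_const_zero, one_smul] at h
    exact h.comp htend
  simp only [fun k => (hseq k).1] at h6
  have hm : m = 0 := tendsto_nhds_unique tendsto_const_nhds h6
  have hall : ∀ τ, imNorm (⇑(HM.formDia M H 1 f)) τ = 0 := fun τ =>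
    (Finset.sum_eq_zero_iff_of_nonneg fun v _ => imNorm_nonneg _ _).mp
      (le_antisymm (hm ▸ hτ₀ τ) (diaNorm_nonneg f τ)) 1 (Finset.mem_univ _)
  have h0 : HM.formDia M H 1 f = 0 := by
    ext τ
    rcases mul_eq_zero.mp (hall τ) with h | h
    · simpa using norm_eq_zero.mp h
    · exact absurd h τ.im_pos.ne'
  -- and `f` vanishes, as `c ≠ 0`
  have h00 : c • f = 0 := by
    have e2 : HM.formDia M H 1 (c • f) = c • f := by
      conv_lhs => rw [← hf, HM.formDia_formHecke, HM.formDia_formHecke, HM.formDia_mul, one_mul]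
      exact hf
    rw [← e2, map_smul, h0, smul_zero]
  refine (smul_eq_zero.mp h00).resolve_left fun hc0 => ?_
  rw [hc0, norm_zero] at hc
  nlinarith [(Nat.cast_nonneg p : (0 : ℝ) ≤ p)]

open MvPolynomial in
/-- **No eigen system takes `T_p² ⟨u⟩` to `(p + 1)²`.** -/
theorem IsPoint.tVal_sq_mul_ne {p : ℕ} [hp : Fact p.Prime] (hpM : ¬ p ∣ M)
    {O : Type} [CommRing O] [CharZero O]
    {y : MvPolynomial (Nat.Primes ⊕ (ZMod M)ˣ) ℤ →+* O} (hy : IsPoint M H y) (u : (ZMod M)ˣ) :
    tVal y p ^ 2 * y (X (Sum.inr u)) ≠ ((p : O) + 1) ^ 2 := by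
  intro heq
  obtain ⟨g, hg⟩ := IsPoint.exists_factor M H hy
  set P : MvPolynomial (Nat.Primes ⊕ (ZMod M)ˣ) ℤ :=
    X (Sum.inl ⟨p, hp.out⟩) * X (Sum.inl ⟨p, hp.out⟩) * X (Sum.inr u) -
      C (((p : ℤ) + 1) ^ 2) with hP
  have hyP : y P = 0 := by
    rw [hP, map_sub, map_mul, map_mul, sub_eq_zero]
    rw [tVal, dif_pos hp.out, sq] at heq
    rw [heq, show (C (((p : ℤ) + 1) ^ 2) : MvPolynomial (Nat.Primes ⊕ (ZMod M)ˣ) ℤ) =
      (((p : ℤ) + 1) ^ 2 : ℤ) from map_intCast C _, map_intCast]
    push_cast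
    ring
  -- `T_p² ⟨u⟩ - (p + 1)²` is injective on cusp forms, by the bound on `T_p`
  have hinj : ∀ f : SH, HM.formAct M H P f = 0 → f = 0 := fun f hf => by
    rw [hP, map_sub, map_mul, map_mul, HM.formAct_X, HM.formAct_X, MvPolynomial.algHom_C,
      LinearMap.sub_apply, sub_eq_zero] at hf
    refine eq_zero_of_hecke_sq hpM u (c := (((p : ℤ) + 1) ^ 2 : ℤ)) (le_of_eq ?_) f ?_
    · rw [Complex.norm_intCast]
      push_cast
      rw [abs_of_nonneg (by positivity)]
    · refine hf.trans ?_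
      rw [eq_intCast, Module.End.intCast_apply, Int.cast_smul_eq_zsmul]
  -- hence on the Hecke ring, so it divides a nonzero integer
  set t := Fermat.JAC.XH.ringEval M H P with ht
  have htinj : Function.Injective
      (LinearMap.mulLeft ℤ t : _ →ₗ[ℤ] (Fermat.JAC.XH.heckeGens M H).R) := by
    refine (injective_iff_map_eq_zero _).mpr fun s hs => ?_
    obtain ⟨Q, rfl⟩ := Fermat.JAC.XH.ringEval_surjective M H s
    rw [LinearMap.mulLeft_apply, ht, ← map_mul, Fermat.JAC.XH.ringEval_eq_zero_iff, map_mul] at hs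
    exact (Fermat.JAC.XH.ringEval_eq_zero_iff M H Q).mpr
      (LinearMap.ext fun f => hinj _ (LinearMap.congr_fun hs f))
  have hr : Module.finrank ℤ
      ((Fermat.JAC.XH.heckeGens M H).R ⧸ LinearMap.range (LinearMap.mulLeft ℤ t)) = 0 := by
    have := Submodule.finrank_quotient_add_finrank (LinearMap.range (LinearMap.mulLeft ℤ t))
    rw [LinearMap.finrank_range_of_inj htinj] at this
    omega
  obtain ⟨d, hd, hd'⟩ := Module.finrank_eq_zero_iff.mp hr (Submodule.Quotient.mk 1)
  rw [← Submodule.Quotient.mk_smul, Submodule.Quotient.mk_eq_zero] at hd'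
  obtain ⟨w, hw⟩ := hd'
  rw [LinearMap.mulLeft_apply, zsmul_eq_mul, mul_one] at hw
  -- whose image under the system would then vanish
  have h := congrArg g hw
  rw [map_mul, ht, ← RingHom.comp_apply g, ← hg, hyP, zero_mul, map_intCast] at h
  exact hd (Int.cast_eq_zero.mp h.symm)

end Fermat.GR.RT

end
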