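import Fermat.Agent.GR.RT.OrdInputProofCore
import Fermat.Agent.GR.RT.OrdInputProofStatement
import Fermat.Agent.GR.RT.OrdInputProofBound
import Fermat.Agent.GR.RT.LiftInputs
import Fermat.Agent.GR.RT.NewProofOld
import Fermat.Agent.GR.RT.NewProof
import Fermat.Agent.GR.RT.Cyclotomic
import Fermat.Agent.GR.RT.CharInputProof
import Fermat.Agent.GR.AttachProof.Main

/-!
# The unramified quotient at `p ∥ K` from the torsion of the Jacobian

`OrdTorsion` gives a subgroup `Z` with relations on the torsion.  Unless the system is old, some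
Hecke operator with nonzero value kills both pushforwards (`exists_pushKiller_or_old`), and
annihilators with Hecke coefficients transfer the relations to the representation
(`ordTriangular_of_torsion`).
-/

set_option autoImplicit false

noncomputable section

open MvPolynomial IsLocalRing Fermat.JAC

namespace Fermat.GR.RT

open Fermat.MC.Lvl Fermat.JAC.XH Fermat.RED.Flat

local notation "ℚbar" => AlgebraicClosure ℚ
local notation "Γℚ" => (AlgebraicClosure ℚ ≃ₐ[ℚ] AlgebraicClosure ℚ)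
local notation "M2" R => Matrix (Fin 2) (Fin 2) R

variable {p : ℕ} [hp : Fact p.Prime] [NeZero p]

/-- In the basis `P` the representation is upper triangular on the decomposition group, with an
unramified quotient on which the square of Frobenius is the diamond value at `p` (`K' = K / p`). -/
def IsOrdTriangular {K : ℕ} [NeZero K] {O : Type} [CommRing O] (K' : ℕ)
    (x : MvPolynomial (Nat.Primes ⊕ (ZMod K)ˣ) ℤ →+* O) (r : Γℚ →* M2 O)
    (A : ValuationSubring ℚbar) (P : (M2 O)ˣ) : Prop :=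
  (∀ σ ∈ A.decompositionSubgroup ℚ, ((P : M2 O) * r σ * (↑P⁻¹ : M2 O)) 1 0 = 0) ∧
    (∀ σ ∈ A.inertiaSubgroupIn ℚ, ((P : M2 O) * r σ * (↑P⁻¹ : M2 O)) 1 1 = 1) ∧
    ∀ φ : Γℚ, A.IsFrobeniusAt φ p → ∀ u : (ZMod K)ˣ, ((u : ZMod K).val : ZMod K') = (p : ZMod K') →
      ((P : M2 O) * r φ * (↑P⁻¹ : M2 O)) 1 1 ^ 2 = x (X (Sum.inr u))

/-- **At level `Γ_H(M p)`**, when some operator with nonzero value kills both pushforwards, the
representation is ordinary triangular at `p`. -/
theorem exists_ordTriangular_of_killer (hT : OrdTorsion p) (hp2 : p ≠ 2) {M : ℕ} [NeZero M]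
    {H : Subgroup (ZMod M)ˣ} [NegMem H] (hpM : ¬ p ∣ M) {O : Type} [CommRing O] [IsDomain O]
    [IsDiscreteValuationRing O] [IsAdicComplete (maximalIdeal O) O] [Finite (ResidueField O)]
    [CharZero O] (hpO : (p : O) ∈ maximalIdeal O)
    {x : MvPolynomial (Nat.Primes ⊕ (ZMod (M * p))ˣ) ℤ →+* O}
    (hx : IsPoint (M * p) (upH M H p) x) {r : Γℚ →* M2 O} (hr : IsAttached p x r)
    (hres : Submodule.span (ResidueField O)
      (Set.range fun σ => (r σ).map (residue O)) = ⊤)
    (f : (heckeGens (M * p) (upH M H p)).R →+* O)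
    (hf : x = f.comp (ringEval (M * p) (upH M H p)))
    (he : ∀ ℓ : ℕ, f (epsES (M * p) (upH M H p) ℓ) = eVal x ℓ)
    (ht : ∀ ℓ : ℕ, f (tES (M * p) (upH M H p) ℓ) = tVal x ℓ * eVal x ℓ)
    {t : (heckeGens (M * p) (upH M H p)).R} (ht0 : f t ≠ 0)
    (hkill : ∀ z, pushPic (Fermat.BAD.XH.al M p H) ((heckeGens (M * p) (upH M H p)).act t z) = 0 ∧
      pushPic (Fermat.BAD.XH.be M p H) ((heckeGens (M * p) (upH M H p)).act t z) = 0)
    {A : ValuationSubring ℚbar} (hA : A.LiesOverPrime p) :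
    ∃ P : (M2 O)ˣ, IsOrdTriangular (p := p) M x r A P := by
  classical
  have hcop : p.Coprime M := hp.out.coprime_iff_not_dvd.mpr hpM
  obtain ⟨u, hu⟩ := ZMod.unitsMap_surjective (dvd_mul_right M p)
    (Fermat.BAD.XH.qUnit M p hp.out hpM)
  obtain ⟨Z, γ, d, hd, hγ, hγ1, hZa, hZb, hZc⟩ := hT M H hpM hp2 A hA u hu
  have : CharP (ResidueField O) p := by
    refine (CharP.charP_iff_prime_eq_zero hp.out).mpr ?_
    rw [← map_natCast (residue O), residue_eq_zero_iff]
    exact hpO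
  set c : ℕ := ((Fermat.CFT.cycChar p γ : (ZMod p)ˣ) : ZMod p).val with hc
  -- `γ` has residual determinant `c`, neither `0` nor `1`
  have hcast : ((ZMod.castHom (dvd_refl p) (ResidueField O))
      ((Fermat.CFT.cycChar p γ : (ZMod p)ˣ) : ZMod p)) = (c : ResidueField O) := by
    rw [hc, ← map_natCast (ZMod.castHom (dvd_refl p) (ResidueField O)), ZMod.natCast_zmod_val]
  have hinj : Function.Injective (ZMod.castHom (dvd_refl p) (ResidueField O)) :=
    (ZMod.castHom (dvd_refl p) (ResidueField O)).injective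
  have hc0 : (c : ResidueField O) ≠ 0 := by
    rw [← hcast, ← map_zero (ZMod.castHom (dvd_refl p) (ResidueField O))]
    exact hinj.ne (Fermat.CFT.cycChar p γ).ne_zero
  have hc1 : (c : ResidueField O) ≠ 1 := by
    rw [← hcast, ← map_one (ZMod.castHom (dvd_refl p) (ResidueField O))]
    exact hinj.ne fun h => hγ1 (Units.ext h)
  have hdet : residue O (r γ).det = (c : ResidueField O) := by
    rw [hr.det_eq_cyc hx hpO, hx.diaVal_eq_of_unitsMap_eq (u := cycK (M * p) γ) (v := 1) (by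
      rw [unitsMap_cycK, cycK_inertia hp.out hcop hA hγ, map_one]), map_one, mul_one,
      ← map_natCast (residue O), ← sub_eq_zero, ← map_sub, residue_eq_zero_iff]
    exact cycO_sub_cycChar_mem hpO γ
  -- `D`: the Eichler–Shimura data of the level (not a divisor)
  let D := Fermat.RED.Full.esData (M * p) (upH M H p) p
  -- the Frobenius data of `r` as Hecke values
  have hfrob : ∀ ℓ : ℕ, ℓ.Prime → ℓ ∉ (M * p * p).primeFactors → ¬ ℓ ∣ M * p * p ∧
      ∀ B : ValuationSubring ℚbar, B.LiesOverPrime ℓ → ∀ φ : Γℚ, B.IsFrobeniusAt φ ℓ →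
        (r φ).trace = f (tES (M * p) (upH M H p) ℓ) ∧
          (r φ).det = f (ℓ * epsES (M * p) (upH M H p) ℓ) := fun ℓ hℓ hℓS => by
    have hℓKp : ¬ ℓ ∣ M * p * p := fun h' => hℓS (Nat.mem_primeFactors.mpr
      ⟨hℓ, h', mul_ne_zero (NeZero.ne _) hp.out.ne_zero⟩)
    refine ⟨hℓKp, fun B hB φ hφ => ?_⟩
    obtain ⟨h1, h2⟩ := hr.frobenius ℓ hℓ hℓKp B hB φ hφ
    exact ⟨by rw [h1, ht], by rw [h2, map_mul, map_natCast, he]⟩
  -- the stable line
  obtain ⟨P, h10, h11, hφ2⟩ := ordTriangular_of_torsion D f r ⟨hp.out, hA⟩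
    (span_eq_top_of_residue hres)
    (exists_heckeMat_mem D f r hpO hr.cont (span_eq_top_of_residue hres) _ hfrob)
    Z ((pushPic (Fermat.BAD.XH.al M p H)).ker ⊓ (pushPic (Fermat.BAD.XH.be M p H)).ker) ht0
    (fun n z _ => AddSubgroup.mem_inf.mpr
      ⟨AddMonoidHom.mem_ker.mpr (hkill z).1, AddMonoidHom.mem_ker.mpr (hkill z).2⟩)
    (dOp (M * p) (upH M H p) u) hd hZa
    (fun φ hφ n z hz hk => by
      change d • (φ • φ • z - (heckeGens (M * p) (upH M H p)).act (dOp (M * p) (upH M H p) u) z) ∈ Z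
      rw [act_dOp]
      exact hZb φ hφ n z hz (AddMonoidHom.mem_ker.mp (AddSubgroup.mem_inf.mp hk).1)
        (AddMonoidHom.mem_ker.mp (AddSubgroup.mem_inf.mp hk).2))
    hγ c (fun n z hzZ hz hk => hZc n z hzZ hz
      (AddMonoidHom.mem_ker.mp (AddSubgroup.mem_inf.mp hk).1)
      (AddMonoidHom.mem_ker.mp (AddSubgroup.mem_inf.mp hk).2))
    hdet hc0 hc1
  refine ⟨P, h10, h11, fun φ hφ u' hu' => ?_⟩
  rw [hφ2 φ hφ, ← diaVal_apply hx, hx.diaVal_eq_of_unitsMap_eq (u := u') (v := u) (by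
    rw [hu]
    exact Units.ext (by rw [ZMod.unitsMap_val, ← ZMod.natCast_val, hu', ZMod.coe_unitOfCoprime])),
    diaVal_apply hx, hf, RingHom.comp_apply, ringEval_inr]

/-- **`OrdInput`** from the torsion relations. -/
theorem ordInput_of_torsion (hT : OrdTorsion p) : OrdInput p := by
  intro K _ H₀ hneg hp2 M' hK hpM hker O _ _ _ _ _ _ hpO x hx hnold r hr hres A hA
  obtain ⟨h, hneg', hH⟩ := exists_level_eq hK hneg hker
  subst hK
  have : NeZero M' := ⟨fun e => NeZero.ne (M' * p) (by rw [e, zero_mul])⟩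
  have : NegMem (H₀.map (ZMod.unitsMap h)) := ⟨hneg'⟩
  rw [hH] at hx hnold
  obtain ⟨f, hf, he, ht⟩ := hx.exists_jacPoint
  rcases exists_pushKiller_or_old M' p (H₀.map (ZMod.unitsMap h)) hp.out hpM f hf with
    ⟨t, ht0, hkill⟩ | ⟨y, hy, hyT, hyD, -⟩
  · exact exists_ordTriangular_of_killer hT hp2 hpM hpO hx hr hres f hf he ht ht0 hkill hA
  · refine absurd ⟨M', inferInstance, dvd_mul_right M' p, rfl, y, ?_, hyT, hyD⟩ hnold
    rw [Subgroup.map_comap_eq_self_of_surjective (ZMod.unitsMap_surjective _)]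
    exact hy

/-- **`OrdSignInput`** from the torsion relations: such a system is new at `p`, as no eigen system
of level prime to `p` has `T_p² ⟨p⟩ = (p + 1)²`. -/
theorem ordSignInput_of_torsion (hT : OrdTorsion p) : OrdSignInput p := by
  intro K _ H₀ hneg hp2 M' hK hpM hker O _ _ _ _ _ _ hpO x hx u₀ hu₀ hUU r hr hres A hA
  obtain ⟨h, hneg', hH⟩ := exists_level_eq hK hneg hker
  subst hK
  have : NeZero M' := ⟨fun e => NeZero.ne (M' * p) (by rw [e, zero_mul])⟩
  have : NegMem (H₀.map (ZMod.unitsMap h)) := ⟨hneg'⟩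
  rw [hH] at hx
  obtain ⟨f, hf, he, ht⟩ := hx.exists_jacPoint
  rcases exists_pushKiller_or_old M' p (H₀.map (ZMod.unitsMap h)) hp.out hpM f hf with
    ⟨t, ht0, hkill⟩ | ⟨y, hy, -, hyD, hyq⟩
  · exact exists_ordTriangular_of_killer hT hp2 hpM hpO hx hr hres f hf he ht ht0 hkill hA
  · exfalso
    have hu : ZMod.unitsMap (dvd_mul_right M' p) u₀ = Fermat.BAD.XH.qUnit M' p hp.out hpM :=
      Units.ext (by rw [ZMod.unitsMap_val, ← ZMod.natCast_val, hu₀, ZMod.coe_unitOfCoprime])
    refine hy.tVal_sq_mul_ne hpM (Fermat.BAD.XH.qUnit M' p hp.out hpM) ?_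
    have hε : y (X (Sum.inr (Fermat.BAD.XH.qUnit M' p hp.out hpM))) = x (X (Sum.inr u₀)) := by
      rw [← hyD u₀, hu]
    rw [hε] at hyq ⊢
    set U := tVal x p
    set a := tVal y p
    set e := x (X (Sum.inr u₀))
    have h1 : U * e * a = (p : O) + 1 := by linear_combination hyq + hUU
    linear_combination (U * e * a + ((p : O) + 1)) * h1 - (e * a ^ 2) * hUU

end Fermat.GR.RT

end
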