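import Fermat.Agent.GR.RT.OrdInputProofAlg
import Fermat.Agent.RED.Flat.OrdAnnihilator
import Fermat.Agent.FLAT.LocalGroup

/-!
# A stable line at `p` from a subgroup of torsion

`Z` is a subgroup of torsion modulo which inertia is trivial and the square of Frobenius an
operator, on which an element of inertia is, up to nilpotents, the scalar of its determinant.  Then
all combinations with images in `Z` have singular matrices, so there is a stable line.
-/

set_option autoImplicit false
set_option linter.unusedSectionVars false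

noncomputable section

open IsLocalRing Fermat.EC.Val Fermat.RED.Flat

namespace Fermat.GR.RT

local notation "ℚbar" => AlgebraicClosure ℚ
local notation "Γℚ" => (AlgebraicClosure ℚ ≃ₐ[ℚ] AlgebraicClosure ℚ)

variable {p : ℕ} [hp : Fact p.Prime] {R J : Type} [CommRing R] [Module.Free ℤ R] [Module.Finite ℤ R]
  [AddCommGroup J] [DistribMulAction (AlgebraicClosure ℚ ≃ₐ[ℚ] AlgebraicClosure ℚ) J]
  {N : ℕ} {T ε : ℕ → R} (D : ESData R J N p T ε)
variable {O : Type} [CommRing O] [IsDomain O] [IsDiscreteValuationRing O]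
  [IsAdicComplete (maximalIdeal O) O] [CharZero O]
variable (f : R →+* O) (r : Γℚ →* Matrix (Fin 2) (Fin 2) O)

local notation "M2" => Matrix (Fin 2) (Fin 2) O

/-- The combinations with images in `Z` and `K₀`. -/
def IntoPair (Z K₀ : AddSubgroup J) (q : MonoidAlgebra R Γℚ) : Prop :=
  ∀ (n : ℕ) (x : J), p ^ n • x = 0 → heckeCombo D q x ∈ Z ∧ heckeCombo D q x ∈ K₀

/-- `IntoPair` is stable under sums. -/
theorem IntoPair.add {Z K₀ : AddSubgroup J} {q q' : MonoidAlgebra R Γℚ}
    (h : IntoPair D Z K₀ q) (h' : IntoPair D Z K₀ q') : IntoPair D Z K₀ (q + q') := fun n x hx => by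
  rw [map_add]
  exact ⟨add_mem (h n x hx).1 (h' n x hx).1, add_mem (h n x hx).2 (h' n x hx).2⟩

/-- `IntoPair` is stable under multiplication on the right. -/
theorem IntoPair.mul {Z K₀ : AddSubgroup J} {q : MonoidAlgebra R Γℚ} (h : IntoPair D Z K₀ q)
    (s : MonoidAlgebra R Γℚ) : IntoPair D Z K₀ (q * s) := fun n x hx => by
  rw [map_mul]
  exact h n _ (by rw [← map_nsmul, hx, map_zero])

variable {A : ValuationSubring ℚbar}

/-- A nonzero element lies outside some power of the maximal ideal. -/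
private theorem exists_notMem_pow {x : O} (hx : x ≠ 0) : ∃ n, x ∉ maximalIdeal O ^ n := by
  by_contra hall
  push Not at hall
  refine hx (IsHausdorff.haus' (I := maximalIdeal O) _ fun n => ?_)
  rw [SModEq.zero, smul_eq_mul, Ideal.mul_top]
  exact hall n

/-- A scalar shift of a residually nilpotent matrix has residual determinant the square of the
scalar, which differs from the scalar unless that is `0` or `1`. -/
private theorem false_of_nilpotent_shift {X : M2} {c : ℕ} {m : ℕ}
    (hXm : ∀ a b, (X ^ m) a b ∈ maximalIdeal O) {Y : M2} (hY : Y = (c : O) • 1 + X)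
    (hdet : residue O Y.det = (c : ResidueField O)) (hc0 : (c : ResidueField O) ≠ 0)
    (hc1 : (c : ResidueField O) ≠ 1) : False := by
  set mR : M2 →+* Matrix (Fin 2) (Fin 2) (ResidueField O) := (residue O).mapMatrix with hmR
  have hnil : IsNilpotent (mR X) := ⟨m, by
    rw [← map_pow]
    exact Matrix.ext fun a b => (residue_eq_zero_iff _).mpr (hXm a b)⟩
  have htr : (mR X).trace = 0 := (Matrix.isNilpotent_trace_of_isNilpotent hnil).eq_zero
  have hdetX : (mR X).det = 0 := by
    obtain ⟨k, hk⟩ := hnil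
    have h1 := congrArg Matrix.det hk
    rw [Matrix.det_pow, Matrix.det_zero] at h1
    exact eq_zero_of_pow_eq_zero h1
  have hdec : mR Y = (c : ResidueField O) • 1 + mR X := by
    rw [hY, map_add]
    congr 1
    ext a b
    fin_cases a <;> fin_cases b <;> simp [hmR]
  have hval := RingHom.map_det (residue O) Y
  rw [← hmR, hdec, hdet, det_add_fin_two, hdetX, Matrix.adjugate_smul, Matrix.adjugate_one,
    smul_one_mul, Matrix.trace_smul, htr, smul_zero, add_zero, add_zero, Matrix.det_smul,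
    Matrix.det_one, mul_one, Fintype.card_fin, sq] at hval
  exact hc1 (mul_left_cancel₀ hc0 (hval.symm.trans (mul_one _).symm))

/-- If an ideal contains the entries of `d • (X * C)` but not `d * det C` then the entries of `X`
lie in the maximal ideal. -/
private theorem mem_of_det_smul_mul {I : Ideal O} {d : O} {X C : M2}
    (h : ∀ a b, (d • (X * C)) a b ∈ I) (hn : d * C.det ∉ I) (a b : Fin 2) :
    X a b ∈ maximalIdeal O := by
  by_contra hu
  obtain ⟨v, hv⟩ := (not_not.mp fun h' => hu ((mem_maximalIdeal _).mpr h') : IsUnit (X a b))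
  have e2 : (d • (X * C) * C.adjugate) a b = d * C.det * X a b := by
    rw [smul_mul_assoc, mul_assoc, Matrix.mul_adjugate, mul_smul_comm, mul_one,
      Matrix.smul_apply, Matrix.smul_apply, smul_eq_mul, smul_eq_mul, mul_assoc]
  have hmem : (d • (X * C) * C.adjugate) a b ∈ I := by
    rw [Matrix.mul_apply]
    exact Ideal.sum_mem _ fun k _ => Ideal.mul_mem_right _ _ (h a k)
  rw [e2, ← hv] at hmem
  exact hn ((Ideal.mul_unit_mem_iff_mem _ v.isUnit).mp hmem)

/-- Every combination with images in the pair is singular. -/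
private theorem det_eq_zero_of_intoPair
    (hkill : ∀ n, ∃ m : ℕ, ∀ q : MonoidAlgebra R Γℚ,
      (∀ y : J, p ^ m • y = 0 → heckeCombo D q y = 0) →
      ∀ a b, heckeMat f r q a b ∈ maximalIdeal O ^ n)
    {Z K₀ : AddSubgroup J} {d : ℕ} (hd0 : (d : O) ≠ 0) {γ : Γℚ} (c : ℕ)
    (hc : ∀ (n : ℕ) (x : J), x ∈ Z → p ^ n • x = 0 → x ∈ K₀ →
      d • (fun z => γ • z - c • z)^[n] x = 0)
    (hdet : residue O (r γ).det = (c : ResidueField O)) (hc0 : (c : ResidueField O) ≠ 0)
    (hc1 : (c : ResidueField O) ≠ 1) {q : MonoidAlgebra R Γℚ} (hq : IntoPair D Z K₀ q) :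
    (heckeMat f r q).det = 0 := by
  by_contra hne
  set X : M2 := r γ - (c : O) • 1 with hX
  set g : MonoidAlgebra R Γℚ := MonoidAlgebra.single γ 1 - MonoidAlgebra.single 1 (c : R) with hg
  have hga : ⇑(heckeCombo D g) = fun z => γ • z - c • z := funext fun z => by
    rw [hg, map_sub]
    change heckeCombo D _ z - heckeCombo D _ z = _
    rw [heckeCombo_single, heckeCombo_single, map_one, one_smul, map_natCast]
    rfl
  -- choose `n` with `d * det ∉ 𝔪 ^ n`
  obtain ⟨n, hn⟩ := exists_notMem_pow (mul_ne_zero hd0 hne)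
  obtain ⟨m, hm⟩ := hkill n
  -- `d * g ^ m * q` acts as zero on the `p ^ m` torsion
  have hmat := hm (MonoidAlgebra.single 1 (d : R) * g ^ m * q) fun y hy => by
    rw [map_mul, map_mul, map_pow]
    change heckeCombo D _ ((heckeCombo D g ^ m : AddMonoid.End J) (heckeCombo D q y)) = 0
    rw [heckeCombo_single, one_smul, map_natCast, AddMonoid.End.coe_pow, hga]
    exact hc m _ (hq m y hy).1 (by rw [← map_nsmul, hy, map_zero]) (hq m y hy).2
  have hgm : heckeMat f r g = X := by
    rw [hg, map_sub, heckeMat_single, heckeMat_single, map_one, map_one, one_smul, map_natCast,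
      hX]
  have e1 : heckeMat f r (MonoidAlgebra.single 1 (d : R) * g ^ m * q) =
      (d : O) • (X ^ m * heckeMat f r q) := by
    rw [map_mul, map_mul, map_pow, heckeMat_single, map_one, hgm, map_natCast, smul_one_mul,
      smul_mul_assoc]
  rw [e1] at hmat
  -- so `X` is nilpotent modulo `𝔪`: then `det ≡ c ^ 2`, yet it is `c ∉ {0, 1}`
  exact false_of_nilpotent_shift (mem_of_det_smul_mul hmat hn) (add_sub_cancel _ _).symm hdet
    hc0 hc1

/-- The combination `d t (σ - 1)` has images in the pair for inertial `σ`. -/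
private theorem intoPair_single_sub {Z K₀ : AddSubgroup J} {t : R}
    (htK : ∀ (n : ℕ) (x : J), p ^ n • x = 0 → D.act t x ∈ K₀) {d : ℕ} {σ : Γℚ}
    (ha : ∀ (n : ℕ) (x : J), p ^ n • x = 0 → d • (σ • x - x) ∈ Z) :
    IntoPair D Z K₀ (MonoidAlgebra.single σ ((d : R) * t) -
      MonoidAlgebra.single 1 ((d : R) * t)) := fun n x hx => by
  have hs_apply : ∀ y : J, D.act ((d : R) * t) y = d • D.act t y := fun y => by
    rw [map_mul, map_natCast]
    rfl
  have htx : p ^ n • D.act t x = 0 := by rw [← map_nsmul, hx, map_zero]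
  have e2 : heckeCombo D (MonoidAlgebra.single σ ((d : R) * t) -
      MonoidAlgebra.single 1 ((d : R) * t)) x = d • (σ • D.act t x - D.act t x) := by
    rw [map_sub]
    change heckeCombo D _ x - heckeCombo D _ x = _
    rw [heckeCombo_single, heckeCombo_single, one_smul, hs_apply, hs_apply, D.galois_act,
      nsmul_sub]
  refine ⟨e2 ▸ ha n _ htx, ?_⟩
  rw [e2, D.galois_act, ← map_sub]
  refine nsmul_mem (htK n _ ?_) _
  rw [nsmul_sub, smul_comm, hx, smul_zero, sub_zero]

/-- The combination `d t (φ ^ 2 - e)` has images in the pair. -/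
private theorem intoPair_frobenius {Z K₀ : AddSubgroup J} {t : R}
    (htK : ∀ (n : ℕ) (x : J), p ^ n • x = 0 → D.act t x ∈ K₀) {e : R} {d : ℕ} {φ : Γℚ}
    (hb : ∀ (n : ℕ) (x : J), p ^ n • x = 0 → x ∈ K₀ → d • (φ • φ • x - D.act e x) ∈ Z) :
    IntoPair D Z K₀ (MonoidAlgebra.single (φ * φ) ((d : R) * t) -
      MonoidAlgebra.single 1 ((d : R) * t * e)) := fun n x hx => by
  have hs_apply : ∀ y : J, D.act ((d : R) * t) y = d • D.act t y := fun y => by
    rw [map_mul, map_natCast]
    rfl
  have htx : p ^ n • D.act t x = 0 := by rw [← map_nsmul, hx, map_zero]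
  have hcomm : ∀ a b : R, D.act a (D.act b x) = D.act b (D.act a x) := fun a b => by
    change (D.act a * D.act b) x = (D.act b * D.act a) x
    rw [← map_mul, ← map_mul, mul_comm]
  have e2 : heckeCombo D (MonoidAlgebra.single (φ * φ) ((d : R) * t) -
      MonoidAlgebra.single 1 ((d : R) * t * e)) x =
      d • (φ • φ • D.act t x - D.act e (D.act t x)) := by
    rw [map_sub]
    change heckeCombo D _ x - heckeCombo D _ x = _
    rw [heckeCombo_single, heckeCombo_single, one_smul, hs_apply, map_mul _ ((d : R) * t) e]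
    change _ - D.act ((d : R) * t) (D.act e x) = _
    rw [hs_apply, mul_smul, hcomm e t, ← D.galois_act, ← D.galois_act, nsmul_sub]
  refine ⟨e2 ▸ hb n _ htx (htK n x hx), ?_⟩
  rw [e2, hcomm e t, D.galois_act, D.galois_act, ← map_sub]
  refine nsmul_mem (htK n _ ?_) _
  rw [nsmul_sub, smul_comm, smul_comm (p ^ n) φ x, ← map_nsmul, hx, smul_zero, smul_zero,
    map_zero, sub_zero]

/-- Images in the pair are killed by the adjugate of a fixed singular combination. -/
private theorem adjugate_mul_eq_zero (hspan : Submodule.span O (Set.range r) = ⊤)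
    {Z K₀ : AddSubgroup J}
    (hsing : ∀ q, IntoPair D Z K₀ q → (heckeMat f r q).det = 0) {s : R} (hfs : f s ≠ 0) {X₀ : M2}
    {q₀ q : MonoidAlgebra R Γℚ} (h₀ : IntoPair D Z K₀ q₀) (hm₀ : heckeMat f r q₀ = f s • X₀)
    (hq : IntoPair D Z K₀ q) : X₀.adjugate * heckeMat f r q = 0 := by
  refine eq_zero_of_trace_mul hspan fun σ => ?_
  have h1 := hsing _ (h₀.add D (hq.mul D (MonoidAlgebra.single σ 1)))
  have h2 := hsing _ h₀
  have h3 := hsing _ (hq.mul D (MonoidAlgebra.single σ 1))
  rw [map_mul, heckeMat_single, map_one, one_smul] at h3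
  rw [hm₀] at h2
  rw [map_add, map_mul, heckeMat_single, map_one, one_smul, hm₀, det_add_fin_two, h2, h3,
    zero_add, add_zero, Matrix.adjugate_smul, Fintype.card_fin, smul_mul_assoc,
    Matrix.trace_smul, smul_eq_mul, ← mul_assoc, pow_one] at h1
  exact (mul_eq_zero.mp h1).resolve_left hfs

/-- **The stable line**: an ordinary triangular basis, with the square of Frobenius on the quotient
equal to the value of `e`. -/
theorem ordTriangular_of_torsion (h : IsPlace A p) (hspan : Submodule.span O (Set.range r) = ⊤)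
    (hkill : ∀ n, ∃ m : ℕ, ∀ q : MonoidAlgebra R Γℚ,
      (∀ y : J, p ^ m • y = 0 → heckeCombo D q y = 0) →
      ∀ a b, heckeMat f r q a b ∈ maximalIdeal O ^ n)
    (Z K₀ : AddSubgroup J) {t : R} (ht : f t ≠ 0)
    (htK : ∀ (n : ℕ) (x : J), p ^ n • x = 0 → D.act t x ∈ K₀) (e : R) {d : ℕ} (hd : d ≠ 0)
    (ha : ∀ σ ∈ A.inertiaSubgroupIn ℚ, ∀ (n : ℕ) (x : J), p ^ n • x = 0 → d • (σ • x - x) ∈ Z)
    (hb : ∀ φ : Γℚ, A.IsFrobeniusAt φ p → ∀ (n : ℕ) (x : J), p ^ n • x = 0 → x ∈ K₀ →
      d • (φ • φ • x - D.act e x) ∈ Z)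
    {γ : Γℚ} (hγ : γ ∈ A.inertiaSubgroupIn ℚ) (c : ℕ)
    (hc : ∀ (n : ℕ) (x : J), x ∈ Z → p ^ n • x = 0 → x ∈ K₀ →
      d • (fun z => γ • z - c • z)^[n] x = 0)
    (hdet : residue O (r γ).det = (c : ResidueField O)) (hc0 : (c : ResidueField O) ≠ 0)
    (hc1 : (c : ResidueField O) ≠ 1) :
    ∃ P : (M2)ˣ,
      (∀ σ ∈ A.decompositionSubgroup ℚ, ((P : M2) * r σ * (↑P⁻¹ : M2)) 1 0 = 0) ∧
      (∀ σ ∈ A.inertiaSubgroupIn ℚ, ((P : M2) * r σ * (↑P⁻¹ : M2)) 1 1 = 1) ∧
      ∀ φ : Γℚ, A.IsFrobeniusAt φ p → ((P : M2) * r φ * (↑P⁻¹ : M2)) 1 1 ^ 2 = f e := by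
  have hd0 : (d : O) ≠ 0 := Nat.cast_ne_zero.mpr hd
  have hfs : f ((d : R) * t) ≠ 0 := by
    rw [map_mul, map_natCast]
    exact mul_ne_zero hd0 ht
  have hm₁ : ∀ σ, heckeMat f r (MonoidAlgebra.single σ ((d : R) * t) -
      MonoidAlgebra.single 1 ((d : R) * t)) = f ((d : R) * t) • (r σ - 1) := fun σ => by
    rw [map_sub, heckeMat_single, heckeMat_single, map_one, smul_sub]
  -- the adjugate of `r γ - 1` kills the operators mapping into the pair
  set X₀ : M2 := r γ - 1 with hX₀
  have hX₀0 : X₀ ≠ 0 := fun h0 => hc1 (by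
    rw [← hdet, sub_eq_zero.mp h0, Matrix.det_one, map_one])
  have hkey : ∀ q, IntoPair D Z K₀ q → X₀.adjugate * heckeMat f r q = 0 := fun q hq =>
    adjugate_mul_eq_zero D f r hspan
      (fun q hq => det_eq_zero_of_intoPair D f r hkill hd0 c hc hdet hc0 hc1 hq) hfs
      (intoPair_single_sub D htK (ha γ hγ)) (hm₁ γ) hq
  have hadj : X₀.adjugate ≠ 0 := fun h0 => hX₀0 (by
    have h1 := Matrix.adjugate_adjugate X₀ (by simp)
    rw [h0, Matrix.adjugate_zero] at h1
    simpa using h1.symm)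
  have hI : ∀ σ ∈ A.inertiaSubgroupIn ℚ, X₀.adjugate * (r σ - 1) = 0 := fun σ hσ => by
    have h1 := hkey _ (intoPair_single_sub D htK (ha σ hσ))
    rw [hm₁, mul_smul_comm] at h1
    exact (smul_eq_zero.mp h1).resolve_left hfs
  -- so it triangularises
  obtain ⟨P, hP1, hP2, hP3⟩ := exists_triangular_of_kill (fun σ => r σ)
    (A.decompositionSubgroup ℚ : Set Γℚ) (A.inertiaSubgroupIn ℚ : Set Γℚ)
    {φ | A.IsFrobeniusAt φ p} hadj hX₀0 (hI γ hγ)
    (fun δ hδ => by
      have h1 := hI _ (Fermat.FLAT.conj_mem_inertia h hδ hγ)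
      have e3 : r δ * X₀ = (r (δ * γ * δ⁻¹) - 1) * r δ := by
        rw [hX₀, mul_sub, sub_mul, mul_one, one_mul, ← map_mul, ← map_mul, inv_mul_cancel_right]
      rw [mul_assoc, e3, ← mul_assoc, h1, zero_mul])
    hI (f e) (fun φ hφ => hφ.mem_decompositionSubgroup) fun φ hφ => by
      have h1 := hkey _ (intoPair_frobenius D htK (hb φ hφ))
      rw [map_sub, heckeMat_single, heckeMat_single, map_mul r, map_mul f ((d : R) * t) e, map_one,
        mul_smul, ← smul_sub, mul_smul_comm] at h1
      exact (smul_eq_zero.mp h1).resolve_left hfs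
  exact ⟨P, hP1, hP2, hP3⟩

end Fermat.GR.RT

end
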