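import Mathlib
import Fermat.Agent.GR.RT.Strict
import Fermat.Agent.GR.RT.Cyclotomic

/-!
# The strict ordinary condition at `p`

Statements: the classes with the first order strict relation at `p` lie in a small subspace, and a
lifting which is ordinary in some basis with unramified quotient of square one satisfies the strict
relation with the sign character of the residual representation.
-/

set_option autoImplicit false

noncomputable section

namespace Fermat.GR.RT

open IsLocalRing Fermat.CFT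

local notation "ℚbar" => AlgebraicClosure ℚ
local notation "Γℚ" => (AlgebraicClosure ℚ ≃ₐ[ℚ] AlgebraicClosure ℚ)
local notation "M2" R => Matrix (Fin 2) (Fin 2) R

variable (p : ℕ) [Fact p.Prime]

/-- **The strict classes at `p`** lie in a subspace of size at most `|H⁰| |k|`.
Proved by `strictAtPBound`. -/
def StrictAtPBound : Prop :=
  2 < p → ∀ (k : Type) [Field k] [Finite k] [Algebra (ZMod p) k] (r : Γℚ →* M2 k),
    IsOpen {σ : Γℚ | r σ = 1} → ∀ A : ValuationSubring ℚbar, A.LiesOverPrime p →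
    ∀ (U : (M2 k)ˣ) (a d : A.decompositionSubgroup ℚ →* k) (b : A.decompositionSubgroup ℚ → k),
      (∀ δ : A.decompositionSubgroup ℚ,
        (↑U⁻¹ : M2 k) * r δ.1 * (U : M2 k) = !![a δ, b δ; 0, d δ]) →
      (∀ δ, d δ * d δ = 1) → (∀ δ, δ.1 ∈ A.inertiaSubgroupIn ℚ → d δ = 1) →
      (∀ δ : A.decompositionSubgroup ℚ, (r δ.1).det =
        algebraMap (ZMod p) k ((cycChar p δ.1 : (ZMod p)ˣ) : ZMod p)) →
      ∃ S : Submodule (ZMod p) (locH1 p r A), Finite S ∧
        Nat.card S ≤ Nat.card (Coh.H0 (locRep p r A)) * Nat.card k ∧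
        ∀ z : Coh.Z1 (glev (A.decompositionSubgroup ℚ).subtype) (locRep p r A),
          (∀ σ τ : A.decompositionSubgroup ℚ,
            ((z.1 σ : adZero p k) : M2 k) * r σ.1 * (r τ.1 - d τ • (1 : M2 k)) +
              (r σ.1 - a σ • (1 : M2 k)) * (((z.1 τ : adZero p k) : M2 k) * r τ.1) = 0) →
          Coh.cl₁ (glev (A.decompositionSubgroup ℚ).subtype) (locRep p r A) z ∈ S

/-- **Ordinary liftings satisfy the strict relation**, for cyclotomic determinant and Frobenius of
square one on the unramified quotient. Proved by `ordStrictStatement`. -/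
def OrdStrictStatement : Prop :=
  2 < p → ∀ (B : Type) [CommRing B] [IsDomain B] [IsDiscreteValuationRing B]
    [IsAdicComplete (maximalIdeal B) B] [Finite (ResidueField B)] [CharZero B]
    (hB : (p : B) ∈ maximalIdeal B) (ρ : Γℚ →* M2 B), MatCont ρ →
    (∀ σ, (ρ σ).det = cycO hB σ) →
    ∀ A : ValuationSubring ℚbar, A.LiesOverPrime p →
    ∀ P : (M2 B)ˣ,
      (∀ σ ∈ A.decompositionSubgroup ℚ, ((P : M2 B) * ρ σ * (↑P⁻¹ : M2 B)) 1 0 = 0) →
      (∀ σ ∈ A.inertiaSubgroupIn ℚ, ((P : M2 B) * ρ σ * (↑P⁻¹ : M2 B)) 1 1 = 1) →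
      (∀ φ : Γℚ, A.IsFrobeniusAt φ p → ((P : M2 B) * ρ φ * (↑P⁻¹ : M2 B)) 1 1 ^ 2 = 1) →
    ∀ (U : (M2 (ResidueField B))ˣ) (d : A.decompositionSubgroup ℚ → ResidueField B)
      (e : A.decompositionSubgroup ℚ → B), (∀ δ, e δ = 1 ∨ e δ = -1) →
      (∀ δ, residue B (e δ) = d δ) →
      (∀ δ : A.decompositionSubgroup ℚ,
        ((↑U⁻¹ : M2 (ResidueField B)) * (ρ δ.1).map (residue B) *
          (U : M2 (ResidueField B))) 1 0 = 0 ∧
        ((↑U⁻¹ : M2 (ResidueField B)) * (ρ δ.1).map (residue B) * (U : M2 (ResidueField B))) 1 1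
          = d δ) →
      (∀ δ : A.decompositionSubgroup ℚ, δ.1 ∈ A.inertiaSubgroupIn ℚ → d δ = 1) →
      ∀ σ τ : A.decompositionSubgroup ℚ,
        (ρ σ.1 - ((ρ σ.1).det * e σ) • (1 : M2 B)) * (ρ τ.1 - e τ • (1 : M2 B)) = 0

end Fermat.GR.RT

end
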