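import Fermat.Agent.GR.RT.Cofinite
import Fermat.Agent.SW.TorsionRep

/-!
# Residual modularity of a curve and of its torsion

For odd `p` and nonzero discriminant the two notions agree; a representation other than the torsion
itself needs open kernel, cyclotomic determinant and the traces of the torsion.
-/

set_option autoImplicit false

noncomputable section

open WeierstrassCurve.Affine Fermat.EC.Val Fermat.SW

namespace Fermat.GR.RT

local notation "ℚbar" => AlgebraicClosure ℚ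
local notation "Γℚ" => (AlgebraicClosure ℚ ≃ₐ[ℚ] AlgebraicClosure ℚ)

variable {p : ℕ} [hp : Fact p.Prime] {W : WeierstrassCurve ℤ}

/-- A residually modular curve makes every representation with cyclotomic determinant and the
traces of its torsion modular of the same level. -/
theorem modularOf_of_residuallyModular {rb : Γℚ →* GL (Fin 2) (ZMod p)}
    (hopen : IsOpen (rb.ker : Set Γℚ))
    (hcyc : ∀ σ, (rb σ : Matrix (Fin 2) (Fin 2) (ZMod p)).det =
      ((Fermat.CFT.cycChar p σ : (ZMod p)ˣ) : ZMod p))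
    (h2 : 2 < p) (hW : W.Δ ≠ 0)
    (htr : ∀ σ, (rb σ : Matrix (Fin 2) (Fin 2) (ZMod p)).trace =
      Point.galoisTrace (K := ℚbar) ℚ (modQ W).toAffine p σ)
    {M : ℕ} (hM : 0 < M) (hmod : W.IsResiduallyModularOfLevel p M) : ModularOf p rb M := by
  obtain ⟨f, 𝔪, hf, hmax, hpm, hcong⟩ := hmod
  have : NeZero M := ⟨hM.ne'⟩
  refine modularOf_of_cofinite hopen hcyc h2 hf hmax hpm W.Δ.natAbs.primeFactors
    fun ℓ hℓ hℓM hℓp hℓS _ A hA φ hφ n hn => ?_
  have hgood : ¬ (ℓ : ℤ) ∣ W.Δ := fun h =>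
    hℓS (Nat.mem_primeFactors.mpr ⟨hℓ, Int.natCast_dvd.mp h, Int.natAbs_ne_zero.mpr hW⟩)
  obtain ⟨a, ha, han⟩ := hcong ℓ hℓ hgood hℓM hℓp
  refine ⟨a, ha, ?_⟩
  rw [htr, FR.galoisTrace_frobenius W hℓ hℓp hgood hA hφ] at hn
  obtain ⟨k, hk⟩ := (ZMod.intCast_eq_intCast_iff_dvd_sub n (W.apOfModel ℓ) p).mp hn
  rw [← sub_add_sub_cancel a ((W.apOfModel ℓ : ℤ) : integralClosure ℤ ℂ), ← Int.cast_sub, hk,
    Int.cast_mul, Int.cast_natCast]
  exact add_mem han (Ideal.mul_mem_right _ _ hpm)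

/-- Residual modularity of the torsion gives residual modularity of the curve. -/
theorem residuallyModular_of_modularOf (hW : W.Δ ≠ 0) (hp2 : p ≠ 2) {M : ℕ}
    (hmod : ModularOf p (Tors.tRep (p := p) W hW) M) : W.IsResiduallyModularOfLevel p M := by
  obtain ⟨-, f, 𝔪, hf, hmax, hpm, hcong⟩ := hmod
  refine ⟨f, 𝔪, hf, hmax, hpm, fun ℓ hℓ hgood hℓM hℓp => ?_⟩
  have hg : ¬ (ℓ : ℤ) ∣ W.Δ := hgood
  have hunr : IsResUnramified p (Tors.tRep (p := p) W hW) ℓ := fun A hA σ hσ => by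
    refine (Tors.tRep_eq_one hW).mpr fun x => Subtype.ext ?_
    have hx : p • x.1 = 0 := by
      rw [← natCast_zsmul]; exact (Submodule.mem_torsionBy_iff _ _).mp x.2
    exact Fermat.EC.smul_eq_self W ⟨hℓ, hA⟩ (isInert_of_mem_inertia hσ) hW
      (fun hd => absurd hd hg) hp.out hp2 hℓp
      (by rw [padicValInt.eq_zero_of_not_dvd hg]; exact dvd_zero p) hx
  obtain ⟨A, hA⟩ := Fermat.CFT.exists_place hℓ
  obtain ⟨φ, hφ⟩ := Fermat.CFT.exists_isFrobeniusAt hℓ hA
  exact hcong ℓ hℓ hℓM hℓp hunr A hA φ hφ _ (by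
    rw [Tors.trace_tRep]
    exact (FR.galoisTrace_frobenius W hℓ hℓp hg hA hφ).symm)

end Fermat.GR.RT

end
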